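/-
GATE-E / GE-ENGINE-ASM (A) (helper54; RULING A8 of helper10, board 7254; scope = helper26 7170 (A)):
**the `Σ = ∅` stage of the engine, in hypothesis form.**

Input: a SETUP bundle `P : SetupPkg.Pkg p W hcard₁ hker M A` at a MINIMAL level `M`
(`M` squarefree, `P.Su = ∅`; produced from helper20's `GE8/Top/MinLevelSide` output by
`su_eq_empty`), an eigensystem `χ : 𝕋^{S0}(M) → P.O` lifting `θ̄` (MODPOINT, helper33: after a finite
extension of the coefficient ring, done ONCE before the induction), and the Hecke side at `Σ = ∅`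
as ONE record `BaseInput` (E6: Taylor–Wiles data of every depth `GE6/Stmt.TWLevelsStmt`; ETA: the
`T`-adjoint non-degenerate pairing and a basis of `L[𝔭]`).

Chain of landed results:  `MinDatum.exists_datum_condFL` / `exists_minDatum_SO_pnew` (the frozen
datum `H` on `Tloc P.O θ̄` of type `𝒟^c_∅`)  →  `GE6/DefRing.nonempty_defRing_FL/SO` (`R^c_∅`,
`hbar := MinDatum.hbar_condFL`)  →  `MinDatum.surjective_to_hecke` (frozen S54, `R ↠ T`)  →
`H.exists_point` (the modular point `πO`)  →  `GE6/Stmt.minRT_of_twLevelsStmt` (`φ` bijective, `L`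
free over `T`, complete-intersection presentation)  →  `GB/Glue/DatumOfRhobar.isReduced_Tloc` +
`GE9/Ind/EtaNe` (`η ≠ 0`)  →  `GE9/Ind/RTBase.RTNum.ofMin`.

Output: the base `Y₀ : RTNum P.rhobar (cond P.O p P.Smin ∅) d` of helper73's induction
`GE9/Asm/Chain2.exists_rtData_condFL' / SO'` with its two base binders: the level clauses
`LevelOK' p Smin Sig₀ ∅ Y₀.rt.N Y₀.rt.S` and the engine's invariant
`EngInv ↑P.S0 lev wf (lamOf χ) ∅ Y₀.rt.N Y₀.rt.S (pointChar Y₀) Y₀.w`: level `M`, Hecke set `↑P.S0`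
(CONSTANT, RULING A6.1 §3), eigenvalues `lamOf χ`, `#Ω = wf ∅`.

* `lamOf χ`, `lamOf_eq` : the eigenvalue function `ℓ ↦ χ (T_ℓ)`;
* `noZeroSMulDivisors_of_free` : the `NoZeroSMulDivisors` binder of `RTNum.ofMin`;
* `su_eq_empty` : helper20's minimality clause ⟹ `P.Su = ∅`;
* `EngInv` : the invariant of the engine (the `Inv` argument of `Chain2`);
* `levelOK'_base` : the level clauses at `Σ = ∅`;
* `BaseInput`, `exists_base_stage` : the abstract base stage;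
* **`exists_base_FL`**, **`exists_base_SO`** : the base stage of the bundle.
-/
import Mathlib
import Fermat.Agent.GE8.MinDatum.Hbar
import Fermat.Agent.GE8.MinDatum.PNew
import Fermat.Agent.GE6.Stmt
import Fermat.Agent.GE6.DefRing
import Fermat.Agent.GE9.Ind.RTBase
import Fermat.Agent.GE9.Ind.EtaNe
import Fermat.Agent.GB.Glue.DatumOfRhobar
import Fermat.Agent.GE9.Asm.Chain2

set_option autoImplicit false
set_option linter.unusedSectionVars false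
set_option linter.unusedVariables false
set_option linter.style.haveILetI false

open WeierstrassCurve WeierstrassCurve.Affine.Point IsLocalRing CuspForm Polynomial
open scoped WeierstrassCurve.Affine

namespace Fermat.Agent.GE.Engine

open Fermat.Agent.GB.Setup.RhoBar Fermat.Agent.GB.Setup.SetupPkg
  Fermat.Agent.GB.B4.Datum.Carrier Fermat.Agent.GB.B4.Datum.HeckeCarrier
  Fermat.Agent.GE.Graph Fermat.Agent.GE9.Ind Fermat.Agent.GE9.NumCrit
  Fermat.Agent.GE9.NumCrit.ModForm Fermat.Agent.GE9.Asm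

/-! ### small tools -/

open Classical in
/-- the eigenvalue function `ℓ ↦ χ (T_ℓ)` of an eigensystem (`0` where there is no `T_ℓ`). -/
noncomputable def lamOf {N : ℕ} [NeZero N] {S : Set ℕ} {𝒪 : Type} [CommRing 𝒪]
    (χ : heckeAlgebra N 2 S →+* 𝒪) (ℓ : ℕ) : 𝒪 :=
  if h : ℓ.Prime ∧ ¬ ℓ ∣ N ∧ ℓ ∉ S then χ (heckeAlgebra.T h.1 h.2.1 h.2.2) else 0

theorem lamOf_eq {N : ℕ} [NeZero N] {S : Set ℕ} {𝒪 : Type} [CommRing 𝒪]
    (χ : heckeAlgebra N 2 S →+* 𝒪) {ℓ : ℕ} (hℓ : ℓ.Prime) (hℓN : ¬ ℓ ∣ N) (hℓS : ℓ ∉ S) :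
    lamOf χ ℓ = χ (heckeAlgebra.T hℓ hℓN hℓS) := by
  unfold lamOf
  rw [dif_pos ⟨hℓ, hℓN, hℓS⟩]

/-- a free module over a domain has no zero smul divisors (the binder of `RTNum.ofMin`). -/
theorem noZeroSMulDivisors_of_free (O T : Type*) [CommRing O] [IsDomain O] [AddCommGroup T]
    [Module O T] [Module.Free O T] : NoZeroSMulDivisors O T :=
  ⟨fun {c x} h => (Module.isTorsionFree_iff_smul_eq_zero.mp inferInstance) c x h⟩

/-- **the invariant of the engine** (the `Inv` argument of `GE9/Asm/Chain2`): the level is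
`lev Sg`, the Hecke set is the CONSTANT `S0`, `#Ω` is `wf Sg`, and the modular point has the
eigenvalues `lam ℓ` (those of the fixed minimal-level eigensystem). -/
def EngInv {𝒪 : Type} [CommRing 𝒪] (S0 : Set ℕ) (lev wf : Finset ℕ → ℕ) (lam : ℕ → 𝒪)
    (Sg : Finset ℕ) (N : ℕ) [NeZero N] (S : Set ℕ) (χ : heckeAlgebra N 2 S →+* 𝒪) (w : ℕ) : Prop :=
  N = lev Sg ∧ S = S0 ∧ w = wf Sg ∧
    ∀ (ℓ : ℕ) (hℓ : ℓ.Prime) (hℓN : ¬ ℓ ∣ N) (hℓS : ℓ ∉ S),
      χ (heckeAlgebra.T hℓ hℓN hℓS) = lam ℓ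

/-! ### the abstract base stage -/

section Abstract

variable {𝒪 : Type} [CommRing 𝒪] [IsDomain 𝒪] [IsDiscreteValuationRing 𝒪]
  [IsAdicComplete (maximalIdeal 𝒪) 𝒪]
  {ρbar : ResidualGaloisRep (ResidueField 𝒪)} {𝒟 : DefCondE 𝒪}

/-- **The Hecke side at `Σ = ∅`** for a deformation ring `D`, the surjection `φ : D.R ↠ T` of the
frozen S54 and a modular point `πO : T → 𝒪`: the Hecke module `L` (a `T`-module, e.g.
`H¹(Γ₀(N_∅), 𝒪)_𝔪`), E6 = Taylor–Wiles data of every depth for `(D.R, L)`, and ETA at the base =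
a `T`-adjoint right non-degenerate pairing with an `𝒪`-basis of `L[𝔭]` (`d` elements). -/
structure BaseInput (ℓ : ℕ) (D : GaloisRep.DeformationRingData 𝒪 ρbar 𝒟)
    {T : Type} [CommRing T] [Algebra 𝒪 T] (φ : D.R →ₐ[𝒪] T) (πO : T →ₐ[𝒪] 𝒪) (d : ℕ) :
    Type 1 where
  /-- the Hecke module -/
  L : Type
  [acgL : AddCommGroup L]
  [modO : Module 𝒪 L]
  [modT : Module T L]
  [tower : IsScalarTower 𝒪 T L]
  [nontriv : Nontrivial L]
  /-- E6: Taylor–Wiles data of every depth -/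
  htw : Fermat.Agent.GE6.Stmt.TWLevelsStmt ℓ D φ L
  /-- the pairing -/
  B : L →ₗ[𝒪] L →ₗ[𝒪] 𝒪
  hadj : ∀ (t : T) (x y : L), B (t • x) y = B x (t • y)
  hnd : ∀ w : L, (∀ z : L, B z w = 0) → w = 0
  /-- a basis of `L[𝔭]` -/
  b : Fin d → L
  hli : LinearIndependent 𝒪 b
  hspan : Submodule.span 𝒪 (Set.range b) = torPO πO L

attribute [instance] BaseInput.acgL BaseInput.modO BaseInput.modT BaseInput.tower
  BaseInput.nontriv

variable [Finite (ResidueField 𝒪)]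

/-- **the abstract base stage**: from the raw data of the minimal level (`φ` only SURJECTIVE) and
the Hecke side `BaseInput` to the base `RTNum` with the level clauses and the engine's invariant. -/
theorem exists_base_stage {ℓ : ℕ} (hℓ : ℓ.Prime) (hℓ𝒪 : (ℓ : 𝒪) ∈ maximalIdeal 𝒪)
    (D : GaloisRep.DeformationRingData 𝒪 ρbar 𝒟)
    {N : ℕ} [NeZero N] {S : Set ℕ} {T : Type} [CommRing T] [IsLocalRing T] [Algebra 𝒪 T]
    [Module.Finite 𝒪 T] [NoZeroSMulDivisors 𝒪 T]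
    (π : heckeAlgebra N 2 S →+* T) (ρT : GaloisRepAdic T)
    (hcp : ∀ (q : ℕ) (hq : q.Prime) (hqN : ¬ q ∣ N) (hqS : q ∉ S),
      ∀ A : ValuationSubring (AlgebraicClosure ℚ), A.LiesOverPrime q →
        ∀ σ : AlgebraicClosure ℚ ≃ₐ[ℚ] AlgebraicClosure ℚ, A.IsFrobeniusAt σ q →
          LinearMap.charpoly (ρT.ρ σ) =
            X ^ 2 - C (π (heckeAlgebra.T hq hqN hqS)) * X + C ((q : T)))
    (φ : D.R →ₐ[𝒪] T) (hφ : Function.Surjective φ) (φ_local : IsLocalHom (φ : D.R →+* T))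
    (φ_ρ : (D.ρ.baseChangeAlong (φ : D.R →+* T) φ_local).IsEquiv ρT)
    (πO : T →ₐ[𝒪] 𝒪) (hη : etaIdeal πO ≠ ⊥) {d : ℕ} (I : BaseInput ℓ D φ πO d)
    (p : ℕ) (Smin Sig₀ : Finset ℕ) (lev wf : Finset ℕ → ℕ) (lam : ℕ → 𝒪)
    (hlev : lev ∅ = N)
    (hwf : Nat.card (Fermat.Agent.GE9.Eta.CongMod I.B (Submodule.span 𝒪 (Set.range I.b))) = wf ∅)
    (hok : LevelOK' p Smin Sig₀ ∅ N S)
    (hlam : ∀ (r : ℕ) (hr : r.Prime) (hrN : ¬ r ∣ N) (hrS : r ∉ S),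
      πO (π (heckeAlgebra.T hr hrN hrS)) = lam r) :
    ∃ Y : RTNum ρbar 𝒟 d, Y.rt.D = D ∧ LevelOK' p Smin Sig₀ ∅ Y.rt.N Y.rt.S ∧
      EngInv S lev wf lam ∅ Y.rt.N Y.rt.S (pointChar Y) Y.w := by
  letI : Module D.R I.L := Module.compHom I.L (φ : D.R →+* T)
  obtain ⟨hbij, -, hfreeT, r, L', hker⟩ :=
    Fermat.Agent.GE6.Stmt.minRT_of_twLevelsStmt hℓ hℓ𝒪 D φ hφ I.htw
  haveI : Module.Free T I.L := hfreeT
  refine ⟨RTNum.ofMin D π ρT hcp φ hbij φ_local φ_ρ πO hη L'.ψ L'.ψ_surjective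
    (fun i : Fin r => L'.φ (MvPowerSeries.X i)) hker I.B I.hadj I.hnd I.b I.hli I.hspan, rfl, hok,
    hlev.symm, rfl, hwf, fun r hr hrN hrS => hlam r hr hrN hrS⟩

end Abstract

/-! ### the bundle at a minimal level -/

section Bundle

variable {p : ℕ} [Fact p.Prime] {W : WeierstrassCurve ℤ}
  {hcard₁ : Nat.card (Submodule.torsionBy ℤ
    ((W.map (Int.castRingHom ℚ))⁄(AlgebraicClosure ℚ)).Point p) = p ^ 2}
  {hker : GaloisFactorsThroughFiniteLevel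
    (galoisRepModuleEnd (K := AlgebraicClosure ℚ) ℚ (W.map (Int.castRingHom ℚ)) p)}
  {M A : ℕ} (P : Pkg p W hcard₁ hker M A)

/-- **helper20's minimality clause ⟹ `P.Su = ∅`** (`GE8/Top/MinLevelSide`: every prime `q ≠ p` of
`M` is ramified in `ρ̄_{W,p}`). -/
theorem su_eq_empty
    (hmin : ∀ q : ℕ, q.Prime → q ≠ p → q ∣ M →
      ¬ ((W.map (Int.castRingHom ℚ)).residualGaloisRepOf p hcard₁ hker).IsUnramifiedAt q) :
    P.Su = ∅ := by
  refine Finset.eq_empty_of_forall_notMem fun q hq => ?_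
  obtain ⟨h1, h2, h3, h4⟩ := P.mem_Su_iff.mp hq
  exact hmin q h1 h3 h2
    (Fermat.Agent.GB.B9.ThetaSupply.isUnramifiedAt_of_baseChange (rb p W hcard₁ hker) P.k h4)

/-- **the level clauses at `Σ = ∅`** (constant Hecke set `↑P.S0`, final set `Sig₀` = the bad primes
of `W` outside `Smin`). -/
theorem levelOK'_base (hsq : Squarefree M) (Sig₀ : Finset ℕ)
    (hSig₀ : ∀ q : ℕ, q ∈ Sig₀ ↔ q.Prime ∧ (q : ℤ) ∣ W.Δ ∧ q ∉ P.Smin) :
    LevelOK' p P.Smin Sig₀ ∅ M (↑P.S0 : Set ℕ) := by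
  have hp : p.Prime := Fact.out
  refine ⟨Fermat.Agent.GE8.MinDatum.not_sq_dvd_of_squarefree hsq hp, fun q hq h => ?_,
    fun q hq hqp => ?_, fun ℓ hℓS hℓ => ?_⟩
  · exact Fermat.Agent.GE8.MinDatum.not_sq_dvd_of_squarefree hsq hq
      (dvd_trans (pow_dvd_pow q (by norm_num : 2 ≤ 3)) h)
  · rw [Finset.union_empty] at hq
    exact (P.dvd_of_mem_Smin hq).resolve_left hqp
  · have hℓS' : ℓ ∈ P.S0 := Finset.mem_coe.mp hℓS
    by_cases hS : ℓ ∈ P.Smin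
    · rcases P.dvd_of_mem_Smin hS with h | h
      · exact Or.inr (Or.inl h)
      · exact Or.inl h
    · simp only [Pkg.S0, Finset.mem_union, Finset.mem_singleton] at hℓS'
      rcases hℓS' with (h | h) | h
      · exact Or.inl (Nat.dvd_of_mem_primeFactors h)
      · exact Or.inr (Or.inl h)
      · exact Or.inr (Or.inr ((hSig₀ ℓ).mpr
          ⟨hℓ, Int.natCast_dvd.mpr (Nat.dvd_of_mem_primeFactors h), hS⟩))

section Level

variable [NeZero M]

/-- **the base stage of the bundle, for a given deformation ring and datum** (any deformation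
problem `𝒟` satisfied by the datum). -/
theorem exists_base_of_datum {𝒟 : DefCondE P.O}
    (D : GaloisRep.DeformationRingData P.O P.rhobar 𝒟)
    (H : HeckeGaloisRepDatum M (↑P.S0 : Set ℕ) P.O P.theta (Tloc P.O P.theta))
    (hπ : H.π = piT P.O P.theta) (h𝒟 : 𝒟 H.ρ)
    (hres : H.ρ.residual.IsEquiv
      (P.rhobar.baseChangeAlong (ResidueField.map (algebraMap P.O (Tloc P.O P.theta)))))
    (hsq : Squarefree M)
    (χ : heckeAlgebra M 2 (↑P.S0 : Set ℕ) →+* P.O)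
    (hχ : ∀ t : heckeAlgebra M 2 (↑P.S0 : Set ℕ), residue P.O (χ t) = P.theta t)
    (Sig₀ : Finset ℕ) (hSig₀ : ∀ q : ℕ, q ∈ Sig₀ ↔ q.Prime ∧ (q : ℤ) ∣ W.Δ ∧ q ∉ P.Smin)
    (lev wf : Finset ℕ → ℕ) (hlev : lev ∅ = M) {d : ℕ}
    (hin : ∀ (φ : D.R →ₐ[P.O] Tloc P.O P.theta) (hφ : Function.Surjective φ)
      (hloc : IsLocalHom (φ : D.R →+* Tloc P.O P.theta))
      (hρ : (D.ρ.baseChangeAlong (φ : D.R →+* Tloc P.O P.theta) hloc).IsEquiv H.ρ)
      (πO : Tloc P.O P.theta →ₐ[P.O] P.O)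
      (hπO : ∀ t : heckeAlgebra M 2 (↑P.S0 : Set ℕ), πO (piT P.O P.theta t) = χ t),
      ∃ I : BaseInput p D φ πO d,
        Nat.card (Fermat.Agent.GE9.Eta.CongMod I.B (Submodule.span P.O (Set.range I.b))) =
          wf ∅) :
    ∃ Y₀ : RTNum P.rhobar 𝒟 d, Y₀.rt.D = D ∧ LevelOK' p P.Smin Sig₀ ∅ Y₀.rt.N Y₀.rt.S ∧
      EngInv (↑P.S0 : Set ℕ) lev wf (lamOf χ) ∅ Y₀.rt.N Y₀.rt.S (pointChar Y₀) Y₀.w := by
  have hp : p.Prime := Fact.out
  -- the frozen S54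
  obtain ⟨φ, hsurj, hloc, hρ⟩ := Fermat.Agent.GE8.MinDatum.surjective_to_hecke P D H h𝒟 hres
  -- the modular point
  obtain ⟨πO, hψ⟩ := H.exists_point χ hχ
  have hπO : ∀ t : heckeAlgebra M 2 (↑P.S0 : Set ℕ), πO (piT P.O P.theta t) = χ t := by
    intro t
    rw [← hπ]
    exact hψ t
  -- `η ≠ 0`
  haveI : IsReduced (Tloc P.O P.theta) :=
    Fermat.Agent.GB.Glue.DatumOfRhobar.isReduced_Tloc M P.S0 P.O P.theta
      (Fermat.Agent.GE8.MinDatum.hNS0 P)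
  have hη : etaIdeal πO ≠ ⊥ := etaIdeal_ne_bot_of_finite πO
  haveI : NoZeroSMulDivisors P.O (Tloc P.O P.theta) :=
    noZeroSMulDivisors_of_free P.O (Tloc P.O P.theta)
  -- the Hecke side
  obtain ⟨I, hI⟩ := hin φ hsurj hloc hρ πO hπO
  exact exists_base_stage hp P.hpO D H.π H.ρ H.charpoly_frob φ hsurj hloc hρ πO hη I p P.Smin Sig₀
    lev wf (lamOf χ) hlev hI (levelOK'_base P hsq Sig₀ hSig₀)
    (fun r hr hrN hrS => (hψ _).trans (lamOf_eq χ hr hrN hrS).symm)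

/-- **(A), flat case**: the base stage of the engine at a minimal level `M` prime to `p`. -/
theorem exists_base_FL (hpM : ¬ p ∣ M) (hsq : Squarefree M) (hSu : P.Su = ∅)
    (χ : heckeAlgebra M 2 (↑P.S0 : Set ℕ) →+* P.O)
    (hχ : ∀ t : heckeAlgebra M 2 (↑P.S0 : Set ℕ), residue P.O (χ t) = P.theta t)
    (Sig₀ : Finset ℕ) (hSig₀ : ∀ q : ℕ, q ∈ Sig₀ ↔ q.Prime ∧ (q : ℤ) ∣ W.Δ ∧ q ∉ P.Smin)
    (lev wf : Finset ℕ → ℕ) (hlev : lev ∅ = M) {d : ℕ}
    (hin : ∀ (D : GaloisRep.DeformationRingData P.O P.rhobar (condFL P.O p P.Smin ∅))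
      (H : HeckeGaloisRepDatum M (↑P.S0 : Set ℕ) P.O P.theta (Tloc P.O P.theta))
      (hπ : H.π = piT P.O P.theta)
      (φ : D.R →ₐ[P.O] Tloc P.O P.theta) (hφ : Function.Surjective φ)
      (hloc : IsLocalHom (φ : D.R →+* Tloc P.O P.theta))
      (hρ : (D.ρ.baseChangeAlong (φ : D.R →+* Tloc P.O P.theta) hloc).IsEquiv H.ρ)
      (πO : Tloc P.O P.theta →ₐ[P.O] P.O)
      (hπO : ∀ t : heckeAlgebra M 2 (↑P.S0 : Set ℕ), πO (piT P.O P.theta t) = χ t),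
      ∃ I : BaseInput p D φ πO d,
        Nat.card (Fermat.Agent.GE9.Eta.CongMod I.B (Submodule.span P.O (Set.range I.b))) =
          wf ∅) :
    ∃ Y₀ : RTNum P.rhobar (condFL P.O p P.Smin ∅) d,
      LevelOK' p P.Smin Sig₀ ∅ Y₀.rt.N Y₀.rt.S ∧
        EngInv (↑P.S0 : Set ℕ) lev wf (lamOf χ) ∅ Y₀.rt.N Y₀.rt.S (pointChar Y₀) Y₀.w := by
  -- the datum of type `𝒟^{fl}_∅`
  obtain ⟨H, hπ, h𝒟, hres⟩ := Fermat.Agent.GE8.MinDatum.exists_datum_condFL P hpM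
    (fun q hqS _ => Fermat.Agent.GE8.MinDatum.not_sq_dvd_of_squarefree hsq
      (P.prime_of_mem_Smin hqS)) ∅
    (fun q hq hqM => Finset.mem_union_left _
      (Fermat.Agent.GE8.MinDatum.mem_Smin_of_dvd P hSu hq hqM))
  -- the deformation ring `R^{fl}_∅`
  obtain ⟨D⟩ := Fermat.Agent.GE6.DefRing.nonempty_defRing_FL p P.rhobar P.hp2 P.habs P.Smin ∅
    P.p_mem_Smin P.hmin (Fermat.Agent.GE8.MinDatum.hbar_condFL P hpM hsq ∅)
  obtain ⟨Y₀, -, hY₀⟩ := exists_base_of_datum P D H hπ h𝒟 hres hsq χ hχ Sig₀ hSig₀ lev wf hlev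
    (fun φ hφ hloc hρ πO hπO => hin D H hπ φ hφ hloc hρ πO hπO)
  exact ⟨Y₀, hY₀⟩

/-- **(A), strict-ordinary case, `p`-new** (`p ∥ M`, `W` NOT residually modular of level `M / p`):
the base stage of the engine at a minimal level.  Binders: `hordbar` (`ρ̄_W` ordinary at `p`) and
`hbar` (`ρ̄` is of type `𝒟^{so}_∅`; `MinDatum.hbar_condSO` for `p ≥ 5`). -/
theorem exists_base_SO (hpM : p ∣ M) (hsq : Squarefree M) (hside : p = 3 → 2 ∣ M)
    (hSu : P.Su = ∅)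
    (hordbar : (GaloisRepAdic.ofResidualGaloisRep (rb p W hcard₁ hker)).IsOrdinaryAt p)
    (hno : ¬ W.IsResiduallyModularOfLevel p (M / p))
    (hbar : condSO P.O p P.Smin ∅ (GaloisRepAdic.ofResidualGaloisRep P.rhobar))
    (χ : heckeAlgebra M 2 (↑P.S0 : Set ℕ) →+* P.O)
    (hχ : ∀ t : heckeAlgebra M 2 (↑P.S0 : Set ℕ), residue P.O (χ t) = P.theta t)
    (Sig₀ : Finset ℕ) (hSig₀ : ∀ q : ℕ, q ∈ Sig₀ ↔ q.Prime ∧ (q : ℤ) ∣ W.Δ ∧ q ∉ P.Smin)
    (lev wf : Finset ℕ → ℕ) (hlev : lev ∅ = M) {d : ℕ}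
    (hin : ∀ (D : GaloisRep.DeformationRingData P.O P.rhobar (condSO P.O p P.Smin ∅))
      (H : HeckeGaloisRepDatum M (↑P.S0 : Set ℕ) P.O P.theta (Tloc P.O P.theta))
      (hπ : H.π = piT P.O P.theta)
      (φ : D.R →ₐ[P.O] Tloc P.O P.theta) (hφ : Function.Surjective φ)
      (hloc : IsLocalHom (φ : D.R →+* Tloc P.O P.theta))
      (hρ : (D.ρ.baseChangeAlong (φ : D.R →+* Tloc P.O P.theta) hloc).IsEquiv H.ρ)
      (πO : Tloc P.O P.theta →ₐ[P.O] P.O)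
      (hπO : ∀ t : heckeAlgebra M 2 (↑P.S0 : Set ℕ), πO (piT P.O P.theta t) = χ t),
      ∃ I : BaseInput p D φ πO d,
        Nat.card (Fermat.Agent.GE9.Eta.CongMod I.B (Submodule.span P.O (Set.range I.b))) =
          wf ∅) :
    ∃ Y₀ : RTNum P.rhobar (condSO P.O p P.Smin ∅) d,
      LevelOK' p P.Smin Sig₀ ∅ Y₀.rt.N Y₀.rt.S ∧
        EngInv (↑P.S0 : Set ℕ) lev wf (lamOf χ) ∅ Y₀.rt.N Y₀.rt.S (pointChar Y₀) Y₀.w := by
  -- the datum of type `𝒟^{so}_∅`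
  obtain ⟨H, hπ, hc, hres⟩ :=
    Fermat.Agent.GE8.MinDatum.exists_minDatum_SO_pnew P hpM hsq hside hSu hordbar hno
  have h𝒟 : condSO P.O p P.Smin ∅ H.ρ := by
    refine (Fermat.Agent.GE8.MinDatum.condSO_iff P ∅ H.ρ).mpr ?_
    rw [Finset.union_empty]
    exact hc
  -- the deformation ring `R^{so}_∅`
  obtain ⟨D⟩ := Fermat.Agent.GE6.DefRing.nonempty_defRing_SO p P.rhobar P.hp2 P.habs P.Smin ∅
    P.p_mem_Smin P.hmin hbar
  obtain ⟨Y₀, -, hY₀⟩ := exists_base_of_datum P D H hπ h𝒟 hres hsq χ hχ Sig₀ hSig₀ lev wf hlev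
    (fun φ hφ hloc hρ πO hπO => hin D H hπ φ hφ hloc hρ πO hπO)
  exact ⟨Y₀, hY₀⟩

end Level

end Bundle

end Fermat.Agent.GE.Engine
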