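/-
GATE-E / GE-ENGINE-ASM, the P-LEVEL PLUG of the flat base (helper64; helper2 board 7817, helper54
board 7802): **the `hin` supplier of `Base.exists_base_FL` = the body of `StepPlug.BaseFLStmt` at a
bundle**, from

* E6: `Wire.e6_FL` (`NodeStmt` at the module of record `L := LTP P`, `eL := BaseTPkg.exists_eLP`),
* `GE6/Stmt.minRT_of_twLevelsStmt` (`L` free over `Tloc`),
* ETA: `Primary.primary_fields_locSub` (pairing, basis of `L[𝔭]`, `#Ω = omegaCard`, `EtaStage`),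
* `BaseTLoc` (the `Tloc`-module structure of record on `LTP P`, nontriviality).

Binders left: `hnode` (helper72's N8b `NodeProof`: `NodeStmt` for every `eL` compatible with the
Hecke operators) and the full eigensystem `(lam, hlamχ, hfull)` (helper63 `Consumer.exists_full_system`
/ helper2 `PrimaryType`).

* `FullSys P lam` : the `hfull` binder of `primary_fields_locSub`;
* `baseInput_of_node` : one `BaseInput p D φ πO 2` with `#CongMod = omegaCard M P.O lam`, and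
  `EtaStage M P.O lam 2`;
* `baseFL_of_node` : the body of `BaseFLStmt` at `(P, χ)`.
-/
import Mathlib
import Fermat.Agent.GE.Engine.Base
import Fermat.Agent.GE6.Inst.Wire
import Fermat.Agent.GE6.Inst.BaseTPkg
import Fermat.Agent.GE9.Eta.Base.Primary

set_option autoImplicit false
set_option linter.unusedSectionVars false
set_option linter.unusedVariables false
set_option linter.style.haveILetI false

open scoped TensorProduct
open WeierstrassCurve WeierstrassCurve.Affine.Point IsLocalRing CuspForm Polynomial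
open scoped WeierstrassCurve.Affine

namespace Fermat.Agent.GE.Engine.BaseFL

open Fermat.Agent.GB.Setup.RhoBar Fermat.Agent.GB.Setup.SetupPkg
  Fermat.Agent.GB.B4.Datum.Carrier Fermat.Agent.GB.B4.Datum.HeckeCarrier
  Fermat.Agent.GE.Graph Fermat.Agent.GE9.Ind Fermat.Agent.GE9.NumCrit
  Fermat.Agent.GE9.NumCrit.ModForm Fermat.Agent.GE9.Asm
open Fermat.Agent.GJ.J2.Lat
open Fermat.Agent.GE9.Eta Fermat.Agent.GE9.Eta.Mod Fermat.Agent.GE9.Eta.Base
  Fermat.Agent.GE9.Eta.Base.Primary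
open Fermat.Agent.GE6.Inst.FreeLevelInst Fermat.Agent.GE6.Inst.Wire
  Fermat.Agent.GE6.Inst.BaseTLoc Fermat.Agent.GE6.Inst.BaseTPkg
open Fermat.Agent.GE.Engine

variable {p : ℕ} [hpF : Fact p.Prime] {W : WeierstrassCurve ℤ}
  {hcard₁ : Nat.card (Submodule.torsionBy ℤ
    ((W.map (Int.castRingHom ℚ))⁄(AlgebraicClosure ℚ)).Point p) = p ^ 2}
  {hker : GaloisFactorsThroughFiniteLevel
    (galoisRepModuleEnd (K := AlgebraicClosure ℚ) ℚ (W.map (Int.castRingHom ℚ)) p)}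
  {M A : ℕ} (P : Pkg p W hcard₁ hker M A) [NeZero M]

/-- **the full eigensystem clause** (`hfull` of `Primary.primary_fields_locSub`): on `P.O ⊗ Lam M` an
eigenvector of the good Hecke operators with eigenvalues `lam` is an eigenvector of ALL the lattice
Hecke operators with eigenvalues `lam`. -/
def FullSys (lam : Nat.Primes → P.O) : Prop :=
  ∀ x : P.O ⊗[ℤ] Lam M,
    (∀ l : Nat.Primes, ¬ (l : ℕ) ∣ M → (l : ℕ) ∉ (↑P.S0 : Set ℕ) →
      (latT M l).baseChange P.O x = lam l • x) →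
    ∀ l : Nat.Primes, (latT M l).baseChange P.O x = lam l • x

/-- **the base record of the flat engine at a bundle**, for one `(D, φ, πO)`. -/
theorem baseInput_of_node (hpM : ¬ p ∣ M) (hsq : Squarefree M) (hp3 : p ≠ 3)
    (χ : heckeAlgebra M 2 (↑P.S0 : Set ℕ) →+* P.O) (lam : Nat.Primes → P.O)
    (hlamχ : ∀ (ℓ : ℕ) (hℓ : ℓ.Prime) (hℓM : ¬ ℓ ∣ M) (hℓS : ℓ ∉ (↑P.S0 : Set ℕ)),
      χ (heckeAlgebra.T hℓ hℓM hℓS) = lam (⟨ℓ, hℓ⟩ : Nat.Primes))
    (hfull : FullSys P lam)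
    (D : GaloisRep.DeformationRingData P.O P.rhobar (condFL P.O p P.Smin ∅))
    (φ : D.R →ₐ[P.O] Tloc P.O P.theta) (hφ : Function.Surjective φ)
    (πO : Tloc P.O P.theta →ₐ[P.O] P.O)
    (hπO : ∀ t : heckeAlgebra M 2 (↑P.S0 : Set ℕ), πO (piT P.O P.theta t) = χ t)
    (hnode : ∀ eL : Mbase P ≃ₗ[P.O] LTP P,
      (∀ (s : I0 W p M) (y : Mbase P),
        eL (actBase P (MvPolynomial.X s) y)
          = piT P.O P.theta (heckeAlgebra.T s.2.1 s.2.2.2.1 (pr0_notMem_S0 P s)) • eL y) →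
      NodeStmt P hp3 (condFL P.O p P.Smin) D φ (LTP P) eL) :
    ∃ I : BaseInput p D φ πO 2,
      Nat.card (CongMod I.B (Submodule.span P.O (Set.range I.b))) = omegaCard M P.O lam ∧
      EtaStage M P.O lam 2 := by
  have hp : p.Prime := Fact.out
  -- the equivalence `Mbase P ≃ LTP P`
  obtain ⟨eL, -, -, heX⟩ := exists_eLP P hsq
  -- E6
  have htw : Fermat.Agent.GE6.Stmt.TWLevelsStmt p D φ (LTP P) :=
    e6_FL P hp3 D φ (LTP P) eL (Fermat.Agent.GE8.MinDatum.hbar_condFL P hpM hsq ∅) (hnode eL heX)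
  haveI hnt : Nontrivial (LTP P) := nontrivial_LT
  obtain ⟨-, -, hfree, -⟩ := Fermat.Agent.GE6.Stmt.minRT_of_twLevelsStmt hp P.hpO D φ hφ htw
  -- `η ≠ 0`
  haveI : IsReduced (Tloc P.O P.theta) :=
    Fermat.Agent.GB.Glue.DatumOfRhobar.isReduced_Tloc M P.S0 P.O P.theta
      (Fermat.Agent.GE8.MinDatum.hNS0 P)
  have hη : etaIdeal πO ≠ ⊥ := etaIdeal_ne_bot_of_finite πO
  haveI : NoZeroSMulDivisors P.O (Tloc P.O P.theta) :=
    noZeroSMulDivisors_of_free P.O (Tloc P.O P.theta)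
  -- ETA
  have hlam : ∀ (ℓ : ℕ) (hℓ : ℓ.Prime) (hℓM : ¬ ℓ ∣ M) (hℓS : ℓ ∉ (↑P.S0 : Set ℕ)),
      πO (piT P.O P.theta (heckeAlgebra.T hℓ hℓM hℓS)) = lam ⟨ℓ, hℓ⟩ := fun ℓ hℓ hℓM hℓS => by
    rw [hπO, hlamχ]
  obtain ⟨hadj, hnd, b, hli, hspan, hcard, -, hstage⟩ :=
    primary_fields_locSub (O := P.O) (M := M) (S := (↑P.S0 : Set ℕ)) P.theta P.hMS0 hfree hnt πO hη
      lam hlam hfull
  exact ⟨{ L := LTP P
           htw := htw
           B := pullBW (Fermat.Agent.GB.B8.LevelStage.locSub (tA P.O M (↑P.S0 : Set ℕ))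
             (maxθ P.O P.theta)).subtype
           hadj := hadj
           hnd := hnd
           b := b
           hli := hli
           hspan := hspan }, hcard, hstage⟩

/-- **the body of `BaseFLStmt` at a bundle**: a full eigensystem `lam` extending `χ`, the base of the
module-side induction `EtaStage M P.O lam 2`, and the base record for EVERY `(D, H, φ, πO)`. -/
theorem baseFL_of_node (hpM : ¬ p ∣ M) (hsq : Squarefree M) (hSu : P.Su = ∅) (hp3 : p ≠ 3)
    (χ : heckeAlgebra M 2 (↑P.S0 : Set ℕ) →+* P.O)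
    (hχ : ∀ t : heckeAlgebra M 2 (↑P.S0 : Set ℕ), residue P.O (χ t) = P.theta t)
    (hfullsys : ∃ lam : Nat.Primes → P.O,
      (∀ (ℓ : ℕ) (hℓ : ℓ.Prime) (hℓM : ¬ ℓ ∣ M) (hℓS : ℓ ∉ (↑P.S0 : Set ℕ)),
        χ (heckeAlgebra.T hℓ hℓM hℓS) = lam (⟨ℓ, hℓ⟩ : Nat.Primes)) ∧ FullSys P lam)
    (hnode : ∀ (D : GaloisRep.DeformationRingData P.O P.rhobar (condFL P.O p P.Smin ∅))
      (φ : D.R →ₐ[P.O] Tloc P.O P.theta) (eL : Mbase P ≃ₗ[P.O] LTP P),
      Function.Surjective φ →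
      (∀ (s : I0 W p M) (y : Mbase P),
        eL (actBase P (MvPolynomial.X s) y)
          = piT P.O P.theta (heckeAlgebra.T s.2.1 s.2.2.2.1 (pr0_notMem_S0 P s)) • eL y) →
      NodeStmt P hp3 (condFL P.O p P.Smin) D φ (LTP P) eL) :
    ∃ lam : Nat.Primes → P.O,
      (∀ (ℓ : ℕ) (hℓ : ℓ.Prime) (hℓM : ¬ ℓ ∣ M) (hℓS : ℓ ∉ (↑P.S0 : Set ℕ)),
        χ (heckeAlgebra.T hℓ hℓM hℓS) = lam (⟨ℓ, hℓ⟩ : Nat.Primes)) ∧
      EtaStage M P.O lam 2 ∧
      ∀ (D : GaloisRep.DeformationRingData P.O P.rhobar (condFL P.O p P.Smin ∅))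
        (H : HeckeGaloisRepDatum M (↑P.S0 : Set ℕ) P.O P.theta (Tloc P.O P.theta))
        (hπ : H.π = piT P.O P.theta)
        (φ : D.R →ₐ[P.O] Tloc P.O P.theta) (hφ : Function.Surjective φ)
        (hloc : IsLocalHom (φ : D.R →+* Tloc P.O P.theta))
        (hρ : (D.ρ.baseChangeAlong (φ : D.R →+* Tloc P.O P.theta) hloc).IsEquiv H.ρ)
        (πO : Tloc P.O P.theta →ₐ[P.O] P.O)
        (hπO : ∀ t : heckeAlgebra M 2 (↑P.S0 : Set ℕ), πO (piT P.O P.theta t) = χ t),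
        ∃ I : BaseInput p D φ πO 2,
          Nat.card (CongMod I.B (Submodule.span P.O (Set.range I.b))) = omegaCard M P.O lam := by
  obtain ⟨lam, hlamχ, hfull⟩ := hfullsys
  refine ⟨lam, hlamχ, ?_, fun D H hπ φ hφ hloc hρ πO hπO => ?_⟩
  · -- one instance `(D, H, φ, πO)` as in `Base.exists_base_of_datum`
    obtain ⟨H, hπ, h𝒟, hres⟩ := Fermat.Agent.GE8.MinDatum.exists_datum_condFL P hpM
      (fun q hqS _ => Fermat.Agent.GE8.MinDatum.not_sq_dvd_of_squarefree hsq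
        (P.prime_of_mem_Smin hqS)) ∅
      (fun q hq hqM => Finset.mem_union_left _
        (Fermat.Agent.GE8.MinDatum.mem_Smin_of_dvd P hSu hq hqM))
    obtain ⟨D⟩ := Fermat.Agent.GE6.DefRing.nonempty_defRing_FL p P.rhobar P.hp2 P.habs P.Smin ∅
      P.p_mem_Smin P.hmin (Fermat.Agent.GE8.MinDatum.hbar_condFL P hpM hsq ∅)
    obtain ⟨φ, hsurj, hloc, hρ⟩ := Fermat.Agent.GE8.MinDatum.surjective_to_hecke P D H h𝒟 hres
    obtain ⟨πO, hψ⟩ := H.exists_point χ hχ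
    have hπO : ∀ t : heckeAlgebra M 2 (↑P.S0 : Set ℕ), πO (piT P.O P.theta t) = χ t := by
      intro t
      rw [← hπ]
      exact hψ t
    obtain ⟨I, -, hst⟩ := baseInput_of_node P hpM hsq hp3 χ lam hlamχ hfull D φ hsurj πO hπO
      (fun eL heL => hnode D φ eL hsurj heL)
    exact hst
  · obtain ⟨I, hI, -⟩ := baseInput_of_node P hpM hsq hp3 χ lam hlamχ hfull D φ hφ πO hπO
      (fun eL heL => hnode D φ eL hφ heL)
    exact ⟨I, hI⟩

end Fermat.Agent.GE.Engine.BaseFL
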