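/-
GATE-E / GE-ENGINE-ASM (helper54): **the FULL eigensystem of the minimal level** — the binder
`hfullsys` of the `P`-level base plug (`GE/Engine/BaseFL`, helper64) = the pair (`hlam` on `χ`,
`hfull`) of helper2's `GE9/Eta/Base/Primary.primary_fields_locSub`, discharged at a bundle.

Input: a SETUP bundle `P` at a MINIMAL level `M` prime to `p` (`M` squarefree, `P.Su = ∅`) and an
eigensystem `χ : 𝕋^{S0}(M) → P.O` lifting `θ̄`.  Output: a FULL eigensystem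
`lam : Nat.Primes → P.O` extending `χ` such that every ANEMIC eigenvector of `P.O ⊗[ℤ] Lam M`
(`T'_l x = lam l • x` for the good primes `l ∤ M`, `l ∉ S0`) is a FULL eigenvector.  `lam` depends on
`χ` alone (it is chosen before any deformation ring, datum or modular point).

Chain: helper63's `GE9/OldQ/Base.Consumer.exists_full_system` (`B := P.S0`, `lam₀ := lamP χ`); the
bad primes `b ∈ S0` are of type (G) (`b ∤ M`) or of type (R): `b ∥ M` (squarefree) and `NonOccAt`,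
because `ρ̄` is ramified at `b` (`P.Su = ∅`, `b ≠ p`): `GE9/OldQ/BaseR.nonOccAt_of_ramified`.

* `lamP χ`, `lamP_eq` : the anemic eigensystem of `χ` on `Nat.Primes`;
* `nonOccAt_of_min` : non-occurrence at the primes of a minimal level prime to `p`;
* `exists_full_lam_of_hno` : the full eigensystem from `NonOccAt` at the primes of `M` (ANY
  squarefree level, also `p ∣ M`);
* **`exists_full_lam`** : the full eigensystem at a minimal level prime to `p`.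
-/
import Mathlib
import Fermat.Agent.GE.Engine.Base
import Fermat.Agent.GE9.OldQ.BaseR

set_option autoImplicit false
set_option linter.unusedSectionVars false
set_option linter.unusedVariables false
set_option linter.style.haveILetI false

open WeierstrassCurve WeierstrassCurve.Affine.Point IsLocalRing CuspForm Polynomial
open scoped WeierstrassCurve.Affine TensorProduct

namespace Fermat.Agent.GE.Engine

open Fermat.Agent.GB.Setup.RhoBar Fermat.Agent.GB.Setup.SetupPkg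
  Fermat.Agent.GB.B4.Datum.Carrier Fermat.Agent.GB.B4.Datum.HeckeCarrier
  Fermat.Agent.GJ.J2.Lat Fermat.Agent.GE9.OldQ.Consumer

/-- the anemic eigensystem of `χ` on `Nat.Primes` (`0` at the primes without a `T_ℓ`). -/
noncomputable def lamP {N : ℕ} [NeZero N] {S : Set ℕ} {𝒪 : Type} [CommRing 𝒪]
    (χ : heckeAlgebra N 2 S →+* 𝒪) (l : Nat.Primes) : 𝒪 :=
  lamOf χ (l : ℕ)

theorem lamP_eq {N : ℕ} [NeZero N] {S : Set ℕ} {𝒪 : Type} [CommRing 𝒪]
    (χ : heckeAlgebra N 2 S →+* 𝒪) {ℓ : ℕ} (hℓ : ℓ.Prime) (hℓN : ¬ ℓ ∣ N) (hℓS : ℓ ∉ S) :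
    lamP χ (⟨ℓ, hℓ⟩ : Nat.Primes) = χ (heckeAlgebra.T hℓ hℓN hℓS) :=
  lamOf_eq χ hℓ hℓN hℓS

section Bundle

variable {p : ℕ} [Fact p.Prime] {W : WeierstrassCurve ℤ}
  {hcard₁ : Nat.card (Submodule.torsionBy ℤ
    ((W.map (Int.castRingHom ℚ))⁄(AlgebraicClosure ℚ)).Point p) = p ^ 2}
  {hker : GaloisFactorsThroughFiniteLevel
    (galoisRepModuleEnd (K := AlgebraicClosure ℚ) ℚ (W.map (Int.castRingHom ℚ)) p)}
  {M A : ℕ} (P : Pkg p W hcard₁ hker M A)

section Level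

variable [NeZero M]

/-- **non-occurrence at the primes of a MINIMAL level prime to `p`** (`ρ̄` is ramified there), for
any system `lam` extending an eigensystem `χ` which lifts `θ̄`. -/
theorem nonOccAt_of_min (hpM : ¬ p ∣ M) (hSu : P.Su = ∅)
    (χ : heckeAlgebra M 2 (↑P.S0 : Set ℕ) →+* P.O)
    (hχ : ∀ t : heckeAlgebra M 2 (↑P.S0 : Set ℕ), residue P.O (χ t) = P.theta t)
    (lam : Nat.Primes → P.O)
    (hlamχ : ∀ (ℓ : ℕ) (hℓ : ℓ.Prime) (hℓM : ¬ ℓ ∣ M) (hℓS : ℓ ∉ (↑P.S0 : Set ℕ)),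
      χ (heckeAlgebra.T hℓ hℓM hℓS) = lam (⟨ℓ, hℓ⟩ : Nat.Primes)) :
    ∀ b : Nat.Primes, (b : ℕ) ∣ M → NonOccAt P.O P.S0 b lam := by
  intro b hbM
  have hbp : (b : ℕ) ≠ p := fun h => hpM (h ▸ hbM)
  have hbS : (b : ℕ) ∈ P.Smin := Fermat.Agent.GE8.MinDatum.mem_Smin_of_dvd P hSu b.2 hbM
  have hram : ¬ P.rhobar.IsUnramifiedAt b := (P.hmin b b.2 hbp).mp hbS
  refine nonOccAt_of_ramified hcard₁ hker P.hΔ P.hirr P.htrans P.k b hbp hram P.hpO P.S0 lam ?_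
  intro l hlS hgood hlp
  have hlS' : (l : ℕ) ∉ (↑P.S0 : Set ℕ) := fun h => hlS (Finset.mem_coe.mp h)
  have hlM : ¬ (l : ℕ) ∣ M := (P.good_of_notMem_S0 l.2 hlS').2.1
  have h1 : lam l = χ (heckeAlgebra.T l.2 hlM hlS') := (hlamχ l l.2 hlM hlS').symm
  rw [← residue_eq_zero_iff, map_sub, map_intCast, sub_eq_zero, h1, hχ,
    P.theta_T l.2 hlM hlS']

/-- **the full eigensystem from `NonOccAt` at the primes of a squarefree level** (any `p`, also
`p ∣ M`: the caller supplies `NonOccAt` at `p`). -/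
theorem exists_full_lam_of_hno (hsq : Squarefree M)
    (χ : heckeAlgebra M 2 (↑P.S0 : Set ℕ) →+* P.O)
    (hno : ∀ b : Nat.Primes, (b : ℕ) ∣ M → NonOccAt P.O P.S0 b (lamP χ)) :
    ∃ lam : Nat.Primes → P.O,
      (∀ (ℓ : ℕ) (hℓ : ℓ.Prime) (hℓM : ¬ ℓ ∣ M) (hℓS : ℓ ∉ (↑P.S0 : Set ℕ)),
        χ (heckeAlgebra.T hℓ hℓM hℓS) = lam (⟨ℓ, hℓ⟩ : Nat.Primes)) ∧
      ∀ x : P.O ⊗[ℤ] Lam M,
        (∀ l : Nat.Primes, ¬ (l : ℕ) ∣ M → (l : ℕ) ∉ (↑P.S0 : Set ℕ) →
          (latT M l).baseChange P.O x = lam l • x) →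
        ∀ l : Nat.Primes, (latT M l).baseChange P.O x = lam l • x := by
  obtain ⟨lam, hlam, hfull⟩ := exists_full_system (N := M) (O := P.O) P.S0 (lamP χ)
    (fun b hb => by
      by_cases hbM : (b : ℕ) ∣ M
      · exact Or.inr ⟨hbM, Fermat.Agent.GE8.MinDatum.not_sq_dvd_of_squarefree hsq b.2,
          hno b hbM⟩
      · exact Or.inl hbM)
  refine ⟨lam, fun ℓ hℓ hℓM hℓS => ?_, fun x hx l => ?_⟩
  · exact (lamP_eq χ hℓ hℓM hℓS).symm.trans
      (hlam (⟨ℓ, hℓ⟩ : Nat.Primes) (fun h => hℓS (Finset.mem_coe.mpr h))).symm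
  · refine hfull x (fun l' hl' => ?_) l
    have hl'S : (l' : ℕ) ∉ (↑P.S0 : Set ℕ) := fun h => hl' (Finset.mem_coe.mp h)
    have hl'M : ¬ (l' : ℕ) ∣ M := fun h => hl'S (P.hMS0 l' l'.2 h)
    rw [hx l' hl'M hl'S, hlam l' hl']

/-- **the full eigensystem at a minimal level prime to `p`**: `lam` extends `χ`, and every anemic
eigenvector of `P.O ⊗[ℤ] Lam M` for `lam` is a full eigenvector (the binders `hlam`, `hfull` of
`GE9/Eta/Base/Primary.primary_fields_locSub`). -/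
theorem exists_full_lam (hpM : ¬ p ∣ M) (hsq : Squarefree M) (hSu : P.Su = ∅)
    (χ : heckeAlgebra M 2 (↑P.S0 : Set ℕ) →+* P.O)
    (hχ : ∀ t : heckeAlgebra M 2 (↑P.S0 : Set ℕ), residue P.O (χ t) = P.theta t) :
    ∃ lam : Nat.Primes → P.O,
      (∀ (ℓ : ℕ) (hℓ : ℓ.Prime) (hℓM : ¬ ℓ ∣ M) (hℓS : ℓ ∉ (↑P.S0 : Set ℕ)),
        χ (heckeAlgebra.T hℓ hℓM hℓS) = lam (⟨ℓ, hℓ⟩ : Nat.Primes)) ∧
      ∀ x : P.O ⊗[ℤ] Lam M,
        (∀ l : Nat.Primes, ¬ (l : ℕ) ∣ M → (l : ℕ) ∉ (↑P.S0 : Set ℕ) →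
          (latT M l).baseChange P.O x = lam l • x) →
        ∀ l : Nat.Primes, (latT M l).baseChange P.O x = lam l • x :=
  exists_full_lam_of_hno P hsq χ
    (nonOccAt_of_min P hpM hSu χ hχ (lamP χ)
      (fun ℓ hℓ hℓM hℓS => (lamP_eq χ hℓ hℓM hℓS).symm))

end Level

end Bundle

end Fermat.Agent.GE.Engine
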