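/-
GATE-E / GE-ENGINE-ASM, SO(a) BASE (helper11): **the FULL eigensystem of a minimal level `M = M₀ p`
with `p ∥ M` and `W` NOT residually modular of level `M₀`** (très ramifiée branch) — the binder
`hfullsys` of the `P`-level base plug for `condSO` (twin of helper54's `FullLam.exists_full_lam`).

The type-(R) input at `b = p` of `GE9/OldQ/Base.exists_full_system` is
`NonOccAt P.O P.S0 ⟨p,_⟩ (lamP χ)`.  helper63's `NonOccNew.nonOccAt_of_sq_eq_one` gives it from a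
reference `y₁ ≠ 0` which is a FULL eigenvector with `lam p ^ 2 = 1`; at the BASE no full eigenvector
is known yet (it is an output of the full system).  The circle is broken by TWO calls of
`exists_full_system`:

1. an anemic `χ`-eigenvector `y` is `p`-new: the old-killer `Pk` of level `M₀`
   (`KillerPlug.exists_killer_of_not_resMod`) acts on `y` by the unit `χ(Pk(T^M))` and
   `β_p ∘ Pk(T^M) = Pk(T^{M₀}) ∘ β_p = 0` (helper5 `betaP_latT_ne`), so `(β_p ⊗ O) y = 0` and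
   `U_p² y = y` (helper50 `UqSqOmega`);
2. `y₁ := U_p y + y` (`ε = 1`) or `y₁ := y` (`ε = -1`) is a nonzero anemic eigenvector with
   `U_p y₁ = ε y₁`;
3. FIRST call with `B' := S0 ∖ {p}` and the system `lamP χ` extended by `ε` at `p`: every `b ∈ B'`
   is of type (G) or (R-ramified), so `y₁` is a FULL eigenvector for a system `lam₁`, `lam₁ p = ε`;
4. `nonOccAt_of_sq_eq_one` ⟹ `NonOccAt P.O P.S0 ⟨p,_⟩ (lamP χ)`;
5. SECOND call `FullLam.exists_full_lam_of_hno` ⟹ `lam`, and `lam p = ε`, so `lam p ^ 2 = 1`.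

* `poly_eigen`, `betaP_poly`, `betaP_baseChange_eq_zero_of_killer` : step 1, abstract;
* `exists_sign_eigen` : step 2;
* `betaP_eq_zero_of_anemic` : step 1 at a bundle;
* `nonOccAt_p_of_not_resMod` : steps 2–4 at a bundle;
* **`exists_full_lam_SOa`** : the full eigensystem, with `lam ⟨p,_⟩ ^ 2 = 1`.
-/
import Mathlib
import Fermat.Agent.GE.Engine.FullLam
import Fermat.Agent.GE9.OldQ.NonOccNew
import Fermat.Agent.GE9.PNew.UqSqOmega
import Fermat.Agent.GE9.PNew.Inst.BetaPOnto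
import Fermat.Agent.GB.B10.KillerPlug

set_option autoImplicit false
set_option linter.unusedSectionVars false
set_option linter.unusedVariables false
set_option linter.style.haveILetI false

open WeierstrassCurve WeierstrassCurve.Affine.Point IsLocalRing CuspForm Polynomial
open scoped WeierstrassCurve.Affine TensorProduct

namespace Fermat.Agent.GE.Engine.FullLamSOa

open Fermat.Agent.GB.Setup.RhoBar Fermat.Agent.GB.Setup.SetupPkg
  Fermat.Agent.GB.B4.Datum.Carrier Fermat.Agent.GB.B4.Datum.HeckeCarrier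
  Fermat.Agent.GJ.J2.Lat Fermat.Agent.GJ.J2.LatAct Fermat.Agent.GE9.OldQ.Consumer
  Fermat.Agent.GK.New Fermat.Agent.GM.B Fermat.Agent.GE.Engine

/-! ### step 1, abstract: polynomials in the good Hecke operators -/

section Poly

variable {N : ℕ} [NeZero N] {S : Finset ℕ} (hNS : ∀ q : ℕ, q.Prime → q ∣ N → q ∈ S)

theorem latAct_TfamH (i : PrimeIdx S) :
    latAct N (↑S : Set ℕ) (TfamH hNS i) = latT N (⟨i.1, i.2.1⟩ : Nat.Primes) :=
  latAct_T N _ i.2.1 _ _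

variable {O : Type*} [CommRing O]

/-- an anemic eigenvector is an eigenvector of every polynomial in the good Hecke operators. -/
theorem poly_eigen (c : PrimeIdx S → O) (y : O ⊗[ℤ] Lam N)
    (hy : ∀ i : PrimeIdx S, (latT N (⟨i.1, i.2.1⟩ : Nat.Primes)).baseChange O y = c i • y)
    (Pk : MvPolynomial (PrimeIdx S) ℤ) :
    (latAct N (↑S : Set ℕ) (MvPolynomial.aeval (TfamH hNS) Pk)).baseChange O y
      = (MvPolynomial.aeval c Pk : O) • y := by
  induction Pk using MvPolynomial.induction_on with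
  | C a =>
    rw [MvPolynomial.aeval_C, MvPolynomial.aeval_C, eq_intCast, eq_intCast, map_intCast]
    have e : ((a : ℤ) : Module.End ℤ (Lam N)) = a • (LinearMap.id : Lam N →ₗ[ℤ] Lam N) := by
      rw [← Module.End.one_eq_id, zsmul_eq_mul, mul_one]
    rw [e, LinearMap.baseChange_smul, LinearMap.baseChange_id, LinearMap.smul_apply,
      LinearMap.id_apply, Int.cast_smul_eq_zsmul]
  | add P Q hP hQ =>
    rw [map_add, map_add, map_add, LinearMap.baseChange_add, LinearMap.add_apply, hP, hQ, add_smul]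
  | mul_X P i hP =>
    rw [map_mul, map_mul, map_mul, MvPolynomial.aeval_X, MvPolynomial.aeval_X, latAct_TfamH,
      Module.End.mul_eq_comp, LinearMap.baseChange_comp, LinearMap.comp_apply, hy i, map_smul, hP,
      smul_smul, mul_comm]

end Poly

section Beta

variable {N₀ p : ℕ} [hpF : Fact p.Prime] [NeZero N₀] [NeZero (N₀ * p)] (hpN₀ : ¬ p ∣ N₀)
  {S : Finset ℕ} (hpS : p ∈ S) (hN₀S : ∀ q : ℕ, q.Prime → q ∣ N₀ → q ∈ S)
  (hNS : ∀ q : ℕ, q.Prime → q ∣ N₀ * p → q ∈ S)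

include hpS in
/-- `β_p` intertwines the polynomials in the good Hecke operators of the levels `N₀ p` and `N₀`. -/
theorem betaP_poly (Pk : MvPolynomial (PrimeIdx S) ℤ) (z : Lam (N₀ * p)) :
    betaP ℤ hpN₀ (latAct (N₀ * p) (↑S : Set ℕ) (MvPolynomial.aeval (TfamH hNS) Pk) z)
      = (latAct N₀ (↑S : Set ℕ) (MvPolynomial.aeval (TfamH hN₀S) Pk) (betaP ℤ hpN₀ z).1,
          latAct N₀ (↑S : Set ℕ) (MvPolynomial.aeval (TfamH hN₀S) Pk) (betaP ℤ hpN₀ z).2) := by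
  induction Pk using MvPolynomial.induction_on generalizing z with
  | C a =>
    simp only [eq_intCast, map_intCast]
    have e : ∀ (K : ℕ) [NeZero K] (w : Lam K), ((a : ℤ) : Module.End ℤ (Lam K)) w = a • w := by
      intro K _ w
      rw [← zsmul_one, LinearMap.smul_apply, Module.End.one_apply]
    rw [e, e, e, map_zsmul]
    rfl
  | add P Q hP hQ =>
    simp only [map_add, LinearMap.add_apply, hP, hQ]
    rfl
  | mul_X P i hP =>
    have hip : ((⟨i.1, i.2.1⟩ : Nat.Primes) : ℕ) ≠ p := fun h => i.2.2 (h ▸ hpS)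
    simp only [map_mul, MvPolynomial.aeval_X, latAct_TfamH, Module.End.mul_apply]
    rw [hP, Fermat.Agent.GE9.PNew.Inst.BetaPOnto.betaP_latT_ne hpN₀ _ hip]

include hpS in
/-- a polynomial killing the level `N₀` is killed by `β_p` at the level `N₀ p`. -/
theorem betaP_comp_poly_eq_zero (Pk : MvPolynomial (PrimeIdx S) ℤ)
    (hPk : MvPolynomial.aeval (TfamH hN₀S) Pk = 0) :
    (betaP ℤ hpN₀).toIntLinearMap ∘ₗ
      latAct (N₀ * p) (↑S : Set ℕ) (MvPolynomial.aeval (TfamH hNS) Pk) = 0 := by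
  refine LinearMap.ext fun z => ?_
  show betaP ℤ hpN₀ (latAct (N₀ * p) (↑S : Set ℕ) (MvPolynomial.aeval (TfamH hNS) Pk) z) = 0
  rw [betaP_poly hpN₀ hpS hN₀S hNS, hPk, _root_.map_zero]
  rfl

variable {O : Type*} [CommRing O]

include hpS hNS in
/-- **step 1**: an anemic eigenvector on which an old-killer of level `N₀` acts by a unit is
`p`-new. -/
theorem betaP_baseChange_eq_zero_of_killer (c : PrimeIdx S → O) (y : O ⊗[ℤ] Lam (N₀ * p))
    (hy : ∀ i : PrimeIdx S,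
      (latT (N₀ * p) (⟨i.1, i.2.1⟩ : Nat.Primes)).baseChange O y = c i • y)
    (Pk : MvPolynomial (PrimeIdx S) ℤ) (hPk : MvPolynomial.aeval (TfamH hN₀S) Pk = 0)
    (hu : IsUnit (MvPolynomial.aeval c Pk : O)) :
    (betaP ℤ hpN₀).toIntLinearMap.baseChange O y = 0 := by
  have h0 := betaP_comp_poly_eq_zero hpN₀ hpS hN₀S hNS Pk hPk
  have h1 : (betaP ℤ hpN₀).toIntLinearMap.baseChange O
      ((latAct (N₀ * p) (↑S : Set ℕ) (MvPolynomial.aeval (TfamH hNS) Pk)).baseChange O y) = 0 := by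
    rw [← LinearMap.comp_apply, ← LinearMap.baseChange_comp, h0, LinearMap.baseChange_zero,
      LinearMap.zero_apply]
  rw [poly_eigen hNS c y hy Pk, map_smul] at h1
  exact (hu.smul_eq_zero).mp h1

end Beta

/-! ### step 2: the sign of `U_p` -/

section Sign

variable {N₀ p : ℕ} [hpF : Fact p.Prime] [NeZero (N₀ * p)] (hpN₀ : ¬ p ∣ N₀)
  (O : Type*) [CommRing O] [Module.Flat ℤ O]

/-- **step 2**: a nonzero `p`-new vector produces a nonzero `U_p`-eigenvector with eigenvalue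
`ε = ±1`, equal to `y` or to `U_p y + y`. -/
theorem exists_sign_eigen (y : O ⊗[ℤ] Lam (N₀ * p)) (hy0 : y ≠ 0)
    (hβ : (betaP ℤ hpN₀).toIntLinearMap.baseChange O y = 0) :
    ∃ (ε : O) (y₁ : O ⊗[ℤ] Lam (N₀ * p)), ε ^ 2 = 1 ∧ y₁ ≠ 0 ∧
      (latT (N₀ * p) (⟨p, hpF.out⟩ : Nat.Primes)).baseChange O y₁ = ε • y₁ ∧
      (y₁ = y ∨ y₁ = (latT (N₀ * p) (⟨p, hpF.out⟩ : Nat.Primes)).baseChange O y + y) := by
  have hsq := Fermat.Agent.GE9.PNew.UqSqOmega.latT_baseChange_sq_of_betaP hpN₀ hpF.out O y hβ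
  by_cases h : (latT (N₀ * p) (⟨p, hpF.out⟩ : Nat.Primes)).baseChange O y + y = 0
  · refine ⟨-1, y, by ring, hy0, ?_, Or.inl rfl⟩
    rw [neg_one_smul]
    exact eq_neg_of_add_eq_zero_left h
  · refine ⟨1, _, one_pow 2, h, ?_, Or.inr rfl⟩
    rw [map_add, hsq, one_smul, add_comm]

end Sign

/-! ### the bundle -/

section Bundle

variable {p : ℕ} [hpF : Fact p.Prime] {W : WeierstrassCurve ℤ}
  {hcard₁ : Nat.card (Submodule.torsionBy ℤ
    ((W.map (Int.castRingHom ℚ))⁄(AlgebraicClosure ℚ)).Point p) = p ^ 2}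
  {hker : GaloisFactorsThroughFiniteLevel
    (galoisRepModuleEnd (K := AlgebraicClosure ℚ) ℚ (W.map (Int.castRingHom ℚ)) p)}
  {M₀ A : ℕ} [NeZero M₀] [NeZero (M₀ * p)] (P : Pkg p W hcard₁ hker (M₀ * p) A)

/-- the anemic eigensystem of `χ` is congruent to the system of `W` off `S0`. -/
theorem lamP_congr (χ : heckeAlgebra (M₀ * p) 2 (↑P.S0 : Set ℕ) →+* P.O)
    (hχ : ∀ t : heckeAlgebra (M₀ * p) 2 (↑P.S0 : Set ℕ), residue P.O (χ t) = P.theta t)
    (l : Nat.Primes) (hlS : (l : ℕ) ∉ P.S0) :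
    lamP χ l - ((W.apOfModel l : ℤ) : P.O) ∈ IsLocalRing.maximalIdeal P.O := by
  have hlS' : (l : ℕ) ∉ (↑P.S0 : Set ℕ) := fun h => hlS (Finset.mem_coe.mp h)
  have hlM : ¬ (l : ℕ) ∣ M₀ * p := (P.good_of_notMem_S0 l.2 hlS').2.1
  rw [← residue_eq_zero_iff, map_sub, map_intCast, sub_eq_zero,
    show lamP χ l = χ (heckeAlgebra.T l.2 hlM hlS') from lamP_eq χ l.2 hlM hlS', hχ,
    P.theta_T l.2 hlM hlS']

/-- `NonOccAt` at the primes `b ≠ p` of a minimal level (`ρ̄` is ramified there), for ANY finite set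
`B` and ANY system congruent to the system of `W` off `B` (at `l ≠ p`). -/
theorem nonOccAt_of_min_ne (hSu : P.Su = ∅) (B : Finset ℕ) (lam₀ : Nat.Primes → P.O)
    (hcong : ∀ l : Nat.Primes, (l : ℕ) ∉ B → W.IsGoodPrimeFor l → (l : ℕ) ≠ p →
      lam₀ l - ((W.apOfModel l : ℤ) : P.O) ∈ IsLocalRing.maximalIdeal P.O)
    (b : Nat.Primes) (hbM : (b : ℕ) ∣ M₀ * p) (hbp : (b : ℕ) ≠ p) :
    NonOccAt P.O B b lam₀ := by
  have hbS : (b : ℕ) ∈ P.Smin := Fermat.Agent.GE8.MinDatum.mem_Smin_of_dvd P hSu b.2 hbM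
  have hram : ¬ P.rhobar.IsUnramifiedAt b := (P.hmin b b.2 hbp).mp hbS
  exact nonOccAt_of_ramified hcard₁ hker P.hΔ P.hirr P.htrans P.k b hbp hram P.hpO B lam₀ hcong

/-- **step 1 at a bundle**: an anemic `χ`-eigenvector at the level `M₀ p`, `W` not residually
modular of level `M₀`, is `p`-new. -/
theorem betaP_eq_zero_of_anemic (hpM₀ : ¬ p ∣ M₀)
    (hno : ¬ W.IsResiduallyModularOfLevel p M₀)
    (χ : heckeAlgebra (M₀ * p) 2 (↑P.S0 : Set ℕ) →+* P.O)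
    (hχ : ∀ t : heckeAlgebra (M₀ * p) 2 (↑P.S0 : Set ℕ), residue P.O (χ t) = P.theta t)
    (y : P.O ⊗[ℤ] Lam (M₀ * p))
    (hy : ∀ l : Nat.Primes, ¬ (l : ℕ) ∣ M₀ * p → (l : ℕ) ∉ (↑P.S0 : Set ℕ) →
      (latT (M₀ * p) l).baseChange P.O y = lamP χ l • y) :
    (betaP ℤ hpM₀).toIntLinearMap.baseChange P.O y = 0 := by
  have hp : p.Prime := hpF.out
  have hNS : ∀ q : ℕ, q.Prime → q ∣ M₀ * p → q ∈ P.S0 := Fermat.Agent.GE8.MinDatum.hNS0 P
  have hN₀S : ∀ q : ℕ, q.Prime → q ∣ M₀ → q ∈ P.S0 :=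
    fun q hq hqM => hNS q hq (Dvd.dvd.mul_right hqM p)
  obtain ⟨Pk, hPk0, hPk1⟩ :=
    Fermat.Agent.GB.B10.KillerPlug.exists_killer_of_not_resMod (N' := M₀) (S := P.S0) W P.hΔ hp
      hN₀S hno
  -- the killer acts on `y` by a unit
  have hpk : ((p : ℕ) : ResidueField P.O) = 0 := by
    have h := (residue_eq_zero_iff (R := P.O) _).mpr P.hpO
    rwa [map_natCast] at h
  have h1 : P.theta (MvPolynomial.aeval (TfamH hNS) Pk) = 1 :=
    hPk1 (M₀ * p) hNS (ResidueField P.O) P.theta hpk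
      (fun ℓ hℓ hℓN hℓS => P.theta_T hℓ hℓN hℓS)
  set c : PrimeIdx P.S0 → P.O := fun i => χ (TfamH hNS i) with hc
  have hcev : (MvPolynomial.aeval c Pk : P.O) = χ (MvPolynomial.aeval (TfamH hNS) Pk) := by
    have h2 := MvPolynomial.comp_aeval (R := ℤ) (f := TfamH hNS) (χ.toIntAlgHom)
    have h3 := AlgHom.congr_fun h2 Pk
    exact h3.symm
  have hu : IsUnit (MvPolynomial.aeval c Pk : P.O) := by
    rw [hcev, ← IsLocalRing.residue_ne_zero_iff_isUnit, hχ, h1]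
    exact one_ne_zero
  refine betaP_baseChange_eq_zero_of_killer hpM₀ (Fermat.Agent.GE8.MinDatum.hpS0' P) hN₀S hNS c y
    (fun i => ?_) Pk hPk0 hu
  have hiS : (i.1 : ℕ) ∉ (↑P.S0 : Set ℕ) := fun h => i.2.2 (Finset.mem_coe.mp h)
  have hiM : ¬ (i.1 : ℕ) ∣ M₀ * p := fun h => i.2.2 (hNS i.1 i.2.1 h)
  rw [hy (⟨i.1, i.2.1⟩ : Nat.Primes) hiM hiS, lamP_eq χ i.2.1 hiM hiS]
  rfl

/-- **steps 2–4 at a bundle**: `NonOccAt` at `p` for the anemic system of `χ`, from ONE nonzero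
anemic eigenvector. -/
theorem nonOccAt_p_of_not_resMod (hpM₀ : ¬ p ∣ M₀) (hsq : Squarefree (M₀ * p)) (hSu : P.Su = ∅)
    (hno : ¬ W.IsResiduallyModularOfLevel p M₀)
    (χ : heckeAlgebra (M₀ * p) 2 (↑P.S0 : Set ℕ) →+* P.O)
    (hχ : ∀ t : heckeAlgebra (M₀ * p) 2 (↑P.S0 : Set ℕ), residue P.O (χ t) = P.theta t)
    (y : P.O ⊗[ℤ] Lam (M₀ * p)) (hy0 : y ≠ 0)
    (hy : ∀ l : Nat.Primes, ¬ (l : ℕ) ∣ M₀ * p → (l : ℕ) ∉ (↑P.S0 : Set ℕ) →
      (latT (M₀ * p) l).baseChange P.O y = lamP χ l • y) :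
    ∃ (ε : P.O) (y₁ : P.O ⊗[ℤ] Lam (M₀ * p)), ε ^ 2 = 1 ∧ y₁ ≠ 0 ∧
      (latT (M₀ * p) (⟨p, hpF.out⟩ : Nat.Primes)).baseChange P.O y₁ = ε • y₁ ∧
      (∀ l : Nat.Primes, ¬ (l : ℕ) ∣ M₀ * p → (l : ℕ) ∉ (↑P.S0 : Set ℕ) →
        (latT (M₀ * p) l).baseChange P.O y₁ = lamP χ l • y₁) ∧
      NonOccAt P.O P.S0 (⟨p, hpF.out⟩ : Nat.Primes) (lamP χ) := by
  classical
  have hp : p.Prime := hpF.out
  haveI : Module.Flat ℤ P.O := inferInstance
  have hpS0 : p ∈ P.S0 := Fermat.Agent.GE8.MinDatum.hpS0' P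
  have hNS : ∀ q : ℕ, q.Prime → q ∣ M₀ * p → q ∈ P.S0 := Fermat.Agent.GE8.MinDatum.hNS0 P
  set pp : Nat.Primes := ⟨p, hp⟩ with hpp
  -- steps 1, 2
  have hβ := betaP_eq_zero_of_anemic P hpM₀ hno χ hχ y hy
  obtain ⟨ε, y₁, hε, hy₁0, hU, hy₁⟩ := exists_sign_eigen hpM₀ P.O y hy0 hβ
  -- `y₁` is anemic
  have hy₁a : ∀ l : Nat.Primes, ¬ (l : ℕ) ∣ M₀ * p → (l : ℕ) ∉ (↑P.S0 : Set ℕ) →
      (latT (M₀ * p) l).baseChange P.O y₁ = lamP χ l • y₁ := by
    intro l hlM hlS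
    rcases hy₁ with h | h
    · rw [h]
      exact hy l hlM hlS
    · have hcomm : (latT (M₀ * p) l).baseChange P.O ((latT (M₀ * p) pp).baseChange P.O y)
          = (latT (M₀ * p) pp).baseChange P.O ((latT (M₀ * p) l).baseChange P.O y) := by
        rw [← LinearMap.comp_apply, ← LinearMap.comp_apply, ← LinearMap.baseChange_comp,
          ← LinearMap.baseChange_comp]
        have hc : latT (M₀ * p) l ∘ₗ latT (M₀ * p) pp = latT (M₀ * p) pp ∘ₗ latT (M₀ * p) l :=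
          (latT_commute (M₀ * p) l pp).eq
        rw [hc]
      rw [h, map_add, hcomm, hy l hlM hlS, map_smul, smul_add]
  refine ⟨ε, y₁, hε, hy₁0, hU, hy₁a, ?_⟩
  -- step 3: the FIRST call of `exists_full_system`
  set B' : Finset ℕ := P.S0.erase p with hB'
  set lam₀' : Nat.Primes → P.O := Function.update (lamP χ) pp ε with hlam₀'
  have hne_pp : ∀ l : Nat.Primes, (l : ℕ) ≠ p → l ≠ pp := fun l hl h => hl (by rw [h])
  have hnotB' : ∀ l : Nat.Primes, (l : ℕ) ∉ B' → (l : ℕ) ≠ p → (l : ℕ) ∉ P.S0 := by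
    intro l hl hlp hlS
    exact hl (Finset.mem_erase.mpr ⟨hlp, hlS⟩)
  have htype : ∀ b : Nat.Primes, (b : ℕ) ∈ B' →
      ¬ (b : ℕ) ∣ M₀ * p ∨ ((b : ℕ) ∣ M₀ * p ∧ ¬ (b : ℕ) ^ 2 ∣ M₀ * p ∧
        NonOccAt P.O B' b lam₀') := by
    intro b hb
    have hbp : (b : ℕ) ≠ p := (Finset.mem_erase.mp hb).1
    by_cases hbM : (b : ℕ) ∣ M₀ * p
    · refine Or.inr ⟨hbM, Fermat.Agent.GE8.MinDatum.not_sq_dvd_of_squarefree hsq b.2, ?_⟩
      refine nonOccAt_of_min_ne P hSu B' lam₀' (fun l hlB _ hlp => ?_) b hbM hbp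
      rw [hlam₀', Function.update_of_ne (hne_pp l hlp)]
      exact lamP_congr P χ hχ l (hnotB' l hlB hlp)
    · exact Or.inl hbM
  obtain ⟨lam₁, hlam₁, hfull₁⟩ := exists_full_system (N := M₀ * p) (O := P.O) B' lam₀' htype
  have hppB' : (pp : ℕ) ∉ B' := fun h => (Finset.mem_erase.mp h).1 rfl
  have hy₁full : ∀ l : Nat.Primes, (latT (M₀ * p) l).baseChange P.O y₁ = lam₁ l • y₁ := by
    refine hfull₁ y₁ (fun l hl => ?_)
    by_cases hlp : (l : ℕ) = p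
    · have hl' : l = pp := Subtype.ext hlp
      rw [hl', hlam₀', Function.update_self]
      exact hU
    · have hlS : (l : ℕ) ∉ P.S0 := hnotB' l hl hlp
      have hlS' : (l : ℕ) ∉ (↑P.S0 : Set ℕ) := fun h => hlS (Finset.mem_coe.mp h)
      have hlM : ¬ (l : ℕ) ∣ M₀ * p := fun h => hlS (hNS l l.2 h)
      rw [hlam₀', Function.update_of_ne (hne_pp l hlp)]
      exact hy₁a l hlM hlS'
  have hu : lam₁ pp ^ 2 = 1 := by
    rw [hlam₁ pp hppB', hlam₀', Function.update_self]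
    exact hε
  -- step 4
  refine nonOccAt_of_sq_eq_one hp rfl hpM₀ P.S0 lam₁ y₁ hy₁0 hy₁full hu (lamP χ) (fun l hl => ?_)
  have hlp : (l : ℕ) ≠ p := fun h => hl (h ▸ hpS0)
  have hlB' : (l : ℕ) ∉ B' := fun h => hl (Finset.mem_of_mem_erase h)
  rw [hlam₁ l hlB', hlam₀', Function.update_of_ne (hne_pp l hlp)]

/-- **the full eigensystem at a minimal level `M₀ p`, `p ∥ M₀ p`, `W` not residually modular of
level `M₀`** (SO(a) twin of `FullLam.exists_full_lam`): `lam` extends `χ`, every anemic eigenvector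
of `P.O ⊗[ℤ] Lam (M₀ p)` for `lam` is a full eigenvector, and `lam p ^ 2 = 1`.  The only extra
input is ONE nonzero anemic `χ`-eigenvector. -/
theorem exists_full_lam_SOa (hpM₀ : ¬ p ∣ M₀) (hsq : Squarefree (M₀ * p)) (hSu : P.Su = ∅)
    (hno : ¬ W.IsResiduallyModularOfLevel p M₀)
    (χ : heckeAlgebra (M₀ * p) 2 (↑P.S0 : Set ℕ) →+* P.O)
    (hχ : ∀ t : heckeAlgebra (M₀ * p) 2 (↑P.S0 : Set ℕ), residue P.O (χ t) = P.theta t)
    (y : P.O ⊗[ℤ] Lam (M₀ * p)) (hy0 : y ≠ 0)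
    (hy : ∀ l : Nat.Primes, ¬ (l : ℕ) ∣ M₀ * p → (l : ℕ) ∉ (↑P.S0 : Set ℕ) →
      (latT (M₀ * p) l).baseChange P.O y = lamP χ l • y) :
    ∃ lam : Nat.Primes → P.O,
      (∀ (ℓ : ℕ) (hℓ : ℓ.Prime) (hℓM : ¬ ℓ ∣ M₀ * p) (hℓS : ℓ ∉ (↑P.S0 : Set ℕ)),
        χ (heckeAlgebra.T hℓ hℓM hℓS) = lam (⟨ℓ, hℓ⟩ : Nat.Primes)) ∧
      (∀ x : P.O ⊗[ℤ] Lam (M₀ * p),
        (∀ l : Nat.Primes, ¬ (l : ℕ) ∣ M₀ * p → (l : ℕ) ∉ (↑P.S0 : Set ℕ) →
          (latT (M₀ * p) l).baseChange P.O x = lam l • x) →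
        ∀ l : Nat.Primes, (latT (M₀ * p) l).baseChange P.O x = lam l • x) ∧
      lam (⟨p, hpF.out⟩ : Nat.Primes) ^ 2 = 1 := by
  have hp : p.Prime := hpF.out
  obtain ⟨ε, y₁, hε, hy₁0, hU, hy₁a, hnoP⟩ :=
    nonOccAt_p_of_not_resMod P hpM₀ hsq hSu hno χ hχ y hy0 hy
  -- step 5: the SECOND call
  obtain ⟨lam, hlamχ, hfull⟩ := exists_full_lam_of_hno P hsq χ (fun b hbM => by
    by_cases hbp : (b : ℕ) = p
    · have hb : b = (⟨p, hp⟩ : Nat.Primes) := Subtype.ext hbp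
      rw [hb]
      exact hnoP
    · exact nonOccAt_of_min_ne P hSu P.S0 (lamP χ)
        (fun l hlS _ _ => lamP_congr P χ hχ l hlS) b hbM hbp)
  refine ⟨lam, hlamχ, hfull, ?_⟩
  -- `lam p = ε`
  have hy₁l : ∀ l : Nat.Primes, ¬ (l : ℕ) ∣ M₀ * p → (l : ℕ) ∉ (↑P.S0 : Set ℕ) →
      (latT (M₀ * p) l).baseChange P.O y₁ = lam l • y₁ := by
    intro l hlM hlS
    have e : lamP χ l = lam l := (lamP_eq χ l.2 hlM hlS).trans (hlamχ l l.2 hlM hlS)
    rw [hy₁a l hlM hlS, e]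
  have h1 := hfull y₁ hy₁l (⟨p, hp⟩ : Nat.Primes)
  rw [hU] at h1
  have hfree : Module.Free ℤ (Lam (M₀ * p)) :=
    Fermat.Agent.GJ.J2.ZStruct.free_parabolicHoms_int (M₀ * p)
  haveI : Module.Free P.O (P.O ⊗[ℤ] Lam (M₀ * p)) := inferInstance
  have h2 : ε = lam (⟨p, hp⟩ : Nat.Primes) := smul_left_injective P.O hy₁0 h1
  rw [← h2]
  exact hε

end Bundle

end Fermat.Agent.GE.Engine.FullLamSOa
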