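/-
GATE-E / GE-ENGINE-ASM, the P-LEVEL PLUG of the SO(a) base (helper11; helper10 board 7958): **the
body of `StepPlugSO.BaseSOaStmt` at a bundle** — strict-ordinary problem, `p ∥ M`, `W` semistable,
multiplicative at `p` and NOT residually modular of level `M / p` — twin of helper64's
`BaseFL.baseFL_of_node`, WITHOUT the binder `hfullsys`:

* E6: `Wire.e6_SO` (`NodeStmt` at the module of record `L := LTP P`, `eL := BaseTPkg.exists_eLP`),
  `hbar := Deside.BaseOdd.hbar_condSO_noSide` (Tate curve, no side condition);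
* `GE6/Stmt.minRT_of_twLevelsStmt` (`L` free over `Tloc`);
* the full eigensystem: `FullLamSOa.exists_full_lam_SOa`; its only input, ONE nonzero anemic
  `χ`-eigenvector of `P.O ⊗ Lam M`, is `x₀ • e₀` (`x₀` a generator of `Ann (ker πO)`, `e₀` an element
  of a `Tloc`-basis of `L`) at ONE instance `(D, H, φ, πO)` (`Deside.BaseOddFinal`, the frozen S54);
* ETA: `Primary.primary_fields_locSub`.

Binder left: `hnode` (`NodeStmt` for `condSO` and every `eL` compatible with the Hecke operators).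

* `free_of_node_SO` : E6 at a bundle, `Module.Free (Tloc P.O P.theta) (LTP P)`;
* `exists_anemic_of_free` : a nonzero anemic `χ`-eigenvector;
* `exists_full_lam_SOa_div` : `FullLamSOa.exists_full_lam_SOa` at a level `M` with `p ∣ M`;
* `baseInput_of_node_SO` : one `BaseInput p D φ πO 2` with `#CongMod = omegaCard M P.O lam`, and
  `EtaStage M P.O lam 2`;
* **`baseSOa_of_node`** : the body of `BaseSOaStmt` at `(P, χ)`.
-/
import Mathlib
import Fermat.Agent.GE.Engine.BaseFL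
import Fermat.Agent.GE.Engine.FullLamSOa
import Fermat.Agent.GE8.Deside.BaseOddFinal

set_option autoImplicit false
set_option linter.unusedSectionVars false
set_option linter.unusedVariables false
set_option linter.style.haveILetI false

open scoped TensorProduct
open WeierstrassCurve WeierstrassCurve.Affine.Point IsLocalRing CuspForm Polynomial
open scoped WeierstrassCurve.Affine

namespace Fermat.Agent.GE.Engine.BaseSOa

open Fermat.Agent.GB.Setup.RhoBar Fermat.Agent.GB.Setup.SetupPkg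
  Fermat.Agent.GB.B4.Datum.Carrier Fermat.Agent.GB.B4.Datum.HeckeCarrier
  Fermat.Agent.GE.Graph Fermat.Agent.GE9.Ind Fermat.Agent.GE9.NumCrit
  Fermat.Agent.GE9.NumCrit.ModForm Fermat.Agent.GE9.Asm
open Fermat.Agent.GJ.J2.Lat
open Fermat.Agent.GE9.Eta Fermat.Agent.GE9.Eta.Mod Fermat.Agent.GE9.Eta.Base
  Fermat.Agent.GE9.Eta.Base.Primary
open Fermat.Agent.GE6.Inst.FreeLevelInst Fermat.Agent.GE6.Inst.Wire
  Fermat.Agent.GE6.Inst.BaseTLoc Fermat.Agent.GE6.Inst.BaseTPkg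
open Fermat.Agent.GE.Engine Fermat.Agent.GE.Engine.BaseFL Fermat.Agent.GE.Engine.FullLamSOa

variable {p : ℕ} [hpF : Fact p.Prime] {W : WeierstrassCurve ℤ}
  {hcard₁ : Nat.card (Submodule.torsionBy ℤ
    ((W.map (Int.castRingHom ℚ))⁄(AlgebraicClosure ℚ)).Point p) = p ^ 2}
  {hker : GaloisFactorsThroughFiniteLevel
    (galoisRepModuleEnd (K := AlgebraicClosure ℚ) ℚ (W.map (Int.castRingHom ℚ)) p)}
  {M A : ℕ} (P : Pkg p W hcard₁ hker M A) [NeZero M]

/-- **E6 at a bundle, strict-ordinary problem**: the Taylor–Wiles data of every depth and the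
freeness of the module of record over `Tloc`. -/
theorem free_of_node_SO (hss : W.IsSemistableModel) (hmult : (p : ℤ) ∣ W.Δ) (hsq : Squarefree M)
    (hp3 : p ≠ 3)
    (D : GaloisRep.DeformationRingData P.O P.rhobar (condSO P.O p P.Smin ∅))
    (φ : D.R →ₐ[P.O] Tloc P.O P.theta) (hφ : Function.Surjective φ)
    (hnode : ∀ eL : Mbase P ≃ₗ[P.O] LTP P,
      (∀ (s : I0 W p M) (y : Mbase P),
        eL (actBase P (MvPolynomial.X s) y)
          = piT P.O P.theta (heckeAlgebra.T s.2.1 s.2.2.2.1 (pr0_notMem_S0 P s)) • eL y) →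
      NodeStmt P hp3 (condSO P.O p P.Smin) D φ (LTP P) eL) :
    Fermat.Agent.GE6.Stmt.TWLevelsStmt p D φ (LTP P) ∧
      Module.Free (Tloc P.O P.theta) (LTP P) := by
  have hp : p.Prime := Fact.out
  obtain ⟨eL, -, -, heX⟩ := exists_eLP P hsq
  have htw : Fermat.Agent.GE6.Stmt.TWLevelsStmt p D φ (LTP P) :=
    e6_SO P hp3 D φ (LTP P) eL
      (Fermat.Agent.GE8.Deside.BaseOdd.hbar_condSO_noSide P hss hmult hsq ∅) (hnode eL heX)
  haveI hnt : Nontrivial (LTP P) := nontrivial_LT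
  obtain ⟨-, -, hfree, -⟩ := Fermat.Agent.GE6.Stmt.minRT_of_twLevelsStmt hp P.hpO D φ hφ htw
  exact ⟨htw, hfree⟩

/-- **a nonzero anemic `χ`-eigenvector** of `P.O ⊗ Lam M` from the freeness of the module of record:
`x₀ • e₀`, `x₀` a generator of `Ann (ker πO)`, `e₀` an element of a `Tloc`-basis. -/
theorem exists_anemic_of_free (hfree : Module.Free (Tloc P.O P.theta) (LTP P))
    (χ : heckeAlgebra M 2 (↑P.S0 : Set ℕ) →+* P.O)
    (πO : Tloc P.O P.theta →ₐ[P.O] P.O)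
    (hπO : ∀ t : heckeAlgebra M 2 (↑P.S0 : Set ℕ), πO (piT P.O P.theta t) = χ t) :
    ∃ y : P.O ⊗[ℤ] Lam M, y ≠ 0 ∧
      ∀ l : Nat.Primes, ¬ (l : ℕ) ∣ M → (l : ℕ) ∉ (↑P.S0 : Set ℕ) →
        (latT M l).baseChange P.O y = lamP χ l • y := by
  haveI : Module.Free (Tloc P.O P.theta) (LTP P) := hfree
  haveI hnt : Nontrivial (LTP P) := nontrivial_LT
  haveI : IsReduced (Tloc P.O P.theta) :=
    Fermat.Agent.GB.Glue.DatumOfRhobar.isReduced_Tloc M P.S0 P.O P.theta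
      (Fermat.Agent.GE8.MinDatum.hNS0 P)
  have hη : etaIdeal πO ≠ ⊥ := etaIdeal_ne_bot_of_finite πO
  haveI : NoZeroSMulDivisors P.O (Tloc P.O P.theta) :=
    noZeroSMulDivisors_of_free P.O (Tloc P.O P.theta)
  haveI : Module.Finite P.O (LTP P) := finite_LT
  haveI : Module.Finite (Tloc P.O P.theta) (LTP P) :=
    Module.Finite.of_restrictScalars_finite P.O (Tloc P.O P.theta) (LTP P)
  obtain ⟨k, ⟨e⟩⟩ : ∃ k : ℕ,
      Nonempty (LTP P ≃ₗ[Tloc P.O P.theta] (Fin k → Tloc P.O P.theta)) :=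
    ⟨_, ⟨(Module.finBasis (Tloc P.O P.theta) (LTP P)).equivFun⟩⟩
  have hk : 0 < k := by
    rcases Nat.eq_zero_or_pos k with h | h
    · subst h
      exact absurd e.toEquiv.subsingleton (not_subsingleton (LTP P))
    · exact h
  obtain ⟨x₀, hπx₀, hgen⟩ := annGen_of_eta_ne_bot πO hη
  have hmem : singleFam e x₀ ⟨0, hk⟩ ∈ torP πO (LTP P) := singleFam_mem_torP hgen e _
  have hne : singleFam e x₀ ⟨0, hk⟩ ≠ 0 := (linearIndependent_singleFam e hπx₀).ne_zero _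
  refine ⟨((singleFam e x₀ ⟨0, hk⟩ : LTP P) : P.O ⊗[ℤ] Lam M), fun h => hne (Subtype.ext h),
    fun l hlM hlS => ?_⟩
  have h1 := coe_piT_T_smul (θ := P.theta) l.2 hlM hlS (singleFam e x₀ ⟨0, hk⟩)
  rw [smul_eq_of_mem_torP πO hmem, hπO] at h1
  have h2 : lamP χ l = χ (heckeAlgebra.T l.2 hlM hlS) := lamP_eq χ l.2 hlM hlS
  rw [h2]
  exact h1.symm

/-- `FullLamSOa.exists_full_lam_SOa` at a level `M` with `p ∣ M`. -/
theorem exists_full_lam_SOa_div (hpM : p ∣ M) (hsq : Squarefree M) (hSu : P.Su = ∅)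
    (hno : ¬ W.IsResiduallyModularOfLevel p (M / p))
    (χ : heckeAlgebra M 2 (↑P.S0 : Set ℕ) →+* P.O)
    (hχ : ∀ t : heckeAlgebra M 2 (↑P.S0 : Set ℕ), residue P.O (χ t) = P.theta t)
    (y : P.O ⊗[ℤ] Lam M) (hy0 : y ≠ 0)
    (hy : ∀ l : Nat.Primes, ¬ (l : ℕ) ∣ M → (l : ℕ) ∉ (↑P.S0 : Set ℕ) →
      (latT M l).baseChange P.O y = lamP χ l • y) :
    ∃ lam : Nat.Primes → P.O,
      (∀ (ℓ : ℕ) (hℓ : ℓ.Prime) (hℓM : ¬ ℓ ∣ M) (hℓS : ℓ ∉ (↑P.S0 : Set ℕ)),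
        χ (heckeAlgebra.T hℓ hℓM hℓS) = lam (⟨ℓ, hℓ⟩ : Nat.Primes)) ∧
      FullSys P lam ∧ lam (⟨p, Fact.out⟩ : Nat.Primes) ^ 2 = 1 := by
  have hp : p.Prime := Fact.out
  obtain ⟨M₀, rfl⟩ : ∃ M₀, M = M₀ * p := ⟨M / p, (Nat.div_mul_cancel hpM).symm⟩
  haveI : NeZero M₀ := ⟨fun h => NeZero.ne (M₀ * p) (by rw [h, zero_mul])⟩
  have hpM₀ : ¬ p ∣ M₀ := by
    have h := Fermat.Agent.GE8.MinDatum.not_dvd_div_of_squarefree hpM hsq
    rwa [Nat.mul_div_cancel M₀ hp.pos] at h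
  rw [Nat.mul_div_cancel M₀ hp.pos] at hno
  exact exists_full_lam_SOa P hpM₀ hsq hSu hno χ hχ y hy0 hy

/-- **the base record of the SO(a) engine at a bundle**, for one `(D, φ, πO)`. -/
theorem baseInput_of_node_SO (hss : W.IsSemistableModel) (hmult : (p : ℤ) ∣ W.Δ)
    (hsq : Squarefree M) (hp3 : p ≠ 3)
    (χ : heckeAlgebra M 2 (↑P.S0 : Set ℕ) →+* P.O) (lam : Nat.Primes → P.O)
    (hlamχ : ∀ (ℓ : ℕ) (hℓ : ℓ.Prime) (hℓM : ¬ ℓ ∣ M) (hℓS : ℓ ∉ (↑P.S0 : Set ℕ)),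
      χ (heckeAlgebra.T hℓ hℓM hℓS) = lam (⟨ℓ, hℓ⟩ : Nat.Primes))
    (hfull : FullSys P lam)
    (D : GaloisRep.DeformationRingData P.O P.rhobar (condSO P.O p P.Smin ∅))
    (φ : D.R →ₐ[P.O] Tloc P.O P.theta) (hφ : Function.Surjective φ)
    (πO : Tloc P.O P.theta →ₐ[P.O] P.O)
    (hπO : ∀ t : heckeAlgebra M 2 (↑P.S0 : Set ℕ), πO (piT P.O P.theta t) = χ t)
    (hnode : ∀ eL : Mbase P ≃ₗ[P.O] LTP P,
      (∀ (s : I0 W p M) (y : Mbase P),
        eL (actBase P (MvPolynomial.X s) y)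
          = piT P.O P.theta (heckeAlgebra.T s.2.1 s.2.2.2.1 (pr0_notMem_S0 P s)) • eL y) →
      NodeStmt P hp3 (condSO P.O p P.Smin) D φ (LTP P) eL) :
    ∃ I : BaseInput p D φ πO 2,
      Nat.card (CongMod I.B (Submodule.span P.O (Set.range I.b))) = omegaCard M P.O lam ∧
      EtaStage M P.O lam 2 := by
  have hp : p.Prime := Fact.out
  -- E6
  obtain ⟨htw, hfree⟩ := free_of_node_SO P hss hmult hsq hp3 D φ hφ hnode
  haveI hnt : Nontrivial (LTP P) := nontrivial_LT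
  -- `η ≠ 0`
  haveI : IsReduced (Tloc P.O P.theta) :=
    Fermat.Agent.GB.Glue.DatumOfRhobar.isReduced_Tloc M P.S0 P.O P.theta
      (Fermat.Agent.GE8.MinDatum.hNS0 P)
  have hη : etaIdeal πO ≠ ⊥ := etaIdeal_ne_bot_of_finite πO
  haveI : NoZeroSMulDivisors P.O (Tloc P.O P.theta) :=
    noZeroSMulDivisors_of_free P.O (Tloc P.O P.theta)
  -- ETA
  have hlam : ∀ (ℓ : ℕ) (hℓ : ℓ.Prime) (hℓM : ¬ ℓ ∣ M) (hℓS : ℓ ∉ (↑P.S0 : Set ℕ)),
      πO (piT P.O P.theta (heckeAlgebra.T hℓ hℓM hℓS)) = lam ⟨ℓ, hℓ⟩ := fun ℓ hℓ hℓM hℓS => by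
    rw [hπO, hlamχ]
  obtain ⟨hadj, hnd, b, hli, hspan, hcard, -, hstage⟩ :=
    primary_fields_locSub (O := P.O) (M := M) (S := (↑P.S0 : Set ℕ)) P.theta P.hMS0 hfree hnt πO hη
      lam hlam hfull
  exact ⟨{ L := LTP P
           htw := htw
           B := pullBW (Fermat.Agent.GB.B8.LevelStage.locSub (tA P.O M (↑P.S0 : Set ℕ))
             (maxθ P.O P.theta)).subtype
           hadj := hadj
           hnd := hnd
           b := b
           hli := hli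
           hspan := hspan }, hcard, hstage⟩

/-- **the body of `BaseSOaStmt` at a bundle**: a full eigensystem `lam` extending `χ` with
`lam p ^ 2 = 1`, the base of the module-side induction `EtaStage M P.O lam 2`, and the base record
for EVERY `(D, H, φ, πO)` of the strict-ordinary problem. -/
theorem baseSOa_of_node (hpM : p ∣ M) (hsq : Squarefree M) (hSu : P.Su = ∅)
    (hss : W.IsSemistableModel) (hmult : (p : ℤ) ∣ W.Δ)
    (hno : ¬ W.IsResiduallyModularOfLevel p (M / p)) (hp3 : p ≠ 3)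
    (χ : heckeAlgebra M 2 (↑P.S0 : Set ℕ) →+* P.O)
    (hχ : ∀ t : heckeAlgebra M 2 (↑P.S0 : Set ℕ), residue P.O (χ t) = P.theta t)
    (hnode : ∀ (D : GaloisRep.DeformationRingData P.O P.rhobar (condSO P.O p P.Smin ∅))
      (φ : D.R →ₐ[P.O] Tloc P.O P.theta) (eL : Mbase P ≃ₗ[P.O] LTP P),
      Function.Surjective φ →
      (∀ (s : I0 W p M) (y : Mbase P),
        eL (actBase P (MvPolynomial.X s) y)
          = piT P.O P.theta (heckeAlgebra.T s.2.1 s.2.2.2.1 (pr0_notMem_S0 P s)) • eL y) →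
      NodeStmt P hp3 (condSO P.O p P.Smin) D φ (LTP P) eL) :
    ∃ lam : Nat.Primes → P.O,
      (∀ (ℓ : ℕ) (hℓ : ℓ.Prime) (hℓM : ¬ ℓ ∣ M) (hℓS : ℓ ∉ (↑P.S0 : Set ℕ)),
        χ (heckeAlgebra.T hℓ hℓM hℓS) = lam (⟨ℓ, hℓ⟩ : Nat.Primes)) ∧
      lam (⟨p, Fact.out⟩ : Nat.Primes) ^ 2 = 1 ∧
      EtaStage M P.O lam 2 ∧
      ∀ (D : GaloisRep.DeformationRingData P.O P.rhobar (condSO P.O p P.Smin ∅))
        (H : HeckeGaloisRepDatum M (↑P.S0 : Set ℕ) P.O P.theta (Tloc P.O P.theta))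
        (hπ : H.π = piT P.O P.theta)
        (φ : D.R →ₐ[P.O] Tloc P.O P.theta) (hφ : Function.Surjective φ)
        (hloc : IsLocalHom (φ : D.R →+* Tloc P.O P.theta))
        (hρ : (D.ρ.baseChangeAlong (φ : D.R →+* Tloc P.O P.theta) hloc).IsEquiv H.ρ)
        (πO : Tloc P.O P.theta →ₐ[P.O] P.O)
        (hπO : ∀ t : heckeAlgebra M 2 (↑P.S0 : Set ℕ), πO (piT P.O P.theta t) = χ t),
        ∃ I : BaseInput p D φ πO 2,
          Nat.card (CongMod I.B (Submodule.span P.O (Set.range I.b))) = omegaCard M P.O lam := by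
  -- ONE instance `(D, H, φ, πO)` as in `Deside.BaseOdd.exists_base_SO_noSide`
  obtain ⟨H, hπ, hc, hres⟩ :=
    Fermat.Agent.GE8.Deside.BaseOddFinal.exists_minDatum_SO_pnew_odd P hpM hsq hSu
      (Fermat.Agent.GE8.Deside.BaseOdd.hordbar_of_mult P.hΔ hss hmult) hno
  have h𝒟 : condSO P.O p P.Smin ∅ H.ρ := by
    refine (Fermat.Agent.GE8.MinDatum.condSO_iff P ∅ H.ρ).mpr ?_
    rw [Finset.union_empty]
    exact hc
  obtain ⟨D⟩ := Fermat.Agent.GE6.DefRing.nonempty_defRing_SO p P.rhobar P.hp2 P.habs P.Smin ∅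
    P.p_mem_Smin P.hmin (Fermat.Agent.GE8.Deside.BaseOdd.hbar_condSO_noSide P hss hmult hsq ∅)
  obtain ⟨φ, hsurj, hloc, hρ⟩ := Fermat.Agent.GE8.MinDatum.surjective_to_hecke P D H h𝒟 hres
  obtain ⟨πO, hψ⟩ := H.exists_point χ hχ
  have hπO : ∀ t : heckeAlgebra M 2 (↑P.S0 : Set ℕ), πO (piT P.O P.theta t) = χ t := by
    intro t
    rw [← hπ]
    exact hψ t
  -- a nonzero anemic eigenvector, the full eigensystem
  obtain ⟨-, hfree⟩ := free_of_node_SO P hss hmult hsq hp3 D φ hsurj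
    (fun eL heL => hnode D φ eL hsurj heL)
  obtain ⟨y, hy0, hy⟩ := exists_anemic_of_free P hfree χ πO hπO
  obtain ⟨lam, hlamχ, hfull, hlamp⟩ := exists_full_lam_SOa_div P hpM hsq hSu hno χ hχ y hy0 hy
  refine ⟨lam, hlamχ, hlamp, ?_, fun D' H' hπ' φ' hφ' hloc' hρ' πO' hπO' => ?_⟩
  · obtain ⟨I, -, hst⟩ := baseInput_of_node_SO P hss hmult hsq hp3 χ lam hlamχ hfull D φ hsurj πO
      hπO (fun eL heL => hnode D φ eL hsurj heL)
    exact hst
  · obtain ⟨I, hI, -⟩ := baseInput_of_node_SO P hss hmult hsq hp3 χ lam hlamχ hfull D' φ' hφ' πO'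
      hπO' (fun eL heL => hnode D' φ' eL hφ' heL)
    exact ⟨I, hI⟩

end Fermat.Agent.GE.Engine.BaseSOa
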