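/-
GATE-E / GE-ENGINE-ASM (C) (helper54; RULING A8 of helper10, board 7254; scope = helper26 7170 (C)):
**the ENGINE CONTRACT `RTStmtFL p` / `RTStmtSO p` (`GE/Graph/RTStmtW`, helper10) from the node
statements, in hypothesis form** — closing helper33's TOP `GE/Top/S59Engine.s59_of_rt`.

* `sigOf W Smin`, `mem_sigOf` : the set `Σ` of `RTConcl` (bad primes of `W` outside `Smin`);
* `levOf M Sg = M ∏_{q ∈ Sg} q²` : the level of the stage `Sg`;
* `rtConcl_of_rtData` : the formal packaging — a bundle `P` (coefficient ring `P.O`, `P.Smin` with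
  the frozen-S56 clauses) and an `R = T` datum for `𝒟^c_Σ` with the level clauses give `RTConcl`;
* `HeckeSideFL P χ Sig₀ d` : **the Hecke side of the engine, flat case**, ONE `Prop` for the
  minimal bundle `P` and the eigensystem `χ` of the minimal level (MODPOINT): the `#Ω` function `wf`,
  the base record `Base.BaseInput` (E6 `TWLevelsStmt` + ETA at `Σ = ∅`) for every `(D, H, φ, πO)`, and
  the step supplier of helper73's `GE9/Asm/Chain2` (E9-INST: one `StepInputFL'` per added prime,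
  ASSUMING `LevelOK'` and the invariant `EngInv` of the current stage and PROVING `EngInv` for the
  next one);
* `rtConcl_FL` : minimal bundle + `HeckeSideFL` ⟹ `RTConcl … condFL`;
* `TransvStmt p` : `htrans` for every semistable `W` with `W[p]` irreducible (IRR2: `PThree`,
  `P5/hasTransvectionModP_five`);
* `HeckeFLStmt p` : the Hecke side over ALL minimal bundles (the Hecke side chooses `A`);
* `MinLevelFLStmt p` / `MinLevelDichStmt p` : the minimal-level descent as a `Prop` (the conclusion of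
  `GE8/Top/MinLevelSide.exists_minLevel_FL_side` / `exists_minLevel_dich_side` without `M ∣ M₀`), so
  that ANY descent on main can feed the engine (`GE8/Top/MinLevelSide`, `GE8/Top/MinLevelFinalW`,
  `GE8/LLP/OrdShapes.exists_minLevel_FL_ord`, `GE8/LLP/ColumnRig.exists_minLevel_of_column`,
  `GE8/LLQ/Aux3/MinLevelRig`): node LLP is delivered PER `W` at squarefree levels, not in the frozen
  S40 shape;
* **`rtStmtFL_of_minLevel`** : `MinLevelFLStmt p → TransvStmt p → HeckeFLStmt p → RTStmtFL p`;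
* **`rtStmtFL_of_nodes`** :
  `SQSideStmt → LLQStmt p → LLPGoodStmt p → TransvStmt p → HeckeFLStmt p → RTStmtFL p`
  (descent `GE8/Top/MinLevelSide.exists_minLevel_FL_side`, bundle `SetupPkg.nonempty_pkg`, MODPOINT
  `GE9/Point/PkgExt.exists_pkg_point`, base `Base.exists_base_FL`, induction `Chain2`);
* `HeckeStepsSO`, `rtConcl_SO_of_base` : the strict-ordinary chain from ANY base stage with the
  invariant (the `p`-new base of the très ramifiée case is `Base.exists_base_SO`; the peu ramifiée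
  case needs the `p`-new quotient of `Tloc` at level `N p`: PNEW, helper80);
* `MinHeckeSO p`, **`rtStmtSO_of_nodes`** :
  `SQSideStmt → LLQStmt p → MinHeckeSO p → RTStmtSO p` (descent with the dichotomy at `p`,
  `exists_minLevel_dich_side`).
-/
import Mathlib
import Fermat.Agent.GE.Graph.RTStmtW
import Fermat.Agent.GE8.Top.MinLevelSide
import Fermat.Agent.GE9.Point.PkgExt
import Fermat.Agent.GE.Engine.Base

set_option autoImplicit false
set_option linter.unusedSectionVars false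
set_option linter.unusedVariables false
set_option linter.style.haveILetI false

open WeierstrassCurve WeierstrassCurve.Affine.Point IsLocalRing CuspForm Polynomial
open scoped WeierstrassCurve.Affine

namespace Fermat.Agent.GE.Engine

open Fermat.Agent.GB.Setup.RhoBar Fermat.Agent.GB.Setup.SetupPkg
  Fermat.Agent.GB.B4.Datum.Carrier Fermat.Agent.GB.B4.Datum.HeckeCarrier
  Fermat.Agent.GE.Graph Fermat.Agent.GE9.Ind Fermat.Agent.GE9.NumCrit Fermat.Agent.GE9.Asm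
  Fermat.Agent.GE8.Top.MinLevel Fermat.Agent.GE8.Top.MinLevelSide Fermat.Agent.GE8.SQ.AuxPlug

/-! ### the set `Σ` and the levels -/

/-- the set `Σ` of `RTConcl`: the bad primes of `W` outside `Smin`. -/
noncomputable def sigOf (W : WeierstrassCurve ℤ) (Smin : Finset ℕ) : Finset ℕ :=
  W.Δ.natAbs.primeFactors.filter (fun q => q ∉ Smin)

theorem mem_sigOf {W : WeierstrassCurve ℤ} (hΔ : W.Δ ≠ 0) {Smin : Finset ℕ} {q : ℕ} :
    q ∈ sigOf W Smin ↔ q.Prime ∧ (q : ℤ) ∣ W.Δ ∧ q ∉ Smin := by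
  rw [sigOf, Finset.mem_filter, Nat.mem_primeFactors]
  constructor
  · rintro ⟨⟨h1, h2, -⟩, h3⟩
    exact ⟨h1, Int.natCast_dvd.mpr h2, h3⟩
  · rintro ⟨h1, h2, h3⟩
    exact ⟨⟨h1, Int.natCast_dvd.mp h2, Int.natAbs_ne_zero.mpr hΔ⟩, h3⟩

/-- the level of the stage `Sg`: `M ∏_{q ∈ Sg} q²`. -/
def levOf (M : ℕ) (Sg : Finset ℕ) : ℕ := M * ∏ q ∈ Sg, q ^ 2

theorem levOf_empty (M : ℕ) : levOf M ∅ = M := by
  rw [levOf, Finset.prod_empty, mul_one]

section Bundle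

variable {p : ℕ} [Fact p.Prime] {W : WeierstrassCurve ℤ}
  {hcard₁ : Nat.card (Submodule.torsionBy ℤ
    ((W.map (Int.castRingHom ℚ))⁄(AlgebraicClosure ℚ)).Point p) = p ^ 2}
  {hker : GaloisFactorsThroughFiniteLevel
    (galoisRepModuleEnd (K := AlgebraicClosure ℚ) ℚ (W.map (Int.castRingHom ℚ)) p)}
  {M A : ℕ} (P : Pkg p W hcard₁ hker M A)

/-- **the formal packaging**: the bundle and an `R = T` datum for `𝒟^c_Σ` with the level clauses
give the conclusion of the engine contract. -/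
theorem rtConcl_of_rtData
    (cond : ∀ (𝒪 : Type) [CommRing 𝒪], ℕ → Finset ℕ → Finset ℕ → DefCondE 𝒪)
    (X' : RTData P.rhobar (cond P.O p P.Smin (sigOf W P.Smin)))
    (h : ¬ p ^ 2 ∣ X'.N ∧ (∀ q : ℕ, q.Prime → ¬ q ^ 3 ∣ X'.N) ∧
      (∀ q ∈ P.Smin ∪ sigOf W P.Smin, q ≠ p → q ∣ X'.N) ∧
      (∀ ℓ ∈ X'.S, ℓ.Prime → ℓ ∣ X'.N ∨ ℓ = p)) :
    RTConcl p W hcard₁ hker cond :=
  ⟨P.O, P.crO, P.domO, P.dvrO, P.complO, P.finO, P.char0, P.algZp, P.locZp, P.algk, P.Smin,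
    sigOf W P.Smin, P.p_mem_Smin, fun q hq => P.prime_of_mem_Smin hq,
    fun q hq hqp => P.hmin q hq hqp, fun q => mem_sigOf P.hΔ, X', h⟩

/-- the hypothesis `hSig` of the chain for `Σ = sigOf W P.Smin`. -/
theorem hSig_sigOf : ∀ q ∈ sigOf W P.Smin,
    q.Prime ∧ p ≠ q ∧ q ∉ P.Smin ∧ P.rhobar.IsUnramifiedAt q := by
  intro q hq
  obtain ⟨h1, -, h3⟩ := (mem_sigOf P.hΔ).mp hq
  have hqp : q ≠ p := fun h => h3 (h ▸ P.p_mem_Smin)
  refine ⟨h1, fun h => hqp h.symm, h3, ?_⟩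
  by_contra hram
  exact h3 ((P.hmin q h1 hqp).mpr hram)

section Level

variable [NeZero M]

/-- **The Hecke side of the engine, flat case**, for the minimal bundle `P`, the eigensystem `χ` of
the minimal level and the final set `Sig₀`: the `#Ω` function `wf`; the base record for every
`(D, H, φ, πO)` (E6 `TWLevelsStmt` + ETA at `Σ = ∅`, `#Ω_∅ = wf ∅`); the E9 step supplier of
`GE9/Asm/Chain2`, which ASSUMES the level clauses and the invariant of the current stage and PROVES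
the invariant for the next one. -/
def HeckeSideFL (χ : heckeAlgebra M 2 (↑P.S0 : Set ℕ) →+* P.O) (Sig₀ : Finset ℕ) (d : ℕ) : Prop :=
  ∃ wf : Finset ℕ → ℕ,
    (∀ (D : GaloisRep.DeformationRingData P.O P.rhobar (condFL P.O p P.Smin ∅))
      (H : HeckeGaloisRepDatum M (↑P.S0 : Set ℕ) P.O P.theta (Tloc P.O P.theta))
      (hπ : H.π = piT P.O P.theta)
      (φ : D.R →ₐ[P.O] Tloc P.O P.theta) (hφ : Function.Surjective φ)
      (hloc : IsLocalHom (φ : D.R →+* Tloc P.O P.theta))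
      (hρ : (D.ρ.baseChangeAlong (φ : D.R →+* Tloc P.O P.theta) hloc).IsEquiv H.ρ)
      (πO : Tloc P.O P.theta →ₐ[P.O] P.O)
      (hπO : ∀ t : heckeAlgebra M 2 (↑P.S0 : Set ℕ), πO (piT P.O P.theta t) = χ t),
      ∃ I : BaseInput p D φ πO d,
        Nat.card (Fermat.Agent.GE9.Eta.CongMod I.B (Submodule.span P.O (Set.range I.b))) =
          wf ∅) ∧
    (∀ Sg : Finset ℕ, Sg ⊆ Sig₀ → ∀ (q : ℕ) (hq : q.Prime), q ∈ Sig₀ → q ∉ Sg →
      ∀ Y : RTNum P.rhobar (condFL P.O p P.Smin Sg) d,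
        LevelOK' p P.Smin Sig₀ Sg Y.rt.N Y.rt.S →
        EngInv (↑P.S0 : Set ℕ) (levOf M) wf (lamOf χ) Sg Y.rt.N Y.rt.S (pointChar Y) Y.w →
        ∃ I : StepInputFL' Sig₀ Y q hq,
          EngInv (↑P.S0 : Set ℕ) (levOf M) wf (lamOf χ) (insert q Sg) I.N' I.S' I.pointChar' I.w')

/-- **minimal bundle + Hecke side ⟹ the conclusion of the engine contract, flat case.** -/
theorem rtConcl_FL (hpM : ¬ p ∣ M) (hsq : Squarefree M) (hSu : P.Su = ∅)
    (χ : heckeAlgebra M 2 (↑P.S0 : Set ℕ) →+* P.O)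
    (hχ : ∀ t : heckeAlgebra M 2 (↑P.S0 : Set ℕ), residue P.O (χ t) = P.theta t)
    {d : ℕ} (hd : d ≠ 0) (hH : HeckeSideFL P χ (sigOf W P.Smin) d) :
    RTConcl p W hcard₁ hker (fun 𝒪 _ => condFL 𝒪) := by
  obtain ⟨wf, hbase, hstep⟩ := hH
  have hp : p.Prime := Fact.out
  obtain ⟨Y₀, hlev₀, hI₀⟩ := exists_base_FL P hpM hsq hSu χ hχ (sigOf W P.Smin)
    (fun q => mem_sigOf P.hΔ) (levOf M) wf (levOf_empty M) hbase
  obtain ⟨X', hX'⟩ := exists_rtData_condFL' (𝒪 := P.O) (ρbar := P.rhobar) (p := p)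
    (Smin := P.Smin) hd hp (sigOf W P.Smin) (hSig_sigOf P)
    (fun Sg N _ S χ' w => EngInv (↑P.S0 : Set ℕ) (levOf M) wf (lamOf χ) Sg N S χ' w)
    Y₀ hlev₀ hI₀ hstep
  exact rtConcl_of_rtData P (fun 𝒪 _ => condFL 𝒪) X' hX'

end Level

/-- **The strict-ordinary step supplier** (E9-INST, `GE9/Asm/Chain2`) for a bundle `P`, a level
function `lev`, an `#Ω` function `wf` and eigenvalues `lam`. -/
def HeckeStepsSO (Sig₀ : Finset ℕ) (d : ℕ) (lev wf : Finset ℕ → ℕ) (lam : ℕ → P.O) : Prop :=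
  ∀ Sg : Finset ℕ, Sg ⊆ Sig₀ → ∀ (q : ℕ) (hq : q.Prime), q ∈ Sig₀ → q ∉ Sg →
    ∀ Y : RTNum P.rhobar (condSO P.O p P.Smin Sg) d,
      LevelOK' p P.Smin Sig₀ Sg Y.rt.N Y.rt.S →
      EngInv (↑P.S0 : Set ℕ) lev wf lam Sg Y.rt.N Y.rt.S (pointChar Y) Y.w →
      ∃ I : StepInputSO' Sig₀ Y q hq,
        EngInv (↑P.S0 : Set ℕ) lev wf lam (insert q Sg) I.N' I.S' I.pointChar' I.w'

/-- **a base stage with the invariant + the step supplier ⟹ the conclusion of the engine contract,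
strict-ordinary case.** -/
theorem rtConcl_SO_of_base (hp2 : p ≠ 2) {d : ℕ} (hd : d ≠ 0) (lev wf : Finset ℕ → ℕ)
    (lam : ℕ → P.O) (Y₀ : RTNum P.rhobar (condSO P.O p P.Smin ∅) d)
    (hlev₀ : LevelOK' p P.Smin (sigOf W P.Smin) ∅ Y₀.rt.N Y₀.rt.S)
    (hI₀ : EngInv (↑P.S0 : Set ℕ) lev wf lam ∅ Y₀.rt.N Y₀.rt.S (pointChar Y₀) Y₀.w)
    (hstep : HeckeStepsSO P (sigOf W P.Smin) d lev wf lam) :
    RTConcl p W hcard₁ hker (fun 𝒪 _ => condSO 𝒪) := by
  have hp : p.Prime := Fact.out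
  obtain ⟨X', hX'⟩ := exists_rtData_condSO' (𝒪 := P.O) (ρbar := P.rhobar) (p := p)
    (Smin := P.Smin) hd hp hp2 (sigOf W P.Smin) (hSig_sigOf P)
    (fun Sg N _ S χ' w => EngInv (↑P.S0 : Set ℕ) lev wf lam Sg N S χ' w)
    Y₀ hlev₀ hI₀ hstep
  exact rtConcl_of_rtData P (fun 𝒪 _ => condSO 𝒪) X' hX'

end Bundle

/-! ### the engine contract from the nodes -/

/-- **`htrans`** for every semistable `W` with `W[p]` irreducible (IRR2: `GE8/Irr2/PThree` at
`p = 3`, `GE8/Irr2/P5` `hasTransvectionModP_five` at `p = 5`; the body is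
`GB/Top/FreyTwo/Transvection.HasTransvectionModP (W.map _) p` unfolded). -/
def TransvStmt (p : ℕ) [Fact p.Prime] : Prop :=
  ∀ (W : WeierstrassCurve ℤ), W.Δ ≠ 0 → W.IsSemistableModel → W.ModRepIsIrreducible p →
    ∃ σ : AlgebraicClosure ℚ ≃ₐ[ℚ] AlgebraicClosure ℚ,
      galoisRepModuleEnd (K := AlgebraicClosure ℚ) ℚ (W.map (Int.castRingHom ℚ)) p σ ≠ 1 ∧
        (galoisRepModuleEnd (K := AlgebraicClosure ℚ) ℚ (W.map (Int.castRingHom ℚ)) p σ - 1) ^ 2
          = 0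

/-- **The Hecke side over the minimal bundles, flat case**: for every minimal level `M` of a
semistable `W` good at `p` (the output of `GE8/Top/MinLevelSide.exists_minLevel_FL_side` VERBATIM)
the Hecke side names an `A ≥ 1` such that EVERY bundle `P` at level `M` with `p ^ A`-th roots of
unity and EVERY eigensystem `χ : 𝕋^{S0}(M) → P.O` lifting `θ̄` (MODPOINT) carry `HeckeSideFL`. -/
def HeckeFLStmt (p : ℕ) [Fact p.Prime] : Prop :=
  ∀ (W : WeierstrassCurve ℤ), W.Δ ≠ 0 → W.IsSemistableModel → W.ModRepIsIrreducible p →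
    ∀ (hcard₁ : Nat.card (Submodule.torsionBy ℤ
      ((W.map (Int.castRingHom ℚ))⁄(AlgebraicClosure ℚ)).Point p) = p ^ 2)
    (hker : GaloisFactorsThroughFiniteLevel
      (galoisRepModuleEnd (K := AlgebraicClosure ℚ) ℚ (W.map (Int.castRingHom ℚ)) p))
    (M : ℕ) [NeZero M], Squarefree M → ¬ p ∣ M → W.IsResiduallyModularOfLevel p M →
    W.IsGoodPrimeFor p →
    (∀ q : ℕ, q.Prime → q ≠ p → q ∣ M →
      ¬ ((W.map (Int.castRingHom ℚ)).residualGaloisRepOf p hcard₁ hker).IsUnramifiedAt q) →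
    ∃ A : ℕ, 1 ≤ A ∧ ∀ (P : Pkg p W hcard₁ hker M A)
      (χ : heckeAlgebra M 2 (↑P.S0 : Set ℕ) →+* P.O),
      (∀ t : heckeAlgebra M 2 (↑P.S0 : Set ℕ), residue P.O (χ t) = P.theta t) →
        ∃ d : ℕ, d ≠ 0 ∧ HeckeSideFL P χ (sigOf W P.Smin) d

/-- **the minimal-level descent, flat case**, as a `Prop`: the conclusion of
`GE8/Top/MinLevelSide.exists_minLevel_FL_side` (without `M ∣ M₀`). -/
def MinLevelFLStmt (p : ℕ) [Fact p.Prime] : Prop :=
  ∀ (W : WeierstrassCurve ℤ), W.Δ ≠ 0 → W.IsSemistableModel → W.ModRepIsIrreducible p →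
    ∀ (hcard₁ : Nat.card (Submodule.torsionBy ℤ
      ((W.map (Int.castRingHom ℚ))⁄(AlgebraicClosure ℚ)).Point p) = p ^ 2)
    (hker : GaloisFactorsThroughFiniteLevel
      (galoisRepModuleEnd (K := AlgebraicClosure ℚ) ℚ (W.map (Int.castRingHom ℚ)) p))
    (M₀ : ℕ), M₀ ≠ 0 → W.IsResiduallyModularOfLevel p M₀ → ¬ p ^ 2 ∣ M₀ →
    (∀ q : ℕ, q.Prime → q ≠ p → ¬ q ^ 3 ∣ M₀) → W.IsGoodPrimeFor p →
    ∃ M : ℕ, Squarefree M ∧ ¬ p ∣ M ∧ W.IsResiduallyModularOfLevel p M ∧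
      ∀ q : ℕ, q.Prime → q ≠ p → q ∣ M →
        ¬ ((W.map (Int.castRingHom ℚ)).residualGaloisRepOf p hcard₁ hker).IsUnramifiedAt q

/-- the descent of `GE8/Top/MinLevelSide` supplies `MinLevelFLStmt p`. -/
theorem minLevelFLStmt_of_nodes (p : ℕ) [Fact p.Prime] (hp2 : p ≠ 2) (hSQ : SQSideStmt)
    (hLLQ : LLQStmt p) (hLLP : LLPGoodStmt p) : MinLevelFLStmt p := by
  intro W hΔ hW hirr hcard₁ hker M₀ hM₀0 hres₀ hM₀ hM₀3 hgood
  obtain ⟨M, -, hMsq, hpM, hRM, hmin⟩ := exists_minLevel_FL_side hp2 W hΔ hW hirr hcard₁ hker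
    hSQ hLLQ hLLP hgood M₀ hM₀0 hres₀ hM₀ hM₀3
  exact ⟨M, hMsq, hpM, hRM, hmin⟩

/-- **(C), flat case: the engine contract `RTStmtFL p` from the minimal-level descent.** -/
theorem rtStmtFL_of_minLevel (p : ℕ) [Fact p.Prime] (hp2 : p ≠ 2) (hMin : MinLevelFLStmt p)
    (hTr : TransvStmt p) (hH : HeckeFLStmt p) : RTStmtFL p := by
  intro W hΔ hW hirr hcard₁ hker M₀ _ hres₀ hM₀ hM₀3 hgood
  obtain ⟨M, hMsq, hpM, hRM, hmin⟩ := hMin W hΔ hW hirr hcard₁ hker M₀ (NeZero.ne M₀) hres₀ hM₀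
    hM₀3 hgood
  haveI : NeZero M := ⟨hMsq.ne_zero⟩
  obtain ⟨A, hA, hHS⟩ := hH W hΔ hW hirr hcard₁ hker M hMsq hpM hRM hgood hmin
  -- the bundle, then the bundle with a modular point
  obtain ⟨P₀⟩ := nonempty_pkg hcard₁ hker hMsq.ne_zero hp2 hΔ hirr (hTr W hΔ hW hirr) hRM A hA
  obtain ⟨P, χ, -, hχ⟩ := Fermat.Agent.GE9.Point.exists_pkg_point P₀
  obtain ⟨d, hd, hside⟩ := hHS P χ hχ
  exact rtConcl_FL P hpM hMsq (su_eq_empty P hmin) χ hχ hd hside

/-- **(C), flat case: the engine contract `RTStmtFL p` from the nodes.** -/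
theorem rtStmtFL_of_nodes (p : ℕ) [Fact p.Prime] (hp2 : p ≠ 2) (hSQ : SQSideStmt)
    (hLLQ : LLQStmt p) (hLLP : LLPGoodStmt p) (hTr : TransvStmt p) (hH : HeckeFLStmt p) :
    RTStmtFL p :=
  rtStmtFL_of_minLevel p hp2 (minLevelFLStmt_of_nodes p hp2 hSQ hLLQ hLLP) hTr hH

/-- **The Hecke side over the minimal levels, strict-ordinary case**: for every level `M` given by
the descent with the dichotomy at `p` (`exists_minLevel_dich_side` VERBATIM) of a semistable `W`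
multiplicative at `p`, there are a bundle `P` (at the level `M'` of the `p`-new form: `M' = M` if
`p ∣ M`, `M' = M p` after RAISE-P if `p ∤ M`), a base stage with the level clauses and the
invariant, and the step supplier. -/
def MinHeckeSO (p : ℕ) [Fact p.Prime] : Prop :=
  ∀ (W : WeierstrassCurve ℤ), W.Δ ≠ 0 → W.IsSemistableModel → W.ModRepIsIrreducible p →
    ∀ (hcard₁ : Nat.card (Submodule.torsionBy ℤ
      ((W.map (Int.castRingHom ℚ))⁄(AlgebraicClosure ℚ)).Point p) = p ^ 2)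
    (hker : GaloisFactorsThroughFiniteLevel
      (galoisRepModuleEnd (K := AlgebraicClosure ℚ) ℚ (W.map (Int.castRingHom ℚ)) p))
    (M : ℕ), Squarefree M → W.IsResiduallyModularOfLevel p M → (p : ℤ) ∣ W.Δ →
    (∀ q : ℕ, q.Prime → q ≠ p → q ∣ M →
      ¬ ((W.map (Int.castRingHom ℚ)).residualGaloisRepOf p hcard₁ hker).IsUnramifiedAt q) →
    (¬ p ∣ M ∨ (p ∣ M ∧ ¬ W.IsResiduallyModularOfLevel p (M / p))) →
    ∃ (M' A : ℕ) (P : Pkg p W hcard₁ hker M' A) (d : ℕ) (lev wf : Finset ℕ → ℕ)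
      (lam : ℕ → P.O) (Y₀ : RTNum P.rhobar (condSO P.O p P.Smin ∅) d),
      d ≠ 0 ∧ LevelOK' p P.Smin (sigOf W P.Smin) ∅ Y₀.rt.N Y₀.rt.S ∧
        EngInv (↑P.S0 : Set ℕ) lev wf lam ∅ Y₀.rt.N Y₀.rt.S (pointChar Y₀) Y₀.w ∧
        HeckeStepsSO P (sigOf W P.Smin) d lev wf lam

/-- **the minimal-level descent with the dichotomy at `p`**, as a `Prop`: the conclusion of
`GE8/Top/MinLevelSide.exists_minLevel_dich_side` (without `M ∣ M₀ * p`), for `W` multiplicative at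
`p`. -/
def MinLevelDichStmt (p : ℕ) [Fact p.Prime] : Prop :=
  ∀ (W : WeierstrassCurve ℤ), W.Δ ≠ 0 → W.IsSemistableModel → W.ModRepIsIrreducible p →
    ∀ (hcard₁ : Nat.card (Submodule.torsionBy ℤ
      ((W.map (Int.castRingHom ℚ))⁄(AlgebraicClosure ℚ)).Point p) = p ^ 2)
    (hker : GaloisFactorsThroughFiniteLevel
      (galoisRepModuleEnd (K := AlgebraicClosure ℚ) ℚ (W.map (Int.castRingHom ℚ)) p))
    (M₀ : ℕ), M₀ ≠ 0 → W.IsResiduallyModularOfLevel p M₀ → ¬ p ^ 2 ∣ M₀ →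
    (∀ q : ℕ, q.Prime → q ≠ p → ¬ q ^ 3 ∣ M₀) → (p : ℤ) ∣ W.Δ →
    ∃ M : ℕ, Squarefree M ∧ W.IsResiduallyModularOfLevel p M ∧
      (∀ q : ℕ, q.Prime → q ≠ p → q ∣ M →
        ¬ ((W.map (Int.castRingHom ℚ)).residualGaloisRepOf p hcard₁ hker).IsUnramifiedAt q) ∧
      (¬ p ∣ M ∨ (p ∣ M ∧ ¬ W.IsResiduallyModularOfLevel p (M / p)))

/-- the descent of `GE8/Top/MinLevelSide` supplies `MinLevelDichStmt p`. -/
theorem minLevelDichStmt_of_nodes (p : ℕ) [Fact p.Prime] (hp2 : p ≠ 2) (hSQ : SQSideStmt)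
    (hLLQ : LLQStmt p) : MinLevelDichStmt p := by
  intro W hΔ hW hirr hcard₁ hker M₀ hM₀0 hres₀ hM₀ hM₀3 _
  obtain ⟨M, -, hMsq, hRM, hmin, hdich⟩ := exists_minLevel_dich_side hp2 W hΔ hW hirr hcard₁ hker
    hSQ hLLQ M₀ hM₀0 hres₀ hM₀ hM₀3
  exact ⟨M, hMsq, hRM, hmin, hdich⟩

/-- **(C), strict-ordinary case: the engine contract `RTStmtSO p` from the minimal-level
descent.** -/
theorem rtStmtSO_of_minLevel (p : ℕ) [Fact p.Prime] (hp2 : p ≠ 2) (hMin : MinLevelDichStmt p)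
    (hH : MinHeckeSO p) : RTStmtSO p := by
  intro W hΔ hW hirr hcard₁ hker M₀ _ hres₀ hM₀ hM₀3 hmult
  obtain ⟨M, hMsq, hRM, hmin, hdich⟩ := hMin W hΔ hW hirr hcard₁ hker M₀ (NeZero.ne M₀) hres₀ hM₀
    hM₀3 hmult
  obtain ⟨M', A, P, d, lev, wf, lam, Y₀, hd, hlev₀, hI₀, hstep⟩ :=
    hH W hΔ hW hirr hcard₁ hker M hMsq hRM hmult hmin hdich
  exact rtConcl_SO_of_base P hp2 hd lev wf lam Y₀ hlev₀ hI₀ hstep

/-- **(C), strict-ordinary case: the engine contract `RTStmtSO p` from the nodes.** -/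
theorem rtStmtSO_of_nodes (p : ℕ) [Fact p.Prime] (hp2 : p ≠ 2) (hSQ : SQSideStmt)
    (hLLQ : LLQStmt p) (hH : MinHeckeSO p) : RTStmtSO p :=
  rtStmtSO_of_minLevel p hp2 (minLevelDichStmt_of_nodes p hp2 hSQ hLLQ) hH

end Fermat.Agent.GE.Engine
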