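/-
GATE-E / GE-ENGINE-ASM, R4-H (helper33, with helper80): **the strict-ordinary Hecke side split
along the dichotomy at `p`**.

`Top.MinHeckeSO p` quantifies over the output of the descent with the dichotomy
`¬ p ∣ M ∨ (p ∣ M ∧ ¬ ResMod p (M / p))`.  The two branches have different producers:

* `MinHeckeSOa p` : `p ∣ M`, `W` NOT residually modular of level `M / p` (très ramifiée; the base is
  `Base.exists_base_SO` at the level `M` itself);
* `MinHeckeSOb p` : `p ∤ M` (peu ramifiée; RAISE-P to the level `M p`, the `p`-new quotient: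
  PNEW / RISK-4, helper80's `GE/Engine/SOb`).

* `SOBaseConcl p W hcard₁ hker` : the common conclusion (bundle, base stage with the level clauses
  and the invariant, step supplier) — the body of `MinHeckeSO` after its binders;
* `minHeckeSO_of_cases : MinHeckeSOa p → MinHeckeSOb p → MinHeckeSO p`.
-/
import Mathlib
import Fermat.Agent.GE.Engine.Top

set_option autoImplicit false
set_option linter.unusedSectionVars false
set_option linter.unusedVariables false

open WeierstrassCurve WeierstrassCurve.Affine.Point IsLocalRing CuspForm Polynomial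
open scoped WeierstrassCurve.Affine

namespace Fermat.Agent.GE.Engine

open Fermat.Agent.GB.Setup.RhoBar Fermat.Agent.GB.Setup.SetupPkg
  Fermat.Agent.GB.B4.Datum.Carrier Fermat.Agent.GB.B4.Datum.HeckeCarrier
  Fermat.Agent.GE.Graph Fermat.Agent.GE9.Ind Fermat.Agent.GE9.NumCrit Fermat.Agent.GE9.Asm

/-- **the conclusion of `MinHeckeSO`** for one `(W, hcard₁, hker)`: a bundle `P` (at some level
`M'`), a base stage of type `𝒟^{so}_∅` with the level clauses and the engine's invariant, and the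
strict-ordinary step supplier. -/
def SOBaseConcl (p : ℕ) [Fact p.Prime] (W : WeierstrassCurve ℤ)
    (hcard₁ : Nat.card (Submodule.torsionBy ℤ
      ((W.map (Int.castRingHom ℚ))⁄(AlgebraicClosure ℚ)).Point p) = p ^ 2)
    (hker : GaloisFactorsThroughFiniteLevel
      (galoisRepModuleEnd (K := AlgebraicClosure ℚ) ℚ (W.map (Int.castRingHom ℚ)) p)) : Prop :=
  ∃ (M' A : ℕ) (P : Pkg p W hcard₁ hker M' A) (d : ℕ) (lev wf : Finset ℕ → ℕ)
    (lam : ℕ → P.O) (Y₀ : RTNum P.rhobar (condSO P.O p P.Smin ∅) d),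
    d ≠ 0 ∧ LevelOK' p P.Smin (sigOf W P.Smin) ∅ Y₀.rt.N Y₀.rt.S ∧
      EngInv (↑P.S0 : Set ℕ) lev wf lam ∅ Y₀.rt.N Y₀.rt.S (pointChar Y₀) Y₀.w ∧
      HeckeStepsSO P (sigOf W P.Smin) d lev wf lam

/-- **the Hecke side, strict-ordinary case, très ramifiée branch**: `p ∣ M`, `W` not residually
modular of level `M / p`. -/
def MinHeckeSOa (p : ℕ) [Fact p.Prime] : Prop :=
  ∀ (W : WeierstrassCurve ℤ), W.Δ ≠ 0 → W.IsSemistableModel → W.ModRepIsIrreducible p →
    ∀ (hcard₁ : Nat.card (Submodule.torsionBy ℤ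
      ((W.map (Int.castRingHom ℚ))⁄(AlgebraicClosure ℚ)).Point p) = p ^ 2)
    (hker : GaloisFactorsThroughFiniteLevel
      (galoisRepModuleEnd (K := AlgebraicClosure ℚ) ℚ (W.map (Int.castRingHom ℚ)) p))
    (M : ℕ), Squarefree M → W.IsResiduallyModularOfLevel p M → (p : ℤ) ∣ W.Δ →
    (∀ q : ℕ, q.Prime → q ≠ p → q ∣ M →
      ¬ ((W.map (Int.castRingHom ℚ)).residualGaloisRepOf p hcard₁ hker).IsUnramifiedAt q) →
    p ∣ M → ¬ W.IsResiduallyModularOfLevel p (M / p) →
    SOBaseConcl p W hcard₁ hker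

/-- **the Hecke side, strict-ordinary case, peu ramifiée branch**: `p ∤ M`. -/
def MinHeckeSOb (p : ℕ) [Fact p.Prime] : Prop :=
  ∀ (W : WeierstrassCurve ℤ), W.Δ ≠ 0 → W.IsSemistableModel → W.ModRepIsIrreducible p →
    ∀ (hcard₁ : Nat.card (Submodule.torsionBy ℤ
      ((W.map (Int.castRingHom ℚ))⁄(AlgebraicClosure ℚ)).Point p) = p ^ 2)
    (hker : GaloisFactorsThroughFiniteLevel
      (galoisRepModuleEnd (K := AlgebraicClosure ℚ) ℚ (W.map (Int.castRingHom ℚ)) p))
    (M : ℕ), Squarefree M → W.IsResiduallyModularOfLevel p M → (p : ℤ) ∣ W.Δ →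
    (∀ q : ℕ, q.Prime → q ≠ p → q ∣ M →
      ¬ ((W.map (Int.castRingHom ℚ)).residualGaloisRepOf p hcard₁ hker).IsUnramifiedAt q) →
    ¬ p ∣ M →
    SOBaseConcl p W hcard₁ hker

/-- **the two branches give `MinHeckeSO p`.** -/
theorem minHeckeSO_of_cases (p : ℕ) [Fact p.Prime] (ha : MinHeckeSOa p) (hb : MinHeckeSOb p) :
    MinHeckeSO p := by
  intro W hΔ hW hirr hcard₁ hker M hMsq hRM hmult hmin hdich
  rcases hdich with h | ⟨h1, h2⟩
  · exact hb W hΔ hW hirr hcard₁ hker M hMsq hRM hmult hmin h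
  · exact ha W hΔ hW hirr hcard₁ hker M hMsq hRM hmult hmin h1 h2

/-- the conclusion in the shape consumed by `Top.rtConcl_SO_of_base`. -/
theorem rtConcl_SO_of_soBaseConcl {p : ℕ} [Fact p.Prime] (hp2 : p ≠ 2) {W : WeierstrassCurve ℤ}
    {hcard₁ : Nat.card (Submodule.torsionBy ℤ
      ((W.map (Int.castRingHom ℚ))⁄(AlgebraicClosure ℚ)).Point p) = p ^ 2}
    {hker : GaloisFactorsThroughFiniteLevel
      (galoisRepModuleEnd (K := AlgebraicClosure ℚ) ℚ (W.map (Int.castRingHom ℚ)) p)}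
    (h : SOBaseConcl p W hcard₁ hker) :
    RTConcl p W hcard₁ hker (fun 𝒪 _ => condSO 𝒪) := by
  obtain ⟨M', A, P, d, lev, wf, lam, Y₀, hd, hlev₀, hI₀, hstep⟩ := h
  exact rtConcl_SO_of_base P hp2 hd lev wf lam Y₀ hlev₀ hI₀ hstep

end Fermat.Agent.GE.Engine
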