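/-
GATE-E / GE-ENGINE-ASM, R4-H (helper80, with helper33): **the strict-ordinary Hecke side, peu
ramifiée branch (`p ∤ M`: `W` multiplicative at `p`, `ρ̄` flat, minimal level `M` prime to `p`), in
hypothesis form** — the SO(b) twin of helper33's `GE/Engine/SOa`.

In this branch the engine runs at the level `M p` (RAISE-P), on the `p`-NEW quotient: the carrier of
the base stage is NOT `Tloc P.O θ̄` of the level `M p` (which has `p`-old points) but the `p`-new
Hecke ring `T^new_∅` = the image of `Tloc` in `End (K_∅)`, `K_∅ = ker (cores, coresD)` the `p`-new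
part of the Hecke module of level `M p` (PNEW-STAGE, RISK-4).  So the base clause of the Hecke side
carries the carrier itself, with its raw fields (the representation `ρ_T`, the surjection
`R^{so}_∅ ↠ T^new_∅` of type `𝒟^{so}_∅`: helper11's `GE9/Stage/RawSO` at the base, from `hann`), its
modular point `πO` (the `p`-new point of RAISE-P: PNEW-POINT), `η ≠ 0`, and the base record
`Base.BaseInput` (E6-SO(b) = helper55 `GE8/RaiseP/BaseB` through `GE6/Inst/Trunc`; pairing and basis
of `K_∅[𝔭]`: helper21 `GE9/Eta/KerNd`).  The step clause is `Top.HeckeStepsSO` VERBATIM (common to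
both SO branches: helper33 `GE/Engine/StepSO.heckeStepsSO_of_supply`).

* `HeckeSideSOb P Sig₀ d` : the Hecke side for a bundle `P` at the level `M p`;
* `soBaseConcl_of_heckeSideSOb` : bundle + Hecke side ⟹ `SOSplit.SOBaseConcl` (through the abstract
  base stage `Base.exists_base_stage`; the deformation ring `R^{so}_∅` from
  `GE6/DefRing.nonempty_defRing_SO`, its residual binder `hbar` from the Tate curve
  `Deside/BaseOdd.hbar_condSO_noSide`);
* `HeckeSObStmt p` : the Hecke side over the minimal levels of the branch (existential in the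
  bundle: the coefficient ring must carry the `p`-new point AND the level-`M` point of the flat
  engine, see `GE9/PNew`);
* **`minHeckeSOb_of_stmt`** : `HeckeSObStmt p → MinHeckeSOb p`.
-/
import Mathlib
import Fermat.Agent.GE.Engine.SOSplit
import Fermat.Agent.GE8.Deside.BaseOdd

set_option autoImplicit false
set_option linter.unusedSectionVars false
set_option linter.unusedVariables false
set_option linter.style.haveILetI false

open WeierstrassCurve WeierstrassCurve.Affine.Point IsLocalRing CuspForm Polynomial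
open scoped WeierstrassCurve.Affine

namespace Fermat.Agent.GE.Engine

open Fermat.Agent.GB.Setup.RhoBar Fermat.Agent.GB.Setup.SetupPkg
  Fermat.Agent.GB.B4.Datum.Carrier Fermat.Agent.GB.B4.Datum.HeckeCarrier
  Fermat.Agent.GE.Graph Fermat.Agent.GE9.Ind Fermat.Agent.GE9.NumCrit Fermat.Agent.GE9.Asm

section Bundle

variable {p : ℕ} [Fact p.Prime] {W : WeierstrassCurve ℤ}
  {hcard₁ : Nat.card (Submodule.torsionBy ℤ
    ((W.map (Int.castRingHom ℚ))⁄(AlgebraicClosure ℚ)).Point p) = p ^ 2}
  {hker : GaloisFactorsThroughFiniteLevel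
    (galoisRepModuleEnd (K := AlgebraicClosure ℚ) ℚ (W.map (Int.castRingHom ℚ)) p)}
  {M' A : ℕ} (P : Pkg p W hcard₁ hker M' A) [NeZero M']

/-- **The Hecke side of the engine, strict-ordinary case, peu ramifiée branch**, for a bundle `P` at
the level `M' = M p`: the `#Ω` function `wf`, the eigenvalues `lam` of the `p`-new point, the
CARRIER of the base stage for every deformation ring `D = R^{so}_∅` (the `p`-new Hecke ring `T`
with its raw fields, the `p`-new point `πO`, `η ≠ 0`, the base record with `#Ω = wf ∅`), and the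
step supplier. -/
def HeckeSideSOb (Sig₀ : Finset ℕ) (d : ℕ) : Prop :=
  ∃ (wf : Finset ℕ → ℕ) (lam : ℕ → P.O),
    (∀ D : GaloisRep.DeformationRingData P.O P.rhobar (condSO P.O p P.Smin ∅),
      ∃ (T : Type) (_ : CommRing T) (_ : IsLocalRing T) (_ : Algebra P.O T)
        (_ : Module.Finite P.O T) (_ : Module.Free P.O T)
        (π : heckeAlgebra M' 2 (↑P.S0 : Set ℕ) →+* T) (ρT : GaloisRepAdic T)
        (φ : D.R →ₐ[P.O] T) (φ_local : IsLocalHom (φ : D.R →+* T)) (πO : T →ₐ[P.O] P.O)
        (I : BaseInput p D φ πO d),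
        (∀ (q : ℕ) (hq : q.Prime) (hqN : ¬ q ∣ M') (hqS : q ∉ (↑P.S0 : Set ℕ)),
          ∀ B : ValuationSubring (AlgebraicClosure ℚ), B.LiesOverPrime q →
            ∀ σ : AlgebraicClosure ℚ ≃ₐ[ℚ] AlgebraicClosure ℚ, B.IsFrobeniusAt σ q →
              LinearMap.charpoly (ρT.ρ σ) =
                X ^ 2 - C (π (heckeAlgebra.T hq hqN hqS)) * X + C ((q : T))) ∧
        Function.Surjective φ ∧
        (D.ρ.baseChangeAlong (φ : D.R →+* T) φ_local).IsEquiv ρT ∧
        etaIdeal πO ≠ ⊥ ∧
        Nat.card (Fermat.Agent.GE9.Eta.CongMod I.B (Submodule.span P.O (Set.range I.b))) =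
          wf ∅ ∧
        ∀ (r : ℕ) (hr : r.Prime) (hrN : ¬ r ∣ M') (hrS : r ∉ (↑P.S0 : Set ℕ)),
          πO (π (heckeAlgebra.T hr hrN hrS)) = lam r) ∧
    HeckeStepsSO P Sig₀ d (levOf M') wf lam

/-- **bundle at the level `M p` + Hecke side ⟹ the base stage and the step supplier** (the
conclusion of `MinHeckeSO`), peu ramifiée branch. -/
theorem soBaseConcl_of_heckeSideSOb (hss : W.IsSemistableModel) (hmult : (p : ℤ) ∣ W.Δ)
    (hsq : Squarefree M') {d : ℕ} (hd : d ≠ 0)
    (hH : HeckeSideSOb P (sigOf W P.Smin) d) :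
    SOBaseConcl p W hcard₁ hker := by
  obtain ⟨wf, lam, hbase, hstep⟩ := hH
  have hp : p.Prime := Fact.out
  -- the deformation ring `R^{so}_∅`
  obtain ⟨D⟩ := Fermat.Agent.GE6.DefRing.nonempty_defRing_SO p P.rhobar P.hp2 P.habs P.Smin ∅
    P.p_mem_Smin P.hmin
    (Fermat.Agent.GE8.Deside.BaseOdd.hbar_condSO_noSide P hss hmult hsq ∅)
  -- the carrier of the base stage
  obtain ⟨T, iCR, iLoc, iAlg, iFin, iFree, π, ρT, φ, φ_local, πO, I, hcp, hφ, hρ, hη, hwf, hlam⟩ :=
    hbase D
  haveI : NoZeroSMulDivisors P.O T := noZeroSMulDivisors_of_free P.O T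
  obtain ⟨Y₀, -, hlev₀, hI₀⟩ := exists_base_stage hp P.hpO D π ρT hcp φ hφ φ_local hρ πO hη I
    p P.Smin (sigOf W P.Smin) (levOf M') wf lam (levOf_empty M') hwf
    (levelOK'_base P hsq (sigOf W P.Smin) (fun q => mem_sigOf P.hΔ)) hlam
  exact ⟨M', A, P, d, levOf M', wf, lam, Y₀, hd, hlev₀, hI₀, hstep⟩

end Bundle

/-- **The Hecke side over the minimal levels, strict-ordinary case, peu ramifiée branch**: for every
minimal level `M` PRIME TO `p` of a semistable `W` multiplicative at `p`, there are a bundle `P` at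
the level `M p` (its coefficient ring large enough for the `p`-new point of RAISE-P and for the
level-`M` point of the flat engine) and the Hecke side `HeckeSideSOb`. -/
def HeckeSObStmt (p : ℕ) [Fact p.Prime] : Prop :=
  ∀ (W : WeierstrassCurve ℤ), W.Δ ≠ 0 → W.IsSemistableModel → W.ModRepIsIrreducible p →
    ∀ (hcard₁ : Nat.card (Submodule.torsionBy ℤ
      ((W.map (Int.castRingHom ℚ))⁄(AlgebraicClosure ℚ)).Point p) = p ^ 2)
    (hker : GaloisFactorsThroughFiniteLevel
      (galoisRepModuleEnd (K := AlgebraicClosure ℚ) ℚ (W.map (Int.castRingHom ℚ)) p))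
    (M : ℕ), Squarefree M → ¬ p ∣ M → W.IsResiduallyModularOfLevel p M → (p : ℤ) ∣ W.Δ →
    (∀ q : ℕ, q.Prime → q ≠ p → q ∣ M →
      ¬ ((W.map (Int.castRingHom ℚ)).residualGaloisRepOf p hcard₁ hker).IsUnramifiedAt q) →
    ∃ (A : ℕ) (P : Pkg p W hcard₁ hker (M * p) A) (d : ℕ), d ≠ 0 ∧
      ∀ [NeZero (M * p)], HeckeSideSOb P (sigOf W P.Smin) d

/-- `M` squarefree, `p ∤ M` ⟹ `M p` squarefree. -/
theorem squarefree_mul_prime {M p : ℕ} (hp : p.Prime) (hsq : Squarefree M) (hpM : ¬ p ∣ M) :
    Squarefree (M * p) :=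
  (Nat.squarefree_mul_iff).mpr
    ⟨((Nat.Prime.coprime_iff_not_dvd hp).mpr hpM).symm, hsq, hp.squarefree⟩

/-- **R4-H, peu ramifiée branch: `MinHeckeSOb p` from the Hecke side.** -/
theorem minHeckeSOb_of_stmt (p : ℕ) [Fact p.Prime] (hH : HeckeSObStmt p) : MinHeckeSOb p := by
  intro W hΔ hW hirr hcard₁ hker M hMsq hRM hmult hmin hpM
  have hp : p.Prime := Fact.out
  obtain ⟨A, P, d, hd, hside⟩ := hH W hΔ hW hirr hcard₁ hker M hMsq hpM hRM hmult hmin
  haveI : NeZero (M * p) := ⟨Nat.mul_ne_zero hMsq.ne_zero hp.ne_zero⟩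
  exact soBaseConcl_of_heckeSideSOb P hW hmult (squarefree_mul_prime hp hMsq hpM) hd hside

end Fermat.Agent.GE.Engine
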