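/-
GATE-E / GE-ENGINE-ASM, R4-H (helper80): **the BASE CLAUSE of `SOb.HeckeSideSOb` from the carrier +
record of the `p`-new base stage** — the base twin of helper33's `GE/Engine/StepSO`.

Setting: a bundle `P` at the level `N₀ * p` (branch (b): `N₀ = M` the minimal level, prime to `p`),
squarefree, `P.Su = ∅`, `W` semistable and multiplicative at `p`; `χ` an eigensystem of level
`N₀ * p` lifting `θ̄` (the `p`-NEW point of RAISE-P, `GE9/PNew/Point`).

`BaseSupplySOb P χ w₀ d` = the CARRIER of the `p`-new base stage at the level `N₀ * p` and the Hecke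
set `↑P.S0` (`T'`, `π'`, `hgen`; `πO'` with `πO' ∘ π' = χ`), the `p`-NEW clause `hann` (a Hecke operator
killing `𝒪 ⊗ LamNew` dies in `T'`) — the shape of `StepSO.StepSupplySO` — and, for every deformation
ring `D = R^{so}_∅` and every surjection `φ : D.R ↠ T'`, the base record `Base.BaseInput` with
`#Ω = w₀` (E6-SO(b): helper55 `GE8/RaiseP/BaseB` + `GE6/Inst/Trunc`; pairing/basis on `K_∅`).

The raw fields (`ρ_T`, `φ`, type `𝒟^{so}_∅`, `η ≠ 0`) are discharged HERE by helper11's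
`GE9/Stage/RawSOBase.exists_rawSO_base` (DESIDE closed: no side condition), `hordbar` from the Tate
curve (`Deside/BaseOdd`), the Hecke polynomials of `ρ̄` from `Pkg.hfrob`.

* `exactDvd_mul_prime` : `p ∤ N₀ ⟹ p ∥ N₀ p`;
* `BaseSupplySOb` : the supply `Prop`;
* **`heckeSideSOb_of_supply`** : `HeckeSideSOb P Sig₀ d` from the base supply and the step clause.
-/
import Mathlib
import Fermat.Agent.GE.Engine.SOb
import Fermat.Agent.GE9.Stage.RawSOBase

set_option autoImplicit false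
set_option linter.unusedSectionVars false
set_option linter.unusedVariables false
set_option linter.style.haveILetI false

open WeierstrassCurve WeierstrassCurve.Affine.Point IsLocalRing CuspForm Polynomial TensorProduct
open scoped WeierstrassCurve.Affine

namespace Fermat.Agent.GE.Engine

open Fermat.Agent.GB.Setup.RhoBar Fermat.Agent.GB.Setup.SetupPkg
  Fermat.Agent.GB.B4.Datum.Carrier Fermat.Agent.GB.B4.Datum.HeckeCarrier
  Fermat.Agent.GE.Graph Fermat.Agent.GE9.Ind Fermat.Agent.GE9.NumCrit Fermat.Agent.GE9.Asm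
open Fermat.Agent.GK.AL
open Fermat.Agent.GB.B10.KumLevelHecke Fermat.Agent.GB.B10.L.NewInst
open Fermat.Agent.GB.B10.L.ThetaNew Fermat.Agent.GB.B10.L.StrictQNew

/-- `p ∤ N₀ ⟹ p ∥ N₀ p`. -/
theorem exactDvd_mul_prime {N₀ p : ℕ} (hp : p.Prime) (hpN : ¬ p ∣ N₀) : ExactDvd p (N₀ * p) :=
  ⟨hp, dvd_mul_left p N₀, fun h => hpN (by
    rw [pow_two] at h
    exact Nat.dvd_of_mul_dvd_mul_right hp.pos h)⟩

section Bundle

variable {p : ℕ} [Fact p.Prime] {W : WeierstrassCurve ℤ}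
  {hcard₁ : Nat.card (Submodule.torsionBy ℤ
    ((W.map (Int.castRingHom ℚ))⁄(AlgebraicClosure ℚ)).Point p) = p ^ 2}
  {hker : GaloisFactorsThroughFiniteLevel
    (galoisRepModuleEnd (K := AlgebraicClosure ℚ) ℚ (W.map (Int.castRingHom ℚ)) p)}
  {N₀ A : ℕ} (P : Pkg p W hcard₁ hker (N₀ * p) A) [NeZero N₀] [NeZero (N₀ * p)]

/-- **The carrier + record of the `p`-new BASE stage** (branch (b)), for the `p`-new point `χ`:
the carrier `T'` at the level `N₀ * p` with `hgen`, the `p`-new clause `hann`, the augmentation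
`πO'` with `πO' ∘ π' = χ`, and the base record (`#Ω = w₀`) for every `(D, φ)` with `φ` THE
classifying map of a representation `ρT'` over the carrier with the Eichler–Shimura characteristic
polynomials (binders `φ_local`, `ρT'`, `he`, `hcp`: the record's `htw` is not invariant under a change
of the surjection `φ`; helper55, board 7848). -/
def BaseSupplySOb (χ : heckeAlgebra (N₀ * p) 2 (↑P.S0 : Set ℕ) →+* P.O) (w₀ d : ℕ) : Prop :=
  ∀ (h : ExactDvd p (N₀ * p)) (hpS : p ∈ P.S0)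
    (hNS : ∀ r : ℕ, r.Prime → r ∣ N₀ * p → r ∈ P.S0),
    ∃ (T' : Type) (_ : CommRing T') (_ : IsLocalRing T') (_ : Algebra P.O T')
      (_ : Module.Finite P.O T') (_ : Module.Free P.O T')
      (π' : heckeAlgebra (N₀ * p) 2 (↑P.S0 : Set ℕ) →+* T') (πO' : T' →ₐ[P.O] P.O),
      Algebra.adjoin P.O (Set.range π') = ⊤ ∧
      (∀ t₀ : P.O ⊗[ℤ] heckeAlgebra (N₀ * p) 2 (↑P.S0 : Set ℕ),
        (∀ (a : P.O), ∀ x ∈ (LamNew (not_dvd_of_exactDvd h) :
            AddSubgroup (levelData p (N₀ * p) hpS hNS).Λ),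
          (levelData p (N₀ * p) hpS hNS).heckeTensor P.O t₀ (a ⊗ₜ[ℤ] x) = 0) →
          Fermat.Agent.GB.B10.L.GalPkgSO.twO (𝒪 := P.O) π' t₀ = 0) ∧
      (∀ t : heckeAlgebra (N₀ * p) 2 (↑P.S0 : Set ℕ), πO' (π' t) = χ t) ∧
      ∀ (D : GaloisRep.DeformationRingData P.O P.rhobar (condSO P.O p P.Smin ∅))
        (φ : D.R →ₐ[P.O] T') (φ_local : IsLocalHom (φ : D.R →+* T')) (ρT' : GaloisRepAdic T'),
        Function.Surjective φ →
        (D.ρ.baseChangeAlong (φ : D.R →+* T') φ_local).IsEquiv ρT' →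
        (∀ (q : ℕ) (hq : q.Prime) (hqN : ¬ q ∣ N₀ * p) (hqS : q ∉ (↑P.S0 : Set ℕ)),
          ∀ B : ValuationSubring (AlgebraicClosure ℚ), B.LiesOverPrime q →
            ∀ σ : AlgebraicClosure ℚ ≃ₐ[ℚ] AlgebraicClosure ℚ, B.IsFrobeniusAt σ q →
              LinearMap.charpoly (ρT'.ρ σ) =
                X ^ 2 - C (π' (heckeAlgebra.T hq hqN hqS)) * X + C ((q : T'))) →
        ∃ I : BaseInput p D φ πO' d,
          Nat.card (Fermat.Agent.GE9.Eta.CongMod I.B (Submodule.span P.O (Set.range I.b))) = w₀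

/-- **`SOb.HeckeSideSOb` from the base supply and the step clause** (no side condition). -/
theorem heckeSideSOb_of_supply (hss : W.IsSemistableModel) (hmult : (p : ℤ) ∣ W.Δ)
    (hpN : ¬ p ∣ N₀) (hsq : Squarefree (N₀ * p)) (hSu : P.Su = ∅)
    (χ : heckeAlgebra (N₀ * p) 2 (↑P.S0 : Set ℕ) →+* P.O)
    (hχ : ∀ t : heckeAlgebra (N₀ * p) 2 (↑P.S0 : Set ℕ), residue P.O (χ t) = P.theta t)
    (Sig₀ : Finset ℕ) (wf : Finset ℕ → ℕ) {d : ℕ}
    (hbase : BaseSupplySOb P χ (wf ∅) d)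
    (hstep : HeckeStepsSO P Sig₀ d (levOf (N₀ * p)) wf (lamOf χ)) :
    HeckeSideSOb P Sig₀ d := by
  have hp : p.Prime := Fact.out
  refine ⟨wf, lamOf χ, fun D => ?_, hstep⟩
  have hex : ExactDvd p (N₀ * p) := exactDvd_mul_prime hp hpN
  have hpS : p ∈ P.S0 := Fermat.Agent.GE8.MinDatum.hpS0' P
  have hNS : ∀ r : ℕ, r.Prime → r ∣ N₀ * p → r ∈ P.S0 := Fermat.Agent.GE8.MinDatum.hNS0 P
  obtain ⟨T', iCR, iLoc, iAlg, iFin, iFree, π', πO', hgen, hann, hπχ, hrec⟩ := hbase hex hpS hNS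
  -- the side conditions of `exists_rawSO_base`
  have hNT : ∀ r : ℕ, r.Prime → r ∣ N₀ * p → r ∈ P.Smin :=
    fun r hr hrM => Fermat.Agent.GE8.MinDatum.mem_Smin_of_dvd P hSu hr hrM
  have hSminN' : ∀ r ∈ P.Smin, r.Prime → r ≠ p → r ∣ N₀ * p ∧ ¬ r ^ 2 ∣ N₀ * p :=
    fun r hrS hr hrp => ⟨(P.dvd_of_mem_Smin hrS).resolve_left hrp,
      Fermat.Agent.GE8.MinDatum.not_sq_dvd_of_squarefree hsq hr⟩
  have hcharbar : ∀ (ℓ : ℕ) (hℓ : ℓ.Prime) (hℓN : ¬ ℓ ∣ N₀ * p) (hℓS : ℓ ∉ (↑P.S0 : Set ℕ)),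
      ∀ Q : ValuationSubring (AlgebraicClosure ℚ), Q.LiesOverPrime ℓ →
        ∀ σ : AlgebraicClosure ℚ ≃ₐ[ℚ] AlgebraicClosure ℚ, Q.IsFrobeniusAt σ ℓ →
          ∃ d₀ : ResidueField P.O, LinearMap.charpoly (P.rhobar.ρ σ) =
            X ^ 2 - C (residue P.O (πO' (π' (heckeAlgebra.T hℓ hℓN hℓS)))) * X + C d₀ := by
    intro ℓ hℓ hℓN hℓS Q hQ σ hσ
    refine ⟨((ℓ : ℕ) : P.k), ?_⟩
    rw [hπχ, hχ]
    exact P.hfrob ℓ hℓ hℓN hℓS Q hQ σ hσ
  obtain ⟨ρT', φ', φ'_local, hcp, hφ', he, hη⟩ :=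
    Fermat.Agent.GE9.Stage.RawSOBase.exists_rawSO_base (𝒪 := P.O) (ρbar := P.rhobar) (p := p)
      (Smin := P.Smin) P.hp2 P.hpO P.p_mem_Smin P.S0 hex hpS hNS hNT hSminN'
      (Fermat.Agent.GE8.Deside.BaseOdd.rhobar_isStrictOrdinaryAt_of_mult P hss hmult).isOrdinaryAt
      π' hgen hann πO' hcharbar D
  obtain ⟨I, hI⟩ := hrec D φ' φ'_local ρT' hφ' he hcp
  exact ⟨T', iCR, iLoc, iAlg, iFin, iFree, π', ρT', φ', φ'_local, πO', I, hcp, hφ', he, hη, hI,
    fun r hr hrN hrS => (hπχ _).trans (lamOf_eq χ hr hrN hrS).symm⟩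

end Bundle

end Fermat.Agent.GE.Engine
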