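/-
GATE-E / GE-ENGINE-ASM, RISK-4 (B-iii) (helper60; assignment helper80 board 7985): **the base supply
`SObBase.BaseSupplySOb` of the `p`-new base stage from its landed leaves** — the SO(b) twin of
helper64's `GE/Engine/BaseFL.baseInput_of_node`.

Inputs (all binders; their suppliers in brackets):
* the carrier `T'` with `π'`, `hgen`, `hann`, `πO'`, `πO' ∘ π' = χ` [helper32 `PkgNew` / helper3
  `KStageInst` : `T' = ImageRing.TQ` on the `Lam`-model];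
* the `Lam`-model of the `p`-new base module `L := ↥(KLoc hpN Z lam)` as a `T'`-module, with the
  generators `g k` acting as the lattice Hecke operators (`hact`) and `πO' (g k) = lam (pl k)`;
* the reference eigenvector `y₁`, `lam p ^ 2 = 1`, the types `hbad` of the bad primes `≠ p`
  [helper2 `BaseNewFinal.new_fields_KLoc_pnew` consumes them];
* the `Hom`-model `ker (f₁.prod f₂)` with `hf0` [helper4 `Hf0Hom`] and the comparison
  `eK : ker (f₁.prod f₂) ≃ₗ[𝒪] L` [helper19 `BaseKer/EquivK.exists_eK`];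
* the node: `NewSideStmt` for the module structure transported along `eK`
  [helper57 `TransportMod.modOfEquiv`; helper55 `NodeNew.newSideStmt_of_recordStmt`], for every
  `(D, φ)` with `φ` the classifying map of a representation over the carrier with the
  Eichler–Shimura polynomials.

Output: `BaseSupplySOb P χ (omegaCardNew hpN P.O lam) 2 ∧ EtaStageNew hpN P.O lam 2`.

Proof: `WireNew.twLevelsStmt_newBase_pkg_congr` along `TransportMod.equivT eK` gives the field `htw`;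
`GE6/Stmt.minRT_of_twLevelsStmt` gives `L` free over `T'`; `new_fields_KLoc_pnew` gives the pairing,
the basis of `L[𝔭]`, `#Ω = omegaCardNew` and `EtaStageNew`.
-/
import Mathlib
import Fermat.Agent.GE.Engine.SObBase
import Fermat.Agent.GE8.RaiseP.WireNew
import Fermat.Agent.GE8.RaiseP.TransportMod
import Fermat.Agent.GE9.PNew.Inst.BaseNewFinal

set_option autoImplicit false
set_option linter.unusedSectionVars false
set_option linter.unusedVariables false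
set_option linter.style.haveILetI false

open scoped TensorProduct
open WeierstrassCurve WeierstrassCurve.Affine.Point IsLocalRing CuspForm Polynomial
open scoped WeierstrassCurve.Affine

namespace Fermat.Agent.GE.Engine.BaseSOb

open Fermat.Agent.GB.Setup.RhoBar Fermat.Agent.GB.Setup.SetupPkg
  Fermat.Agent.GB.B4.Datum.Carrier Fermat.Agent.GB.B4.Datum.HeckeCarrier
  Fermat.Agent.GE.Graph Fermat.Agent.GE9.Ind Fermat.Agent.GE9.NumCrit
  Fermat.Agent.GE9.NumCrit.ModForm Fermat.Agent.GE9.Asm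
open Fermat.Agent.GJ.J2.Lat
open Fermat.Agent.GE9.Eta Fermat.Agent.GE9.Eta.Mod Fermat.Agent.GE9.Eta.Base
open Fermat.Agent.GE9.PNew.Inst Fermat.Agent.GE9.PNew.Inst.BaseNewFields
  Fermat.Agent.GE9.PNew.Inst.BaseNewFinal
open Fermat.Agent.GE9.OldQ.Consumer
open Fermat.Agent.GK.AL
open Fermat.Agent.GB.B10.KumLevelHecke Fermat.Agent.GB.B10.L.NewInst
open Fermat.Agent.GB.B10.L.ThetaNew Fermat.Agent.GB.B10.L.StrictQNew
open Fermat.Agent.GE8.RaiseP.BaseB Fermat.Agent.GE8.RaiseP.WireNew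
open Fermat.Agent.GE8.RaiseP.TransportMod
open Fermat.Agent.GE.Engine

variable {p : ℕ} [hpF : Fact p.Prime] {W : WeierstrassCurve ℤ}
  {hcard₁ : Nat.card (Submodule.torsionBy ℤ
    ((W.map (Int.castRingHom ℚ))⁄(AlgebraicClosure ℚ)).Point p) = p ^ 2}
  {hker : GaloisFactorsThroughFiniteLevel
    (galoisRepModuleEnd (K := AlgebraicClosure ℚ) ℚ (W.map (Int.castRingHom ℚ)) p)}
  {N₀ A : ℕ} (P : Pkg p W hcard₁ hker (N₀ * p) A) [NeZero N₀] [NeZero (N₀ * p)]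

/-- **the base record of the `p`-new base stage for one `(D, φ)`**, on the `Lam`-model
`L = ↥(KLoc hpN Z lam)` of the `p`-new base module. -/
theorem baseInput_of_newSide (hpN : ¬ p ∣ N₀)
    {T' : Type} [CommRing T'] [Algebra P.O T'] [NoZeroSMulDivisors P.O T']
    (Z : Set ℕ) (lam : Nat.Primes → P.O)
    [Module T' ↥(KLoc hpN Z lam)] [IsScalarTower P.O T' ↥(KLoc hpN Z lam)]
    [Nontrivial ↥(KLoc hpN Z lam)]
    (πO' : T' →ₐ[P.O] P.O) (hη : etaIdeal πO' ≠ ⊥)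
    (hr : BetaPEquiv hpN Z)
    {κ : Type*} (g : κ → T') (hG : Algebra.adjoin P.O (Set.range g) = ⊤) (pl : κ → Nat.Primes)
    (hplZ : ∀ k, ((pl k : Nat.Primes) : ℕ) ∈ Z)
    (hact : ∀ k (x : ↥(KLoc hpN Z lam)),
      ((g k • x : ↥(KLoc hpN Z lam)) : P.O ⊗[ℤ] Lam (N₀ * p))
        = (latT (N₀ * p) (pl k)).baseChange P.O (x : P.O ⊗[ℤ] Lam (N₀ * p)))
    (hlam : ∀ k, πO' (g k) = lam (pl k))
    (S : Finset ℕ) (hplS : ∀ l : Nat.Primes, (l : ℕ) ∉ S → ∃ k, pl k = l)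
    (y₁ : P.O ⊗[ℤ] Lam (N₀ * p)) (hy₁ : y₁ ≠ 0)
    (hy₁e : ∀ l : Nat.Primes, (latT (N₀ * p) l).baseChange P.O y₁ = lam l • y₁)
    (hu : lam (⟨p, hpF.out⟩ : Nat.Primes) ^ 2 = 1)
    (hbad : ∀ b : Nat.Primes, (b : ℕ) ∈ S → (b : ℕ) ≠ p →
      ¬ (b : ℕ) ∣ N₀ ∨ ((b : ℕ) ∣ N₀ ∧ ¬ (b : ℕ) ^ 2 ∣ N₀ ∧ NonOccAt P.O S b lam))
    (hbar : condSO P.O p P.Smin ∅ (GaloisRepAdic.ofResidualGaloisRep P.rhobar))
    (D : GaloisRep.DeformationRingData P.O P.rhobar (condSO P.O p P.Smin ∅))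
    (φ : D.R →ₐ[P.O] T') (hφ : Function.Surjective φ)
    {MF : Type} [AddCommGroup MF] [Module P.O MF] {P0 : Type} [AddCommGroup P0] [Module P.O P0]
    (f₁ f₂ : MF →ₗ[P.O] P0) (hf0 : Function.Surjective (f₁.prod f₂))
    (eK : ↥(LinearMap.ker (f₁.prod f₂)) ≃ₗ[P.O] ↥(KLoc hpN Z lam))
    (hmod : letI := modOfEquiv (T := T') eK
      NewSideStmt p (Fact.out : p.Prime) P.hpO P.S0 (condSO P.O p P.Smin) D φ MF P0 f₁ f₂ hf0) :
    ∃ I : BaseInput p D φ πO' 2,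
      Nat.card (CongMod I.B (Submodule.span P.O (Set.range I.b))) = omegaCardNew hpN P.O lam ∧
      EtaStageNew hpN P.O lam 2 := by
  have hp : p.Prime := Fact.out
  letI modK : Module T' ↥(LinearMap.ker (f₁.prod f₂)) := modOfEquiv (T := T') eK
  -- E6-SO(b)
  have htw : Fermat.Agent.GE6.Stmt.TWLevelsStmt p D φ ↥(KLoc hpN Z lam) :=
    twLevelsStmt_newBase_pkg_congr P hbar D φ f₁ f₂ hf0 hmod (equivT (T := T') eK)
  obtain ⟨-, -, hfree, -⟩ := Fermat.Agent.GE6.Stmt.minRT_of_twLevelsStmt hp P.hpO D φ hφ htw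
  haveI : Module.Free T' ↥(KLoc hpN Z lam) := hfree
  -- ETA
  obtain ⟨hadj, hnd, b, hli, hspan, hcard, -, hstage⟩ :=
    new_fields_KLoc_pnew (O := P.O) hpN Z lam hr πO' hη g hG pl hplZ hact hlam S hplS y₁ hy₁ hy₁e
      hu hbad
  exact ⟨{ L := ↥(KLoc hpN Z lam)
           htw := htw
           B := pullBW (KLoc hpN Z lam).subtype
           hadj := hadj
           hnd := hnd
           b := b
           hli := hli
           hspan := hspan }, hcard, hstage⟩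

/-- **(B-iii): the base supply of the `p`-new base stage** and the base of the module-side induction
`EtaStageNew`, from the carrier, the `Lam`-model with its fields, the `Hom`-model with the comparison
`eK`, and the node (`NewSideStmt` for the transported module structure) for every `(D, φ)`. -/
theorem baseSupplySOb_of_node (hss : W.IsSemistableModel) (hmult : (p : ℤ) ∣ W.Δ)
    (hpN : ¬ p ∣ N₀) (hsq : Squarefree (N₀ * p)) (hSu : P.Su = ∅)
    (χ : heckeAlgebra (N₀ * p) 2 (↑P.S0 : Set ℕ) →+* P.O)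
    (hχ : ∀ t : heckeAlgebra (N₀ * p) 2 (↑P.S0 : Set ℕ), residue P.O (χ t) = P.theta t)
    {T' : Type} [CommRing T'] [IsLocalRing T'] [Algebra P.O T'] [Module.Finite P.O T']
    [Module.Free P.O T']
    (π' : heckeAlgebra (N₀ * p) 2 (↑P.S0 : Set ℕ) →+* T') (πO' : T' →ₐ[P.O] P.O)
    (hgen : Algebra.adjoin P.O (Set.range π') = ⊤)
    (hann : ∀ (h : ExactDvd p (N₀ * p)) (hpS : p ∈ P.S0)
      (hNS : ∀ r : ℕ, r.Prime → r ∣ N₀ * p → r ∈ P.S0)
      (t₀ : P.O ⊗[ℤ] heckeAlgebra (N₀ * p) 2 (↑P.S0 : Set ℕ)),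
        (∀ (a : P.O), ∀ x ∈ (LamNew (not_dvd_of_exactDvd h) :
            AddSubgroup (levelData p (N₀ * p) hpS hNS).Λ),
          (levelData p (N₀ * p) hpS hNS).heckeTensor P.O t₀ (a ⊗ₜ[ℤ] x) = 0) →
          Fermat.Agent.GB.B10.L.GalPkgSO.twO (𝒪 := P.O) π' t₀ = 0)
    (hπχ : ∀ t : heckeAlgebra (N₀ * p) 2 (↑P.S0 : Set ℕ), πO' (π' t) = χ t)
    (hη : etaIdeal πO' ≠ ⊥)
    (Z : Set ℕ) (lam : Nat.Primes → P.O)
    [Module T' ↥(KLoc hpN Z lam)] [IsScalarTower P.O T' ↥(KLoc hpN Z lam)]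
    [Nontrivial ↥(KLoc hpN Z lam)]
    (hr : BetaPEquiv hpN Z)
    {κ : Type*} (g : κ → T') (hG : Algebra.adjoin P.O (Set.range g) = ⊤) (pl : κ → Nat.Primes)
    (hplZ : ∀ k, ((pl k : Nat.Primes) : ℕ) ∈ Z)
    (hact : ∀ k (x : ↥(KLoc hpN Z lam)),
      ((g k • x : ↥(KLoc hpN Z lam)) : P.O ⊗[ℤ] Lam (N₀ * p))
        = (latT (N₀ * p) (pl k)).baseChange P.O (x : P.O ⊗[ℤ] Lam (N₀ * p)))
    (hlam : ∀ k, πO' (g k) = lam (pl k))
    (S : Finset ℕ) (hplS : ∀ l : Nat.Primes, (l : ℕ) ∉ S → ∃ k, pl k = l)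
    (y₁ : P.O ⊗[ℤ] Lam (N₀ * p)) (hy₁ : y₁ ≠ 0)
    (hy₁e : ∀ l : Nat.Primes, (latT (N₀ * p) l).baseChange P.O y₁ = lam l • y₁)
    (hu : lam (⟨p, hpF.out⟩ : Nat.Primes) ^ 2 = 1)
    (hbad : ∀ b : Nat.Primes, (b : ℕ) ∈ S → (b : ℕ) ≠ p →
      ¬ (b : ℕ) ∣ N₀ ∨ ((b : ℕ) ∣ N₀ ∧ ¬ (b : ℕ) ^ 2 ∣ N₀ ∧ NonOccAt P.O S b lam))
    {MF : Type} [AddCommGroup MF] [Module P.O MF] {P0 : Type} [AddCommGroup P0] [Module P.O P0]
    (f₁ f₂ : MF →ₗ[P.O] P0) (hf0 : Function.Surjective (f₁.prod f₂))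
    (eK : ↥(LinearMap.ker (f₁.prod f₂)) ≃ₗ[P.O] ↥(KLoc hpN Z lam))
    (hnode : ∀ (D : GaloisRep.DeformationRingData P.O P.rhobar (condSO P.O p P.Smin ∅))
      (φ : D.R →ₐ[P.O] T') (φ_local : IsLocalHom (φ : D.R →+* T')) (ρT' : GaloisRepAdic T'),
      Function.Surjective φ →
      (D.ρ.baseChangeAlong (φ : D.R →+* T') φ_local).IsEquiv ρT' →
      (∀ (q : ℕ) (hq : q.Prime) (hqN : ¬ q ∣ N₀ * p) (hqS : q ∉ (↑P.S0 : Set ℕ)),
        ∀ B : ValuationSubring (AlgebraicClosure ℚ), B.LiesOverPrime q →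
          ∀ σ : AlgebraicClosure ℚ ≃ₐ[ℚ] AlgebraicClosure ℚ, B.IsFrobeniusAt σ q →
            LinearMap.charpoly (ρT'.ρ σ) =
              X ^ 2 - C (π' (heckeAlgebra.T hq hqN hqS)) * X + C ((q : T'))) →
      letI := modOfEquiv (T := T') eK
      NewSideStmt p (Fact.out : p.Prime) P.hpO P.S0 (condSO P.O p P.Smin) D φ MF P0 f₁ f₂ hf0) :
    BaseSupplySOb P χ (omegaCardNew hpN P.O lam) 2 ∧ EtaStageNew hpN P.O lam 2 := by
  have hp : p.Prime := Fact.out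
  haveI : NoZeroSMulDivisors P.O T' := noZeroSMulDivisors_of_free P.O T'
  have hbar : condSO P.O p P.Smin ∅ (GaloisRepAdic.ofResidualGaloisRep P.rhobar) :=
    Fermat.Agent.GE8.Deside.BaseOdd.hbar_condSO_noSide P hss hmult hsq ∅
  -- the record for one `(D, φ)`
  have hrec : ∀ (D : GaloisRep.DeformationRingData P.O P.rhobar (condSO P.O p P.Smin ∅))
      (φ : D.R →ₐ[P.O] T') (φ_local : IsLocalHom (φ : D.R →+* T')) (ρT' : GaloisRepAdic T'),
      Function.Surjective φ →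
      (D.ρ.baseChangeAlong (φ : D.R →+* T') φ_local).IsEquiv ρT' →
      (∀ (q : ℕ) (hq : q.Prime) (hqN : ¬ q ∣ N₀ * p) (hqS : q ∉ (↑P.S0 : Set ℕ)),
        ∀ B : ValuationSubring (AlgebraicClosure ℚ), B.LiesOverPrime q →
          ∀ σ : AlgebraicClosure ℚ ≃ₐ[ℚ] AlgebraicClosure ℚ, B.IsFrobeniusAt σ q →
            LinearMap.charpoly (ρT'.ρ σ) =
              X ^ 2 - C (π' (heckeAlgebra.T hq hqN hqS)) * X + C ((q : T'))) →
      ∃ I : BaseInput p D φ πO' 2,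
        Nat.card (CongMod I.B (Submodule.span P.O (Set.range I.b))) = omegaCardNew hpN P.O lam ∧
        EtaStageNew hpN P.O lam 2 :=
    fun D φ φ_local ρT' hφ he hcp =>
      baseInput_of_newSide P hpN Z lam πO' hη hr g hG pl hplZ hact hlam S hplS y₁ hy₁ hy₁e hu hbad
        hbar D φ hφ f₁ f₂ hf0 eK (hnode D φ φ_local ρT' hφ he hcp)
  refine ⟨fun h hpS hNS => ⟨T', inferInstance, inferInstance, inferInstance, inferInstance,
    inferInstance, π', πO', hgen, hann h hpS hNS, hπχ, fun D φ φ_local ρT' hφ he hcp => ?_⟩, ?_⟩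
  · obtain ⟨I, hI, -⟩ := hrec D φ φ_local ρT' hφ he hcp
    exact ⟨I, hI⟩
  · -- one instance `(D, φ)` as in `SObBase.heckeSideSOb_of_supply`
    have hex : ExactDvd p (N₀ * p) := exactDvd_mul_prime hp hpN
    have hpS : p ∈ P.S0 := Fermat.Agent.GE8.MinDatum.hpS0' P
    have hNS : ∀ r : ℕ, r.Prime → r ∣ N₀ * p → r ∈ P.S0 := Fermat.Agent.GE8.MinDatum.hNS0 P
    have hNT : ∀ r : ℕ, r.Prime → r ∣ N₀ * p → r ∈ P.Smin :=
      fun r hr hrM => Fermat.Agent.GE8.MinDatum.mem_Smin_of_dvd P hSu hr hrM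
    have hSminN' : ∀ r ∈ P.Smin, r.Prime → r ≠ p → r ∣ N₀ * p ∧ ¬ r ^ 2 ∣ N₀ * p :=
      fun r hrS hr hrp => ⟨(P.dvd_of_mem_Smin hrS).resolve_left hrp,
        Fermat.Agent.GE8.MinDatum.not_sq_dvd_of_squarefree hsq hr⟩
    have hcharbar : ∀ (ℓ : ℕ) (hℓ : ℓ.Prime) (hℓN : ¬ ℓ ∣ N₀ * p) (hℓS : ℓ ∉ (↑P.S0 : Set ℕ)),
        ∀ Q : ValuationSubring (AlgebraicClosure ℚ), Q.LiesOverPrime ℓ →
          ∀ σ : AlgebraicClosure ℚ ≃ₐ[ℚ] AlgebraicClosure ℚ, Q.IsFrobeniusAt σ ℓ →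
            ∃ d₀ : ResidueField P.O, LinearMap.charpoly (P.rhobar.ρ σ) =
              X ^ 2 - C (residue P.O (πO' (π' (heckeAlgebra.T hℓ hℓN hℓS)))) * X + C d₀ := by
      intro ℓ hℓ hℓN hℓS Q hQ σ hσ
      refine ⟨((ℓ : ℕ) : P.k), ?_⟩
      rw [hπχ, hχ]
      exact P.hfrob ℓ hℓ hℓN hℓS Q hQ σ hσ
    obtain ⟨D⟩ := Fermat.Agent.GE6.DefRing.nonempty_defRing_SO p P.rhobar P.hp2 P.habs P.Smin ∅
      P.p_mem_Smin P.hmin hbar
    obtain ⟨ρT', φ', φ'_local, hcp, hφ', he, -⟩ :=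
      Fermat.Agent.GE9.Stage.RawSOBase.exists_rawSO_base (𝒪 := P.O) (ρbar := P.rhobar) (p := p)
        (Smin := P.Smin) P.hp2 P.hpO P.p_mem_Smin P.S0 hex hpS hNS hNT hSminN'
        (Fermat.Agent.GE8.Deside.BaseOdd.rhobar_isStrictOrdinaryAt_of_mult P hss hmult).isOrdinaryAt
        π' hgen (hann hex hpS hNS) πO' hcharbar D
    obtain ⟨-, -, hst⟩ := hrec D φ' φ'_local ρT' hφ' he hcp
    exact hst

end Fermat.Agent.GE.Engine.BaseSOb
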