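/-
GATE-E / RISK-4 (B-i)(b) (helper32): **the FULL eigensystem of a `p`-new eigencharacter at a minimal
level `M p`, `p ∥ M p`** — SO(b) twin of helper11's `FullLamSOa.exists_full_lam_SOa`.

In the SO(a) branch the anemic eigenvector `y` is `p`-new because `W` is NOT residually modular of
level `M` (old-killer).  In the SO(b) branch `W` may well be residually modular of level `M`; the
`p`-newness of `y` is an INPUT (`hyK : y ∈ KNew hpM P.O`, from `AnemicNew.exists_ne_zero_anemic_new_pkg`: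
the eigencharacter `χg` kills the annihilator of the `p`-new lattice).  Steps 2–5 of `FullLamSOa` are
then unchanged:

1. `y ∈ KNew` ⟹ `(β_p ⊗ O) y = 0` (`betaP_baseChange_eq_zero_of_mem_KNew`), hence `U_p² y = y`;
2. `y₁ := U_p y + y` or `y₁ := y` is a nonzero anemic eigenvector with `U_p y₁ = ε y₁`, `ε = ±1`;
3. FIRST call of `exists_full_system` with `B' := S0 ∖ {p}`;
4. `nonOccAt_of_sq_eq_one` ⟹ `NonOccAt P.O P.S0 ⟨p,_⟩ (lamP χ)`;
5. SECOND call `FullLam.exists_full_lam_of_hno` ⟹ `lam`, `lam p = ε`.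

Moreover (helper2 `EigenNew.eigenTensorO_le_KNew`) the whole full eigenspace of `lam` is `p`-new, and
it is nonzero.

* `betaP_baseChange_eq_zero_of_mem_KNew` : step 1;
* `nonOccAt_p_of_betaP` : steps 2–4 at a bundle, from `(β_p ⊗ O) y = 0`;
* `exists_full_lam_of_betaP` : the full eigensystem from `(β_p ⊗ O) y = 0` (also gives the nonzero
  full eigenvector `y₁`);
* **`exists_full_lam_pnew`** : the full eigensystem from `y ∈ KNew`, with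
  `eigenTensorO (M p) P.O lam ≤ KNew hpM P.O` and a nonzero full eigenvector;
* **`exists_full_lam_pnew_of_kills`** : the same from the kill hypothesis on `χg` alone.
-/
import Mathlib
import Fermat.Agent.GE.Engine.FullLamSOa
import Fermat.Agent.GE9.PNew.Inst.EigenNew
import Fermat.Agent.GE9.PNew.Point.AnemicNew

set_option autoImplicit false
set_option linter.unusedSectionVars false
set_option linter.unusedVariables false
set_option linter.style.haveILetI false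

open WeierstrassCurve WeierstrassCurve.Affine.Point IsLocalRing CuspForm Polynomial
open scoped WeierstrassCurve.Affine TensorProduct

namespace Fermat.Agent.GE.Engine.FullLamPNew

open Fermat.Agent.GB.Setup.RhoBar Fermat.Agent.GB.Setup.SetupPkg
  Fermat.Agent.GB.B4.Datum.Carrier Fermat.Agent.GB.B4.Datum.HeckeCarrier
  Fermat.Agent.GJ.J2.Lat Fermat.Agent.GJ.J2.LatAct Fermat.Agent.GE9.OldQ.Consumer
  Fermat.Agent.GK.New Fermat.Agent.GM.B Fermat.Agent.GE.Engine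
  Fermat.Agent.GE.Engine.FullLamSOa Fermat.Agent.GE9.PNew.Inst Fermat.Agent.GE9.Mult1
  Fermat.Agent.GB.B10.L.ThetaNew

/-! ### step 1: `KNew` is killed by `β_p ⊗ O` -/

section Bridge

variable {N p : ℕ} [hpF : Fact p.Prime] [NeZero N] [NeZero (N * p)] (hpN : ¬ p ∣ N)
  {O : Type} [CommRing O]

/-- **step 1**: a `p`-new vector is killed by `β_p ⊗ O`. -/
theorem betaP_baseChange_eq_zero_of_mem_KNew (y : O ⊗[ℤ] Lam (N * p)) (hy : y ∈ KNew hpN O) :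
    (betaP ℤ hpN).toIntLinearMap.baseChange O y = 0 := by
  obtain ⟨h1, h2⟩ := (mem_KNew hpN).1 hy
  have key : ∀ z : O ⊗[ℤ] Lam (N * p),
      TensorProduct.prodRight ℤ ℤ O (Lam N) (Lam N)
        ((betaP ℤ hpN).toIntLinearMap.baseChange O z) = (bp1O hpN O z, bp2O hpN O z) := by
    intro z
    induction z using TensorProduct.induction_on with
    | zero => simp only [_root_.map_zero]; rfl
    | tmul a x =>
      rw [LinearMap.baseChange_tmul]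
      unfold bp1O bp2O
      rw [LinearMap.baseChange_tmul, LinearMap.baseChange_tmul]
      exact TensorProduct.prodRight_tmul ℤ ℤ O (Lam N) (Lam N) a (betaP ℤ hpN x)
    | add z₁ z₂ e₁ e₂ => simp only [map_add, e₁, e₂, Prod.mk_add_mk]
  apply (TensorProduct.prodRight ℤ ℤ O (Lam N) (Lam N)).injective
  rw [key, h1, h2, _root_.map_zero]
  rfl

end Bridge

/-! ### the bundle -/

section Bundle

variable {p : ℕ} [hpF : Fact p.Prime] {W : WeierstrassCurve ℤ}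
  {hcard₁ : Nat.card (Submodule.torsionBy ℤ
    ((W.map (Int.castRingHom ℚ))⁄(AlgebraicClosure ℚ)).Point p) = p ^ 2}
  {hker : GaloisFactorsThroughFiniteLevel
    (galoisRepModuleEnd (K := AlgebraicClosure ℚ) ℚ (W.map (Int.castRingHom ℚ)) p)}
  {M₀ A : ℕ} [NeZero M₀] [NeZero (M₀ * p)] (P : Pkg p W hcard₁ hker (M₀ * p) A)

/-- **steps 2–4 at a bundle**: `NonOccAt` at `p` for the anemic system of `χ`, from ONE nonzero
anemic eigenvector killed by `β_p ⊗ O` (`FullLamSOa.nonOccAt_p_of_not_resMod` with its step 1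
replaced by the hypothesis `hβ`). -/
theorem nonOccAt_p_of_betaP (hpM₀ : ¬ p ∣ M₀) (hsq : Squarefree (M₀ * p)) (hSu : P.Su = ∅)
    (χ : heckeAlgebra (M₀ * p) 2 (↑P.S0 : Set ℕ) →+* P.O)
    (hχ : ∀ t : heckeAlgebra (M₀ * p) 2 (↑P.S0 : Set ℕ), residue P.O (χ t) = P.theta t)
    (y : P.O ⊗[ℤ] Lam (M₀ * p)) (hy0 : y ≠ 0)
    (hβ : (betaP ℤ hpM₀).toIntLinearMap.baseChange P.O y = 0)
    (hy : ∀ l : Nat.Primes, ¬ (l : ℕ) ∣ M₀ * p → (l : ℕ) ∉ (↑P.S0 : Set ℕ) →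
      (latT (M₀ * p) l).baseChange P.O y = lamP χ l • y) :
    ∃ (ε : P.O) (y₁ : P.O ⊗[ℤ] Lam (M₀ * p)), ε ^ 2 = 1 ∧ y₁ ≠ 0 ∧
      (latT (M₀ * p) (⟨p, hpF.out⟩ : Nat.Primes)).baseChange P.O y₁ = ε • y₁ ∧
      (∀ l : Nat.Primes, ¬ (l : ℕ) ∣ M₀ * p → (l : ℕ) ∉ (↑P.S0 : Set ℕ) →
        (latT (M₀ * p) l).baseChange P.O y₁ = lamP χ l • y₁) ∧
      NonOccAt P.O P.S0 (⟨p, hpF.out⟩ : Nat.Primes) (lamP χ) := by
  classical
  have hp : p.Prime := hpF.out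
  haveI : Module.Flat ℤ P.O := inferInstance
  have hpS0 : p ∈ P.S0 := Fermat.Agent.GE8.MinDatum.hpS0' P
  have hNS : ∀ q : ℕ, q.Prime → q ∣ M₀ * p → q ∈ P.S0 := Fermat.Agent.GE8.MinDatum.hNS0 P
  set pp : Nat.Primes := ⟨p, hp⟩ with hpp
  -- step 2
  obtain ⟨ε, y₁, hε, hy₁0, hU, hy₁⟩ := exists_sign_eigen hpM₀ P.O y hy0 hβ
  -- `y₁` is anemic
  have hy₁a : ∀ l : Nat.Primes, ¬ (l : ℕ) ∣ M₀ * p → (l : ℕ) ∉ (↑P.S0 : Set ℕ) →
      (latT (M₀ * p) l).baseChange P.O y₁ = lamP χ l • y₁ := by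
    intro l hlM hlS
    rcases hy₁ with h | h
    · rw [h]
      exact hy l hlM hlS
    · have hcomm : (latT (M₀ * p) l).baseChange P.O ((latT (M₀ * p) pp).baseChange P.O y)
          = (latT (M₀ * p) pp).baseChange P.O ((latT (M₀ * p) l).baseChange P.O y) := by
        rw [← LinearMap.comp_apply, ← LinearMap.comp_apply, ← LinearMap.baseChange_comp,
          ← LinearMap.baseChange_comp]
        have hc : latT (M₀ * p) l ∘ₗ latT (M₀ * p) pp = latT (M₀ * p) pp ∘ₗ latT (M₀ * p) l :=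
          (latT_commute (M₀ * p) l pp).eq
        rw [hc]
      rw [h, map_add, hcomm, hy l hlM hlS, map_smul, smul_add]
  refine ⟨ε, y₁, hε, hy₁0, hU, hy₁a, ?_⟩
  -- step 3: the FIRST call of `exists_full_system`
  set B' : Finset ℕ := P.S0.erase p with hB'
  set lam₀' : Nat.Primes → P.O := Function.update (lamP χ) pp ε with hlam₀'
  have hne_pp : ∀ l : Nat.Primes, (l : ℕ) ≠ p → l ≠ pp := fun l hl h => hl (by rw [h])
  have hnotB' : ∀ l : Nat.Primes, (l : ℕ) ∉ B' → (l : ℕ) ≠ p → (l : ℕ) ∉ P.S0 := by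
    intro l hl hlp hlS
    exact hl (Finset.mem_erase.mpr ⟨hlp, hlS⟩)
  have htype : ∀ b : Nat.Primes, (b : ℕ) ∈ B' →
      ¬ (b : ℕ) ∣ M₀ * p ∨ ((b : ℕ) ∣ M₀ * p ∧ ¬ (b : ℕ) ^ 2 ∣ M₀ * p ∧
        NonOccAt P.O B' b lam₀') := by
    intro b hb
    have hbp : (b : ℕ) ≠ p := (Finset.mem_erase.mp hb).1
    by_cases hbM : (b : ℕ) ∣ M₀ * p
    · refine Or.inr ⟨hbM, Fermat.Agent.GE8.MinDatum.not_sq_dvd_of_squarefree hsq b.2, ?_⟩
      refine nonOccAt_of_min_ne P hSu B' lam₀' (fun l hlB _ hlp => ?_) b hbM hbp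
      rw [hlam₀', Function.update_of_ne (hne_pp l hlp)]
      exact lamP_congr P χ hχ l (hnotB' l hlB hlp)
    · exact Or.inl hbM
  obtain ⟨lam₁, hlam₁, hfull₁⟩ := exists_full_system (N := M₀ * p) (O := P.O) B' lam₀' htype
  have hppB' : (pp : ℕ) ∉ B' := fun h => (Finset.mem_erase.mp h).1 rfl
  have hy₁full : ∀ l : Nat.Primes, (latT (M₀ * p) l).baseChange P.O y₁ = lam₁ l • y₁ := by
    refine hfull₁ y₁ (fun l hl => ?_)
    by_cases hlp : (l : ℕ) = p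
    · have hl' : l = pp := Subtype.ext hlp
      rw [hl', hlam₀', Function.update_self]
      exact hU
    · have hlS : (l : ℕ) ∉ P.S0 := hnotB' l hl hlp
      have hlS' : (l : ℕ) ∉ (↑P.S0 : Set ℕ) := fun h => hlS (Finset.mem_coe.mp h)
      have hlM : ¬ (l : ℕ) ∣ M₀ * p := fun h => hlS (hNS l l.2 h)
      rw [hlam₀', Function.update_of_ne (hne_pp l hlp)]
      exact hy₁a l hlM hlS'
  have hu : lam₁ pp ^ 2 = 1 := by
    rw [hlam₁ pp hppB', hlam₀', Function.update_self]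
    exact hε
  -- step 4
  refine nonOccAt_of_sq_eq_one hp rfl hpM₀ P.S0 lam₁ y₁ hy₁0 hy₁full hu (lamP χ) (fun l hl => ?_)
  have hlp : (l : ℕ) ≠ p := fun h => hl (h ▸ hpS0)
  have hlB' : (l : ℕ) ∉ B' := fun h => hl (Finset.mem_of_mem_erase h)
  rw [hlam₁ l hlB', hlam₀', Function.update_of_ne (hne_pp l hlp)]

/-- **the full eigensystem at a minimal level `M₀ p`, `p ∥ M₀ p`, from ONE nonzero anemic
`χ`-eigenvector killed by `β_p ⊗ O`**: `lam` extends `χ`, every anemic eigenvector for `lam` is a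
full eigenvector, `lam p ^ 2 = 1`, and there is a nonzero full eigenvector. -/
theorem exists_full_lam_of_betaP (hpM₀ : ¬ p ∣ M₀) (hsq : Squarefree (M₀ * p)) (hSu : P.Su = ∅)
    (χ : heckeAlgebra (M₀ * p) 2 (↑P.S0 : Set ℕ) →+* P.O)
    (hχ : ∀ t : heckeAlgebra (M₀ * p) 2 (↑P.S0 : Set ℕ), residue P.O (χ t) = P.theta t)
    (y : P.O ⊗[ℤ] Lam (M₀ * p)) (hy0 : y ≠ 0)
    (hβ : (betaP ℤ hpM₀).toIntLinearMap.baseChange P.O y = 0)
    (hy : ∀ l : Nat.Primes, ¬ (l : ℕ) ∣ M₀ * p → (l : ℕ) ∉ (↑P.S0 : Set ℕ) →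
      (latT (M₀ * p) l).baseChange P.O y = lamP χ l • y) :
    ∃ lam : Nat.Primes → P.O,
      (∀ (ℓ : ℕ) (hℓ : ℓ.Prime) (hℓM : ¬ ℓ ∣ M₀ * p) (hℓS : ℓ ∉ (↑P.S0 : Set ℕ)),
        χ (heckeAlgebra.T hℓ hℓM hℓS) = lam (⟨ℓ, hℓ⟩ : Nat.Primes)) ∧
      (∀ x : P.O ⊗[ℤ] Lam (M₀ * p),
        (∀ l : Nat.Primes, ¬ (l : ℕ) ∣ M₀ * p → (l : ℕ) ∉ (↑P.S0 : Set ℕ) →
          (latT (M₀ * p) l).baseChange P.O x = lam l • x) →
        ∀ l : Nat.Primes, (latT (M₀ * p) l).baseChange P.O x = lam l • x) ∧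
      lam (⟨p, hpF.out⟩ : Nat.Primes) ^ 2 = 1 ∧
      ∃ y₁ : P.O ⊗[ℤ] Lam (M₀ * p), y₁ ≠ 0 ∧
        ∀ l : Nat.Primes, (latT (M₀ * p) l).baseChange P.O y₁ = lam l • y₁ := by
  have hp : p.Prime := hpF.out
  obtain ⟨ε, y₁, hε, hy₁0, hU, hy₁a, hnoP⟩ :=
    nonOccAt_p_of_betaP P hpM₀ hsq hSu χ hχ y hy0 hβ hy
  -- step 5: the SECOND call
  obtain ⟨lam, hlamχ, hfull⟩ := exists_full_lam_of_hno P hsq χ (fun b hbM => by
    by_cases hbp : (b : ℕ) = p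
    · have hb : b = (⟨p, hp⟩ : Nat.Primes) := Subtype.ext hbp
      rw [hb]
      exact hnoP
    · exact nonOccAt_of_min_ne P hSu P.S0 (lamP χ)
        (fun l hlS _ _ => lamP_congr P χ hχ l hlS) b hbM hbp)
  -- `y₁` is a full eigenvector for `lam`
  have hy₁l : ∀ l : Nat.Primes, ¬ (l : ℕ) ∣ M₀ * p → (l : ℕ) ∉ (↑P.S0 : Set ℕ) →
      (latT (M₀ * p) l).baseChange P.O y₁ = lam l • y₁ := by
    intro l hlM hlS
    have e : lamP χ l = lam l := (lamP_eq χ l.2 hlM hlS).trans (hlamχ l l.2 hlM hlS)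
    rw [hy₁a l hlM hlS, e]
  have hy₁f := hfull y₁ hy₁l
  refine ⟨lam, hlamχ, hfull, ?_, y₁, hy₁0, hy₁f⟩
  -- `lam p = ε`
  have h1 := hy₁f (⟨p, hp⟩ : Nat.Primes)
  rw [hU] at h1
  have hfree : Module.Free ℤ (Lam (M₀ * p)) :=
    Fermat.Agent.GJ.J2.ZStruct.free_parabolicHoms_int (M₀ * p)
  haveI : Module.Free P.O (P.O ⊗[ℤ] Lam (M₀ * p)) := inferInstance
  have h2 : ε = lam (⟨p, hp⟩ : Nat.Primes) := smul_left_injective P.O hy₁0 h1
  rw [← h2]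
  exact hε

/-- **(B-i)(b): the full eigensystem of a `p`-new anemic eigenvector at a minimal level `M₀ p`,
`p ∥ M₀ p`** (SO(b) twin of `FullLamSOa.exists_full_lam_SOa`; the `p`-newness `hyK` of `y` replaces
the hypothesis "`W` is not residually modular of level `M₀`").  Moreover the full eigenspace of
`lam` is `p`-new and nonzero. -/
theorem exists_full_lam_pnew (hpM₀ : ¬ p ∣ M₀) (hsq : Squarefree (M₀ * p)) (hSu : P.Su = ∅)
    (χ : heckeAlgebra (M₀ * p) 2 (↑P.S0 : Set ℕ) →+* P.O)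
    (hχ : ∀ t : heckeAlgebra (M₀ * p) 2 (↑P.S0 : Set ℕ), residue P.O (χ t) = P.theta t)
    (y : P.O ⊗[ℤ] Lam (M₀ * p)) (hy0 : y ≠ 0) (hyK : y ∈ KNew hpM₀ P.O)
    (hy : ∀ l : Nat.Primes, ¬ (l : ℕ) ∣ M₀ * p → (l : ℕ) ∉ (↑P.S0 : Set ℕ) →
      (latT (M₀ * p) l).baseChange P.O y = lamP χ l • y) :
    ∃ lam : Nat.Primes → P.O,
      (∀ (ℓ : ℕ) (hℓ : ℓ.Prime) (hℓM : ¬ ℓ ∣ M₀ * p) (hℓS : ℓ ∉ (↑P.S0 : Set ℕ)),
        χ (heckeAlgebra.T hℓ hℓM hℓS) = lam (⟨ℓ, hℓ⟩ : Nat.Primes)) ∧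
      (∀ x : P.O ⊗[ℤ] Lam (M₀ * p),
        (∀ l : Nat.Primes, ¬ (l : ℕ) ∣ M₀ * p → (l : ℕ) ∉ (↑P.S0 : Set ℕ) →
          (latT (M₀ * p) l).baseChange P.O x = lam l • x) →
        ∀ l : Nat.Primes, (latT (M₀ * p) l).baseChange P.O x = lam l • x) ∧
      lam (⟨p, hpF.out⟩ : Nat.Primes) ^ 2 = 1 ∧
      eigenTensorO (M₀ * p) P.O lam ≤ KNew hpM₀ P.O ∧
      ∃ y₁ : P.O ⊗[ℤ] Lam (M₀ * p), y₁ ≠ 0 ∧ y₁ ∈ eigenTensorO (M₀ * p) P.O lam := by
  obtain ⟨lam, hlamχ, hfull, hu, y₁, hy₁0, hy₁f⟩ :=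
    exists_full_lam_of_betaP P hpM₀ hsq hSu χ hχ y hy0
      (betaP_baseChange_eq_zero_of_mem_KNew hpM₀ y hyK) hy
  exact ⟨lam, hlamχ, hfull, hu,
    Fermat.Agent.GE9.PNew.Inst.EigenNew.eigenTensorO_le_KNew hpM₀ lam hu,
    y₁, hy₁0, mem_eigenTensorO.2 hy₁f⟩

/-- **(B-i)(a)+(b) assembled**: an eigencharacter `χg` lifting `θ̄` which kills the annihilator of
the `p`-new lattice `LamNew hpM₀` has a FULL eigensystem `lam` with `lam p ^ 2 = 1`, whose full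
eigenspace in `P.O ⊗ Lam (M₀ p)` is `p`-new and nonzero. -/
theorem exists_full_lam_pnew_of_kills (hpM₀ : ¬ p ∣ M₀) (hsq : Squarefree (M₀ * p))
    (hSu : P.Su = ∅)
    (χg : heckeAlgebra (M₀ * p) 2 (↑P.S0 : Set ℕ) →+* P.O)
    (hχ : ∀ t : heckeAlgebra (M₀ * p) 2 (↑P.S0 : Set ℕ), residue P.O (χg t) = P.theta t)
    (hkill : ∀ t : heckeAlgebra (M₀ * p) 2 (↑P.S0 : Set ℕ),
      (∀ x ∈ (LamNew hpM₀ : AddSubgroup (Lam (M₀ * p))),
        latAct (M₀ * p) (↑P.S0 : Set ℕ) t x = 0) → χg t = 0) :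
    ∃ lam : Nat.Primes → P.O,
      (∀ (ℓ : ℕ) (hℓ : ℓ.Prime) (hℓM : ¬ ℓ ∣ M₀ * p) (hℓS : ℓ ∉ (↑P.S0 : Set ℕ)),
        χg (heckeAlgebra.T hℓ hℓM hℓS) = lam (⟨ℓ, hℓ⟩ : Nat.Primes)) ∧
      (∀ x : P.O ⊗[ℤ] Lam (M₀ * p),
        (∀ l : Nat.Primes, ¬ (l : ℕ) ∣ M₀ * p → (l : ℕ) ∉ (↑P.S0 : Set ℕ) →
          (latT (M₀ * p) l).baseChange P.O x = lam l • x) →
        ∀ l : Nat.Primes, (latT (M₀ * p) l).baseChange P.O x = lam l • x) ∧
      lam (⟨p, hpF.out⟩ : Nat.Primes) ^ 2 = 1 ∧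
      eigenTensorO (M₀ * p) P.O lam ≤ KNew hpM₀ P.O ∧
      ∃ y₁ : P.O ⊗[ℤ] Lam (M₀ * p), y₁ ≠ 0 ∧ y₁ ∈ eigenTensorO (M₀ * p) P.O lam := by
  obtain ⟨y, hy0, hyK, -, hyT⟩ :=
    Fermat.Agent.GE9.PNew.Point.exists_ne_zero_anemic_new_pkg hpM₀ P χg hkill
  refine exists_full_lam_pnew P hpM₀ hsq hSu χg hχ y hy0 hyK (fun l hlM hlS => ?_)
  rw [show lamP χg l = χg (heckeAlgebra.T l.2 hlM hlS) from lamP_eq χg l.2 hlM hlS]
  exact hyT l l.2 hlM hlS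

end Bundle

end Fermat.Agent.GE.Engine.FullLamPNew
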