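/-
GATE-E / GE-ENGINE-ASM, RISK-4 (B-iii), layer 2 (helper60; assignment helper80 board 7985 / 8040):
**the body of `SObInst.BaseSObStmt` at a bundle**, from ONE binder — the record on the `p`-new level
at every Taylor–Wiles set (`NodeNew.NewRecordStmt` at helper15's fixed base maps, helper55 board 8056).

`P` a bundle of the level `M p` (`p ∤ M`, `M p` squarefree, `P.Su = ∅`), `χg` a `p`-new modular point
(it lifts `θ̄` and kills the annihilator of `LamNew`).  Then there is a full eigensystem `lam`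
extending `χg` with `lam p ^ 2 = 1`, `EtaStageNew hpM P.O lam 2` and
`BaseSupplySOb P χg (omegaCardNew hpM P.O lam) 2`.

Suppliers (all landed):
* `(lam, hlamχ, hu, y₁)` : helper32 `FullLamPNew.exists_full_lam_pnew_of_kills`;
* carrier `T' := ImageRing.TQ P.O P.theta (twK …)` on the `Lam`-model `↥(KLoc hpM (Zof P) lam)`,
  `π' := chi`, `πO' := pointK`, `hgen`, `hann`, `hη`, generators `gK` : helper3 `KStageTQ`;
* the `Hom`-model `(f1, f2)` with `hf0` : helper15 `G1/PairBase`, helper4 `Hf0Pkg`;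
* the comparison `eK` : helper19 `BaseKer/EquivKPkg.exists_eK_pkg`;
* `hbad` : `FullLamSOa.nonOccAt_of_min_ne` (`ρ̄` ramified at the primes `≠ p` of the level);
* the node : helper55 `NodeNew.newSideStmt_of_recordStmt` with the module structure transported along
  `eK` (helper57 `TransportMod`), `t₀ := tNatB chi`, and the base compatibility `hbase₀`
  proved HERE from the equivariance clause of `eK`;
* the assembly : `BaseSOb.baseSupplySOb_of_node` (layer 1).
-/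
import Mathlib
import Fermat.Agent.GE.Engine.BaseSOb
import Fermat.Agent.GE.Engine.FullLamPNew
import Fermat.Agent.GE9.PNew.Inst.KStageTQ
import Fermat.Agent.GE8.RaiseP.Hf0Pkg
import Fermat.Agent.GE8.RaiseP.BaseKer.EquivKPkg
import Fermat.Agent.GE8.RaiseP.NodeNew

set_option autoImplicit false
set_option linter.unusedSectionVars false
set_option linter.unusedVariables false
set_option linter.style.haveILetI false
set_option maxSynthPendingDepth 3

open scoped TensorProduct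
open WeierstrassCurve WeierstrassCurve.Affine.Point IsLocalRing CuspForm Polynomial
open scoped WeierstrassCurve.Affine

namespace Fermat.Agent.GE.Engine.BaseSObPkg

open Fermat.Agent.GB.Setup.RhoBar Fermat.Agent.GB.Setup.SetupPkg
  Fermat.Agent.GB.B4.Datum.Carrier Fermat.Agent.GB.B4.Datum.HeckeCarrier
  Fermat.Agent.GB.B4.Datum.ImageRing
  Fermat.Agent.GE.Graph Fermat.Agent.GE9.Ind Fermat.Agent.GE9.NumCrit
  Fermat.Agent.GE9.NumCrit.ModForm Fermat.Agent.GE9.Asm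
open Fermat.Agent.GJ.J2.Lat Fermat.Agent.GJ.J2.LatAct
open Fermat.Agent.GE9.Mult1
open Fermat.Agent.GE9.Eta Fermat.Agent.GE9.Eta.Mod Fermat.Agent.GE9.Eta.Base
open Fermat.Agent.GE9.PNew.CarrierExp
open Fermat.Agent.GE9.PNew.Inst Fermat.Agent.GE9.PNew.Inst.BaseNewFields
  Fermat.Agent.GE9.PNew.Inst.KStageTQ
open Fermat.Agent.GE9.OldQ.Consumer
open Fermat.Agent.GK.AL
open Fermat.Agent.GB.B10.KumLevelHecke Fermat.Agent.GB.B10.L.ThetaNew
open Fermat.Agent.GE6.Inst.FreeLevelInst Fermat.Agent.GE6.Inst.BaseTPkg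
open Fermat.Agent.GE8.RaiseP.BaseB Fermat.Agent.GE8.RaiseP.NodeNew
open Fermat.Agent.GE8.RaiseP.G1.PairBase Fermat.Agent.GE8.RaiseP.Hf0Pair
  Fermat.Agent.GE8.RaiseP.Hf0Pkg Fermat.Agent.GE8.RaiseP.BaseKer.EquivKPkg
open Fermat.Agent.GE8.RaiseP.TransportMod
open Fermat.Agent.GE.Engine Fermat.Agent.GE.Engine.BaseSOb

variable {p : ℕ} [hpF : Fact p.Prime] {W : WeierstrassCurve ℤ}
  {hcard₁ : Nat.card (Submodule.torsionBy ℤ
    ((W.map (Int.castRingHom ℚ))⁄(AlgebraicClosure ℚ)).Point p) = p ^ 2}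
  {hker : GaloisFactorsThroughFiniteLevel
    (galoisRepModuleEnd (K := AlgebraicClosure ℚ) ℚ (W.map (Int.castRingHom ℚ)) p)}
  {M A : ℕ} (P : Pkg p W hcard₁ hker (M * p) A) [NeZero M] [NeZero (M * p)]

/-- the `ℕ`-indexed Hecke elements `t ℓ = tw' (T_ℓ)` (`0` at the bad `ℓ`); a local copy of
`GE8/RaiseP/RecordNew.tNat` (that file is not imported: it sits above the heavy `UnitTwE`). -/
noncomputable def tNatB {N : ℕ} [NeZero N] {S : Finset ℕ} {T' : Type} [CommRing T']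
    (tw' : heckeAlgebra N 2 (↑S : Set ℕ) →+* T') (ℓ : ℕ) : T' :=
  open Classical in
  if h : ℓ.Prime ∧ ¬ ℓ ∣ N ∧ ℓ ∉ (↑S : Set ℕ) then tw' (heckeAlgebra.T h.1 h.2.1 h.2.2) else 0

theorem tNatB_eq {N : ℕ} [NeZero N] {S : Finset ℕ} {T' : Type} [CommRing T']
    (tw' : heckeAlgebra N 2 (↑S : Set ℕ) →+* T') {ℓ : ℕ} (hℓ : ℓ.Prime)
    (hℓN : ¬ ℓ ∣ N) (hℓS : ℓ ∉ (↑S : Set ℕ)) :
    tNatB tw' ℓ = tw' (heckeAlgebra.T hℓ hℓN hℓS) := dif_pos ⟨hℓ, hℓN, hℓS⟩

/-- the good Hecke operators preserve the kernel of helper15's fixed pair. -/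
theorem actBF_mem_ker (hpM : ¬ p ∣ M) (t : MvPolynomial (I0 W p (M * p)) P.O)
    (y : ↥(LinearMap.ker
      ((f1 P.O (pr0 W p (M * p)) (pr0_prime W p (M * p)) p (pr0_ne_p (M * p)) M hpM (lam0 P)).prod
        (f2 P.O (pr0 W p (M * p)) (pr0_prime W p (M * p)) p (pr0_ne_p (M * p)) M hpM (lam0 P))))) :
    actBF P.O (pr0 W p (M * p)) (pr0_prime W p (M * p)) p M (lam0 P) t
        (y : baseF P.O (pr0 W p (M * p)) (pr0_prime W p (M * p)) p M (lam0 P))
      ∈ LinearMap.ker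
        ((f1 P.O (pr0 W p (M * p)) (pr0_prime W p (M * p)) p (pr0_ne_p (M * p)) M hpM (lam0 P)).prod
          (f2 P.O (pr0 W p (M * p)) (pr0_prime W p (M * p)) p (pr0_ne_p (M * p)) M hpM
            (lam0 P))) := by
  have hy := y.2
  rw [LinearMap.mem_ker] at hy ⊢
  have hy1 := congrArg Prod.fst hy
  have hy2 := congrArg Prod.snd hy
  rw [LinearMap.prod_apply] at hy1 hy2
  refine Prod.ext ?_ ?_
  · show f1 P.O (pr0 W p (M * p)) (pr0_prime W p (M * p)) p (pr0_ne_p (M * p)) M hpM (lam0 P)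
      (actBF P.O (pr0 W p (M * p)) (pr0_prime W p (M * p)) p M (lam0 P) t
        (y : baseF P.O (pr0 W p (M * p)) (pr0_prime W p (M * p)) p M (lam0 P))) = 0
    rw [f1_act]
    exact (congrArg _ hy1).trans (map_zero _)
  · show f2 P.O (pr0 W p (M * p)) (pr0_prime W p (M * p)) p (pr0_ne_p (M * p)) M hpM (lam0 P)
      (actBF P.O (pr0 W p (M * p)) (pr0_prime W p (M * p)) p M (lam0 P) t
        (y : baseF P.O (pr0 W p (M * p)) (pr0_prime W p (M * p)) p M (lam0 P))) = 0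
    rw [f2_act]
    exact (congrArg _ hy2).trans (map_zero _)

/-- **(B-iii), layer 2: the body of `BaseSObStmt` at a bundle**, from the record on the `p`-new level
at every Taylor–Wiles set. -/
theorem baseSOb_of_record (hss : W.IsSemistableModel) (hmult : (p : ℤ) ∣ W.Δ)
    (hpM : ¬ p ∣ M) (hsq : Squarefree (M * p)) (hSu : P.Su = ∅)
    (χg : heckeAlgebra (M * p) 2 (↑P.S0 : Set ℕ) →+* P.O)
    (hχg : ∀ t : heckeAlgebra (M * p) 2 (↑P.S0 : Set ℕ), residue P.O (χg t) = P.theta t)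
    (hkill : ∀ t : heckeAlgebra (M * p) 2 (↑P.S0 : Set ℕ),
      (∀ x ∈ (LamNew hpM : AddSubgroup (Lam (M * p))),
        latAct (M * p) (↑P.S0 : Set ℕ) t x = 0) → χg t = 0)
    (hrec : Nontrivial ↥(LinearMap.ker
        ((f1 P.O (pr0 W p (M * p)) (pr0_prime W p (M * p)) p (pr0_ne_p (M * p)) M hpM
            (lam0 P)).prod
          (f2 P.O (pr0 W p (M * p)) (pr0_prime W p (M * p)) p (pr0_ne_p (M * p)) M hpM
            (lam0 P)))) →
      ∀ (D : GaloisRep.DeformationRingData P.O P.rhobar (condSO P.O p P.Smin ∅))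
      {T' : Type} [CommRing T']
      [Module T' ↥(LinearMap.ker
        ((f1 P.O (pr0 W p (M * p)) (pr0_prime W p (M * p)) p (pr0_ne_p (M * p)) M hpM
            (lam0 P)).prod
          (f2 P.O (pr0 W p (M * p)) (pr0_prime W p (M * p)) p (pr0_ne_p (M * p)) M hpM
            (lam0 P))))]
      (t₀ : ℕ → T'),
      (∀ (s : I0 W p (M * p)) (y : ↥(LinearMap.ker
          ((f1 P.O (pr0 W p (M * p)) (pr0_prime W p (M * p)) p (pr0_ne_p (M * p)) M hpM
              (lam0 P)).prod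
            (f2 P.O (pr0 W p (M * p)) (pr0_prime W p (M * p)) p (pr0_ne_p (M * p)) M hpM
              (lam0 P))))),
        actBF P.O (pr0 W p (M * p)) (pr0_prime W p (M * p)) p M (lam0 P) (MvPolynomial.X s)
            (y : baseF P.O (pr0 W p (M * p)) (pr0_prime W p (M * p)) p M (lam0 P))
          = ((t₀ (pr0 W p (M * p) s) • y : ↥(LinearMap.ker _)) :
              baseF P.O (pr0 W p (M * p)) (pr0_prime W p (M * p)) p M (lam0 P))) →
      NewRecordStmt p (Fact.out : p.Prime) P.hpO P.S0 (condSO P.O p P.Smin) D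
        (baseF P.O (pr0 W p (M * p)) (pr0_prime W p (M * p)) p M (lam0 P))
        (baseG P.O (pr0 W p (M * p)) (pr0_prime W p (M * p)) M (lam0 P))
        (f1 P.O (pr0 W p (M * p)) (pr0_prime W p (M * p)) p (pr0_ne_p (M * p)) M hpM (lam0 P))
        (f2 P.O (pr0 W p (M * p)) (pr0_prime W p (M * p)) p (pr0_ne_p (M * p)) M hpM (lam0 P))
        (surjective_f1_f2_pkg P hpM hsq) t₀) :
    ∃ lam : Nat.Primes → P.O,
      (∀ (ℓ : ℕ) (hℓ : ℓ.Prime) (hℓM : ¬ ℓ ∣ M * p) (hℓS : ℓ ∉ (↑P.S0 : Set ℕ)),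
        χg (heckeAlgebra.T hℓ hℓM hℓS) = lam (⟨ℓ, hℓ⟩ : Nat.Primes)) ∧
      lam (⟨p, Fact.out⟩ : Nat.Primes) ^ 2 = 1 ∧
      EtaStageNew hpM P.O lam 2 ∧
      BaseSupplySOb P χg (omegaCardNew hpM P.O lam) 2 := by
  classical
  have hp : p.Prime := Fact.out
  obtain ⟨lam, hlamχ, hfull, hu, hle, y₁, hy₁0, hy₁⟩ :=
    Fermat.Agent.GE.Engine.FullLamPNew.exists_full_lam_pnew_of_kills P hpM hsq hSu χg hχg hkill
  refine ⟨lam, hlamχ, hu, ?_⟩
  -- the sets of primes
  have hMS : ∀ r : ℕ, r.Prime → r ∣ M * p → r ∈ (↑P.S0 : Set ℕ) :=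
    fun r hr h => Finset.mem_coe.mpr (Fermat.Agent.GE8.MinDatum.hNS0 P r hr h)
  have hZS : ∀ l : ℕ, l.Prime → l ∉ (↑P.S0 : Set ℕ) → l ∈ Zof P := fun l _ h => h
  have hr : BetaPEquiv hpM (Zof P) :=
    betaPEquiv_of_good hpM (fun l hl h => hl (hMS l l.2 h))
  have hxK : y₁ ∈ KNew hpM P.O := hle hy₁
  -- the carrier of the stage module
  haveI hloc : Fact (LocHyp P.O P.theta (twK hpM hZS hr lam)) :=
    ⟨locHyp_twK_of_chi hpM hMS hZS hr P.theta hy₁ hy₁0 χg hlamχ hχg⟩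
  haveI : Module.Finite P.O ↥(KLoc hpM (Zof P) lam) := finite_KLoc hpM (Zof P) lam
  haveI : Module.Free P.O ↥(KLoc hpM (Zof P) lam) := free_KLoc hpM (Zof P) lam
  haveI : Nontrivial ↥(KLoc hpM (Zof P) lam) := nontrivial_KLoc hpM hy₁ hy₁0 hxK
  letI modL : Module (TQ P.O P.theta (twK hpM hZS hr lam)) ↥(KLoc hpM (Zof P) lam) :=
    moduleTQ P.O P.theta (twK hpM hZS hr lam)
  haveI : IsScalarTower P.O (TQ P.O P.theta (twK hpM hZS hr lam)) ↥(KLoc hpM (Zof P) lam) :=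
    isScalarTower_TQ P.O P.theta (twK hpM hZS hr lam)
  -- the `Hom`-model and the comparison
  have hf0 := surjective_f1_f2_pkg P hpM hsq
  obtain ⟨eK, -, heK⟩ := exists_eK_pkg P hpM hsq lam
    (residue_lam_of_point P χg hχg lam hlamχ)
    (f1 P.O (pr0 W p (M * p)) (pr0_prime W p (M * p)) p (pr0_ne_p (M * p)) M hpM (lam0 P))
    (f2 P.O (pr0 W p (M * p)) (pr0_prime W p (M * p)) p (pr0_ne_p (M * p)) M hpM (lam0 P))
    (coe_f1_eq (pr0 W p (M * p)) (pr0_prime W p (M * p)) p (pr0_ne_p (M * p)) M hpM (lam0 P))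
    (coe_f2_eq (pr0 W p (M * p)) (pr0_prime W p (M * p)) p (pr0_ne_p (M * p)) M hpM (lam0 P))
  -- the types of the bad primes `≠ p`
  have hcong : ∀ l : Nat.Primes, (l : ℕ) ∉ P.S0 → W.IsGoodPrimeFor l → (l : ℕ) ≠ p →
      lam l - ((W.apOfModel l : ℤ) : P.O) ∈ IsLocalRing.maximalIdeal P.O := by
    intro l hlS hgood hlp
    have hlS' : (l : ℕ) ∉ (↑P.S0 : Set ℕ) := fun h => hlS (Finset.mem_coe.mp h)
    have hlM : ¬ (l : ℕ) ∣ M * p := (P.good_of_notMem_S0 l.2 hlS').2.1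
    have h1 : lam l = χg (heckeAlgebra.T l.2 hlM hlS') := (hlamχ l l.2 hlM hlS').symm
    rw [← residue_eq_zero_iff, map_sub, map_intCast, sub_eq_zero, h1, hχg,
      P.theta_T l.2 hlM hlS']
  have hbad : ∀ b : Nat.Primes, (b : ℕ) ∈ P.S0 → (b : ℕ) ≠ p →
      ¬ (b : ℕ) ∣ M ∨ ((b : ℕ) ∣ M ∧ ¬ (b : ℕ) ^ 2 ∣ M ∧ NonOccAt P.O P.S0 b lam) := by
    intro b _ hbp
    by_cases hb : (b : ℕ) ∣ M
    · exact Or.inr ⟨hb,
        Fermat.Agent.GE8.MinDatum.not_sq_dvd_of_squarefree (Squarefree.of_mul_left hsq) b.2,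
        Fermat.Agent.GE.Engine.FullLamSOa.nonOccAt_of_min_ne P hSu P.S0 lam hcong b
          (Dvd.dvd.mul_right hb p) hbp⟩
    · exact Or.inl hb
  -- the node
  have hnode : ∀ (D : GaloisRep.DeformationRingData P.O P.rhobar (condSO P.O p P.Smin ∅))
      (φ : D.R →ₐ[P.O] TQ P.O P.theta (twK hpM hZS hr lam))
      (φ_local : IsLocalHom (φ : D.R →+* TQ P.O P.theta (twK hpM hZS hr lam)))
      (ρT' : GaloisRepAdic (TQ P.O P.theta (twK hpM hZS hr lam))),
      Function.Surjective φ →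
      (D.ρ.baseChangeAlong (φ : D.R →+* TQ P.O P.theta (twK hpM hZS hr lam)) φ_local).IsEquiv
        ρT' →
      (∀ (q : ℕ) (hq : q.Prime) (hqN : ¬ q ∣ M * p) (hqS : q ∉ (↑P.S0 : Set ℕ)),
        ∀ B : ValuationSubring (AlgebraicClosure ℚ), B.LiesOverPrime q →
          ∀ σ : AlgebraicClosure ℚ ≃ₐ[ℚ] AlgebraicClosure ℚ, B.IsFrobeniusAt σ q →
            LinearMap.charpoly (ρT'.ρ σ) =
              X ^ 2 - C (chi P.O P.theta (twK hpM hZS hr lam) (heckeAlgebra.T hq hqN hqS)) * X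
                + C ((q : TQ P.O P.theta (twK hpM hZS hr lam)))) →
      letI := modOfEquiv (T := TQ P.O P.theta (twK hpM hZS hr lam)) eK
      NewSideStmt p (Fact.out : p.Prime) P.hpO P.S0 (condSO P.O p P.Smin) D φ
        (baseF P.O (pr0 W p (M * p)) (pr0_prime W p (M * p)) p M (lam0 P))
        (baseG P.O (pr0 W p (M * p)) (pr0_prime W p (M * p)) M (lam0 P))
        (f1 P.O (pr0 W p (M * p)) (pr0_prime W p (M * p)) p (pr0_ne_p (M * p)) M hpM (lam0 P))
        (f2 P.O (pr0 W p (M * p)) (pr0_prime W p (M * p)) p (pr0_ne_p (M * p)) M hpM (lam0 P))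
        hf0 := by
    intro D φ φ_local ρT' hφ he hcp
    letI modK := modOfEquiv (T := TQ P.O P.theta (twK hpM hZS hr lam)) eK
    haveI towK := isScalarTower (T := TQ P.O P.theta (twK hpM hZS hr lam)) eK
    -- faithfulness
    have hfaith : ∀ u : TQ P.O P.theta (twK hpM hZS hr lam),
        (∀ y : ↥(LinearMap.ker
          ((f1 P.O (pr0 W p (M * p)) (pr0_prime W p (M * p)) p (pr0_ne_p (M * p)) M hpM
              (lam0 P)).prod
            (f2 P.O (pr0 W p (M * p)) (pr0_prime W p (M * p)) p (pr0_ne_p (M * p)) M hpM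
              (lam0 P)))), u • y = 0) → u = 0 :=
      fun u hu => faithful (T := TQ P.O P.theta (twK hpM hZS hr lam)) eK
        (fun u' hu' => eq_zero_of_forall_smul_eq_zero P.O P.theta (twK hpM hZS hr lam) u' hu')
        u hu
    -- Eichler–Shimura in the `ℕ`-indexed spelling
    have h0 : ∀ ℓ : ℕ, ℓ.Prime → ℓ ∉ P.S0 →
        ∀ Pℓ : ValuationSubring (AlgebraicClosure ℚ), Pℓ.LiesOverPrime ℓ →
          ∀ σ : AlgebraicClosure ℚ ≃ₐ[ℚ] AlgebraicClosure ℚ, Pℓ.IsFrobeniusAt σ ℓ →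
            LinearMap.charpoly (ρT'.ρ σ) =
              X ^ 2 - C (tNatB (chi P.O P.theta (twK hpM hZS hr lam)) ℓ) * X
                + C ((ℓ : ℕ) : TQ P.O P.theta (twK hpM hZS hr lam)) := by
      intro ℓ hℓ hℓS Pℓ hPℓ σ hσ
      have hℓS' : ℓ ∉ (↑P.S0 : Set ℕ) := fun h => hℓS (Finset.mem_coe.mp h)
      have hℓN : ¬ ℓ ∣ M * p := fun h => hℓS' (hMS ℓ hℓ h)
      rw [tNatB_eq _ hℓ hℓN hℓS']
      exact hcp ℓ hℓ hℓN hℓS' Pℓ hPℓ σ hσ
    -- the base compatibility of the good symbols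
    have hbase₀ : ∀ (s : I0 W p (M * p)) (y : ↥(LinearMap.ker
        ((f1 P.O (pr0 W p (M * p)) (pr0_prime W p (M * p)) p (pr0_ne_p (M * p)) M hpM
            (lam0 P)).prod
          (f2 P.O (pr0 W p (M * p)) (pr0_prime W p (M * p)) p (pr0_ne_p (M * p)) M hpM
            (lam0 P))))),
        actBF P.O (pr0 W p (M * p)) (pr0_prime W p (M * p)) p M (lam0 P) (MvPolynomial.X s)
            (y : baseF P.O (pr0 W p (M * p)) (pr0_prime W p (M * p)) p M (lam0 P))
          = ((tNatB (chi P.O P.theta (twK hpM hZS hr lam)) (pr0 W p (M * p) s) • y :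
              ↥(LinearMap.ker _)) :
              baseF P.O (pr0 W p (M * p)) (pr0_prime W p (M * p)) p M (lam0 P)) := by
      intro s y
      -- the element `z := T_s y` of the kernel
      set z : ↥(LinearMap.ker
          ((f1 P.O (pr0 W p (M * p)) (pr0_prime W p (M * p)) p (pr0_ne_p (M * p)) M hpM
              (lam0 P)).prod
            (f2 P.O (pr0 W p (M * p)) (pr0_prime W p (M * p)) p (pr0_ne_p (M * p)) M hpM
              (lam0 P)))) :=
        ⟨_, actBF_mem_ker P hpM (MvPolynomial.X s) y⟩ with hz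
      have hk : (pr0 W p (M * p) s) ∉ (↑P.S0 : Set ℕ) := pr0_notMem_S0 P s
      have h1 := heK s y z rfl
      have h2 : eK z = tNatB (chi P.O P.theta (twK hpM hZS hr lam)) (pr0 W p (M * p) s) • eK y := by
        apply Subtype.ext
        rw [h1, tNatB_eq (ℓ := pr0 W p (M * p) s) _ (pr0_prime W p (M * p) s) s.2.2.2.1 hk]
        exact (gK_smul hpM hMS hZS hr lam P.theta ⟨⟨s.1, s.2.1⟩, hk⟩ (eK y)).symm
      have h3 : z = tNatB (chi P.O P.theta (twK hpM hZS hr lam)) (pr0 W p (M * p) s) • y := by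
        rw [smul_def, ← h2, LinearEquiv.symm_apply_apply]
      rw [← h3]
    exact newSideStmt_of_recordStmt hp P.hpO P.S0 (condSO P.O p P.Smin)
      (fun Sig => Fermat.Agent.GB.Def.Cond.isDeformationCondition_SO P.O p P.hp2
        (P.Smin ∪ Sig) P.Smin)
      D φ inferInstance residue_comp_algebraMap_surjective φ_local ρT' he P.S0
      (tNatB (chi P.O P.theta (twK hpM hZS hr lam))) h0 _ _ hf0 hfaith
      (hrec eK.toEquiv.nontrivial D (tNatB (chi P.O P.theta (twK hpM hZS hr lam))) hbase₀)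
  -- the assembly (layer 1)
  have hmain := baseSupplySOb_of_node P hss hmult hpM hsq hSu χg hχg
    (T' := TQ P.O P.theta (twK hpM hZS hr lam))
    (chi P.O P.theta (twK hpM hZS hr lam)) (pointK hpM hZS hr P.theta hy₁ hy₁0 hxK)
    (adjoin_range_chi P.O P.theta (twK hpM hZS hr lam))
    (fun h hpS hNS => hann_KLoc hpM hr lam hpS hNS hZS P.theta)
    (fun t => by rw [pointK_chi, chiK_eq_of_T hMS hy₁ hy₁0 χg hlamχ])
    (etaIdeal_pointK_ne_bot hpM hMS hZS hr P.theta hy₁ hy₁0 hxK)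
    (Zof P) lam hr (gK hpM hMS hZS hr lam P.theta) (adjoin_gK hpM hMS hZS hr lam P.theta)
    (fun k => k.1) (fun k => k.2) (gK_smul hpM hMS hZS hr lam P.theta)
    (pointK_gK hpM hMS hZS hr P.theta hy₁ hy₁0 hxK) P.S0
    (fun l hl => ⟨⟨l, fun h => hl (Finset.mem_coe.mp h)⟩, rfl⟩)
    y₁ hy₁0 (fun l => mem_eigenTensorO.mp hy₁ l) hu hbad _ _ hf0 eK hnode
  exact ⟨hmain.2, hmain.1⟩

end Fermat.Agent.GE.Engine.BaseSObPkg
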