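/-
GATE-E / GE-ENGINE-ASM (helper54): **the flat Hecke side from E6's node statement alone** (`p ≠ 3`).

`Top.HeckeFLStmt p`  ⟸  `StepPlug.BaseFLStmt p` (`StepPlug.heckeFLStmt_of_base`, every step of the
induction over `Σ` closed)  ⟸  helper64's `BaseFL.baseInput_of_node` (the base record on the module
of record `LTP P` from `Wire.e6_FL` + helper2's `Primary.primary_fields_locSub`)  +
`FullLam.exists_full_lam` (the full eigensystem, chosen from `χ` alone)  +  **`NodeFLStmt p hp3`** =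
E6's node statement `Wire.NodeStmt` in helper12's shape (board 7876: the node carries the context
`D H hπ φ hφ hloc hρ` of `Base.exists_base_of_datum` and an `eL : Mbase P ≃ₗ LTP P` compatible with
the Hecke operators) — the ONLY hypothesis left.

* `NodeFLStmt p hp3` : the residual `Prop` (E6 N8b `NodeProof`, helper72);
* **`baseFLStmt_of_node`** : `NodeFLStmt p hp3 → BaseFLStmt p`;
* **`heckeFLStmt_of_node`** : `NodeFLStmt p hp3 → HeckeFLStmt p`.
-/
import Mathlib
import Fermat.Agent.GE.Engine.StepPlug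
import Fermat.Agent.GE.Engine.FullLam
import Fermat.Agent.GE.Engine.BaseFL

set_option autoImplicit false
set_option linter.unusedSectionVars false
set_option linter.unusedVariables false
set_option linter.style.haveILetI false

open scoped TensorProduct
open WeierstrassCurve WeierstrassCurve.Affine.Point IsLocalRing CuspForm Polynomial
open scoped WeierstrassCurve.Affine

namespace Fermat.Agent.GE.Engine.FLPlug

open Fermat.Agent.GB.Setup.RhoBar Fermat.Agent.GB.Setup.SetupPkg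
  Fermat.Agent.GB.B4.Datum.Carrier Fermat.Agent.GB.B4.Datum.HeckeCarrier
  Fermat.Agent.GE.Graph Fermat.Agent.GE9.Ind Fermat.Agent.GE9.NumCrit
  Fermat.Agent.GE9.NumCrit.ModForm Fermat.Agent.GE9.Asm
open Fermat.Agent.GJ.J2.Lat
open Fermat.Agent.GE9.Eta Fermat.Agent.GE9.Eta.Mod Fermat.Agent.GE9.Eta.Base
  Fermat.Agent.GE9.Eta.Base.Primary
open Fermat.Agent.GE6.Inst.FreeLevelInst Fermat.Agent.GE6.Inst.Wire
  Fermat.Agent.GE6.Inst.BaseTLoc Fermat.Agent.GE6.Inst.BaseTPkg
open Fermat.Agent.GE.Engine Fermat.Agent.GE.Engine.BaseFL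

/-- **E6 at the minimal level, flat case, `p ≠ 3`** (N8b `NodeProof`): for every minimal level `M`
prime to `p` an `A ≥ 1` such that for EVERY bundle `P`, every deformation ring `D` of `𝒟^{fl}_∅`,
every frozen datum `H` on `Tloc P.O θ̄`, every surjection `φ : D.R ↠ Tloc` through which `D.ρ`
becomes `H.ρ`, and every `eL : Mbase P ≃ₗ LTP P` intertwining `X_s` with `T_s`, the node statement
`Wire.NodeStmt` holds on the module of record `LTP P`. -/
def NodeFLStmt (p : ℕ) [hpF : Fact p.Prime] (hp3 : p ≠ 3) : Prop :=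
  ∀ (W : WeierstrassCurve ℤ), W.Δ ≠ 0 → W.IsSemistableModel → W.ModRepIsIrreducible p →
    ∀ (hcard₁ : Nat.card (Submodule.torsionBy ℤ
      ((W.map (Int.castRingHom ℚ))⁄(AlgebraicClosure ℚ)).Point p) = p ^ 2)
    (hker : GaloisFactorsThroughFiniteLevel
      (galoisRepModuleEnd (K := AlgebraicClosure ℚ) ℚ (W.map (Int.castRingHom ℚ)) p))
    (M : ℕ) [NeZero M], Squarefree M → ¬ p ∣ M → W.IsResiduallyModularOfLevel p M →
    (∀ q : ℕ, q.Prime → q ≠ p → q ∣ M →
      ¬ ((W.map (Int.castRingHom ℚ)).residualGaloisRepOf p hcard₁ hker).IsUnramifiedAt q) →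
    ∃ A : ℕ, 1 ≤ A ∧ ∀ (P : Pkg p W hcard₁ hker M A)
      (D : GaloisRep.DeformationRingData P.O P.rhobar (condFL P.O p P.Smin ∅))
      (H : HeckeGaloisRepDatum M (↑P.S0 : Set ℕ) P.O P.theta (Tloc P.O P.theta))
      (hπ : H.π = piT P.O P.theta)
      (φ : D.R →ₐ[P.O] Tloc P.O P.theta) (hφ : Function.Surjective φ)
      (hloc : IsLocalHom (φ : D.R →+* Tloc P.O P.theta))
      (hρ : (D.ρ.baseChangeAlong (φ : D.R →+* Tloc P.O P.theta) hloc).IsEquiv H.ρ)
      (eL : Mbase P ≃ₗ[P.O] LTP P),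
      (∀ (s : I0 W p M) (y : Mbase P),
        eL (actBase P (MvPolynomial.X s) y)
          = piT P.O P.theta (heckeAlgebra.T s.2.1 s.2.2.2.1 (pr0_notMem_S0 P s)) • eL y) →
      NodeStmt P hp3 (condFL P.O p P.Smin) D φ (LTP P) eL

/-- **the base of the flat engine from E6's node statement.** -/
theorem baseFLStmt_of_node (p : ℕ) [hpF : Fact p.Prime] (hp3 : p ≠ 3) (h : NodeFLStmt p hp3) :
    BaseFLStmt p := by
  intro W hΔ hW hirr hcard₁ hker M _ hsq hpM hRM hmin
  obtain ⟨A, hA, hN⟩ := h W hΔ hW hirr hcard₁ hker M hsq hpM hRM hmin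
  refine ⟨A, hA, fun P χ hχ => ?_⟩
  have hSu : P.Su = ∅ := su_eq_empty P hmin
  obtain ⟨lam, hlamχ, hfull⟩ := exists_full_lam P hpM hsq hSu χ hχ
  have hfull' : FullSys P lam := hfull
  refine ⟨lam, hlamχ, ?_, fun D H hπ φ hφ hloc hρ πO hπO => ?_⟩
  · -- one instance `(D, H, φ, πO)` as in `Base.exists_base_of_datum`
    obtain ⟨H, hπ, h𝒟, hres⟩ := Fermat.Agent.GE8.MinDatum.exists_datum_condFL P hpM
      (fun q hqS _ => Fermat.Agent.GE8.MinDatum.not_sq_dvd_of_squarefree hsq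
        (P.prime_of_mem_Smin hqS)) ∅
      (fun q hq hqM => Finset.mem_union_left _
        (Fermat.Agent.GE8.MinDatum.mem_Smin_of_dvd P hSu hq hqM))
    obtain ⟨D⟩ := Fermat.Agent.GE6.DefRing.nonempty_defRing_FL p P.rhobar P.hp2 P.habs P.Smin ∅
      P.p_mem_Smin P.hmin (Fermat.Agent.GE8.MinDatum.hbar_condFL P hpM hsq ∅)
    obtain ⟨φ, hsurj, hloc, hρ⟩ := Fermat.Agent.GE8.MinDatum.surjective_to_hecke P D H h𝒟 hres
    obtain ⟨πO, hψ⟩ := H.exists_point χ hχ
    have hπO : ∀ t : heckeAlgebra M 2 (↑P.S0 : Set ℕ), πO (piT P.O P.theta t) = χ t := by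
      intro t
      rw [← hπ]
      exact hψ t
    obtain ⟨I, -, hst⟩ := baseInput_of_node P hpM hsq hp3 χ lam hlamχ hfull' D φ hsurj πO hπO
      (fun eL heL => hN P D H hπ φ hsurj hloc hρ eL heL)
    exact hst
  · obtain ⟨I, hI, -⟩ := baseInput_of_node P hpM hsq hp3 χ lam hlamχ hfull' D φ hφ πO hπO
      (fun eL heL => hN P D H hπ φ hφ hloc hρ eL heL)
    exact ⟨I, hI⟩

/-- **the flat Hecke side (without goodness of `W` at `p`) from E6's node statement.** -/
theorem heckeFLStmt'_of_node (p : ℕ) [hpF : Fact p.Prime] (hp3 : p ≠ 3)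
    (h : NodeFLStmt p hp3) : HeckeFLStmt' p :=
  heckeFLStmt'_of_base p (baseFLStmt_of_node p hp3 h)

/-- **`Top.HeckeFLStmt p` from E6's node statement.** -/
theorem heckeFLStmt_of_node (p : ℕ) [hpF : Fact p.Prime] (hp3 : p ≠ 3)
    (h : NodeFLStmt p hp3) : HeckeFLStmt p :=
  heckeFLStmt_of_base p (baseFLStmt_of_node p hp3 h)

end Fermat.Agent.GE.Engine.FLPlug
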