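/-
GATE-E / GE-ENGINE-ASM, R4-H seam (S5) (helper80): **every intermediate stage of the FLAT engine,
for a minimal bundle**.

The `p`-new stage of RISK-4 (route (O'), helper21 7528) needs the flat stages `Y^{fl}_{Sg}` for ALL
`Sg ⊆ Sig₀` (`R^{fl}_{Sg} = T^{fl}_{Sg}` at the level `M ∏_{q ∈ Sg} q²`, with the engine's invariant:
level, constant Hecke set, `#Ω = wf Sg`, eigenvalues of the minimal-level point), over the SAME
final set `Sig₀` (the step records `StepInputFL' Sig₀` are indexed by the final set).  The abstract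
induction is helper16's `GE9/Asm/Chain2Sub.exists_rtNum_condFL_sub'`; here it is run for a minimal
bundle `P` from the two clauses of `Top.HeckeSideFL` with the `#Ω` function `wf` EXPLICIT (the
consumer must know `wf Sg = #Ω(A_{Sg})` for the concrete stage module).

* **`exists_flStage`** : for every `Sg ⊆ sigOf W P.Smin`, a flat stage with `LevelOK'` and
  `Base.EngInv`;
* `exists_flStage_pair` : the two adjacent stages `Sg`, `insert q Sg` (the input pair of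
  `GE9/PNew/DepthRel`, `GE9/PNew/StepGlueRel`).
-/
import Mathlib
import Fermat.Agent.GE.Engine.Top
import Fermat.Agent.GE9.Asm.Chain2Sub

set_option autoImplicit false
set_option linter.unusedSectionVars false
set_option linter.unusedVariables false
set_option linter.style.haveILetI false

open WeierstrassCurve WeierstrassCurve.Affine.Point IsLocalRing CuspForm Polynomial
open scoped WeierstrassCurve.Affine

namespace Fermat.Agent.GE.Engine

open Fermat.Agent.GB.Setup.RhoBar Fermat.Agent.GB.Setup.SetupPkg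
  Fermat.Agent.GB.B4.Datum.Carrier Fermat.Agent.GB.B4.Datum.HeckeCarrier
  Fermat.Agent.GE.Graph Fermat.Agent.GE9.Ind Fermat.Agent.GE9.NumCrit Fermat.Agent.GE9.Asm

section Bundle

variable {p : ℕ} [Fact p.Prime] {W : WeierstrassCurve ℤ}
  {hcard₁ : Nat.card (Submodule.torsionBy ℤ
    ((W.map (Int.castRingHom ℚ))⁄(AlgebraicClosure ℚ)).Point p) = p ^ 2}
  {hker : GaloisFactorsThroughFiniteLevel
    (galoisRepModuleEnd (K := AlgebraicClosure ℚ) ℚ (W.map (Int.castRingHom ℚ)) p)}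
  {M A : ℕ} (P : Pkg p W hcard₁ hker M A) [NeZero M]

/-- **every stage of the flat engine for a minimal bundle**: the base clause and the step clause of
`Top.HeckeSideFL` (with its `#Ω` function `wf` explicit) give, for EVERY `Sg ⊆ sigOf W P.Smin`, a
flat stage `R^{fl}_{Sg} = T^{fl}_{Sg}` with the level clauses and the engine's invariant (level
`levOf M Sg`, Hecke set `↑P.S0`, `#Ω = wf Sg`, eigenvalues `lamOf χ`). -/
theorem exists_flStage (hpM : ¬ p ∣ M) (hsq : Squarefree M) (hSu : P.Su = ∅)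
    (χ : heckeAlgebra M 2 (↑P.S0 : Set ℕ) →+* P.O)
    (hχ : ∀ t : heckeAlgebra M 2 (↑P.S0 : Set ℕ), residue P.O (χ t) = P.theta t)
    (wf : Finset ℕ → ℕ) {d : ℕ} (hd : d ≠ 0)
    (hbase : ∀ (D : GaloisRep.DeformationRingData P.O P.rhobar (condFL P.O p P.Smin ∅))
      (H : HeckeGaloisRepDatum M (↑P.S0 : Set ℕ) P.O P.theta (Tloc P.O P.theta))
      (hπ : H.π = piT P.O P.theta)
      (φ : D.R →ₐ[P.O] Tloc P.O P.theta) (hφ : Function.Surjective φ)
      (hloc : IsLocalHom (φ : D.R →+* Tloc P.O P.theta))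
      (hρ : (D.ρ.baseChangeAlong (φ : D.R →+* Tloc P.O P.theta) hloc).IsEquiv H.ρ)
      (πO : Tloc P.O P.theta →ₐ[P.O] P.O)
      (hπO : ∀ t : heckeAlgebra M 2 (↑P.S0 : Set ℕ), πO (piT P.O P.theta t) = χ t),
      ∃ I : BaseInput p D φ πO d,
        Nat.card (Fermat.Agent.GE9.Eta.CongMod I.B (Submodule.span P.O (Set.range I.b))) =
          wf ∅)
    (hstep : ∀ Sg : Finset ℕ, Sg ⊆ sigOf W P.Smin → ∀ (q : ℕ) (hq : q.Prime),
      q ∈ sigOf W P.Smin → q ∉ Sg →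
      ∀ Y : RTNum P.rhobar (condFL P.O p P.Smin Sg) d,
        LevelOK' p P.Smin (sigOf W P.Smin) Sg Y.rt.N Y.rt.S →
        EngInv (↑P.S0 : Set ℕ) (levOf M) wf (lamOf χ) Sg Y.rt.N Y.rt.S (pointChar Y) Y.w →
        ∃ I : StepInputFL' (sigOf W P.Smin) Y q hq,
          EngInv (↑P.S0 : Set ℕ) (levOf M) wf (lamOf χ) (insert q Sg) I.N' I.S' I.pointChar'
            I.w') :
    ∀ Sg : Finset ℕ, Sg ⊆ sigOf W P.Smin →
      ∃ Y : RTNum P.rhobar (condFL P.O p P.Smin Sg) d,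
        LevelOK' p P.Smin (sigOf W P.Smin) Sg Y.rt.N Y.rt.S ∧
          EngInv (↑P.S0 : Set ℕ) (levOf M) wf (lamOf χ) Sg Y.rt.N Y.rt.S (pointChar Y) Y.w := by
  have hp : p.Prime := Fact.out
  obtain ⟨Y₀, hlev₀, hI₀⟩ := exists_base_FL P hpM hsq hSu χ hχ (sigOf W P.Smin)
    (fun q => mem_sigOf P.hΔ) (levOf M) wf (levOf_empty M) hbase
  exact Fermat.Agent.GE9.Asm.Chain2Sub.exists_rtNum_condFL_sub' (𝒪 := P.O) (ρbar := P.rhobar)
    (p := p) (Smin := P.Smin) hd hp (sigOf W P.Smin) (hSig_sigOf P)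
    (fun Sg N _ S χ' w => EngInv (↑P.S0 : Set ℕ) (levOf M) wf (lamOf χ) Sg N S χ' w)
    Y₀ hlev₀ hI₀ hstep

/-- **the two adjacent flat stages `Sg`, `insert q Sg`** of a minimal bundle. -/
theorem exists_flStage_pair (hpM : ¬ p ∣ M) (hsq : Squarefree M) (hSu : P.Su = ∅)
    (χ : heckeAlgebra M 2 (↑P.S0 : Set ℕ) →+* P.O)
    (hχ : ∀ t : heckeAlgebra M 2 (↑P.S0 : Set ℕ), residue P.O (χ t) = P.theta t)
    (wf : Finset ℕ → ℕ) {d : ℕ} (hd : d ≠ 0)
    (hbase : ∀ (D : GaloisRep.DeformationRingData P.O P.rhobar (condFL P.O p P.Smin ∅))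
      (H : HeckeGaloisRepDatum M (↑P.S0 : Set ℕ) P.O P.theta (Tloc P.O P.theta))
      (hπ : H.π = piT P.O P.theta)
      (φ : D.R →ₐ[P.O] Tloc P.O P.theta) (hφ : Function.Surjective φ)
      (hloc : IsLocalHom (φ : D.R →+* Tloc P.O P.theta))
      (hρ : (D.ρ.baseChangeAlong (φ : D.R →+* Tloc P.O P.theta) hloc).IsEquiv H.ρ)
      (πO : Tloc P.O P.theta →ₐ[P.O] P.O)
      (hπO : ∀ t : heckeAlgebra M 2 (↑P.S0 : Set ℕ), πO (piT P.O P.theta t) = χ t),
      ∃ I : BaseInput p D φ πO d,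
        Nat.card (Fermat.Agent.GE9.Eta.CongMod I.B (Submodule.span P.O (Set.range I.b))) =
          wf ∅)
    (hstep : ∀ Sg : Finset ℕ, Sg ⊆ sigOf W P.Smin → ∀ (q : ℕ) (hq : q.Prime),
      q ∈ sigOf W P.Smin → q ∉ Sg →
      ∀ Y : RTNum P.rhobar (condFL P.O p P.Smin Sg) d,
        LevelOK' p P.Smin (sigOf W P.Smin) Sg Y.rt.N Y.rt.S →
        EngInv (↑P.S0 : Set ℕ) (levOf M) wf (lamOf χ) Sg Y.rt.N Y.rt.S (pointChar Y) Y.w →
        ∃ I : StepInputFL' (sigOf W P.Smin) Y q hq,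
          EngInv (↑P.S0 : Set ℕ) (levOf M) wf (lamOf χ) (insert q Sg) I.N' I.S' I.pointChar'
            I.w')
    (Sg : Finset ℕ) (hSg : Sg ⊆ sigOf W P.Smin) (q : ℕ) (hqSig : q ∈ sigOf W P.Smin) :
    ∃ (Y : RTNum P.rhobar (condFL P.O p P.Smin Sg) d)
      (Y' : RTNum P.rhobar (condFL P.O p P.Smin (insert q Sg)) d),
      (LevelOK' p P.Smin (sigOf W P.Smin) Sg Y.rt.N Y.rt.S ∧
        EngInv (↑P.S0 : Set ℕ) (levOf M) wf (lamOf χ) Sg Y.rt.N Y.rt.S (pointChar Y) Y.w) ∧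
      (LevelOK' p P.Smin (sigOf W P.Smin) (insert q Sg) Y'.rt.N Y'.rt.S ∧
        EngInv (↑P.S0 : Set ℕ) (levOf M) wf (lamOf χ) (insert q Sg) Y'.rt.N Y'.rt.S
          (pointChar Y') Y'.w) := by
  obtain ⟨Y, hY⟩ := exists_flStage P hpM hsq hSu χ hχ wf hd hbase hstep Sg hSg
  obtain ⟨Y', hY'⟩ := exists_flStage P hpM hsq hSu χ hχ wf hd hbase hstep (insert q Sg)
    (Finset.insert_subset hqSig hSg)
  exact ⟨Y, Y', hY, hY'⟩

end Bundle

end Fermat.Agent.GE.Engine
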