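/-
GATE-E / GE-ENGINE-ASM (helper54): **level arithmetic of the induction over `Σ`** — the level at
stage `Sg` is `M * ∏ q ∈ Sg, q ^ 2` (`M` squarefree, the primes of `Sg` prime to `M`).
Mathlib only.  Consumers: the level clauses `LevelOK'` at every stage and the side conditions
`hNN'`, `hpN'`, `hNS`, `hNT`, `hSminN'` of `GE9/Stage/RawFL.exists_rawFL`.
-/
import Mathlib

set_option autoImplicit false

namespace Fermat.Agent.GE.Engine.LevArith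

variable {M : ℕ} {Sg : Finset ℕ}

theorem prod_sq_ne_zero (hSg : ∀ q ∈ Sg, q.Prime) : ∏ q ∈ Sg, q ^ 2 ≠ 0 :=
  Finset.prod_ne_zero_iff.mpr fun q hq => pow_ne_zero 2 (hSg q hq).ne_zero

theorem lev_ne_zero (hM : M ≠ 0) (hSg : ∀ q ∈ Sg, q.Prime) : M * ∏ q ∈ Sg, q ^ 2 ≠ 0 :=
  mul_ne_zero hM (prod_sq_ne_zero hSg)

/-- a prime divides `∏ q ∈ Sg, q ^ 2` iff it lies in `Sg` -/
theorem prime_dvd_prod_sq_iff (hSg : ∀ q ∈ Sg, q.Prime) {r : ℕ} (hr : r.Prime) :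
    r ∣ ∏ q ∈ Sg, q ^ 2 ↔ r ∈ Sg := by
  constructor
  · intro h
    obtain ⟨q, hq, hrq⟩ := (Prime.dvd_finsetProd_iff hr.prime _).mp h
    have h1 : r ∣ q := hr.dvd_of_dvd_pow hrq
    have h2 : r = q := (Nat.prime_dvd_prime_iff_eq hr (hSg q hq)).mp h1
    exact h2 ▸ hq
  · intro h
    exact dvd_trans (dvd_pow_self r two_ne_zero) (Finset.dvd_prod_of_mem (fun q => q ^ 2) h)

/-- the primes of the level at stage `Sg` -/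
theorem prime_dvd_lev_iff (hSg : ∀ q ∈ Sg, q.Prime) {r : ℕ} (hr : r.Prime) :
    r ∣ M * ∏ q ∈ Sg, q ^ 2 ↔ r ∣ M ∨ r ∈ Sg := by
  rw [hr.dvd_mul, prime_dvd_prod_sq_iff hSg hr]

theorem not_dvd_lev (hSg : ∀ q ∈ Sg, q.Prime) {r : ℕ} (hr : r.Prime) (hrM : ¬ r ∣ M)
    (hrS : r ∉ Sg) : ¬ r ∣ M * ∏ q ∈ Sg, q ^ 2 := by
  rw [prime_dvd_lev_iff hSg hr]
  exact fun h => h.elim hrM hrS

theorem dvd_lev_of_dvd {r : ℕ} (h : r ∣ M) : r ∣ M * ∏ q ∈ Sg, q ^ 2 :=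
  Dvd.dvd.mul_right h _

theorem dvd_lev_of_mem {r : ℕ} (h : r ∈ Sg) : r ∣ M * ∏ q ∈ Sg, q ^ 2 :=
  Dvd.dvd.mul_left (dvd_trans (dvd_pow_self r two_ne_zero)
    (Finset.dvd_prod_of_mem (fun q => q ^ 2) h)) _

/-- the next level is `N * q ^ 2` -/
theorem lev_insert {q : ℕ} (hq : q ∉ Sg) :
    M * ∏ x ∈ insert q Sg, x ^ 2 = (M * ∏ x ∈ Sg, x ^ 2) * q ^ 2 := by
  rw [Finset.prod_insert hq]; ring

theorem lev_insert' {q : ℕ} (hq : q ∉ Sg) :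
    M * ∏ x ∈ insert q Sg, x ^ 2 = (M * ∏ x ∈ Sg, x ^ 2) * q * q := by
  rw [lev_insert hq]; ring

theorem lev_dvd_lev_of_subset {Sg' : Finset ℕ} (h : Sg ⊆ Sg') :
    M * ∏ x ∈ Sg, x ^ 2 ∣ M * ∏ x ∈ Sg', x ^ 2 :=
  mul_dvd_mul_left M (Finset.prod_dvd_prod_of_subset _ _ _ h)

theorem lev_dvd_lev_insert (q : ℕ) :
    M * ∏ x ∈ Sg, x ^ 2 ∣ M * ∏ x ∈ insert q Sg, x ^ 2 :=
  lev_dvd_lev_of_subset (Finset.subset_insert q Sg)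

/-- a prime outside `Sg` is prime to `∏ q ∈ Sg, q ^ 2` -/
theorem coprime_prod_sq (hSg : ∀ q ∈ Sg, q.Prime) {r : ℕ} (hr : r.Prime) (hrS : r ∉ Sg) (n : ℕ) :
    Nat.Coprime (r ^ n) (∏ q ∈ Sg, q ^ 2) :=
  Nat.Coprime.pow_left n ((Nat.Prime.coprime_iff_not_dvd hr).mpr
    (fun h => hrS ((prime_dvd_prod_sq_iff hSg hr).mp h)))

/-- outside `Sg` the level is as squarefree as `M` -/
theorem not_sq_dvd_lev_of_notMem (hsq : Squarefree M) (hSg : ∀ q ∈ Sg, q.Prime) {r : ℕ}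
    (hr : r.Prime) (hrS : r ∉ Sg) : ¬ r ^ 2 ∣ M * ∏ q ∈ Sg, q ^ 2 := by
  intro h
  have h1 : r ^ 2 ∣ M := (coprime_prod_sq hSg hr hrS 2).dvd_of_dvd_mul_right h
  have h2 : r * r ∣ M := by rwa [← sq]
  exact hr.one_lt.ne' (Nat.isUnit_iff.mp (hsq r h2))

/-- no cube divides the level -/
theorem not_cube_dvd_lev (hsq : Squarefree M) (hSg : ∀ q ∈ Sg, q.Prime ∧ ¬ q ∣ M) {r : ℕ}
    (hr : r.Prime) : ¬ r ^ 3 ∣ M * ∏ q ∈ Sg, q ^ 2 := by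
  have hSg' : ∀ q ∈ Sg, q.Prime := fun q hq => (hSg q hq).1
  by_cases hrS : r ∈ Sg
  · intro h
    have hrM : ¬ r ∣ M := (hSg r hrS).2
    have hcop : Nat.Coprime (r ^ 3) M :=
      Nat.Coprime.pow_left 3 ((Nat.Prime.coprime_iff_not_dvd hr).mpr hrM)
    have h1 : r ^ 3 ∣ ∏ q ∈ Sg, q ^ 2 := hcop.dvd_of_dvd_mul_left h
    rw [← Finset.mul_prod_erase Sg (fun q => q ^ 2) hrS] at h1
    have h2 : r ^ 2 * r ∣ r ^ 2 * ∏ q ∈ Sg.erase r, q ^ 2 := by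
      rwa [← pow_succ]
    have h3 : r ∣ ∏ q ∈ Sg.erase r, q ^ 2 :=
      Nat.dvd_of_mul_dvd_mul_left (pow_pos hr.pos 2) h2
    have h4 : r ∈ Sg.erase r :=
      (prime_dvd_prod_sq_iff (fun q hq => hSg' q (Finset.mem_of_mem_erase hq)) hr).mp h3
    exact (Finset.notMem_erase r Sg) h4
  · intro h
    exact not_sq_dvd_lev_of_notMem hsq hSg' hr hrS
      (dvd_trans (pow_dvd_pow r (by norm_num : 2 ≤ 3)) h)

/-- at a prime of `Sg` the level is exactly divisible by `q ^ 2` -/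
theorem sq_dvd_lev_of_mem {r : ℕ} (h : r ∈ Sg) : r ^ 2 ∣ M * ∏ q ∈ Sg, q ^ 2 :=
  Dvd.dvd.mul_left (Finset.dvd_prod_of_mem (fun q => q ^ 2) h) _

/-! ### the level clauses and the side conditions of the step, in hypothesis form

`M` = the minimal level (squarefree), `Smin ∋ p` the ramification set of `ρ̄` (`q ∈ Smin → q = p ∨
q ∣ M`), `Sg` the current `Σ` (primes prime to `M p`), `N = M * ∏ q ∈ Sg, q ^ 2`.  The conclusions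
are the clauses of `GE9/Asm/Chain2.LevelOK'` UNFOLDED (so `exact levelClauses …` closes a goal
`LevelOK' p Smin Sig₀ Sg N ↑S0`) and the binders `hNN' hpN' hNS hNT hSminN'` of
`GE9/Stage/RawFL.exists_rawFL` at `N' = M * ∏ x ∈ insert q Sg, x ^ 2`. -/

section Clauses

variable {p : ℕ} {Smin Sig₀ S0 : Finset ℕ}

/-- **the clauses of `LevelOK' p Smin Sig₀ Sg (M * ∏ q ∈ Sg, q ^ 2) ↑S0`** (`p ∣ M` allowed). -/
theorem levelClauses (hp : p.Prime) (hsq : Squarefree M)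
    (hSmin : ∀ q ∈ Smin, q = p ∨ q ∣ M)
    (hSg : ∀ q ∈ Sg, q.Prime ∧ ¬ q ∣ M ∧ q ≠ p)
    (hS0 : ∀ ℓ ∈ (↑S0 : Set ℕ), ℓ.Prime →
      ℓ ∣ M ∨ ℓ = p ∨ ℓ ∈ Sig₀) :
    ¬ p ^ 2 ∣ M * ∏ q ∈ Sg, q ^ 2 ∧
      (∀ q : ℕ, q.Prime → ¬ q ^ 3 ∣ M * ∏ q ∈ Sg, q ^ 2) ∧
      (∀ q ∈ Smin ∪ Sg, q ≠ p → q ∣ M * ∏ q ∈ Sg, q ^ 2) ∧
      (∀ ℓ ∈ (↑S0 : Set ℕ), ℓ.Prime → ℓ ∣ M * ∏ q ∈ Sg, q ^ 2 ∨ ℓ = p ∨ ℓ ∈ Sig₀) := by
  have hSg' : ∀ q ∈ Sg, q.Prime := fun q hq => (hSg q hq).1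
  have hpSg : p ∉ Sg := fun h => (hSg p h).2.2 rfl
  refine ⟨not_sq_dvd_lev_of_notMem hsq hSg' hp hpSg,
    fun q hq => not_cube_dvd_lev hsq (fun r hr => ⟨(hSg r hr).1, (hSg r hr).2.1⟩) hq,
    fun q hq hqp => ?_, fun ℓ hℓS hℓ => ?_⟩
  · rcases Finset.mem_union.mp hq with h | h
    · exact dvd_lev_of_dvd ((hSmin q h).resolve_left hqp)
    · exact dvd_lev_of_mem h
  · rcases hS0 ℓ hℓS hℓ with h | h | h
    · exact Or.inl (dvd_lev_of_dvd h)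
    · exact Or.inr (Or.inl h)
    · exact Or.inr (Or.inr h)

/-- `hpN'` : the next level is prime to `p` (flat case: `p ∤ M`). -/
theorem not_p_dvd_lev (hp : p.Prime) (hpM : ¬ p ∣ M)
    (hSg : ∀ q ∈ Sg, q.Prime ∧ ¬ q ∣ M ∧ q ≠ p) : ¬ p ∣ M * ∏ q ∈ Sg, q ^ 2 :=
  not_dvd_lev (fun q hq => (hSg q hq).1) hp hpM (fun h => (hSg p h).2.2 rfl)

/-- `hNS` : the primes of the level lie in the constant Hecke set. -/
theorem mem_S0_of_dvd_lev (hSg : ∀ q ∈ Sg, q.Prime)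
    (hMS0 : ∀ r : ℕ, r.Prime → r ∣ M → r ∈ S0) (hSgS0 : ∀ r ∈ Sg, r ∈ S0) :
    ∀ r : ℕ, r.Prime → r ∣ M * ∏ q ∈ Sg, q ^ 2 → r ∈ S0 := by
  intro r hr h
  rcases (prime_dvd_lev_iff hSg hr).mp h with h | h
  · exact hMS0 r hr h
  · exact hSgS0 r h

/-- `hNT` : the primes of the level lie in `Smin ∪ Sg` (minimal level: `Su = ∅`). -/
theorem mem_union_of_dvd_lev (hSg : ∀ q ∈ Sg, q.Prime)
    (hMSmin : ∀ r : ℕ, r.Prime → r ∣ M → r ∈ Smin) :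
    ∀ r : ℕ, r.Prime → r ∣ M * ∏ q ∈ Sg, q ^ 2 → r ∈ Smin ∪ Sg := by
  intro r hr h
  rcases (prime_dvd_lev_iff hSg hr).mp h with h | h
  · exact Finset.mem_union_left _ (hMSmin r hr h)
  · exact Finset.mem_union_right _ h

/-- `hSminN'` : the primes of `Smin` other than `p` divide the level exactly once. -/
theorem exactDvd_lev_of_mem_Smin (hsq : Squarefree M)
    (hSmin : ∀ q ∈ Smin, q = p ∨ q ∣ M)
    (hSg : ∀ q ∈ Sg, q.Prime ∧ ¬ q ∣ M ∧ q ≠ p) :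
    ∀ r ∈ Smin, r.Prime → r ≠ p →
      r ∣ M * ∏ q ∈ Sg, q ^ 2 ∧ ¬ r ^ 2 ∣ M * ∏ q ∈ Sg, q ^ 2 := by
  intro r hrS hr hrp
  have hrM : r ∣ M := (hSmin r hrS).resolve_left hrp
  exact ⟨dvd_lev_of_dvd hrM, not_sq_dvd_lev_of_notMem hsq (fun q hq => (hSg q hq).1) hr
    (fun h => (hSg r h).2.1 hrM)⟩

/-- the hypothesis `hSg` at the next stage -/
theorem hSg_insert {q : ℕ} (hq : q.Prime) (hqM : ¬ q ∣ M) (hqp : q ≠ p)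
    (hSg : ∀ r ∈ Sg, r.Prime ∧ ¬ r ∣ M ∧ r ≠ p) :
    ∀ r ∈ insert q Sg, r.Prime ∧ ¬ r ∣ M ∧ r ≠ p := by
  intro r hr
  rcases Finset.mem_insert.mp hr with rfl | h
  · exact ⟨hq, hqM, hqp⟩
  · exact hSg r h

end Clauses

end Fermat.Agent.GE.Engine.LevArith
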