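/-
GATE-E / E8 ⟶ ENGINE seam (helper61): **the two minimal-level Props of the engine contract
(`GE/Engine/Top`: `MinLevelFLStmt p`, `MinLevelDichStmt p`) from the three open leaves of E8 EXACTLY
AS THE SUB-GATES DELIVER THEM**

* `hSQ : GE8/SQ/AuxPlug.SQSideStmt`        (sub-gate SQ, from NODE3K);
* `hB  : GE8/LLQ/S38Min.CaseB38minE p`     (sub-gate LLQ);
* `hNL : GE8/LLP/Inner.NodeLocalStmt p`    (sub-gate ORD (a)) — flat case only.

`Top.minLevelFLStmt_of_nodes` asks for the frozen S40 shape `LLPGoodStmt p` at EVERY level, which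
E8.4 does not deliver; here the flat descent is helper86's rigid descent
`Aux3/MinLevelRig.exists_minLevel_of_rigid` with `hRig` from helper17's `ColumnRig.hRig_good`
(good reduction at `p`: NO `hpeu` binder) and the closed Props of `OrdClosed`.  The dichotomy descent
needs no node at `p`: `Aux3/PlugTop.llqStmt_of_caseB` feeds `Top.minLevelDichStmt_of_nodes`.

* `minLevelFLStmt_of_leaves`   : `p ≠ 2 → SQSideStmt → CaseB38minE p → NodeLocalStmt p → MinLevelFLStmt p`;
* `minLevelDichStmt_of_leaves` : `p ≠ 2 → SQSideStmt → CaseB38minE p → MinLevelDichStmt p`;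
* `rtStmtFL_of_leaves`, `rtStmtSO_of_leaves` : the engine contract from the E8 leaves and the Hecke
  side Props (`TransvStmt p`, `HeckeFLStmt p`, `MinHeckeSO p`);
* `minLevelFLStmt_of_SQ_caseB`, `rtStmtFL_of_SQ_caseB` : the same with (a) DISCHARGED by helper17's
  `NodeLocalFin.nodeLocalStmt` (E8.4 closed binder-free) — E8 = `SQSideStmt` + `CaseB38minE p` only.
-/
import Fermat.Agent.GE.Engine.Top
import Fermat.Agent.GE8.LLP.OrdClosed
import Fermat.Agent.GE8.LLP.NodeLocalFin
import Fermat.Agent.GE8.LLQ.Aux3.MinLevelRig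
import Fermat.Agent.GE8.LLQ.Aux3.PlugTop

set_option autoImplicit false
set_option linter.unusedSectionVars false
set_option linter.unusedVariables false

open WeierstrassCurve WeierstrassCurve.Affine.Point
open scoped WeierstrassCurve.Affine

namespace Fermat.Agent.GE.Engine.MinLevelLeaves

open Fermat.Agent.GE.Engine Fermat.Agent.GE.Graph
open Fermat.Agent.GE8.Top.MinLevel Fermat.Agent.GE8.SQ.AuxPlug
open Fermat.Agent.GE8.LLQ.S38Min
open Fermat.Agent.GE8.LLP.Inner Fermat.Agent.GE8.LLP.Column Fermat.Agent.GE8.LLP.ColumnRig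
open Fermat.Agent.GE8.LLP.OrdClosed

variable {p : ℕ} [hpF : Fact p.Prime]

/-- **`MinLevelFLStmt p` from the E8 leaves as delivered** (flat case: `W` good at `p`). -/
theorem minLevelFLStmt_of_leaves (hp2 : p ≠ 2) (hSQ : SQSideStmt) (hB : CaseB38minE p)
    (hNL : NodeLocalStmt p) : MinLevelFLStmt p := by
  intro W hΔ hW hirr hcard₁ hker M₀ hM₀0 hres₀ hM₀ hM₀3 hgood
  obtain ⟨M, -, hMsq, hpM, hRM, hmin⟩ :=
    Fermat.Agent.GE8.LLQ.Aux3.MinLevelRig.exists_minLevel_of_rigid hp2 W hΔ hW hirr hcard₁ hker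
      hSQ hB
      (hRig_good hp2 hNL (kuGoodStmt hp2) (dsOmegaSideStmt hp2) W hΔ hirr hgood)
      M₀ hM₀0 hres₀ hM₀ hM₀3
  exact ⟨M, hMsq, hpM, hRM, hmin⟩

/-- **`MinLevelDichStmt p` from the E8 leaves as delivered** (no node at `p`). -/
theorem minLevelDichStmt_of_leaves (hp2 : p ≠ 2) (hSQ : SQSideStmt) (hB : CaseB38minE p) :
    MinLevelDichStmt p :=
  minLevelDichStmt_of_nodes p hp2 hSQ
    (Fermat.Agent.GE8.LLQ.Aux3.PlugTop.llqStmt_of_caseB hp2 hB)

/-- **the engine contract, flat case, from the E8 leaves and the Hecke side.** -/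
theorem rtStmtFL_of_leaves (hp2 : p ≠ 2) (hSQ : SQSideStmt) (hB : CaseB38minE p)
    (hNL : NodeLocalStmt p) (hTr : TransvStmt p) (hH : HeckeFLStmt p) : RTStmtFL p :=
  rtStmtFL_of_minLevel p hp2 (minLevelFLStmt_of_leaves hp2 hSQ hB hNL) hTr hH

/-- **the engine contract, strict-ordinary case, from the E8 leaves and the Hecke side.** -/
theorem rtStmtSO_of_leaves (hp2 : p ≠ 2) (hSQ : SQSideStmt) (hB : CaseB38minE p)
    (hH : MinHeckeSO p) : RTStmtSO p :=
  rtStmtSO_of_minLevel p hp2 (minLevelDichStmt_of_leaves hp2 hSQ hB) hH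

/-! ### with E8.4 closed (helper17 `NodeLocalFin.nodeLocalStmt`) -/

/-- **`MinLevelFLStmt p` from SQ and CASE B alone** (E8.4 closed binder-free). -/
theorem minLevelFLStmt_of_SQ_caseB (hp2 : p ≠ 2) (hSQ : SQSideStmt) (hB : CaseB38minE p) :
    MinLevelFLStmt p :=
  minLevelFLStmt_of_leaves hp2 hSQ hB (Fermat.Agent.GE8.LLP.NodeLocalFin.nodeLocalStmt hp2)

/-- **the engine contract, flat case, from SQ, CASE B and the Hecke side.** -/
theorem rtStmtFL_of_SQ_caseB (hp2 : p ≠ 2) (hSQ : SQSideStmt) (hB : CaseB38minE p)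
    (hTr : TransvStmt p) (hH : HeckeFLStmt p) : RTStmtFL p :=
  rtStmtFL_of_minLevel p hp2 (minLevelFLStmt_of_SQ_caseB hp2 hSQ hB) hTr hH

end Fermat.Agent.GE.Engine.MinLevelLeaves
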