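/-
GATE-E / GE-ENGINE-ASM (helper54): **NONEIS-SUP — the non-Eisenstein binder `hne` of helper2's
`GE9/Eta/Chain` (`etaStage_lev`, `omegaCard_lev_insert`) for a SETUP bundle** (helper2 7653 §1).

For a bundle `P` at level `M`, an eigensystem `χ : 𝕋^{S0}(M) → P.O` lifting `θ̄` and ANY full system
`lam : Nat.Primes → P.O` extending `χ` (`lam ℓ = χ(T_ℓ)` at `ℓ ∉ S0`):

  `hne : ∀ F q, q.Prime → ∃ l : Nat.Primes, l ∉ F ∧ (l : ZMod q) = 1 ∧ IsUnit (lam l − (l + 1))`.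

Proof: `GE9/Ihara2/NonEisOne.exists_prime_one_mod_noFixed` (helper46; binders = the frozen-S56
clauses `P.habs`, `P.hsplit`, `P.hTW` of the bundle) gives a prime `ℓ ∉ F ∪ S0`, `q ∣ ℓ − 1`, with
`charpoly (ρ̄(Frob_ℓ))(1) ≠ 0`; Eichler–Shimura for `θ̄` (`P.hfrob`) turns this into
`1 − θ̄(T_ℓ) + ℓ ≠ 0` in `k`, i.e. `lam ℓ − (ℓ + 1)` is a unit of `P.O`.
-/
import Mathlib
import Fermat.Agent.GB.Setup.SetupPkg
import Fermat.Agent.GE9.Ihara2.NonEisOne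
import Fermat.Agent.Common_helper32.FrobeniusExists

set_option autoImplicit false
set_option linter.unusedSectionVars false
set_option linter.unusedVariables false
set_option linter.style.haveILetI false

open WeierstrassCurve WeierstrassCurve.Affine.Point IsLocalRing CuspForm Polynomial
open scoped WeierstrassCurve.Affine

namespace Fermat.Agent.GE.Engine

open Fermat.Agent.GB.Setup.RhoBar Fermat.Agent.GB.Setup.SetupPkg

section Bundle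

variable {p : ℕ} [Fact p.Prime] {W : WeierstrassCurve ℤ}
  {hcard₁ : Nat.card (Submodule.torsionBy ℤ
    ((W.map (Int.castRingHom ℚ))⁄(AlgebraicClosure ℚ)).Point p) = p ^ 2}
  {hker : GaloisFactorsThroughFiniteLevel
    (galoisRepModuleEnd (K := AlgebraicClosure ℚ) ℚ (W.map (Int.castRingHom ℚ)) p)}
  {M A : ℕ} (P : Pkg p W hcard₁ hker M A)

/-- `2 ≠ 0` in the residue field of the bundle (`p ≠ 2`). -/
theorem two_ne_zero_k : (2 : P.k) ≠ 0 := by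
  intro h
  have h' : ((2 : ℕ) : P.k) = 0 := by exact_mod_cast h
  rw [CharP.cast_eq_zero_iff P.k p] at h'
  exact P.hp2 ((Nat.prime_dvd_prime_iff_eq (Fact.out : p.Prime) Nat.prime_two).mp h')

/-- `q ∣ ℓ − 1` ⟹ `ℓ = 1` in `ZMod q`. -/
theorem natCast_eq_one_of_dvd_sub_one {q ℓ : ℕ} (hℓ : 1 ≤ ℓ) (h : q ∣ ℓ - 1) :
    ((ℓ : ℕ) : ZMod q) = 1 := by
  have h0 : ((ℓ - 1 : ℕ) : ZMod q) = 0 := (ZMod.natCast_eq_zero_iff (ℓ - 1) q).mpr h
  have h1 : ((ℓ - 1 + 1 : ℕ) : ZMod q) = 1 := by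
    rw [Nat.cast_add, h0, zero_add, Nat.cast_one]
  rwa [Nat.sub_add_cancel hℓ] at h1

section Level

variable [NeZero M]

/-- **NONEIS-SUP**: the binder `hne` of `GE9/Eta/Chain` for the bundle `P`. -/
theorem hne_of_pkg (χ : heckeAlgebra M 2 (↑P.S0 : Set ℕ) →+* P.O)
    (hχ : ∀ t : heckeAlgebra M 2 (↑P.S0 : Set ℕ), residue P.O (χ t) = P.theta t)
    (lam : Nat.Primes → P.O)
    (hlamχ : ∀ (ℓ : ℕ) (hℓ : ℓ.Prime) (hℓM : ¬ ℓ ∣ M) (hℓS : ℓ ∉ (↑P.S0 : Set ℕ)),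
      χ (heckeAlgebra.T hℓ hℓM hℓS) = lam (⟨ℓ, hℓ⟩ : Nat.Primes)) :
    ∀ (F : Finset ℕ) (q : ℕ), q.Prime → ∃ l : Nat.Primes, (l : ℕ) ∉ F ∧
      (((l : ℕ) : ZMod q) = 1) ∧ IsUnit (lam l - (((l : ℕ) : P.O) + 1)) := by
  intro F q hq
  haveI : Fact q.Prime := ⟨hq⟩
  obtain ⟨ℓ, hℓ, hℓB, -, hdvd, hfrob⟩ :=
    Fermat.Agent.GE9.Ihara2.exists_prime_one_mod_noFixed P.rhobar (two_ne_zero_k P) P.habs
      P.hsplit (fun K _ _ G hG V hV => P.hTW K G hG V hV) q (F ∪ P.S0)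
  have hℓF : ℓ ∉ F := fun h => hℓB (Finset.mem_union_left _ h)
  have hℓS : ℓ ∉ (↑P.S0 : Set ℕ) := fun h => hℓB (Finset.mem_union_right _ (Finset.mem_coe.mp h))
  have hℓM : ¬ ℓ ∣ M := (P.good_of_notMem_S0 hℓ hℓS).2.1
  obtain ⟨Q, τ, hQ, hτ⟩ := Fermat.Agent.Common_helper32.exists_isFrobeniusAt ℓ hℓ
  have hev := (hfrob Q τ hQ hτ).2
  rw [P.hfrob ℓ hℓ hℓM hℓS Q hQ τ hτ] at hev
  simp only [eval_add, eval_sub, eval_mul, eval_pow, eval_X, eval_C, one_pow, mul_one] at hev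
  refine ⟨⟨ℓ, hℓ⟩, hℓF, natCast_eq_one_of_dvd_sub_one hℓ.one_le hdvd, ?_⟩
  rw [← residue_ne_zero_iff_isUnit]
  intro h0
  apply hev
  have h1 : residue P.O (lam (⟨ℓ, hℓ⟩ : Nat.Primes)) = P.theta (heckeAlgebra.T hℓ hℓM hℓS) := by
    rw [← hlamχ ℓ hℓ hℓM hℓS]
    exact hχ _
  have h2 : P.theta (heckeAlgebra.T hℓ hℓM hℓS) - (((ℓ : ℕ) : P.k) + 1) = 0 := by
    rw [← h1]
    have h3 := h0
    rw [map_sub, map_add, map_one, map_natCast] at h3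
    exact h3
  have h4 : P.theta (heckeAlgebra.T hℓ hℓM hℓS) = ((ℓ : ℕ) : P.k) + 1 := sub_eq_zero.mp h2
  rw [h4]
  ring

end Level

end Bundle

end Fermat.Agent.GE.Engine
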