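/-
GATE-E / GE-ENGINE-ASM (helper54): **the STEP CLAUSE of `Top.HeckeSideFL` from the carrier +
numerics of ONE stage** (flat case), in hypothesis form.

`Top.HeckeSideFL P χ Sig₀ d` = `∃ wf, (base clause) ∧ (step clause)`; the step clause asks, for every
stage `Y : RTNum P.rhobar (condFL P.O p P.Smin Sg) d` with the level clauses and the engine's
invariant `Base.EngInv ↑P.S0 (levOf M) wf lam Sg …`, for a record `GE9/Asm/Chain2.StepInputFL'`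
with the invariant at `insert q Sg`.  This file reduces it to `StepSupplyFL P wf lam Sig₀ d` =

  the CARRIER of the next stage at the level `Y.rt.N * q * q` and the CONSTANT Hecke set `↑P.S0`
  (`T'`, `π'`, `hgen`, `πO'` with the eigenvalues `lam ℓ` — the output shape of helper73's
  `GE9/Stage/CarrierLam.exists_carrier_lam`), the matrix `f₀` with
  `f₀.trace = Y.πO (tr ρ_T(Frob_q))` (helper11 `GE9/Stage/FrobQ.trace_frob_eq_of_fullSystem`),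
  `wilesFactor f₀ q ≠ 0`, (ETA) `wf Sg * #(𝒪/c_q)^d ≤ wf (insert q Sg)` (helper2
  `GE9/Eta/ModStage.etaStage_next`, an equality there) and (M1) `wf (insert q Sg) ≤ #(𝒪/η')^d`
  (`exists_carrier_lam`).

Everything else is discharged HERE: the raw fields (`GE9/Stage/Step.exists_stepInputFL'`, helper11),
`hbar` (`GE8/MinDatum.hbar_condFL`), the level arithmetic (`GE/Engine/LevArith`: `hNN'`, `hpN'`,
`hNS`, `hNT`, `hSminN'`, `hlev`), `heig` (from the invariant) and the invariant of the next stage.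

* `hSg_of_sig`              : the primes of `Sg ⊆ Sig₀` are prime to `M p`;
* `StepSupplyFL`            : the supply `Prop`;
* **`heckeStep_of_supply`** : the step clause of `HeckeSideFL`;
* **`heckeSideFL_of_supply`** : `HeckeSideFL P χ Sig₀ d` from the base clause and the supply;
* `HeckeFLStmt'`, `heckeFLStmt_of_prime` : `Top.HeckeFLStmt` without `W.IsGoodPrimeFor p` (RISK-4).
-/
import Mathlib
import Fermat.Agent.GE.Engine.Top
import Fermat.Agent.GE.Engine.LevArith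
import Fermat.Agent.GE9.Stage.Step

set_option autoImplicit false
set_option linter.unusedSectionVars false
set_option linter.unusedVariables false
set_option linter.style.haveILetI false

open WeierstrassCurve WeierstrassCurve.Affine.Point IsLocalRing CuspForm Polynomial
open scoped WeierstrassCurve.Affine

namespace Fermat.Agent.GE.Engine

open Fermat.Agent.GB.Setup.RhoBar Fermat.Agent.GB.Setup.SetupPkg
  Fermat.Agent.GB.B4.Datum.Carrier Fermat.Agent.GB.B4.Datum.HeckeCarrier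
  Fermat.Agent.GE.Graph Fermat.Agent.GE9.Ind Fermat.Agent.GE9.NumCrit Fermat.Agent.GE9.Asm
  Fermat.Agent.GE9.TanGrow

section Bundle

variable {p : ℕ} [Fact p.Prime] {W : WeierstrassCurve ℤ}
  {hcard₁ : Nat.card (Submodule.torsionBy ℤ
    ((W.map (Int.castRingHom ℚ))⁄(AlgebraicClosure ℚ)).Point p) = p ^ 2}
  {hker : GaloisFactorsThroughFiniteLevel
    (galoisRepModuleEnd (K := AlgebraicClosure ℚ) ℚ (W.map (Int.castRingHom ℚ)) p)}
  {M A : ℕ} (P : Pkg p W hcard₁ hker M A)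

/-- at a minimal level the primes of `Σ` (bad primes of `W` outside `Smin`) are prime to `M p`. -/
theorem hSg_of_sig (hSu : P.Su = ∅) (Sig₀ : Finset ℕ)
    (hSig₀ : ∀ q : ℕ, q ∈ Sig₀ ↔ q.Prime ∧ (q : ℤ) ∣ W.Δ ∧ q ∉ P.Smin)
    {Sg : Finset ℕ} (hSg : Sg ⊆ Sig₀) : ∀ q ∈ Sg, q.Prime ∧ ¬ q ∣ M ∧ q ≠ p := by
  intro q hq
  obtain ⟨h1, -, h3⟩ := (hSig₀ q).mp (hSg hq)
  refine ⟨h1, fun hqM => h3 (Fermat.Agent.GE8.MinDatum.mem_Smin_of_dvd P hSu h1 hqM), fun h => ?_⟩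
  rw [h] at h3
  exact h3 P.p_mem_Smin

/-- the primes of `Σ` lie in the constant Hecke set `P.S0`. -/
theorem mem_S0_of_sig (Sig₀ : Finset ℕ)
    (hSig₀ : ∀ q : ℕ, q ∈ Sig₀ ↔ q.Prime ∧ (q : ℤ) ∣ W.Δ ∧ q ∉ P.Smin)
    {Sg : Finset ℕ} (hSg : Sg ⊆ Sig₀) : ∀ q ∈ Sg, q ∈ P.S0 := by
  intro q hq
  obtain ⟨h1, h2, -⟩ := (hSig₀ q).mp (hSg hq)
  exact Finset.mem_coe.mp (P.hWS0 q h1 (not_not.mpr h2))

section Level

variable [NeZero M]

/-- **The carrier + numerics of ONE step, flat case**: for every stage `Y` with the engine's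
invariant (level `levOf M Sg`, Hecke set `↑P.S0`, `#Ω = wf Sg`, eigenvalues `lam`) and every new
prime `q ∈ Sig₀ ∖ Sg`, the carrier of the stage `insert q Sg` at the level `Y.rt.N * q * q`
(`CarrierLam.exists_carrier_lam`), `f₀` (`FrobQ`), `c_q ≠ 0`, (ETA) and (M1). -/
def StepSupplyFL (wf : Finset ℕ → ℕ) (lam : ℕ → P.O) (Sig₀ : Finset ℕ) (d : ℕ) : Prop :=
  ∀ Sg : Finset ℕ, Sg ⊆ Sig₀ → ∀ (q : ℕ) (hq : q.Prime), q ∈ Sig₀ → q ∉ Sg →
    ∀ Y : RTNum P.rhobar (condFL P.O p P.Smin Sg) d,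
      Y.rt.N = levOf M Sg → Y.rt.S = (↑P.S0 : Set ℕ) → Y.w = wf Sg →
      (∀ (ℓ : ℕ) (hℓ : ℓ.Prime) (hℓN : ¬ ℓ ∣ Y.rt.N) (hℓS : ℓ ∉ Y.rt.S),
        pointChar Y (heckeAlgebra.T hℓ hℓN hℓS) = lam ℓ) →
      ∀ [NeZero (Y.rt.N * q * q)],
        ∃ (T' : Type) (_ : CommRing T') (_ : IsLocalRing T') (_ : Algebra P.O T')
          (_ : Module.Finite P.O T') (_ : Module.Free P.O T')
          (π' : heckeAlgebra (Y.rt.N * q * q) 2 (↑P.S0 : Set ℕ) →+* T')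
          (πO' : T' →ₐ[P.O] P.O) (f₀ : Matrix (Fin 2) (Fin 2) P.O),
          Algebra.adjoin P.O (Set.range π') = ⊤ ∧
          (∀ (ℓ : ℕ) (hℓ : ℓ.Prime) (hℓN' : ¬ ℓ ∣ Y.rt.N * q * q)
            (hℓS' : ℓ ∉ (↑P.S0 : Set ℕ)),
              πO' (π' (heckeAlgebra.T hℓ hℓN' hℓS')) = lam ℓ) ∧
          (∀ Pq : ValuationSubring (AlgebraicClosure ℚ), Pq.LiesOverPrime q →
            ∀ φ : AlgebraicClosure ℚ ≃ₐ[ℚ] AlgebraicClosure ℚ, Pq.IsFrobeniusAt φ q →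
              f₀.trace = Y.πO (Y.rt.ρT.trace φ)) ∧
          wilesFactor f₀ (q : P.O) ≠ 0 ∧
          wf Sg * Nat.card (P.O ⧸ Ideal.span {wilesFactor f₀ (q : P.O)}) ^ d
            ≤ wf (insert q Sg) ∧
          wf (insert q Sg) ≤ etaCard πO' ^ d

/-- **the step clause of `Top.HeckeSideFL` from the supply** (any eigenvalue function `lam`). -/
theorem heckeStep_of_supply (hpM : ¬ p ∣ M) (hsq : Squarefree M) (hSu : P.Su = ∅)
    (Sig₀ : Finset ℕ)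
    (hSig₀ : ∀ q : ℕ, q ∈ Sig₀ ↔ q.Prime ∧ (q : ℤ) ∣ W.Δ ∧ q ∉ P.Smin)
    (wf : Finset ℕ → ℕ) (lam : ℕ → P.O) {d : ℕ}
    (hsup : StepSupplyFL P wf lam Sig₀ d) :
    ∀ Sg : Finset ℕ, Sg ⊆ Sig₀ → ∀ (q : ℕ) (hq : q.Prime), q ∈ Sig₀ → q ∉ Sg →
      ∀ Y : RTNum P.rhobar (condFL P.O p P.Smin Sg) d,
        LevelOK' p P.Smin Sig₀ Sg Y.rt.N Y.rt.S →
        EngInv (↑P.S0 : Set ℕ) (levOf M) wf lam Sg Y.rt.N Y.rt.S (pointChar Y) Y.w →
        ∃ I : StepInputFL' Sig₀ Y q hq,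
          EngInv (↑P.S0 : Set ℕ) (levOf M) wf lam (insert q Sg) I.N' I.S' I.pointChar' I.w' := by
  intro Sg hSgS q hq hqS hqSg Y hlevY hInv
  obtain ⟨hN, hS, hw, hlamY⟩ := hInv
  have hp : p.Prime := Fact.out
  -- the arithmetic of `Sg` and `insert q Sg`
  have hSgP : ∀ r ∈ Sg, r.Prime ∧ ¬ r ∣ M ∧ r ≠ p := hSg_of_sig P hSu Sig₀ hSig₀ hSgS
  have hinsS : insert q Sg ⊆ Sig₀ := Finset.insert_subset hqS hSgS
  have hSgP' : ∀ r ∈ insert q Sg, r.Prime ∧ ¬ r ∣ M ∧ r ≠ p :=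
    hSg_of_sig P hSu Sig₀ hSig₀ hinsS
  have hSgPr' : ∀ r ∈ insert q Sg, r.Prime := fun r hr => (hSgP' r hr).1
  have hN' : Y.rt.N * q * q = M * ∏ x ∈ insert q Sg, x ^ 2 := by
    rw [hN]
    exact (LevArith.lev_insert' hqSg).symm
  haveI : NeZero (Y.rt.N * q * q) :=
    ⟨mul_ne_zero (mul_ne_zero (NeZero.ne Y.rt.N) hq.ne_zero) hq.ne_zero⟩
  -- the carrier and the numerics
  obtain ⟨T', iCR, iLoc, iAlg, iFin, iFree, π', πO', f₀, hgen, heig', hf₀, hc, heta, hM1⟩ :=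
    hsup Sg hSgS q hq hqS hqSg Y hN hS hw hlamY
  -- the side conditions of `exists_rawFL`
  have hYS : Y.rt.S ⊆ (↑P.S0 : Set ℕ) := hS.subset
  have hNN' : Y.rt.N ∣ Y.rt.N * q * q := Dvd.dvd.mul_right (dvd_mul_right Y.rt.N q) q
  have hpN' : ¬ p ∣ Y.rt.N * q * q := by
    rw [hN']
    exact LevArith.not_p_dvd_lev hp hpM hSgP'
  have hNS : ∀ r : ℕ, r.Prime → r ∣ Y.rt.N * q * q → r ∈ P.S0 := by
    rw [hN']
    exact LevArith.mem_S0_of_dvd_lev hSgPr' (Fermat.Agent.GE8.MinDatum.hNS0 P)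
      (mem_S0_of_sig P Sig₀ hSig₀ hinsS)
  have hNT : ∀ r : ℕ, r.Prime → r ∣ Y.rt.N * q * q → r ∈ P.Smin ∪ insert q Sg := by
    rw [hN']
    exact LevArith.mem_union_of_dvd_lev hSgPr'
      (fun r hr hrM => Fermat.Agent.GE8.MinDatum.mem_Smin_of_dvd P hSu hr hrM)
  have hSminN' : ∀ r ∈ P.Smin, r.Prime → r ≠ p →
      r ∣ Y.rt.N * q * q ∧ ¬ r ^ 2 ∣ Y.rt.N * q * q := by
    rw [hN']
    exact LevArith.exactDvd_lev_of_mem_Smin hsq (fun r hr => P.dvd_of_mem_Smin hr) hSgP'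
  obtain ⟨-, -, -, hS0base⟩ := levelOK'_base P hsq Sig₀ hSig₀
  have hlev : LevelOK' p P.Smin Sig₀ (insert q Sg) (Y.rt.N * q * q) (↑P.S0 : Set ℕ) := by
    rw [hN']
    exact LevArith.levelClauses hp hsq (fun r hr => P.dvd_of_mem_Smin hr) hSgP' hS0base
  have heig : ∀ (ℓ : ℕ) (hℓ : ℓ.Prime) (hℓN : ¬ ℓ ∣ Y.rt.N) (hℓS : ℓ ∉ Y.rt.S)
      (hℓN' : ¬ ℓ ∣ Y.rt.N * q * q) (hℓS' : ℓ ∉ (↑P.S0 : Set ℕ)),
        πO' (π' (heckeAlgebra.T hℓ hℓN' hℓS')) =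
          Y.πO (Y.rt.π (heckeAlgebra.T hℓ hℓN hℓS)) :=
    fun ℓ hℓ hℓN hℓS hℓN' hℓS' => (heig' ℓ hℓ hℓN' hℓS').trans
      ((hlamY ℓ hℓ hℓN hℓS).symm.trans (pointChar_apply Y _))
  have heta' : Y.w * Nat.card (P.O ⧸ Ideal.span {wilesFactor f₀ (q : P.O)}) ^ d
      ≤ wf (insert q Sg) := by
    rw [hw]
    exact heta
  have hQ : EngInv (↑P.S0 : Set ℕ) (levOf M) wf lam (insert q Sg) (Y.rt.N * q * q)
      (↑P.S0 : Set ℕ) ((πO' : T' →+* P.O).comp π') (wf (insert q Sg)) :=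
    ⟨hN', rfl, rfl, fun ℓ hℓ hℓN' hℓS' => heig' ℓ hℓ hℓN' hℓS'⟩
  exact Fermat.Agent.GE9.Stage.Step.exists_stepInputFL' (𝒪 := P.O) (ρbar := P.rhobar) (p := p)
    (Smin := P.Smin) (Sig := Sg) (d := d) Sig₀ Y q hq P.hp2 P.hpO P.p_mem_Smin P.hmin
    (Fermat.Agent.GE8.MinDatum.hbar_condFL P hpM hsq (insert q Sg)) P.S0 hYS
    (N' := Y.rt.N * q * q) hNN' hpN' (Fermat.Agent.GE8.MinDatum.hpS0' P) hNS hNT hSminN'
    π' hgen πO' heig f₀ hf₀ hc (wf (insert q Sg)) heta' hM1 hlev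
    (fun N _ S χ' w => EngInv (↑P.S0 : Set ℕ) (levOf M) wf lam (insert q Sg) N S χ' w) hQ

/-- **`Top.HeckeSideFL` from the base clause and the supply.** -/
theorem heckeSideFL_of_supply (hpM : ¬ p ∣ M) (hsq : Squarefree M) (hSu : P.Su = ∅)
    (χ : heckeAlgebra M 2 (↑P.S0 : Set ℕ) →+* P.O) (Sig₀ : Finset ℕ)
    (hSig₀ : ∀ q : ℕ, q ∈ Sig₀ ↔ q.Prime ∧ (q : ℤ) ∣ W.Δ ∧ q ∉ P.Smin)
    (wf : Finset ℕ → ℕ) {d : ℕ}
    (hbase : ∀ (D : GaloisRep.DeformationRingData P.O P.rhobar (condFL P.O p P.Smin ∅))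
      (H : HeckeGaloisRepDatum M (↑P.S0 : Set ℕ) P.O P.theta (Tloc P.O P.theta))
      (hπ : H.π = piT P.O P.theta)
      (φ : D.R →ₐ[P.O] Tloc P.O P.theta) (hφ : Function.Surjective φ)
      (hloc : IsLocalHom (φ : D.R →+* Tloc P.O P.theta))
      (hρ : (D.ρ.baseChangeAlong (φ : D.R →+* Tloc P.O P.theta) hloc).IsEquiv H.ρ)
      (πO : Tloc P.O P.theta →ₐ[P.O] P.O)
      (hπO : ∀ t : heckeAlgebra M 2 (↑P.S0 : Set ℕ), πO (piT P.O P.theta t) = χ t),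
      ∃ I : BaseInput p D φ πO d,
        Nat.card (Fermat.Agent.GE9.Eta.CongMod I.B (Submodule.span P.O (Set.range I.b))) =
          wf ∅)
    (hsup : StepSupplyFL P wf (lamOf χ) Sig₀ d) :
    HeckeSideFL P χ Sig₀ d :=
  ⟨wf, hbase, heckeStep_of_supply P hpM hsq hSu Sig₀ hSig₀ wf (lamOf χ) hsup⟩

end Level

end Bundle

/-! ### `HeckeFLStmt` without goodness of `W` at `p` (RISK-4, helper80 7585 (S3)) -/

/-- **`Top.HeckeFLStmt p` WITHOUT the binder `W.IsGoodPrimeFor p`**: the flat Hecke side only sees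
the bundle `P` at a minimal level `M` prime to `p` (flatness of `ρ̄` is `MinDatum.hbar_condFL P hpM`);
RISK-4 case (b) calls it for `W` MULTIPLICATIVE at `p` (peu ramifiée).  FL producers target THIS. -/
def HeckeFLStmt' (p : ℕ) [Fact p.Prime] : Prop :=
  ∀ (W : WeierstrassCurve ℤ), W.Δ ≠ 0 → W.IsSemistableModel → W.ModRepIsIrreducible p →
    ∀ (hcard₁ : Nat.card (Submodule.torsionBy ℤ
      ((W.map (Int.castRingHom ℚ))⁄(AlgebraicClosure ℚ)).Point p) = p ^ 2)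
    (hker : GaloisFactorsThroughFiniteLevel
      (galoisRepModuleEnd (K := AlgebraicClosure ℚ) ℚ (W.map (Int.castRingHom ℚ)) p))
    (M : ℕ) [NeZero M], Squarefree M → ¬ p ∣ M → W.IsResiduallyModularOfLevel p M →
    (∀ q : ℕ, q.Prime → q ≠ p → q ∣ M →
      ¬ ((W.map (Int.castRingHom ℚ)).residualGaloisRepOf p hcard₁ hker).IsUnramifiedAt q) →
    ∃ A : ℕ, 1 ≤ A ∧ ∀ (P : Pkg p W hcard₁ hker M A)
      (χ : heckeAlgebra M 2 (↑P.S0 : Set ℕ) →+* P.O),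
      (∀ t : heckeAlgebra M 2 (↑P.S0 : Set ℕ), residue P.O (χ t) = P.theta t) →
        ∃ d : ℕ, d ≠ 0 ∧ HeckeSideFL P χ (sigOf W P.Smin) d

theorem heckeFLStmt_of_prime (p : ℕ) [Fact p.Prime] (h : HeckeFLStmt' p) : HeckeFLStmt p :=
  fun W hΔ hW hirr hcard₁ hker M _ hsq hpM hRM _ hmin =>
    h W hΔ hW hirr hcard₁ hker M hsq hpM hRM hmin

end Fermat.Agent.GE.Engine
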