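/-
GATE-E / GE-ENGINE-ASM (helper54): **`StepFL.StepSupplyFL` — hence `Top.HeckeSideFL` — from the
module side at the MINIMAL level alone** (flat case): the thin `Pkg` wrapper over helper73's
`GE9/Stage/SupplyFrob.exists_supplyFL` (carrier `CarrierLam` + `hold` from helper63's `hold_stage` +
`hf₀` from helper11's `FrobQ` + `c_q ≠ 0` from helper63's `CqNeO` + (ETA) from helper2's
`Eta/Chain`).

Its three binders are discharged at the bundle level: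
* `hne`  := `NonEis.hne_of_pkg` (non-Eisenstein, `GE9/Ihara2/NonEisOne`);
* `hno`  := `hno_of_pkg` (`GE9/OldQ/BaseR.nonOccAt_of_ramified`: at a minimal level `ρ̄` is ramified
  at every prime of `M`, and `lam l ≡ a_l(W)` mod `𝔪` because `χ` lifts `θ̄`);
* `hbase : EtaStage M P.O lam 2` stays — the base of the module-side induction (helper2
  `GE9/Eta/Base/Fields.base_fields`), together with the full system `lam : Nat.Primes → P.O`
  extending `χ` (`hlamχ`) and the base clause of `HeckeSideFL` (E6 + ETA-BASE).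

* `wfOf M lam Sg = omegaCard (M ∏_{q ∈ Sg} q²) O (lamAt lam Sg)` : `#Ω` of the stage as a function of
  `Σ` (no instance needed), `wfOf_eq`, `wfOf_empty`;
* `hno_of_pkg`;
* **`stepSupplyFL_of_base`** : `StepSupplyFL P (wfOf M lam) (lamOf χ) Sig₀ 2`;
* **`heckeSideFL_of_base`** : `HeckeSideFL P χ Sig₀ 2` from `hbase` and the base clause with
  `#Ω_∅ = omegaCard M P.O lam`;
* `BaseFLStmt p` : the residual `Prop` (E6 + ETA-BASE at the minimal level), and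
  **`heckeFLStmt'_of_base : BaseFLStmt p → HeckeFLStmt' p`**, `heckeFLStmt_of_base`.
-/
import Mathlib
import Fermat.Agent.GE.Engine.StepFL
import Fermat.Agent.GE.Engine.NonEis
import Fermat.Agent.GE9.Stage.SupplyFrob
import Fermat.Agent.GE9.OldQ.BaseR

set_option autoImplicit false
set_option linter.unusedSectionVars false
set_option linter.unusedVariables false
set_option linter.style.haveILetI false

open WeierstrassCurve WeierstrassCurve.Affine.Point IsLocalRing CuspForm Polynomial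
open scoped WeierstrassCurve.Affine

namespace Fermat.Agent.GE.Engine

open Fermat.Agent.GB.Setup.RhoBar Fermat.Agent.GB.Setup.SetupPkg
  Fermat.Agent.GB.B4.Datum.Carrier Fermat.Agent.GB.B4.Datum.HeckeCarrier
  Fermat.Agent.GE.Graph Fermat.Agent.GE9.Ind Fermat.Agent.GE9.NumCrit Fermat.Agent.GE9.Asm
  Fermat.Agent.GE9.TanGrow Fermat.Agent.GE9.Eta.Mod Fermat.Agent.GE9.Eta.Chain
  Fermat.Agent.GE9.OldQ.Consumer

/-! ### `#Ω` of the stage as a function of `Σ` -/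

section Wf

variable {O : Type} [CommRing O]

/-- `#Ω` of the stage `Sg`: `omegaCard (M ∏_{q ∈ Sg} q²) O (lamAt lam Sg)` (`0` if the level is
`0`, which never happens for a set of primes). -/
noncomputable def wfOf (M : ℕ) (lam : Nat.Primes → O) (Sg : Finset ℕ) : ℕ :=
  if h : M * ∏ x ∈ Sg, x ^ 2 = 0 then 0
  else @omegaCard (M * ∏ x ∈ Sg, x ^ 2) ⟨h⟩ O _ (lamAt lam Sg)

theorem wfOf_eq (M : ℕ) (lam : Nat.Primes → O) (Sg : Finset ℕ) (N : ℕ) [NeZero N]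
    (hN : N = M * ∏ x ∈ Sg, x ^ 2) : wfOf M lam Sg = omegaCard N O (lamAt lam Sg) := by
  subst hN
  unfold wfOf
  rw [dif_neg (NeZero.ne (M * ∏ x ∈ Sg, x ^ 2))]

theorem wfOf_empty (M : ℕ) [NeZero M] (lam : Nat.Primes → O) :
    wfOf M lam ∅ = omegaCard M O lam := by
  rw [wfOf_eq M lam ∅ M (by rw [Finset.prod_empty, mul_one]), lamAt_empty]

end Wf

section Bundle

variable {p : ℕ} [Fact p.Prime] {W : WeierstrassCurve ℤ}
  {hcard₁ : Nat.card (Submodule.torsionBy ℤ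
    ((W.map (Int.castRingHom ℚ))⁄(AlgebraicClosure ℚ)).Point p) = p ^ 2}
  {hker : GaloisFactorsThroughFiniteLevel
    (galoisRepModuleEnd (K := AlgebraicClosure ℚ) ℚ (W.map (Int.castRingHom ℚ)) p)}
  {M A : ℕ} (P : Pkg p W hcard₁ hker M A)

section Level

variable [NeZero M]

/-- **`hno`** : non-occurrence at the primes of a MINIMAL level prime to `p` (`ρ̄` is ramified
there), for any full system `lam` extending an eigensystem `χ` which lifts `θ̄`. -/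
theorem hno_of_pkg (hpM : ¬ p ∣ M) (hSu : P.Su = ∅)
    (χ : heckeAlgebra M 2 (↑P.S0 : Set ℕ) →+* P.O)
    (hχ : ∀ t : heckeAlgebra M 2 (↑P.S0 : Set ℕ), residue P.O (χ t) = P.theta t)
    (lam : Nat.Primes → P.O)
    (hlamχ : ∀ (ℓ : ℕ) (hℓ : ℓ.Prime) (hℓM : ¬ ℓ ∣ M) (hℓS : ℓ ∉ (↑P.S0 : Set ℕ)),
      χ (heckeAlgebra.T hℓ hℓM hℓS) = lam (⟨ℓ, hℓ⟩ : Nat.Primes)) :
    ∀ b : Nat.Primes, (b : ℕ) ∣ M → NonOccAt P.O P.S0 b lam := by
  intro b hbM
  have hbp : (b : ℕ) ≠ p := fun h => hpM (h ▸ hbM)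
  have hbS : (b : ℕ) ∈ P.Smin := Fermat.Agent.GE8.MinDatum.mem_Smin_of_dvd P hSu b.2 hbM
  have hram : ¬ P.rhobar.IsUnramifiedAt b := (P.hmin b b.2 hbp).mp hbS
  refine nonOccAt_of_ramified hcard₁ hker P.hΔ P.hirr P.htrans P.k b hbp hram P.hpO P.S0 lam ?_
  intro l hlS hgood hlp
  have hlS' : (l : ℕ) ∉ (↑P.S0 : Set ℕ) := fun h => hlS (Finset.mem_coe.mp h)
  have hlM : ¬ (l : ℕ) ∣ M := (P.good_of_notMem_S0 l.2 hlS').2.1
  have h1 : lam l = χ (heckeAlgebra.T l.2 hlM hlS') := (hlamχ l l.2 hlM hlS').symm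
  rw [← residue_eq_zero_iff, map_sub, map_intCast, sub_eq_zero, h1, hχ,
    P.theta_T l.2 hlM hlS']

/-- **the supply of `StepFL` from the module side at the minimal level** (`d = 2`). -/
theorem stepSupplyFL_of_base (hpM : ¬ p ∣ M) (hsq : Squarefree M) (hSu : P.Su = ∅)
    (χ : heckeAlgebra M 2 (↑P.S0 : Set ℕ) →+* P.O)
    (hχ : ∀ t : heckeAlgebra M 2 (↑P.S0 : Set ℕ), residue P.O (χ t) = P.theta t)
    (Sig₀ : Finset ℕ)
    (hSig₀ : ∀ q : ℕ, q ∈ Sig₀ ↔ q.Prime ∧ (q : ℤ) ∣ W.Δ ∧ q ∉ P.Smin)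
    (lam : Nat.Primes → P.O)
    (hlamχ : ∀ (ℓ : ℕ) (hℓ : ℓ.Prime) (hℓM : ¬ ℓ ∣ M) (hℓS : ℓ ∉ (↑P.S0 : Set ℕ)),
      χ (heckeAlgebra.T hℓ hℓM hℓS) = lam (⟨ℓ, hℓ⟩ : Nat.Primes))
    (hbase : EtaStage M P.O lam 2) :
    StepSupplyFL P (wfOf M lam) (lamOf χ) Sig₀ 2 := by
  intro Sg hSgS q hq hqS hqSg Y hN hS hw hlamY _
  have hp : p.Prime := Fact.out
  have hpϖ : ∃ c : P.O, (p : P.O) = P.ϖ * c := by
    obtain ⟨c, hc'⟩ := Ideal.mem_span_singleton.mp P.hpϖ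
    exact ⟨c, hc'⟩
  -- the arithmetic of `Sg` and `insert q Sg`
  have hinsS : insert q Sg ⊆ Sig₀ := Finset.insert_subset hqS hSgS
  have hSgP : ∀ r ∈ Sg, r.Prime ∧ ¬ r ∣ M ∧ r ≠ p := hSg_of_sig P hSu Sig₀ hSig₀ hSgS
  have hSgP' : ∀ r ∈ insert q Sg, r.Prime ∧ ¬ r ∣ M ∧ r ≠ p :=
    hSg_of_sig P hSu Sig₀ hSig₀ hinsS
  have hqM : ¬ q ∣ M := (hSgP' q (Finset.mem_insert_self q Sg)).2.1
  have hqp : q ≠ p := (hSgP' q (Finset.mem_insert_self q Sg)).2.2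
  have hNe : Y.rt.N = M * ∏ x ∈ Sg, x ^ 2 := hN
  have hN' : Y.rt.N * q * q = M * ∏ x ∈ insert q Sg, x ^ 2 := by
    rw [hNe]
    exact (LevArith.lev_insert' hqSg).symm
  have hMN : M ∣ Y.rt.N := by
    rw [hNe]
    exact dvd_mul_right M _
  have hMN' : M ∣ Y.rt.N * q * q := by
    rw [hN']
    exact dvd_mul_right M _
  -- the invariant of `Y` in the vocabulary of the module side
  have hYw : Y.w = omegaCard Y.rt.N P.O (lamAt lam Sg) :=
    hw.trans (wfOf_eq M lam Sg Y.rt.N hNe)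
  have hYχ : ∀ (ℓ : ℕ) (hℓ : ℓ.Prime) (hℓN : ¬ ℓ ∣ Y.rt.N) (hℓS : ℓ ∉ Y.rt.S),
      pointChar Y (heckeAlgebra.T hℓ hℓN hℓS) = lam (⟨ℓ, hℓ⟩ : Nat.Primes) := by
    intro ℓ hℓ hℓN hℓS
    have h0 : ℓ ∉ (↑P.S0 : Set ℕ) := by
      rw [← hS]
      exact hℓS
    have hℓM : ¬ ℓ ∣ M := fun h => hℓN (dvd_trans h hMN)
    rw [hlamY ℓ hℓ hℓN hℓS, lamOf_eq χ hℓ hℓM h0]
    exact hlamχ ℓ hℓ hℓM h0
  -- helper73's supply
  obtain ⟨T', iCR, iLoc, iAlg, iFin, iFree, π', πO', f₀, hgen, heig, hf₀, hcf, heta, hM1⟩ :=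
    Fermat.Agent.GE9.Stage.SupplyFrob.exists_supplyFL Y p P.hp2 P.hpO P.hϖ hpϖ hsq lam
      (hne_of_pkg P χ hχ lam hlamχ) le_rfl hbase Sg hSgP hq hqSg hqM hqp P.S0
      (Fermat.Agent.GE8.MinDatum.hpS0' P) (Fermat.Agent.GE8.MinDatum.hNS0 P)
      (mem_S0_of_sig P Sig₀ hSig₀ hinsS) (hno_of_pkg P hpM hSu χ hχ lam hlamχ) hNe hS hYw hYχ
  refine ⟨T', iCR, iLoc, iAlg, iFin, iFree, π', πO', f₀, hgen, ?_, hf₀, hcf, ?_, ?_⟩
  · -- the eigenvalues of the carrier are those of `χ`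
    intro ℓ hℓ hℓN' hℓS'
    have hℓM : ¬ ℓ ∣ M := fun h => hℓN' (dvd_trans h hMN')
    rw [heig ℓ hℓ hℓN' hℓS', ← hlamχ ℓ hℓ hℓM hℓS']
    exact (lamOf_eq χ hℓ hℓM hℓS').symm
  · -- (ETA)
    rw [wfOf_eq M lam (insert q Sg) (Y.rt.N * q * q) hN', ← hw]
    exact heta
  · -- (M1)
    rw [wfOf_eq M lam (insert q Sg) (Y.rt.N * q * q) hN']
    exact hM1

/-- **`Top.HeckeSideFL P χ Sig₀ 2` from the module side at the minimal level** (base clause with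
`#Ω_∅ = omegaCard M P.O lam`). -/
theorem heckeSideFL_of_base (hpM : ¬ p ∣ M) (hsq : Squarefree M) (hSu : P.Su = ∅)
    (χ : heckeAlgebra M 2 (↑P.S0 : Set ℕ) →+* P.O)
    (hχ : ∀ t : heckeAlgebra M 2 (↑P.S0 : Set ℕ), residue P.O (χ t) = P.theta t)
    (Sig₀ : Finset ℕ)
    (hSig₀ : ∀ q : ℕ, q ∈ Sig₀ ↔ q.Prime ∧ (q : ℤ) ∣ W.Δ ∧ q ∉ P.Smin)
    (lam : Nat.Primes → P.O)
    (hlamχ : ∀ (ℓ : ℕ) (hℓ : ℓ.Prime) (hℓM : ¬ ℓ ∣ M) (hℓS : ℓ ∉ (↑P.S0 : Set ℕ)),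
      χ (heckeAlgebra.T hℓ hℓM hℓS) = lam (⟨ℓ, hℓ⟩ : Nat.Primes))
    (hbase : EtaStage M P.O lam 2)
    (hbaseClause : ∀ (D : GaloisRep.DeformationRingData P.O P.rhobar (condFL P.O p P.Smin ∅))
      (H : HeckeGaloisRepDatum M (↑P.S0 : Set ℕ) P.O P.theta (Tloc P.O P.theta))
      (hπ : H.π = piT P.O P.theta)
      (φ : D.R →ₐ[P.O] Tloc P.O P.theta) (hφ : Function.Surjective φ)
      (hloc : IsLocalHom (φ : D.R →+* Tloc P.O P.theta))
      (hρ : (D.ρ.baseChangeAlong (φ : D.R →+* Tloc P.O P.theta) hloc).IsEquiv H.ρ)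
      (πO : Tloc P.O P.theta →ₐ[P.O] P.O)
      (hπO : ∀ t : heckeAlgebra M 2 (↑P.S0 : Set ℕ), πO (piT P.O P.theta t) = χ t),
      ∃ I : BaseInput p D φ πO 2,
        Nat.card (Fermat.Agent.GE9.Eta.CongMod I.B (Submodule.span P.O (Set.range I.b))) =
          omegaCard M P.O lam) :
    HeckeSideFL P χ Sig₀ 2 := by
  refine heckeSideFL_of_supply P hpM hsq hSu χ Sig₀ hSig₀ (wfOf M lam) ?_
    (stepSupplyFL_of_base P hpM hsq hSu χ hχ Sig₀ hSig₀ lam hlamχ hbase)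
  intro D H hπ φ hφ hloc hρ πO hπO
  obtain ⟨I, hI⟩ := hbaseClause D H hπ φ hφ hloc hρ πO hπO
  exact ⟨I, hI.trans (wfOf_empty M lam).symm⟩

end Level

end Bundle

/-! ### the residual `Prop` of the flat Hecke side: the base (E6 + ETA-BASE) -/

/-- **E6 + ETA-BASE at the minimal level, flat case** = ALL that remains of `HeckeFLStmt' p`: for
every minimal level `M` prime to `p` (no goodness of `W` at `p`), an `A ≥ 1` such that for EVERY
bundle `P` at level `M` with `p ^ A`-th roots of unity and EVERY eigensystem `χ` lifting `θ̄` there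
are a FULL eigensystem `lam : Nat.Primes → P.O` extending `χ`, with `EtaStage M P.O lam 2` (helper2
`GE9/Eta/Base/Fields.base_fields`) and the base record `Base.BaseInput` (E6 `TWLevelsStmt` + the ETA
fields on the SAME module, `#Ω_∅ = omegaCard M P.O lam`) for every `(D, H, φ, πO)`. -/
def BaseFLStmt (p : ℕ) [Fact p.Prime] : Prop :=
  ∀ (W : WeierstrassCurve ℤ), W.Δ ≠ 0 → W.IsSemistableModel → W.ModRepIsIrreducible p →
    ∀ (hcard₁ : Nat.card (Submodule.torsionBy ℤ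
      ((W.map (Int.castRingHom ℚ))⁄(AlgebraicClosure ℚ)).Point p) = p ^ 2)
    (hker : GaloisFactorsThroughFiniteLevel
      (galoisRepModuleEnd (K := AlgebraicClosure ℚ) ℚ (W.map (Int.castRingHom ℚ)) p))
    (M : ℕ) [NeZero M], Squarefree M → ¬ p ∣ M → W.IsResiduallyModularOfLevel p M →
    (∀ q : ℕ, q.Prime → q ≠ p → q ∣ M →
      ¬ ((W.map (Int.castRingHom ℚ)).residualGaloisRepOf p hcard₁ hker).IsUnramifiedAt q) →
    ∃ A : ℕ, 1 ≤ A ∧ ∀ (P : Pkg p W hcard₁ hker M A)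
      (χ : heckeAlgebra M 2 (↑P.S0 : Set ℕ) →+* P.O),
      (∀ t : heckeAlgebra M 2 (↑P.S0 : Set ℕ), residue P.O (χ t) = P.theta t) →
      ∃ lam : Nat.Primes → P.O,
        (∀ (ℓ : ℕ) (hℓ : ℓ.Prime) (hℓM : ¬ ℓ ∣ M) (hℓS : ℓ ∉ (↑P.S0 : Set ℕ)),
          χ (heckeAlgebra.T hℓ hℓM hℓS) = lam (⟨ℓ, hℓ⟩ : Nat.Primes)) ∧
        EtaStage M P.O lam 2 ∧
        ∀ (D : GaloisRep.DeformationRingData P.O P.rhobar (condFL P.O p P.Smin ∅))
          (H : HeckeGaloisRepDatum M (↑P.S0 : Set ℕ) P.O P.theta (Tloc P.O P.theta))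
          (hπ : H.π = piT P.O P.theta)
          (φ : D.R →ₐ[P.O] Tloc P.O P.theta) (hφ : Function.Surjective φ)
          (hloc : IsLocalHom (φ : D.R →+* Tloc P.O P.theta))
          (hρ : (D.ρ.baseChangeAlong (φ : D.R →+* Tloc P.O P.theta) hloc).IsEquiv H.ρ)
          (πO : Tloc P.O P.theta →ₐ[P.O] P.O)
          (hπO : ∀ t : heckeAlgebra M 2 (↑P.S0 : Set ℕ), πO (piT P.O P.theta t) = χ t),
          ∃ I : BaseInput p D φ πO 2,
            Nat.card (Fermat.Agent.GE9.Eta.CongMod I.B (Submodule.span P.O (Set.range I.b))) =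
              omegaCard M P.O lam

/-- **the flat Hecke side from the base alone**: every step of the induction over `Σ` is closed
(`stepSupplyFL_of_base`). -/
theorem heckeFLStmt'_of_base (p : ℕ) [Fact p.Prime] (h : BaseFLStmt p) : HeckeFLStmt' p := by
  intro W hΔ hW hirr hcard₁ hker M _ hsq hpM hRM hmin
  obtain ⟨A, hA, hP⟩ := h W hΔ hW hirr hcard₁ hker M hsq hpM hRM hmin
  refine ⟨A, hA, fun P χ hχ => ?_⟩
  obtain ⟨lam, hlamχ, hbase, hclause⟩ := hP P χ hχ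
  exact ⟨2, two_ne_zero, heckeSideFL_of_base P hpM hsq (su_eq_empty P hmin) χ hχ
    (sigOf W P.Smin) (fun q => mem_sigOf P.hΔ) lam hlamχ hbase hclause⟩

/-- `Top.HeckeFLStmt p` from the base. -/
theorem heckeFLStmt_of_base (p : ℕ) [Fact p.Prime] (h : BaseFLStmt p) : HeckeFLStmt p :=
  heckeFLStmt_of_prime p (heckeFLStmt'_of_base p h)

end Fermat.Agent.GE.Engine
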