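/-
GATE-E / GE-ENGINE-ASM (helper73): **`StepSO.StepSupplySO` — hence `SOaFinal.HeckeSOaSupplyStmt` —
from the module side at the MINIMAL level alone** (strict-ordinary case, branch (a): `p ∥ M`, `ρ̄`
does not occur at the level `M / p`): the thin `Pkg` wrapper over
`GE9/Stage/SupplySONew.exists_supplySO_new`, SO(a) twin of helper54's `GE/Engine/StepPlug`.

Binders discharged at the bundle level:
* `hne`  := `NonEis.hne_of_pkg`;
* `hnoR` := `hnoR_of_pkg` (`GE9/OldQ/BaseR.nonOccAt_of_ramified` at the primes `b ≠ p` of `M`); the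
  prime `b = p` is handled inside `SupplySONew` (`p`-new ⟹ `lam p ^ 2 = 1` ⟹ helper63's
  `nonOccAt_of_sq_eq_one`);
* the clause `hann` is brought to the VERBATIM spelling of `StepSupplySO` (`LamNew`,
  `levelData.heckeTensor`, `GalPkgSO.twO`) by `actO_eq_hTens` + helper39's `HannImg`.

What stays:
* `hbase : EtaStage M P.O lam 2` with the full system `lam` extending `χ`, and the base clause
  (E6 SO(a) + ETA-BASE) — `BaseSOaStmt p`;
* `SupplySONew.NewLoc p M lam Sg` for the stages `Sg ⊆ Σ` — `NewLocStmt p` (helper10's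
  `¬ ResMod p ((M / p) ∏_{x ∈ Sg} x²)` + the lattice half).

* `actO_eq_hTens`, `hann_verbatim`;
* `hnoR_of_pkg`;
* **`stepSupplySO_of_base`** : `StepSupplySO P (wfOf M lam) (lamOf χ) Sig₀ 2`;
* `BaseSOaStmt p`, `NewLocStmt p`, **`heckeSOaSupplyStmt_of_base`** :
  `BaseSOaStmt p → NewLocStmt p → HeckeSOaSupplyStmt p`, and `minHeckeSOa_of_base`.
-/
import Mathlib
import Fermat.Agent.GE.Engine.StepPlug
import Fermat.Agent.GE.Engine.SOaFinal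
import Fermat.Agent.GE9.Stage.SupplySONew
import Fermat.Agent.GE9.PNew.Inst.HannImg

set_option autoImplicit false
set_option linter.unusedSectionVars false
set_option linter.unusedVariables false
set_option linter.style.haveILetI false

open WeierstrassCurve WeierstrassCurve.Affine.Point IsLocalRing CuspForm Polynomial TensorProduct
open scoped WeierstrassCurve.Affine

namespace Fermat.Agent.GE.Engine

open Fermat.Agent.GB.Setup.RhoBar Fermat.Agent.GB.Setup.SetupPkg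
  Fermat.Agent.GB.B4.Datum.Carrier Fermat.Agent.GB.B4.Datum.HeckeCarrier
  Fermat.Agent.GE.Graph Fermat.Agent.GE9.Ind Fermat.Agent.GE9.NumCrit Fermat.Agent.GE9.Asm
  Fermat.Agent.GE9.TanGrow Fermat.Agent.GE9.Eta.Mod Fermat.Agent.GE9.Eta.Chain
  Fermat.Agent.GE9.OldQ.Consumer
open Fermat.Agent.GK.AL
open Fermat.Agent.GB.B10.KumLevelHecke Fermat.Agent.GB.B10.L.NewInst
open Fermat.Agent.GB.B10.L.ThetaNew Fermat.Agent.GB.B10.L.StrictQNew
open Fermat.Agent.GJ.J2.Lat Fermat.Agent.GJ.J2.LatAct Fermat.Agent.GM.B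
open Fermat.Agent.GE9.Stage.CarrierFaith Fermat.Agent.GE9.Stage.SupplySONew
open Fermat.Agent.GE9.PNew.Inst.HannImg

/-! ### the clause `hann` in the VERBATIM spelling -/

section Verb

variable {𝒪 : Type} [CommRing 𝒪] [IsLocalRing 𝒪]

/-- the two spellings of the action of `𝒪 ⊗ 𝕋` on `𝒪 ⊗ Lam N` agree -/
theorem actO_eq_hTens (N : ℕ) [NeZero N] (S : Set ℕ) :
    actO N 𝒪 S = hTens N S 𝒪 := by
  refine Algebra.TensorProduct.ext' fun c t => ?_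
  refine LinearMap.ext fun x => ?_
  rw [actO_tmul, hTens_tmul, LinearMap.smul_apply]

/-- **`hann`, VERBATIM**: from the `betaP`-kernel / `actO` / `liftO` form of `SupplySO` to the
`LamNew` / `levelData.heckeTensor` / `GalPkgSO.twO` form of `StepSupplySO`. -/
theorem hann_verbatim {p N₀ : ℕ} [Fact p.Prime] [NeZero N₀] {S0 : Finset ℕ}
    (hpS : p ∈ S0) (hNS : ∀ r : ℕ, r.Prime → r ∣ N₀ * p → r ∈ S0) (hpN₀ : ¬ p ∣ N₀)
    {T' : Type} [CommRing T'] [Algebra 𝒪 T']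
    (π' : heckeAlgebra (N₀ * p) 2 (↑S0 : Set ℕ) →+* T')
    (hann : ∀ t₀ : 𝒪 ⊗[ℤ] ↥(heckeAlgebra (N₀ * p) 2 (↑S0 : Set ℕ)),
      (∀ (a : 𝒪) (x : Lam (N₀ * p)), betaP ℤ hpN₀ x = 0 →
        actO (N₀ * p) 𝒪 (↑S0 : Set ℕ) t₀ (a ⊗ₜ[ℤ] x) = 0) → liftO (𝒪 := 𝒪) π' t₀ = 0) :
    ∀ t₀ : 𝒪 ⊗[ℤ] heckeAlgebra (N₀ * p) 2 (↑S0 : Set ℕ),
      (∀ (a : 𝒪), ∀ x ∈ (LamNew hpN₀ : AddSubgroup (levelData p (N₀ * p) hpS hNS).Λ),
        (levelData p (N₀ * p) hpS hNS).heckeTensor 𝒪 t₀ (a ⊗ₜ[ℤ] x) = 0) →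
      Fermat.Agent.GB.B10.L.GalPkgSO.twO (𝒪 := 𝒪) π' t₀ = 0 := by
  intro t₀ ht₀
  refine hann t₀ fun a x hx => ?_
  have hx' : betaP ℤ hpN₀ x = 0 := hx
  rw [betaP_apply] at hx'
  have hxN : x ∈ LamNew hpN₀ :=
    mem_lamNew_of_coresP hpN₀ x (congrArg Prod.fst hx') (congrArg Prod.snd hx')
  have h := ht₀ a x hxN
  rw [heckeTensor_eq_hTens] at h
  rw [actO_eq_hTens]
  exact h

end Verb

section Bundle

variable {p : ℕ} [Fact p.Prime] {W : WeierstrassCurve ℤ}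
  {hcard₁ : Nat.card (Submodule.torsionBy ℤ
    ((W.map (Int.castRingHom ℚ))⁄(AlgebraicClosure ℚ)).Point p) = p ^ 2}
  {hker : GaloisFactorsThroughFiniteLevel
    (galoisRepModuleEnd (K := AlgebraicClosure ℚ) ℚ (W.map (Int.castRingHom ℚ)) p)}
  {M A : ℕ} (P : Pkg p W hcard₁ hker M A)

section Level

variable [NeZero M]

/-- **`hnoR`** : non-occurrence at the primes `b ≠ p` of a MINIMAL level (`ρ̄` is ramified there),
for any full system `lam` extending an eigensystem `χ` which lifts `θ̄` (`StepPlug.hno_of_pkg`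
without `p ∤ M`). -/
theorem hnoR_of_pkg (hSu : P.Su = ∅)
    (χ : heckeAlgebra M 2 (↑P.S0 : Set ℕ) →+* P.O)
    (hχ : ∀ t : heckeAlgebra M 2 (↑P.S0 : Set ℕ), residue P.O (χ t) = P.theta t)
    (lam : Nat.Primes → P.O)
    (hlamχ : ∀ (ℓ : ℕ) (hℓ : ℓ.Prime) (hℓM : ¬ ℓ ∣ M) (hℓS : ℓ ∉ (↑P.S0 : Set ℕ)),
      χ (heckeAlgebra.T hℓ hℓM hℓS) = lam (⟨ℓ, hℓ⟩ : Nat.Primes)) :
    ∀ b : Nat.Primes, (b : ℕ) ∣ M → (b : ℕ) ≠ p → NonOccAt P.O P.S0 b lam := by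
  intro b hbM hbp
  have hbS : (b : ℕ) ∈ P.Smin := Fermat.Agent.GE8.MinDatum.mem_Smin_of_dvd P hSu b.2 hbM
  have hram : ¬ P.rhobar.IsUnramifiedAt b := (P.hmin b b.2 hbp).mp hbS
  refine nonOccAt_of_ramified hcard₁ hker P.hΔ P.hirr P.htrans P.k b hbp hram P.hpO P.S0 lam ?_
  intro l hlS hgood hlp
  have hlS' : (l : ℕ) ∉ (↑P.S0 : Set ℕ) := fun h => hlS (Finset.mem_coe.mp h)
  have hlM : ¬ (l : ℕ) ∣ M := (P.good_of_notMem_S0 l.2 hlS').2.1
  have h1 : lam l = χ (heckeAlgebra.T l.2 hlM hlS') := (hlamχ l l.2 hlM hlS').symm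
  rw [← residue_eq_zero_iff, map_sub, map_intCast, sub_eq_zero, h1, hχ,
    P.theta_T l.2 hlM hlS']

/-- **the supply of `StepSO` from the module side at the minimal level** (`d = 2`), branch (a). -/
theorem stepSupplySO_of_base (hpM : p ∣ M) (hsq : Squarefree M) (hSu : P.Su = ∅)
    (χ : heckeAlgebra M 2 (↑P.S0 : Set ℕ) →+* P.O)
    (hχ : ∀ t : heckeAlgebra M 2 (↑P.S0 : Set ℕ), residue P.O (χ t) = P.theta t)
    (Sig₀ : Finset ℕ)
    (hSig₀ : ∀ q : ℕ, q ∈ Sig₀ ↔ q.Prime ∧ (q : ℤ) ∣ W.Δ ∧ q ∉ P.Smin)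
    (lam : Nat.Primes → P.O)
    (hlamχ : ∀ (ℓ : ℕ) (hℓ : ℓ.Prime) (hℓM : ¬ ℓ ∣ M) (hℓS : ℓ ∉ (↑P.S0 : Set ℕ)),
      χ (heckeAlgebra.T hℓ hℓM hℓS) = lam (⟨ℓ, hℓ⟩ : Nat.Primes))
    (hbase : EtaStage M P.O lam 2)
    (hnew : ∀ Sg : Finset ℕ, Sg ⊆ Sig₀ → NewLoc p M lam Sg) :
    StepSupplySO P (wfOf M lam) (lamOf χ) Sig₀ 2 := by
  intro Sg hSgS q hq hqS hqSg Y hN hS hw hlamY _ h hpS hNS
  have hp : p.Prime := Fact.out
  have hpϖ : ∃ c : P.O, (p : P.O) = P.ϖ * c := by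
    obtain ⟨c, hc'⟩ := Ideal.mem_span_singleton.mp P.hpϖ
    exact ⟨c, hc'⟩
  -- the arithmetic of `Sg` and `insert q Sg`
  have hinsS : insert q Sg ⊆ Sig₀ := Finset.insert_subset hqS hSgS
  have hSgP : ∀ r ∈ Sg, r.Prime ∧ ¬ r ∣ M ∧ r ≠ p := hSg_of_sig P hSu Sig₀ hSig₀ hSgS
  have hSgP' : ∀ r ∈ insert q Sg, r.Prime ∧ ¬ r ∣ M ∧ r ≠ p :=
    hSg_of_sig P hSu Sig₀ hSig₀ hinsS
  have hqM : ¬ q ∣ M := (hSgP' q (Finset.mem_insert_self q Sg)).2.1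
  have hqp : q ≠ p := (hSgP' q (Finset.mem_insert_self q Sg)).2.2
  have hNe : Y.rt.N = M * ∏ x ∈ Sg, x ^ 2 := hN
  have hpN₀ : ¬ p ∣ M / p * ∏ x ∈ insert q Sg, x ^ 2 := not_dvd_of_exactDvd h
  have hN' : (M / p * ∏ x ∈ insert q Sg, x ^ 2) * p = M * ∏ x ∈ insert q Sg, x ^ 2 :=
    n0_mul_p hpM _
  have hMN : M ∣ Y.rt.N := by
    rw [hNe]
    exact dvd_mul_right M _
  have hMN' : M ∣ (M / p * ∏ x ∈ insert q Sg, x ^ 2) * p := by
    rw [hN']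
    exact dvd_mul_right M _
  -- the invariant of `Y` in the vocabulary of the module side
  have hYw : Y.w = omegaCard Y.rt.N P.O (lamAt lam Sg) :=
    hw.trans (wfOf_eq M lam Sg Y.rt.N hNe)
  have hYχ : ∀ (ℓ : ℕ) (hℓ : ℓ.Prime) (hℓN : ¬ ℓ ∣ Y.rt.N) (hℓS : ℓ ∉ Y.rt.S),
      pointChar Y (heckeAlgebra.T hℓ hℓN hℓS) = lam (⟨ℓ, hℓ⟩ : Nat.Primes) := by
    intro ℓ hℓ hℓN hℓS
    have h0 : ℓ ∉ (↑P.S0 : Set ℕ) := by
      rw [← hS]
      exact hℓS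
    have hℓM : ¬ ℓ ∣ M := fun h => hℓN (dvd_trans h hMN)
    rw [hlamY ℓ hℓ hℓN hℓS, lamOf_eq χ hℓ hℓM h0]
    exact hlamχ ℓ hℓ hℓM h0
  -- the supply of the abstract stage
  obtain ⟨T', iCR, iLoc, iAlg, iFin, iFree, π', πO', f₀, hgen, hann, heig, hf₀, hcf, heta, hM1⟩ :=
    exists_supplySO_new Y p P.hp2 P.hpO P.hϖ hpϖ hsq hpM lam
      (hne_of_pkg P χ hχ lam hlamχ) le_rfl hbase Sg hSgP hq hqSg hqM hqp P.S0
      (Fermat.Agent.GE8.MinDatum.hpS0' P) (Fermat.Agent.GE8.MinDatum.hNS0 P)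
      (mem_S0_of_sig P Sig₀ hSig₀ hinsS) (hnoR_of_pkg P hSu χ hχ lam hlamχ) hNe hS hYw hYχ
      hpN₀ hN' (hnew ∅ (Finset.empty_subset _)) (hnew (insert q Sg) hinsS)
  refine ⟨T', iCR, iLoc, iAlg, iFin, iFree, π', πO', f₀, hgen, ?_, ?_, hf₀, hcf, ?_, ?_⟩
  · -- `hann`, VERBATIM
    exact hann_verbatim hpS hNS hpN₀ π' hann
  · -- the eigenvalues of the carrier are those of `χ`
    intro ℓ hℓ hℓN' hℓS'
    have hℓM : ¬ ℓ ∣ M := fun h => hℓN' (dvd_trans h hMN')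
    rw [heig ℓ hℓ hℓN' hℓS', ← hlamχ ℓ hℓ hℓM hℓS']
    exact (lamOf_eq χ hℓ hℓM hℓS').symm
  · -- (ETA)
    rw [wfOf_eq M lam (insert q Sg) ((M / p * ∏ x ∈ insert q Sg, x ^ 2) * p) hN', ← hw]
    exact heta
  · -- (M1)
    rw [wfOf_eq M lam (insert q Sg) ((M / p * ∏ x ∈ insert q Sg, x ^ 2) * p) hN']
    exact hM1

end Level

end Bundle

/-! ### the residual `Prop`s of the strict-ordinary Hecke side, branch (a) -/

/-- **E6 SO(a) + ETA-BASE at the minimal level** (`p ∥ M`, `ρ̄` does not occur at `M / p`): for every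
bundle `P` at the level `M` and every eigensystem `χ` lifting `θ̄`, a FULL eigensystem
`lam : Nat.Primes → P.O` extending `χ`, with `EtaStage M P.O lam 2` and the base record
`Base.BaseInput` over `R^{so}_∅` (`#Ω_∅ = omegaCard M P.O lam`) for every `(D, H, φ, πO)`. -/
def BaseSOaStmt (p : ℕ) [Fact p.Prime] : Prop :=
  ∀ (W : WeierstrassCurve ℤ), W.Δ ≠ 0 → W.IsSemistableModel → W.ModRepIsIrreducible p →
    ∀ (hcard₁ : Nat.card (Submodule.torsionBy ℤ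
      ((W.map (Int.castRingHom ℚ))⁄(AlgebraicClosure ℚ)).Point p) = p ^ 2)
    (hker : GaloisFactorsThroughFiniteLevel
      (galoisRepModuleEnd (K := AlgebraicClosure ℚ) ℚ (W.map (Int.castRingHom ℚ)) p))
    (M : ℕ) [NeZero M], Squarefree M → p ∣ M → W.IsResiduallyModularOfLevel p M →
    (p : ℤ) ∣ W.Δ → ¬ W.IsResiduallyModularOfLevel p (M / p) →
    (∀ q : ℕ, q.Prime → q ≠ p → q ∣ M →
      ¬ ((W.map (Int.castRingHom ℚ)).residualGaloisRepOf p hcard₁ hker).IsUnramifiedAt q) →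
    ∃ A : ℕ, 1 ≤ A ∧ ∀ (P : Pkg p W hcard₁ hker M A)
      (χ : heckeAlgebra M 2 (↑P.S0 : Set ℕ) →+* P.O),
      (∀ t : heckeAlgebra M 2 (↑P.S0 : Set ℕ), residue P.O (χ t) = P.theta t) →
      ∃ lam : Nat.Primes → P.O,
        (∀ (ℓ : ℕ) (hℓ : ℓ.Prime) (hℓM : ¬ ℓ ∣ M) (hℓS : ℓ ∉ (↑P.S0 : Set ℕ)),
          χ (heckeAlgebra.T hℓ hℓM hℓS) = lam (⟨ℓ, hℓ⟩ : Nat.Primes)) ∧
        EtaStage M P.O lam 2 ∧
        ∀ (D : GaloisRep.DeformationRingData P.O P.rhobar (condSO P.O p P.Smin ∅))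
          (H : HeckeGaloisRepDatum M (↑P.S0 : Set ℕ) P.O P.theta (Tloc P.O P.theta))
          (hπ : H.π = piT P.O P.theta)
          (φ : D.R →ₐ[P.O] Tloc P.O P.theta) (hφ : Function.Surjective φ)
          (hloc : IsLocalHom (φ : D.R →+* Tloc P.O P.theta))
          (hρ : (D.ρ.baseChangeAlong (φ : D.R →+* Tloc P.O P.theta) hloc).IsEquiv H.ρ)
          (πO : Tloc P.O P.theta →ₐ[P.O] P.O)
          (hπO : ∀ t : heckeAlgebra M 2 (↑P.S0 : Set ℕ), πO (piT P.O P.theta t) = χ t),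
          ∃ I : BaseInput p D φ πO 2,
            Nat.card (Fermat.Agent.GE9.Eta.CongMod I.B (Submodule.span P.O (Set.range I.b))) =
              omegaCard M P.O lam

/-- **the `𝔪`-local parts of the stage lattices are `p`-new** (branch (a)): for every bundle at the
minimal level `M ∋ p`, every full system `lam` extending an eigensystem `χ` lifting `θ̄` and every
stage `Sg ⊆ Σ`, under `EtaStage M P.O lam 2` (the reference eigenvector which pins `mLam` down).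
[`ρ̄` does not occur at the level `(M / p) ∏_{x ∈ Sg} x²`: `SQ` + `LLQ` lowering to `M / p`.] -/
def NewLocStmt (p : ℕ) [Fact p.Prime] : Prop :=
  ∀ (W : WeierstrassCurve ℤ), W.Δ ≠ 0 → W.IsSemistableModel → W.ModRepIsIrreducible p →
    ∀ (hcard₁ : Nat.card (Submodule.torsionBy ℤ
      ((W.map (Int.castRingHom ℚ))⁄(AlgebraicClosure ℚ)).Point p) = p ^ 2)
    (hker : GaloisFactorsThroughFiniteLevel
      (galoisRepModuleEnd (K := AlgebraicClosure ℚ) ℚ (W.map (Int.castRingHom ℚ)) p))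
    (M : ℕ) [NeZero M], Squarefree M → p ∣ M → W.IsResiduallyModularOfLevel p M →
    (p : ℤ) ∣ W.Δ → ¬ W.IsResiduallyModularOfLevel p (M / p) →
    (∀ q : ℕ, q.Prime → q ≠ p → q ∣ M →
      ¬ ((W.map (Int.castRingHom ℚ)).residualGaloisRepOf p hcard₁ hker).IsUnramifiedAt q) →
    ∀ (A : ℕ) (P : Pkg p W hcard₁ hker M A)
      (χ : heckeAlgebra M 2 (↑P.S0 : Set ℕ) →+* P.O),
      (∀ t : heckeAlgebra M 2 (↑P.S0 : Set ℕ), residue P.O (χ t) = P.theta t) →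
      ∀ lam : Nat.Primes → P.O,
        (∀ (ℓ : ℕ) (hℓ : ℓ.Prime) (hℓM : ¬ ℓ ∣ M) (hℓS : ℓ ∉ (↑P.S0 : Set ℕ)),
          χ (heckeAlgebra.T hℓ hℓM hℓS) = lam (⟨ℓ, hℓ⟩ : Nat.Primes)) →
        EtaStage M P.O lam 2 →
        ∀ Sg : Finset ℕ, Sg ⊆ sigOf W P.Smin → NewLoc p M lam Sg

/-- **the strict-ordinary Hecke side, branch (a), from the base and `p`-newness**: every step of the
induction over `Σ` is closed (`stepSupplySO_of_base`). -/
theorem heckeSOaSupplyStmt_of_base (p : ℕ) [Fact p.Prime] (hB : BaseSOaStmt p)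
    (hNew : NewLocStmt p) : HeckeSOaSupplyStmt p := by
  intro W hΔ hW hirr hcard₁ hker M _ hsq hpM hRM hmult hno hmin
  obtain ⟨A, hA, hP⟩ := hB W hΔ hW hirr hcard₁ hker M hsq hpM hRM hmult hno hmin
  refine ⟨A, hA, fun P χ hχ => ?_⟩
  obtain ⟨lam, hlamχ, hbase, hclause⟩ := hP P χ hχ
  refine ⟨2, two_ne_zero, wfOf M lam, ?_, ?_⟩
  · intro D H hπ φ hφ hloc hρ πO hπO
    obtain ⟨I, hI⟩ := hclause D H hπ φ hφ hloc hρ πO hπO
    exact ⟨I, hI.trans (wfOf_empty M lam).symm⟩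
  · exact stepSupplySO_of_base P hpM hsq (su_eq_empty P hmin) χ hχ (sigOf W P.Smin)
      (fun q => mem_sigOf P.hΔ) lam hlamχ hbase
      (hNew W hΔ hW hirr hcard₁ hker M hsq hpM hRM hmult hno hmin A P χ hχ lam hlamχ hbase)

/-- **`MinHeckeSOa p`** from IRR2, the base and `p`-newness. -/
theorem minHeckeSOa_of_base (p : ℕ) [Fact p.Prime] (hp2 : p ≠ 2) (hTr : TransvStmt p)
    (hB : BaseSOaStmt p) (hNew : NewLocStmt p) : MinHeckeSOa p :=
  minHeckeSOa_of_supply p hp2 hTr (heckeSOaSupplyStmt_of_base p hB hNew)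

end Fermat.Agent.GE.Engine
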