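/-
GATE-E / GE-ENGINE-ASM (helper10): **`StepPlugSO.NewLocStmt p` from the nodes SQ, SQ3 and LLQ** —
in the très ramifiée branch (`p ∥ M` minimal, `W` not residually modular of level `M / p`) the
`𝔪`-local part of EVERY stage lattice is `p`-new:

  `NotResModStage3.not_resMod_stage3` (no stage level `M / p * ∏ x ∈ Sg, x ^ 2` is a level of `ρ̄`)
  + `NewLocKiller.newLoc_of_not_resMod` (old-killer at that level ⟹ `NewLoc`).

* `hcong_of_pkg` : `lam ℓ ≡ a_ℓ(W)` mod `𝔪` off `P.S0` for a full system extending `χ` lifting `θ̄`;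
* `newLoc_of_pkg` : `SupplySONew.NewLoc p M lam Sg` at a bundle, from `¬ ResMod p` at the stage level;
* `StageNotResStmt p` : "no stage level `M / p * ∏ x ∈ Sg, x ^ 2` of the très ramifiée branch is a
  level of `ρ̄`" (so that the SQ3 node may be swapped for its squarefree variant `SQ3SqStmt`);
  `stageNotResStmt_of_nodes : SQSideStmt → SQ3Stmt → LLQStmt p → StageNotResStmt p`;
* **`newLocStmt_of_stage`** : `StageNotResStmt p → NewLocStmt p`, `newLocStmt_of_nodes`;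
* **`minHeckeSOa_of_stage`** : `MinHeckeSOa p` from IRR2, the base `BaseSOaStmt p` and
  `StageNotResStmt p`; `minHeckeSOa_of_nodes'` (nodes SQ, SQ3, LLQ).
-/
import Mathlib
import Fermat.Agent.GE.Engine.StepPlugSO
import Fermat.Agent.GE9.Stage.NewLocKiller
import Fermat.Agent.GE8.Top.NotResModStage3

set_option autoImplicit false
set_option linter.unusedSectionVars false
set_option linter.unusedVariables false
set_option linter.style.haveILetI false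

open WeierstrassCurve WeierstrassCurve.Affine.Point IsLocalRing CuspForm Polynomial
open scoped WeierstrassCurve.Affine

namespace Fermat.Agent.GE.Engine

open Fermat.Agent.GB.Setup.RhoBar Fermat.Agent.GB.Setup.SetupPkg
  Fermat.Agent.GB.B4.Datum.Carrier Fermat.Agent.GB.B4.Datum.HeckeCarrier
  Fermat.Agent.GE.Graph Fermat.Agent.GE9.Ind Fermat.Agent.GE9.NumCrit Fermat.Agent.GE9.Asm
  Fermat.Agent.GE9.TanGrow Fermat.Agent.GE9.Eta.Mod Fermat.Agent.GE9.Eta.Chain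
  Fermat.Agent.GE9.OldQ.Consumer Fermat.Agent.GE9.Stage.SupplySONew
  Fermat.Agent.GE8.SQ.AuxPlug Fermat.Agent.GE8.Top.MinLevel Fermat.Agent.GE8.Top.NotResModStage3

section Bundle

variable {p : ℕ} [Fact p.Prime] {W : WeierstrassCurve ℤ}
  {hcard₁ : Nat.card (Submodule.torsionBy ℤ
    ((W.map (Int.castRingHom ℚ))⁄(AlgebraicClosure ℚ)).Point p) = p ^ 2}
  {hker : GaloisFactorsThroughFiniteLevel
    (galoisRepModuleEnd (K := AlgebraicClosure ℚ) ℚ (W.map (Int.castRingHom ℚ)) p)}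
  {M A : ℕ} (P : Pkg p W hcard₁ hker M A) [NeZero M]

/-- **`hcong`** : the full system lifts `a_ℓ(W)` off `P.S0`. -/
theorem hcong_of_pkg (χ : heckeAlgebra M 2 (↑P.S0 : Set ℕ) →+* P.O)
    (hχ : ∀ t : heckeAlgebra M 2 (↑P.S0 : Set ℕ), residue P.O (χ t) = P.theta t)
    (lam : Nat.Primes → P.O)
    (hlamχ : ∀ (ℓ : ℕ) (hℓ : ℓ.Prime) (hℓM : ¬ ℓ ∣ M) (hℓS : ℓ ∉ (↑P.S0 : Set ℕ)),
      χ (heckeAlgebra.T hℓ hℓM hℓS) = lam (⟨ℓ, hℓ⟩ : Nat.Primes)) :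
    ∀ (ℓ : ℕ) (hℓ : ℓ.Prime), ℓ ∉ P.S0 →
      residue P.O (lam (⟨ℓ, hℓ⟩ : Nat.Primes)) = ((W.apOfModel ℓ : ℤ) : ResidueField P.O) := by
  intro ℓ hℓ hℓS
  have hℓS' : ℓ ∉ (↑P.S0 : Set ℕ) := fun h => hℓS (Finset.mem_coe.mp h)
  have hℓM : ¬ ℓ ∣ M := (P.good_of_notMem_S0 hℓ hℓS').2.1
  rw [← hlamχ ℓ hℓ hℓM hℓS', hχ, P.theta_T hℓ hℓM hℓS']

/-- **`NewLoc` at a stage** from `¬ ResMod p` at the stage level prime to `p`. -/
theorem newLoc_of_pkg (hpM : p ∣ M)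
    (χ : heckeAlgebra M 2 (↑P.S0 : Set ℕ) →+* P.O)
    (hχ : ∀ t : heckeAlgebra M 2 (↑P.S0 : Set ℕ), residue P.O (χ t) = P.theta t)
    (lam : Nat.Primes → P.O)
    (hlamχ : ∀ (ℓ : ℕ) (hℓ : ℓ.Prime) (hℓM : ¬ ℓ ∣ M) (hℓS : ℓ ∉ (↑P.S0 : Set ℕ)),
      χ (heckeAlgebra.T hℓ hℓM hℓS) = lam (⟨ℓ, hℓ⟩ : Nat.Primes))
    {d : ℕ} (hd : 2 ≤ d) (hbase : EtaStage M P.O lam d)
    (Sg : Finset ℕ) (hSg : ∀ x ∈ Sg, x.Prime ∧ ¬ x ∣ M ∧ x ≠ p) (hSgS0 : ∀ x ∈ Sg, x ∈ P.S0)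
    (hstage : ¬ W.IsResiduallyModularOfLevel p (M / p * ∏ x ∈ Sg, x ^ 2)) :
    NewLoc p M lam Sg := by
  have hpϖ : ∃ c : P.O, (p : P.O) = P.ϖ * c := by
    obtain ⟨c, hc'⟩ := Ideal.mem_span_singleton.mp P.hpϖ
    exact ⟨c, hc'⟩
  exact Fermat.Agent.GE9.Stage.NewLocKiller.newLoc_of_not_resMod W P.hΔ P.hp2 P.hpO P.hϖ hpϖ hpM
    lam (hne_of_pkg P χ hχ lam hlamχ) hd hbase Sg (fun x hx => ⟨(hSg x hx).1, (hSg x hx).2.1⟩)
    P.S0 (Fermat.Agent.GE8.MinDatum.hpS0' P) (Fermat.Agent.GE8.MinDatum.hNS0 P) hSgS0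
    (hcong_of_pkg P χ hχ lam hlamχ) hstage

end Bundle

/-- **no stage level prime to `p` of the très ramifiée branch is a level of `ρ̄`** (`p ∥ M` minimal,
`W` not residually modular of level `M / p`; `Sg` any finite set of primes not dividing `M p`). -/
def StageNotResStmt (p : ℕ) [Fact p.Prime] : Prop :=
  ∀ (W : WeierstrassCurve ℤ), W.Δ ≠ 0 → W.IsSemistableModel → W.ModRepIsIrreducible p →
    ∀ (hcard₁ : Nat.card (Submodule.torsionBy ℤ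
      ((W.map (Int.castRingHom ℚ))⁄(AlgebraicClosure ℚ)).Point p) = p ^ 2)
    (hker : GaloisFactorsThroughFiniteLevel
      (galoisRepModuleEnd (K := AlgebraicClosure ℚ) ℚ (W.map (Int.castRingHom ℚ)) p))
    (M : ℕ), Squarefree M → p ∣ M → W.IsResiduallyModularOfLevel p M →
    (∀ q : ℕ, q.Prime → q ≠ p → q ∣ M →
      ¬ ((W.map (Int.castRingHom ℚ)).residualGaloisRepOf p hcard₁ hker).IsUnramifiedAt q) →
    ¬ W.IsResiduallyModularOfLevel p (M / p) →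
    ∀ Sg : Finset ℕ, (∀ q ∈ Sg, q.Prime ∧ ¬ q ∣ M ∧ q ≠ p) →
      ¬ W.IsResiduallyModularOfLevel p (M / p * ∏ x ∈ Sg, x ^ 2)

/-- `StageNotResStmt p` from the nodes SQ, SQ3, LLQ (`NotResModStage3.not_resMod_stage3`). -/
theorem stageNotResStmt_of_nodes (p : ℕ) [Fact p.Prime] (hp2 : p ≠ 2) (hSQ : SQSideStmt)
    (hSQ3 : SQ3Stmt) (hLLQ : LLQStmt p) : StageNotResStmt p :=
  fun W hΔ hW hirr hcard₁ hker M hsq hpM hRM hmin hno Sg hSg =>
    not_resMod_stage3 hp2 W hΔ hW hirr hcard₁ hker hSQ hSQ3 hLLQ M hsq hpM hRM hmin hno Sg hSg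

/-- **`NewLocStmt p` from `StageNotResStmt p`.** -/
theorem newLocStmt_of_stage (p : ℕ) [Fact p.Prime] (hst : StageNotResStmt p) : NewLocStmt p := by
  intro W hΔ hW hirr hcard₁ hker M _ hsq hpM hRM hmult hno hmin A P χ hχ lam hlamχ hbase Sg hSgS
  have hSu : P.Su = ∅ := su_eq_empty P hmin
  have hSg := hSg_of_sig P hSu (sigOf W P.Smin) (fun q => mem_sigOf P.hΔ) hSgS
  exact newLoc_of_pkg P hpM χ hχ lam hlamχ le_rfl hbase Sg hSg
    (mem_S0_of_sig P (sigOf W P.Smin) (fun q => mem_sigOf P.hΔ) hSgS)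
    (hst W hΔ hW hirr hcard₁ hker M hsq hpM hRM hmin hno Sg hSg)

/-- **`NewLocStmt p` from the nodes SQ, SQ3, LLQ.** -/
theorem newLocStmt_of_nodes (p : ℕ) [Fact p.Prime] (hp2 : p ≠ 2) (hSQ : SQSideStmt)
    (hSQ3 : SQ3Stmt) (hLLQ : LLQStmt p) : NewLocStmt p :=
  newLocStmt_of_stage p (stageNotResStmt_of_nodes p hp2 hSQ hSQ3 hLLQ)

/-- **`MinHeckeSOa p`** from IRR2, the base and `StageNotResStmt p`. -/
theorem minHeckeSOa_of_stage (p : ℕ) [Fact p.Prime] (hp2 : p ≠ 2) (hTr : TransvStmt p)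
    (hB : BaseSOaStmt p) (hst : StageNotResStmt p) : MinHeckeSOa p :=
  minHeckeSOa_of_base p hp2 hTr hB (newLocStmt_of_stage p hst)

/-- **`MinHeckeSOa p`** from IRR2, the base and the nodes SQ, SQ3, LLQ. -/
theorem minHeckeSOa_of_nodes' (p : ℕ) [Fact p.Prime] (hp2 : p ≠ 2) (hTr : TransvStmt p)
    (hB : BaseSOaStmt p) (hSQ : SQSideStmt) (hSQ3 : SQ3Stmt) (hLLQ : LLQStmt p) :
    MinHeckeSOa p :=
  minHeckeSOa_of_stage p hp2 hTr hB (stageNotResStmt_of_nodes p hp2 hSQ hSQ3 hLLQ)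

end Fermat.Agent.GE.Engine
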