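/-
GATE-E / GE-ENGINE-ASM (helper10): **`NewLocPlug.StageNotResStmt p` for `p ≠ 3` WITHOUT the node
SQ3** (the frame side condition of node SQ at `q = 2` only bites at `p = 3`, RISK-6):
`NotResModStage.not_resMod_stage` with `h3 := fun h => absurd h hp3`.

* `stageNotResStmt_of_ne_three` : `p ≠ 2 → p ≠ 3 → SQSideStmt → LLQStmt p → StageNotResStmt p`;
* `minHeckeSOa_of_ne_three`     : `MinHeckeSOa p` from IRR2, the base, SQ and LLQ (`p ≥ 5`).
-/
import Mathlib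
import Fermat.Agent.GE.Engine.NewLocPlug

set_option autoImplicit false

namespace Fermat.Agent.GE.Engine

open Fermat.Agent.GE8.SQ.AuxPlug Fermat.Agent.GE8.Top.MinLevel
  Fermat.Agent.GE8.Top.NotResModStage

/-- `StageNotResStmt p` for `p ≠ 3`: no node SQ3. -/
theorem stageNotResStmt_of_ne_three (p : ℕ) [Fact p.Prime] (hp2 : p ≠ 2) (hp3 : p ≠ 3)
    (hSQ : SQSideStmt) (hLLQ : LLQStmt p) : StageNotResStmt p :=
  fun W hΔ hW hirr hcard₁ hker M hsq hpM hRM hmin hno Sg hSg =>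
    not_resMod_stage hp2 W hΔ hW hirr hcard₁ hker hSQ hLLQ M hsq hpM hRM hmin hno Sg hSg
      (fun h => absurd h hp3)

/-- **`MinHeckeSOa p`, `p ≥ 5`**, from IRR2, the base and the nodes SQ, LLQ. -/
theorem minHeckeSOa_of_ne_three (p : ℕ) [Fact p.Prime] (hp2 : p ≠ 2) (hp3 : p ≠ 3)
    (hTr : TransvStmt p) (hB : BaseSOaStmt p) (hSQ : SQSideStmt) (hLLQ : LLQStmt p) :
    MinHeckeSOa p :=
  minHeckeSOa_of_stage p hp2 hTr hB (stageNotResStmt_of_ne_three p hp2 hp3 hSQ hLLQ)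

end Fermat.Agent.GE.Engine
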