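/-
GATE-E / GE-ENGINE-ASM, RISK-6 plugged (helper97 draft): **`NewLocPlug.StageNotResStmt p` from node
LLQ alone** — node SQ (`GE8/SQ/Final.sqSideStmt`) and node SQ3 at squarefree levels
(`GE8/SQ3/Closed.sq3SqStmt`, helper90) are plugged through the squarefree consumer
`GE8/Top/NotResModStage3Sq.not_resMod_stage3_sq`.

* `sq3SqStmt` : helper90's node in the spelling of the consumer;
* `stageNotResStmt_of_nodes_sq` : `SQSideStmt → SQ3SqStmt → LLQStmt p → StageNotResStmt p`;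
* **`stageNotResStmt_of_llq`** : `p ≠ 2 → LLQStmt p → StageNotResStmt p`;

-/
import Mathlib
import Fermat.Agent.GE.Engine.NewLocPlug
import Fermat.Agent.GE8.Top.NotResModStage3Sq
import Fermat.Agent.GE8.SQ.Final
import Fermat.Agent.GE8.SQ3.Closed

set_option autoImplicit false

namespace Fermat.Agent.GE.Engine.NewLocPlugSq

open Fermat.Agent.GE.Engine Fermat.Agent.GE8.SQ.AuxPlug Fermat.Agent.GE8.Top.MinLevel
  Fermat.Agent.GE8.Top.NotResModStage3Sq

/-- helper90's node SQ3 (`GE8/SQ3/Final` spelling) in the spelling of the consumer. -/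
theorem sq3SqStmt : SQ3SqStmt :=
  fun W hW hΔ hirr L' _ hsq h2 _ h3 hres =>
    Fermat.Agent.GE8.SQ3.Closed.sq3SqStmt W hW hΔ hirr L' h2 hsq h3 hres

/-- `StageNotResStmt p` from the nodes SQ, SQ3 (squarefree levels), LLQ. -/
theorem stageNotResStmt_of_nodes_sq (p : ℕ) [Fact p.Prime] (hp2 : p ≠ 2) (hSQ : SQSideStmt)
    (hSQ3 : SQ3SqStmt) (hLLQ : LLQStmt p) : StageNotResStmt p :=
  fun W hΔ hW hirr hcard₁ hker M hsq hpM hRM hmin hno Sg hSg =>
    not_resMod_stage3_sq hp2 W hΔ hW hirr hcard₁ hker hSQ hSQ3 hLLQ M hsq hpM hRM hmin hno Sg hSg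

/-- **`StageNotResStmt p` from node LLQ alone** (SQ and SQ3 are on main). -/
theorem stageNotResStmt_of_llq (p : ℕ) [Fact p.Prime] (hp2 : p ≠ 2) (hLLQ : LLQStmt p) :
    StageNotResStmt p :=
  stageNotResStmt_of_nodes_sq p hp2 Fermat.Agent.GE8.SQ.Final.sqSideStmt sq3SqStmt hLLQ

end Fermat.Agent.GE.Engine.NewLocPlugSq
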