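/-
GATE-E / GE-ENGINE-ASM (helper54): **the closed nodes of `GE/Engine/Top` as theorems.**

* `transvStmt_three : TransvStmt 3` (`GE8/Irr2/PThree.hasTransvectionModP_three`, helper21);
* `transvStmt_five  : TransvStmt 5` (`GE8/Irr2/P5/Final.hasTransvectionModP_five`, helper26 + helper9
  + helper16).

`Top.TransvStmt p` is `GB/Top/FreyTwo/Transvection.HasTransvectionModP (W.map _) p` unfolded.
-/
import Mathlib
import Fermat.Agent.GE.Engine.Top
import Fermat.Agent.GE8.Irr2.PThree
import Fermat.Agent.GE8.Irr2.P5.Final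

set_option autoImplicit false

namespace Fermat.Agent.GE.Engine

/-- **IRR2 at `p = 3`** in the shape of `Top.TransvStmt`. -/
theorem transvStmt_three [Fact (Nat.Prime 3)] : TransvStmt 3 :=
  fun W hΔ hW hirr =>
    Fermat.Agent.GE8.Irr2.PThree.hasTransvectionModP_three W hΔ hW hirr

/-- **IRR2 at `p = 5`** in the shape of `Top.TransvStmt`. -/
theorem transvStmt_five [Fact (Nat.Prime 5)] : TransvStmt 5 :=
  fun W hΔ hW hirr =>
    Fermat.Agent.GE8.Irr2.P5.Final.hasTransvectionModP_five W hΔ hW hirr

end Fermat.Agent.GE.Engine
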