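/-
GATE-E / GE-ENGINE-ASM, R4-H (helper33, with helper80): **the strict-ordinary Hecke side, très
ramifiée branch (`p ∣ M`, `W` not residually modular of level `M / p`), from the nodes, in
hypothesis form** — the SO(a) twin of `Top.rtStmtFL_of_minLevel`, with NO side condition
`p = 3 → 2 ∣ M` anywhere: the base stage is helper10's
`GE8/Deside/BaseOdd.exists_base_SO_noSide` (datum side over `PackOdd.HpackNoSideStmt`, residual side
from the Tate curve `GE7/DictW/ResStrictW`).

* `HeckeSideSO P χ Sig₀ d` : the Hecke side for the bundle `P` and the eigensystem `χ` (base record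
  E6 + ETA at `Σ = ∅` for `R^{so}_∅`, and `Top.HeckeStepsSO` at `lev := levOf M`, `lam := lamOf χ`);
* `HeckeSOaStmt p` : the Hecke side over all minimal bundles of the branch (SO twin of
  `Top.HeckeFLStmt`);
* **`minHeckeSOa_of_nodes`** :
  `TransvStmt p → HpackNoSideStmt → HeckeSOaStmt p → MinHeckeSOa p`.
-/
import Mathlib
import Fermat.Agent.GE.Engine.SOSplit
import Fermat.Agent.GE8.Deside.BaseOdd

set_option autoImplicit false
set_option linter.unusedSectionVars false
set_option linter.unusedVariables false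
set_option linter.style.haveILetI false

open WeierstrassCurve WeierstrassCurve.Affine.Point IsLocalRing CuspForm Polynomial
open scoped WeierstrassCurve.Affine

namespace Fermat.Agent.GE.Engine

open Fermat.Agent.GB.Setup.RhoBar Fermat.Agent.GB.Setup.SetupPkg
  Fermat.Agent.GB.B4.Datum.Carrier Fermat.Agent.GB.B4.Datum.HeckeCarrier
  Fermat.Agent.GE.Graph Fermat.Agent.GE9.Ind Fermat.Agent.GE9.NumCrit Fermat.Agent.GE9.Asm
  Fermat.Agent.GE8.Deside.PackOdd

section Bundle

variable {p : ℕ} [Fact p.Prime] {W : WeierstrassCurve ℤ}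
  {hcard₁ : Nat.card (Submodule.torsionBy ℤ
    ((W.map (Int.castRingHom ℚ))⁄(AlgebraicClosure ℚ)).Point p) = p ^ 2}
  {hker : GaloisFactorsThroughFiniteLevel
    (galoisRepModuleEnd (K := AlgebraicClosure ℚ) ℚ (W.map (Int.castRingHom ℚ)) p)}
  {M A : ℕ} (P : Pkg p W hcard₁ hker M A) [NeZero M]

/-- **The Hecke side of the engine, strict-ordinary case, très ramifiée branch**, for the minimal
bundle `P` and the eigensystem `χ` of the minimal level: the `#Ω` function `wf`, the base record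
for every `(D, H, φ, πO)` (E6 + ETA at `Σ = ∅` for `R^{so}_∅`), and the step supplier. -/
def HeckeSideSO (χ : heckeAlgebra M 2 (↑P.S0 : Set ℕ) →+* P.O) (Sig₀ : Finset ℕ) (d : ℕ) : Prop :=
  ∃ wf : Finset ℕ → ℕ,
    (∀ (D : GaloisRep.DeformationRingData P.O P.rhobar (condSO P.O p P.Smin ∅))
      (H : HeckeGaloisRepDatum M (↑P.S0 : Set ℕ) P.O P.theta (Tloc P.O P.theta))
      (hπ : H.π = piT P.O P.theta)
      (φ : D.R →ₐ[P.O] Tloc P.O P.theta) (hφ : Function.Surjective φ)
      (hloc : IsLocalHom (φ : D.R →+* Tloc P.O P.theta))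
      (hρ : (D.ρ.baseChangeAlong (φ : D.R →+* Tloc P.O P.theta) hloc).IsEquiv H.ρ)
      (πO : Tloc P.O P.theta →ₐ[P.O] P.O)
      (hπO : ∀ t : heckeAlgebra M 2 (↑P.S0 : Set ℕ), πO (piT P.O P.theta t) = χ t),
      ∃ I : BaseInput p D φ πO d,
        Nat.card (Fermat.Agent.GE9.Eta.CongMod I.B (Submodule.span P.O (Set.range I.b))) =
          wf ∅) ∧
    HeckeStepsSO P Sig₀ d (levOf M) wf (lamOf χ)

/-- **minimal bundle + Hecke side ⟹ the base stage and the step supplier** (the conclusion of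
`MinHeckeSO`), très ramifiée branch; no side condition. -/
theorem soBaseConcl_of_heckeSideSO (hpack : HpackNoSideStmt) (hss : W.IsSemistableModel)
    (hmult : (p : ℤ) ∣ W.Δ) (hpM : p ∣ M) (hsq : Squarefree M) (hSu : P.Su = ∅)
    (hno : ¬ W.IsResiduallyModularOfLevel p (M / p))
    (χ : heckeAlgebra M 2 (↑P.S0 : Set ℕ) →+* P.O)
    (hχ : ∀ t : heckeAlgebra M 2 (↑P.S0 : Set ℕ), residue P.O (χ t) = P.theta t)
    {d : ℕ} (hd : d ≠ 0) (hH : HeckeSideSO P χ (sigOf W P.Smin) d) :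
    SOBaseConcl p W hcard₁ hker := by
  obtain ⟨wf, hbase, hstep⟩ := hH
  obtain ⟨Y₀, hlev₀, hI₀⟩ := Fermat.Agent.GE8.Deside.BaseOdd.exists_base_SO_noSide P hpack hss
    hmult hpM hsq hSu hno χ hχ (sigOf W P.Smin) (fun q => mem_sigOf P.hΔ) (levOf M) wf
    (levOf_empty M) hbase
  exact ⟨M, A, P, d, levOf M, wf, lamOf χ, Y₀, hd, hlev₀, hI₀, hstep⟩

end Bundle

/-- **The Hecke side over the minimal bundles, strict-ordinary case, très ramifiée branch** (SO
twin of `Top.HeckeFLStmt`): for every minimal level `M` with `p ∣ M` of a semistable `W`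
multiplicative at `p`, NOT residually modular of level `M / p`, the Hecke side names an `A ≥ 1`
such that EVERY bundle `P` at level `M` and EVERY eigensystem `χ` lifting `θ̄` carry
`HeckeSideSO`. -/
def HeckeSOaStmt (p : ℕ) [Fact p.Prime] : Prop :=
  ∀ (W : WeierstrassCurve ℤ), W.Δ ≠ 0 → W.IsSemistableModel → W.ModRepIsIrreducible p →
    ∀ (hcard₁ : Nat.card (Submodule.torsionBy ℤ
      ((W.map (Int.castRingHom ℚ))⁄(AlgebraicClosure ℚ)).Point p) = p ^ 2)
    (hker : GaloisFactorsThroughFiniteLevel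
      (galoisRepModuleEnd (K := AlgebraicClosure ℚ) ℚ (W.map (Int.castRingHom ℚ)) p))
    (M : ℕ) [NeZero M], Squarefree M → p ∣ M → W.IsResiduallyModularOfLevel p M →
    (p : ℤ) ∣ W.Δ → ¬ W.IsResiduallyModularOfLevel p (M / p) →
    (∀ q : ℕ, q.Prime → q ≠ p → q ∣ M →
      ¬ ((W.map (Int.castRingHom ℚ)).residualGaloisRepOf p hcard₁ hker).IsUnramifiedAt q) →
    ∃ A : ℕ, 1 ≤ A ∧ ∀ (P : Pkg p W hcard₁ hker M A)
      (χ : heckeAlgebra M 2 (↑P.S0 : Set ℕ) →+* P.O),
      (∀ t : heckeAlgebra M 2 (↑P.S0 : Set ℕ), residue P.O (χ t) = P.theta t) →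
        ∃ d : ℕ, d ≠ 0 ∧ HeckeSideSO P χ (sigOf W P.Smin) d

/-- **R4-H, très ramifiée branch: `MinHeckeSOa p` from the nodes** (IRR2 `TransvStmt`, the
de-sided connected package `HpackNoSideStmt`, the Hecke side). -/
theorem minHeckeSOa_of_nodes (p : ℕ) [Fact p.Prime] (hp2 : p ≠ 2) (hTr : TransvStmt p)
    (hpack : HpackNoSideStmt) (hH : HeckeSOaStmt p) : MinHeckeSOa p := by
  intro W hΔ hW hirr hcard₁ hker M hMsq hRM hmult hmin hpM hno
  haveI : NeZero M := ⟨hMsq.ne_zero⟩
  obtain ⟨A, hA, hHS⟩ := hH W hΔ hW hirr hcard₁ hker M hMsq hpM hRM hmult hno hmin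
  -- the bundle, then the bundle with a modular point
  obtain ⟨P₀⟩ := nonempty_pkg hcard₁ hker hMsq.ne_zero hp2 hΔ hirr (hTr W hΔ hW hirr) hRM A hA
  obtain ⟨P, χ, -, hχ⟩ := Fermat.Agent.GE9.Point.exists_pkg_point P₀
  obtain ⟨d, hd, hside⟩ := hHS P χ hχ
  exact soBaseConcl_of_heckeSideSO P hpack hW hmult hpM hMsq (su_eq_empty P hmin) hno χ hχ hd
    hside

end Fermat.Agent.GE.Engine
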