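/-
GATE-E / GE-ENGINE-ASM, R4-H (helper33): **the STEP CLAUSE `Top.HeckeStepsSO` from the carrier +
numerics of ONE stage** (strict-ordinary case), in hypothesis form — the SO twin of helper54's
`GE/Engine/StepFL`, with NO side condition (`GE9/Stage/NoSide.exists_stepInputSO'_noSide`, helper11,
over `GalPkgSONewStmt`; residual inputs `hbar`, `hordbar` from the Tate curve via
`GE8/Deside/BaseOdd`).

Setting: a bundle `P` at a squarefree level `M` with `p ∣ M`, `P.Su = ∅`, `W` semistable and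
multiplicative at `p` (branch (a): `M` the minimal level; branch (b): `M = M_min p` after RAISE-P).
The stage `Sg` has level `levOf M Sg = M ∏_{q ∈ Sg} q²`; the raw step of helper11 wants the next
level in the shape `N₀ * p`, here `N₀ := M / p * ∏_{x ∈ insert q Sg} x²` (`n0_mul_p`).

`StepSupplySO P wf lam Sig₀ d` = for every stage `Y` with the engine's invariant and every new prime
`q ∈ Sig₀ ∖ Sg`: the CARRIER of the stage `insert q Sg` at the level `N₀ * p` and the CONSTANT Hecke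
set `↑P.S0` (`T'`, `π'`, `hgen`, `πO'` with the eigenvalues `lam ℓ`), the `p`-NEW clause `hann`
(a Hecke operator killing `𝒪 ⊗ LamNew` dies in `T'`), the matrix `f₀` with
`f₀.trace = Y.πO (tr ρ_T(Frob_q))`, `wilesFactor f₀ q ≠ 0`, (ETA) and (M1).

* `n0_mul_p`                  : `(M / p * ∏ x²) * p = M * ∏ x²`;
* `StepSupplySO`              : the supply `Prop`;
* **`heckeStepsSO_of_supply`** : `Top.HeckeStepsSO P Sig₀ d (levOf M) wf lam`;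
* **`heckeSideSO_of_supply`**  : `SOa.HeckeSideSO P χ Sig₀ d` from the base clause and the supply.
-/
import Mathlib
import Fermat.Agent.GE.Engine.StepFL
import Fermat.Agent.GE.Engine.SOa
import Fermat.Agent.GE9.Stage.NoSide

set_option autoImplicit false
set_option linter.unusedSectionVars false
set_option linter.unusedVariables false
set_option linter.style.haveILetI false

open WeierstrassCurve WeierstrassCurve.Affine.Point IsLocalRing CuspForm Polynomial TensorProduct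
open scoped WeierstrassCurve.Affine

namespace Fermat.Agent.GE.Engine

open Fermat.Agent.GB.Setup.RhoBar Fermat.Agent.GB.Setup.SetupPkg
  Fermat.Agent.GB.B4.Datum.Carrier Fermat.Agent.GB.B4.Datum.HeckeCarrier
  Fermat.Agent.GE.Graph Fermat.Agent.GE9.Ind Fermat.Agent.GE9.NumCrit Fermat.Agent.GE9.Asm
  Fermat.Agent.GE9.TanGrow Fermat.Agent.GE9.Stage.NoSide
open Fermat.Agent.GK.AL
open Fermat.Agent.GB.B10.KumLevelHecke Fermat.Agent.GB.B10.L.NewInst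
open Fermat.Agent.GB.B10.L.ThetaNew Fermat.Agent.GB.B10.L.StrictQNew

/-- `(M / p * ∏ x²) * p = M * ∏ x²` when `p ∣ M`. -/
theorem n0_mul_p {M p : ℕ} (hpM : p ∣ M) (Sg : Finset ℕ) :
    (M / p * ∏ x ∈ Sg, x ^ 2) * p = M * ∏ x ∈ Sg, x ^ 2 := by
  rw [mul_right_comm, Nat.div_mul_cancel hpM]

section Bundle

variable {p : ℕ} [Fact p.Prime] {W : WeierstrassCurve ℤ}
  {hcard₁ : Nat.card (Submodule.torsionBy ℤ
    ((W.map (Int.castRingHom ℚ))⁄(AlgebraicClosure ℚ)).Point p) = p ^ 2}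
  {hker : GaloisFactorsThroughFiniteLevel
    (galoisRepModuleEnd (K := AlgebraicClosure ℚ) ℚ (W.map (Int.castRingHom ℚ)) p)}
  {M A : ℕ} (P : Pkg p W hcard₁ hker M A) [NeZero M]

/-- **The carrier + numerics of ONE step, strict-ordinary case**: for every stage `Y` with the
engine's invariant (level `levOf M Sg`, Hecke set `↑P.S0`, `#Ω = wf Sg`, eigenvalues `lam`) and every
new prime `q ∈ Sig₀ ∖ Sg`, at the level `N₀ * p`, `N₀ = M / p * ∏_{x ∈ insert q Sg} x²`: the carrier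
of the stage `insert q Sg`, the `p`-new clause `hann`, `f₀`, `c_q ≠ 0`, (ETA) and (M1). -/
def StepSupplySO (wf : Finset ℕ → ℕ) (lam : ℕ → P.O) (Sig₀ : Finset ℕ) (d : ℕ) : Prop :=
  ∀ Sg : Finset ℕ, Sg ⊆ Sig₀ → ∀ (q : ℕ) (hq : q.Prime), q ∈ Sig₀ → q ∉ Sg →
    ∀ Y : RTNum P.rhobar (condSO P.O p P.Smin Sg) d,
      Y.rt.N = levOf M Sg → Y.rt.S = (↑P.S0 : Set ℕ) → Y.w = wf Sg →
      (∀ (ℓ : ℕ) (hℓ : ℓ.Prime) (hℓN : ¬ ℓ ∣ Y.rt.N) (hℓS : ℓ ∉ Y.rt.S),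
        pointChar Y (heckeAlgebra.T hℓ hℓN hℓS) = lam ℓ) →
      ∀ [NeZero (M / p * ∏ x ∈ insert q Sg, x ^ 2)]
        (h : ExactDvd p ((M / p * ∏ x ∈ insert q Sg, x ^ 2) * p)) (hpS : p ∈ P.S0)
        (hNS : ∀ r : ℕ, r.Prime → r ∣ (M / p * ∏ x ∈ insert q Sg, x ^ 2) * p → r ∈ P.S0),
        ∃ (T' : Type) (_ : CommRing T') (_ : IsLocalRing T') (_ : Algebra P.O T')
          (_ : Module.Finite P.O T') (_ : Module.Free P.O T')
          (π' : heckeAlgebra ((M / p * ∏ x ∈ insert q Sg, x ^ 2) * p) 2 (↑P.S0 : Set ℕ) →+* T')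
          (πO' : T' →ₐ[P.O] P.O) (f₀ : Matrix (Fin 2) (Fin 2) P.O),
          Algebra.adjoin P.O (Set.range π') = ⊤ ∧
          (∀ t₀ : P.O ⊗[ℤ]
              heckeAlgebra ((M / p * ∏ x ∈ insert q Sg, x ^ 2) * p) 2 (↑P.S0 : Set ℕ),
            (∀ (a : P.O), ∀ x ∈ (LamNew (not_dvd_of_exactDvd h) :
                AddSubgroup (levelData p ((M / p * ∏ x ∈ insert q Sg, x ^ 2) * p) hpS hNS).Λ),
              (levelData p ((M / p * ∏ x ∈ insert q Sg, x ^ 2) * p) hpS hNS).heckeTensor P.O t₀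
                (a ⊗ₜ[ℤ] x) = 0) →
              Fermat.Agent.GB.B10.L.GalPkgSO.twO (𝒪 := P.O) π' t₀ = 0) ∧
          (∀ (ℓ : ℕ) (hℓ : ℓ.Prime)
            (hℓN' : ¬ ℓ ∣ (M / p * ∏ x ∈ insert q Sg, x ^ 2) * p)
            (hℓS' : ℓ ∉ (↑P.S0 : Set ℕ)),
              πO' (π' (heckeAlgebra.T hℓ hℓN' hℓS')) = lam ℓ) ∧
          (∀ Pq : ValuationSubring (AlgebraicClosure ℚ), Pq.LiesOverPrime q →
            ∀ φ : AlgebraicClosure ℚ ≃ₐ[ℚ] AlgebraicClosure ℚ, Pq.IsFrobeniusAt φ q →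
              f₀.trace = Y.πO (Y.rt.ρT.trace φ)) ∧
          wilesFactor f₀ (q : P.O) ≠ 0 ∧
          wf Sg * Nat.card (P.O ⧸ Ideal.span {wilesFactor f₀ (q : P.O)}) ^ d
            ≤ wf (insert q Sg) ∧
          wf (insert q Sg) ≤ etaCard πO' ^ d

/-- **`Top.HeckeStepsSO` from the supply** (any eigenvalue function `lam`), no side condition. -/
theorem heckeStepsSO_of_supply (hpkg : GalPkgSONewStmt) (hss : W.IsSemistableModel)
    (hmult : (p : ℤ) ∣ W.Δ) (hpM : p ∣ M) (hsq : Squarefree M) (hSu : P.Su = ∅)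
    (Sig₀ : Finset ℕ)
    (hSig₀ : ∀ q : ℕ, q ∈ Sig₀ ↔ q.Prime ∧ (q : ℤ) ∣ W.Δ ∧ q ∉ P.Smin)
    (wf : Finset ℕ → ℕ) (lam : ℕ → P.O) {d : ℕ}
    (hsup : StepSupplySO P wf lam Sig₀ d) :
    HeckeStepsSO P Sig₀ d (levOf M) wf lam := by
  intro Sg hSgS q hq hqS hqSg Y hlevY hInv
  obtain ⟨hN, hS, hw, hlamY⟩ := hInv
  have hp : p.Prime := Fact.out
  -- the arithmetic of `Sg` and `insert q Sg`
  have hinsS : insert q Sg ⊆ Sig₀ := Finset.insert_subset hqS hSgS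
  have hSgP' : ∀ r ∈ insert q Sg, r.Prime ∧ ¬ r ∣ M ∧ r ≠ p :=
    hSg_of_sig P hSu Sig₀ hSig₀ hinsS
  have hSgPr' : ∀ r ∈ insert q Sg, r.Prime := fun r hr => (hSgP' r hr).1
  have hpins : p ∉ insert q Sg := fun h => (hSgP' p h).2.2 rfl
  have hN' : (M / p * ∏ x ∈ insert q Sg, x ^ 2) * p = M * ∏ x ∈ insert q Sg, x ^ 2 :=
    n0_mul_p hpM _
  have hMp : M / p ≠ 0 := (Nat.div_ne_zero_iff_of_dvd hpM).mpr ⟨NeZero.ne M, hp.ne_zero⟩
  haveI : NeZero (M / p * ∏ x ∈ insert q Sg, x ^ 2) :=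
    ⟨mul_ne_zero hMp (LevArith.prod_sq_ne_zero hSgPr')⟩
  have hex : ExactDvd p ((M / p * ∏ x ∈ insert q Sg, x ^ 2) * p) :=
    ⟨hp, dvd_mul_left p _, by
      rw [hN']
      exact LevArith.not_sq_dvd_lev_of_notMem hsq hSgPr' hp hpins⟩
  have hNS : ∀ r : ℕ, r.Prime → r ∣ (M / p * ∏ x ∈ insert q Sg, x ^ 2) * p → r ∈ P.S0 := by
    rw [hN']
    exact LevArith.mem_S0_of_dvd_lev hSgPr' (Fermat.Agent.GE8.MinDatum.hNS0 P)
      (mem_S0_of_sig P Sig₀ hSig₀ hinsS)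
  -- the carrier and the numerics
  obtain ⟨T', iCR, iLoc, iAlg, iFin, iFree, π', πO', f₀, hgen, hann, heig', hf₀, hc, heta, hM1⟩ :=
    hsup Sg hSgS q hq hqS hqSg Y hN hS hw hlamY hex (Fermat.Agent.GE8.MinDatum.hpS0' P) hNS
  -- the side conditions of `exists_rawSO_noSide`
  have hYS : Y.rt.S ⊆ (↑P.S0 : Set ℕ) := hS.subset
  have hNN' : Y.rt.N ∣ (M / p * ∏ x ∈ insert q Sg, x ^ 2) * p := by
    rw [hN', hN]
    exact LevArith.lev_dvd_lev_insert q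
  have hNT : ∀ r : ℕ, r.Prime → r ∣ (M / p * ∏ x ∈ insert q Sg, x ^ 2) * p →
      r ∈ P.Smin ∪ insert q Sg := by
    rw [hN']
    exact LevArith.mem_union_of_dvd_lev hSgPr'
      (fun r hr hrM => Fermat.Agent.GE8.MinDatum.mem_Smin_of_dvd P hSu hr hrM)
  have hSminN' : ∀ r ∈ P.Smin, r.Prime → r ≠ p →
      r ∣ (M / p * ∏ x ∈ insert q Sg, x ^ 2) * p ∧
        ¬ r ^ 2 ∣ (M / p * ∏ x ∈ insert q Sg, x ^ 2) * p := by
    rw [hN']
    exact LevArith.exactDvd_lev_of_mem_Smin hsq (fun r hr => P.dvd_of_mem_Smin hr) hSgP'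
  obtain ⟨-, -, -, hS0base⟩ := levelOK'_base P hsq Sig₀ hSig₀
  have hlev : LevelOK' p P.Smin Sig₀ (insert q Sg)
      ((M / p * ∏ x ∈ insert q Sg, x ^ 2) * p) (↑P.S0 : Set ℕ) := by
    rw [hN']
    exact LevArith.levelClauses hp hsq (fun r hr => P.dvd_of_mem_Smin hr) hSgP' hS0base
  have heig : ∀ (ℓ : ℕ) (hℓ : ℓ.Prime) (hℓN : ¬ ℓ ∣ Y.rt.N) (hℓS : ℓ ∉ Y.rt.S)
      (hℓN' : ¬ ℓ ∣ (M / p * ∏ x ∈ insert q Sg, x ^ 2) * p) (hℓS' : ℓ ∉ (↑P.S0 : Set ℕ)),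
        πO' (π' (heckeAlgebra.T hℓ hℓN' hℓS')) =
          Y.πO (Y.rt.π (heckeAlgebra.T hℓ hℓN hℓS)) :=
    fun ℓ hℓ hℓN hℓS hℓN' hℓS' => (heig' ℓ hℓ hℓN' hℓS').trans
      ((hlamY ℓ hℓ hℓN hℓS).symm.trans (pointChar_apply Y _))
  have heta' : Y.w * Nat.card (P.O ⧸ Ideal.span {wilesFactor f₀ (q : P.O)}) ^ d
      ≤ wf (insert q Sg) := by
    rw [hw]
    exact heta
  have hQ : EngInv (↑P.S0 : Set ℕ) (levOf M) wf lam (insert q Sg)
      ((M / p * ∏ x ∈ insert q Sg, x ^ 2) * p)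
      (↑P.S0 : Set ℕ) ((πO' : T' →+* P.O).comp π') (wf (insert q Sg)) :=
    ⟨hN', rfl, rfl, fun ℓ hℓ hℓN' hℓS' => heig' ℓ hℓ hℓN' hℓS'⟩
  exact exists_stepInputSO'_noSide hpkg (𝒪 := P.O) (ρbar := P.rhobar) (p := p)
    (Smin := P.Smin) (Sig := Sg) (d := d) Sig₀ Y q hq P.hp2 P.hpO P.p_mem_Smin P.hmin
    (Fermat.Agent.GE8.Deside.BaseOdd.hbar_condSO_noSide P hss hmult hsq (insert q Sg)) P.S0 hYS
    (N₀ := M / p * ∏ x ∈ insert q Sg, x ^ 2) hNN' hex (Fermat.Agent.GE8.MinDatum.hpS0' P) hNS hNT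
    hSminN'
    (Fermat.Agent.GE8.Deside.BaseOdd.rhobar_isStrictOrdinaryAt_of_mult P hss hmult).isOrdinaryAt
    π' hgen hann πO' heig f₀ hf₀ hc (wf (insert q Sg)) heta' hM1 hlev
    (fun N _ S χ' w => EngInv (↑P.S0 : Set ℕ) (levOf M) wf lam (insert q Sg) N S χ' w) hQ

/-- **`SOa.HeckeSideSO` from the base clause and the supply.** -/
theorem heckeSideSO_of_supply (hpkg : GalPkgSONewStmt) (hss : W.IsSemistableModel)
    (hmult : (p : ℤ) ∣ W.Δ) (hpM : p ∣ M) (hsq : Squarefree M) (hSu : P.Su = ∅)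
    (χ : heckeAlgebra M 2 (↑P.S0 : Set ℕ) →+* P.O) (Sig₀ : Finset ℕ)
    (hSig₀ : ∀ q : ℕ, q ∈ Sig₀ ↔ q.Prime ∧ (q : ℤ) ∣ W.Δ ∧ q ∉ P.Smin)
    (wf : Finset ℕ → ℕ) {d : ℕ}
    (hbase : ∀ (D : GaloisRep.DeformationRingData P.O P.rhobar (condSO P.O p P.Smin ∅))
      (H : HeckeGaloisRepDatum M (↑P.S0 : Set ℕ) P.O P.theta (Tloc P.O P.theta))
      (hπ : H.π = piT P.O P.theta)
      (φ : D.R →ₐ[P.O] Tloc P.O P.theta) (hφ : Function.Surjective φ)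
      (hloc : IsLocalHom (φ : D.R →+* Tloc P.O P.theta))
      (hρ : (D.ρ.baseChangeAlong (φ : D.R →+* Tloc P.O P.theta) hloc).IsEquiv H.ρ)
      (πO : Tloc P.O P.theta →ₐ[P.O] P.O)
      (hπO : ∀ t : heckeAlgebra M 2 (↑P.S0 : Set ℕ), πO (piT P.O P.theta t) = χ t),
      ∃ I : BaseInput p D φ πO d,
        Nat.card (Fermat.Agent.GE9.Eta.CongMod I.B (Submodule.span P.O (Set.range I.b))) =
          wf ∅)
    (hsup : StepSupplySO P wf (lamOf χ) Sig₀ d) :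
    HeckeSideSO P χ Sig₀ d :=
  ⟨wf, hbase, heckeStepsSO_of_supply P hpkg hss hmult hpM hsq hSu Sig₀ hSig₀ wf (lamOf χ) hsup⟩

end Bundle

end Fermat.Agent.GE.Engine
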