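/-
GATE-E / GE-ENGINE-ASM, R4-H (helper11, on helper33's `GE/Engine/{SOa, StepSO}`): **the
strict-ordinary Hecke side, très ramifiée branch, with the two DESIDE binders discharged**
(`hpack : PackOdd.HpackNoSideStmt` by helper10/helper69 `GE8/Deside/BaseOddFinal.hpackNoSideStmt`,
`hpkg : NoSide.GalPkgSONewStmt` by `GE9/Stage/NoSideFinal.galPkgSONewStmt`), and the SUPPLY form of
`HeckeSOaStmt` (SO twin of `StepFL.HeckeFLStmt'` + `heckeSideFL_of_supply`).

* `heckeStepsSO_of_supply'` : `StepSO.heckeStepsSO_of_supply` without `hpkg`;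
* `heckeSideSO_of_supply'`  : `StepSO.heckeSideSO_of_supply` without `hpkg`;
* `HeckeSOaSupplyStmt p`    : the Hecke side over the minimal bundles of the branch in SUPPLY form
  (`wf`, the base clause E6 + ETA at `Σ = ∅`, `StepSupplySO P wf (lamOf χ) (sigOf W P.Smin) d`);
* `heckeSOaStmt_of_supply`  : `HeckeSOaSupplyStmt p → HeckeSOaStmt p`;
* **`minHeckeSOa_of_hecke`**  : `TransvStmt p → HeckeSOaStmt p → MinHeckeSOa p` (no `hpack`);
* **`minHeckeSOa_of_supply`** : `TransvStmt p → HeckeSOaSupplyStmt p → MinHeckeSOa p`.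
-/
import Mathlib
import Fermat.Agent.GE.Engine.StepSO
import Fermat.Agent.GE8.Deside.BaseOddFinal
import Fermat.Agent.GE9.Stage.NoSideFinal

set_option autoImplicit false
set_option linter.unusedSectionVars false
set_option linter.unusedVariables false
set_option linter.style.haveILetI false

open WeierstrassCurve WeierstrassCurve.Affine.Point IsLocalRing CuspForm Polynomial TensorProduct
open scoped WeierstrassCurve.Affine

namespace Fermat.Agent.GE.Engine

open Fermat.Agent.GB.Setup.RhoBar Fermat.Agent.GB.Setup.SetupPkg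
  Fermat.Agent.GB.B4.Datum.Carrier Fermat.Agent.GB.B4.Datum.HeckeCarrier
  Fermat.Agent.GE.Graph Fermat.Agent.GE9.Ind Fermat.Agent.GE9.NumCrit Fermat.Agent.GE9.Asm
  Fermat.Agent.GE9.TanGrow

section Bundle

variable {p : ℕ} [Fact p.Prime] {W : WeierstrassCurve ℤ}
  {hcard₁ : Nat.card (Submodule.torsionBy ℤ
    ((W.map (Int.castRingHom ℚ))⁄(AlgebraicClosure ℚ)).Point p) = p ^ 2}
  {hker : GaloisFactorsThroughFiniteLevel
    (galoisRepModuleEnd (K := AlgebraicClosure ℚ) ℚ (W.map (Int.castRingHom ℚ)) p)}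
  {M A : ℕ} (P : Pkg p W hcard₁ hker M A) [NeZero M]

/-- **`Top.HeckeStepsSO` from the supply**, no side condition, no package binder. -/
theorem heckeStepsSO_of_supply' (hss : W.IsSemistableModel)
    (hmult : (p : ℤ) ∣ W.Δ) (hpM : p ∣ M) (hsq : Squarefree M) (hSu : P.Su = ∅)
    (Sig₀ : Finset ℕ)
    (hSig₀ : ∀ q : ℕ, q ∈ Sig₀ ↔ q.Prime ∧ (q : ℤ) ∣ W.Δ ∧ q ∉ P.Smin)
    (wf : Finset ℕ → ℕ) (lam : ℕ → P.O) {d : ℕ}
    (hsup : StepSupplySO P wf lam Sig₀ d) :
    HeckeStepsSO P Sig₀ d (levOf M) wf lam :=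
  heckeStepsSO_of_supply P Fermat.Agent.GE9.Stage.NoSide.galPkgSONewStmt hss hmult hpM hsq hSu
    Sig₀ hSig₀ wf lam hsup

/-- **`SOa.HeckeSideSO` from the base clause and the supply**, no package binder. -/
theorem heckeSideSO_of_supply' (hss : W.IsSemistableModel)
    (hmult : (p : ℤ) ∣ W.Δ) (hpM : p ∣ M) (hsq : Squarefree M) (hSu : P.Su = ∅)
    (χ : heckeAlgebra M 2 (↑P.S0 : Set ℕ) →+* P.O) (Sig₀ : Finset ℕ)
    (hSig₀ : ∀ q : ℕ, q ∈ Sig₀ ↔ q.Prime ∧ (q : ℤ) ∣ W.Δ ∧ q ∉ P.Smin)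
    (wf : Finset ℕ → ℕ) {d : ℕ}
    (hbase : ∀ (D : GaloisRep.DeformationRingData P.O P.rhobar (condSO P.O p P.Smin ∅))
      (H : HeckeGaloisRepDatum M (↑P.S0 : Set ℕ) P.O P.theta (Tloc P.O P.theta))
      (hπ : H.π = piT P.O P.theta)
      (φ : D.R →ₐ[P.O] Tloc P.O P.theta) (hφ : Function.Surjective φ)
      (hloc : IsLocalHom (φ : D.R →+* Tloc P.O P.theta))
      (hρ : (D.ρ.baseChangeAlong (φ : D.R →+* Tloc P.O P.theta) hloc).IsEquiv H.ρ)
      (πO : Tloc P.O P.theta →ₐ[P.O] P.O)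
      (hπO : ∀ t : heckeAlgebra M 2 (↑P.S0 : Set ℕ), πO (piT P.O P.theta t) = χ t),
      ∃ I : BaseInput p D φ πO d,
        Nat.card (Fermat.Agent.GE9.Eta.CongMod I.B (Submodule.span P.O (Set.range I.b))) =
          wf ∅)
    (hsup : StepSupplySO P wf (lamOf χ) Sig₀ d) :
    HeckeSideSO P χ Sig₀ d :=
  heckeSideSO_of_supply P Fermat.Agent.GE9.Stage.NoSide.galPkgSONewStmt hss hmult hpM hsq hSu χ
    Sig₀ hSig₀ wf hbase hsup

end Bundle

/-- **The Hecke side over the minimal bundles, strict-ordinary case, très ramifiée branch, in SUPPLY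
form**: for every minimal level `M` with `p ∣ M` of a semistable `W` multiplicative at `p`, NOT
residually modular of level `M / p`, an `A ≥ 1` such that EVERY bundle `P` at level `M` and EVERY
eigensystem `χ` lifting `θ̄` carry a depth `d ≠ 0`, the `#Ω` function `wf`, the base record (E6 + ETA
at `Σ = ∅` for `R^{so}_∅`) and the step SUPPLY `StepSupplySO` (carrier, `p`-new clause `hann`, `f₀`,
`c_q ≠ 0`, (ETA), (M1) of one stage).  SO producers target THIS. -/
def HeckeSOaSupplyStmt (p : ℕ) [Fact p.Prime] : Prop :=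
  ∀ (W : WeierstrassCurve ℤ), W.Δ ≠ 0 → W.IsSemistableModel → W.ModRepIsIrreducible p →
    ∀ (hcard₁ : Nat.card (Submodule.torsionBy ℤ
      ((W.map (Int.castRingHom ℚ))⁄(AlgebraicClosure ℚ)).Point p) = p ^ 2)
    (hker : GaloisFactorsThroughFiniteLevel
      (galoisRepModuleEnd (K := AlgebraicClosure ℚ) ℚ (W.map (Int.castRingHom ℚ)) p))
    (M : ℕ) [NeZero M], Squarefree M → p ∣ M → W.IsResiduallyModularOfLevel p M →
    (p : ℤ) ∣ W.Δ → ¬ W.IsResiduallyModularOfLevel p (M / p) →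
    (∀ q : ℕ, q.Prime → q ≠ p → q ∣ M →
      ¬ ((W.map (Int.castRingHom ℚ)).residualGaloisRepOf p hcard₁ hker).IsUnramifiedAt q) →
    ∃ A : ℕ, 1 ≤ A ∧ ∀ (P : Pkg p W hcard₁ hker M A)
      (χ : heckeAlgebra M 2 (↑P.S0 : Set ℕ) →+* P.O),
      (∀ t : heckeAlgebra M 2 (↑P.S0 : Set ℕ), residue P.O (χ t) = P.theta t) →
        ∃ d : ℕ, d ≠ 0 ∧ ∃ wf : Finset ℕ → ℕ,
          (∀ (D : GaloisRep.DeformationRingData P.O P.rhobar (condSO P.O p P.Smin ∅))
            (H : HeckeGaloisRepDatum M (↑P.S0 : Set ℕ) P.O P.theta (Tloc P.O P.theta))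
            (hπ : H.π = piT P.O P.theta)
            (φ : D.R →ₐ[P.O] Tloc P.O P.theta) (hφ : Function.Surjective φ)
            (hloc : IsLocalHom (φ : D.R →+* Tloc P.O P.theta))
            (hρ : (D.ρ.baseChangeAlong (φ : D.R →+* Tloc P.O P.theta) hloc).IsEquiv H.ρ)
            (πO : Tloc P.O P.theta →ₐ[P.O] P.O)
            (hπO : ∀ t : heckeAlgebra M 2 (↑P.S0 : Set ℕ), πO (piT P.O P.theta t) = χ t),
            ∃ I : BaseInput p D φ πO d,
              Nat.card (Fermat.Agent.GE9.Eta.CongMod I.B (Submodule.span P.O (Set.range I.b))) =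
                wf ∅) ∧
          StepSupplySO P wf (lamOf χ) (sigOf W P.Smin) d

/-- the supply form gives `HeckeSOaStmt p` (all DESIDE binders discharged). -/
theorem heckeSOaStmt_of_supply (p : ℕ) [Fact p.Prime] (h : HeckeSOaSupplyStmt p) :
    HeckeSOaStmt p := by
  intro W hΔ hW hirr hcard₁ hker M _ hMsq hpM hRM hmult hno hmin
  obtain ⟨A, hA, hP⟩ := h W hΔ hW hirr hcard₁ hker M hMsq hpM hRM hmult hno hmin
  refine ⟨A, hA, fun P χ hχ => ?_⟩
  obtain ⟨d, hd, wf, hbase, hsup⟩ := hP P χ hχ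
  exact ⟨d, hd, heckeSideSO_of_supply' P hW hmult hpM hMsq (su_eq_empty P hmin) χ
    (sigOf W P.Smin) (fun q => mem_sigOf P.hΔ) wf hbase hsup⟩

/-- **R4-H, très ramifiée branch: `MinHeckeSOa p` from IRR2 and the Hecke side** (no `hpack`). -/
theorem minHeckeSOa_of_hecke (p : ℕ) [Fact p.Prime] (hp2 : p ≠ 2) (hTr : TransvStmt p)
    (hH : HeckeSOaStmt p) : MinHeckeSOa p :=
  minHeckeSOa_of_nodes p hp2 hTr Fermat.Agent.GE8.Deside.BaseOddFinal.hpackNoSideStmt hH

/-- **R4-H, très ramifiée branch: `MinHeckeSOa p` from IRR2 and the Hecke side in supply form.** -/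
theorem minHeckeSOa_of_supply (p : ℕ) [Fact p.Prime] (hp2 : p ≠ 2) (hTr : TransvStmt p)
    (hH : HeckeSOaSupplyStmt p) : MinHeckeSOa p :=
  minHeckeSOa_of_hecke p hp2 hTr (heckeSOaStmt_of_supply p hH)

end Fermat.Agent.GE.Engine
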