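/-
GATE-E / GE-ENGINE-ASM, SO(a) BASE (helper11): **the base of the strict-ordinary engine, branch (a),
from E6's node statement alone** (`p ≠ 3`) — twin of helper54's `FLPlug.baseFLStmt_of_node`.

`StepPlugSO.BaseSOaStmt p`  ⟸  `BaseSOa.baseInput_of_node_SO` (the base record on the module of
record `LTP P` from `Wire.e6_SO` + `Primary.primary_fields_locSub`)  +
`BaseSOa.exists_full_lam_SOa_div` (the full eigensystem at `p ∥ M`, from ONE nonzero anemic
eigenvector `BaseSOa.exists_anemic_of_free`)  +  **`NodeSOaStmt p hp3`** = E6's node statement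
`Wire.NodeStmt` for `condSO` in helper12's shape (board 7876: the node carries the context
`D H hπ φ hφ hloc hρ` of `Base.exists_base_of_datum` and an `eL : Mbase P ≃ₗ LTP P` compatible with
the Hecke operators) — the ONLY hypothesis left.

* `NodeSOaStmt p hp3` : the residual `Prop` (E6 N8b-SO: helper74 `RecordSO.recordStmt_SO` +
  `nodeStmt_Tloc_of_recordStmt`); header = the header of `BaseSOaStmt` VERBATIM;
* `baseSOa_of_node_ctx` : `BaseSOa.baseSOa_of_node` with the node binder carrying the context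
  `(D, H, hπ, φ, hφ, hloc, hρ)`;
* **`baseSOa_of_nodeStmt`** : `NodeSOaStmt p hp3 →` the body of `StepPlugSO.BaseSOaStmt p` VERBATIM
  (helper73's draft of record, no conjunct `lam p ^ 2 = 1`), stated WITHOUT importing `StepPlugSO`;
* `baseSOaSq_of_nodeStmt` : the same with the extra conjunct `lam ⟨p, _⟩ ^ 2 = 1` in second position
  (helper10's shape of board 7958).
-/
import Mathlib
import Fermat.Agent.GE.Engine.BaseSOa

set_option autoImplicit false
set_option linter.unusedSectionVars false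
set_option linter.unusedVariables false
set_option linter.style.haveILetI false

open scoped TensorProduct
open WeierstrassCurve WeierstrassCurve.Affine.Point IsLocalRing CuspForm Polynomial
open scoped WeierstrassCurve.Affine

namespace Fermat.Agent.GE.Engine.SOaPlug

open Fermat.Agent.GB.Setup.RhoBar Fermat.Agent.GB.Setup.SetupPkg
  Fermat.Agent.GB.B4.Datum.Carrier Fermat.Agent.GB.B4.Datum.HeckeCarrier
  Fermat.Agent.GE.Graph Fermat.Agent.GE9.Ind Fermat.Agent.GE9.NumCrit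
  Fermat.Agent.GE9.NumCrit.ModForm Fermat.Agent.GE9.Asm
open Fermat.Agent.GJ.J2.Lat
open Fermat.Agent.GE9.Eta Fermat.Agent.GE9.Eta.Mod Fermat.Agent.GE9.Eta.Base
  Fermat.Agent.GE9.Eta.Base.Primary
open Fermat.Agent.GE6.Inst.FreeLevelInst Fermat.Agent.GE6.Inst.Wire
  Fermat.Agent.GE6.Inst.BaseTLoc Fermat.Agent.GE6.Inst.BaseTPkg
open Fermat.Agent.GE.Engine Fermat.Agent.GE.Engine.BaseFL Fermat.Agent.GE.Engine.BaseSOa

/-- **E6 at the minimal level, strict-ordinary case, branch (a), `p ≠ 3`** (N8b-SO): for every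
minimal level `M` with `p ∥ M`, `W` multiplicative at `p` and NOT residually modular of level
`M / p`, an `A ≥ 1` such that for EVERY bundle `P`, every deformation ring `D` of `𝒟^{so}_∅`, every
frozen datum `H` on `Tloc P.O θ̄`, every surjection `φ : D.R ↠ Tloc` through which `D.ρ` becomes
`H.ρ`, and every `eL : Mbase P ≃ₗ LTP P` intertwining `X_s` with `T_s`, the node statement
`Wire.NodeStmt` holds on the module of record `LTP P`. -/
def NodeSOaStmt (p : ℕ) [hpF : Fact p.Prime] (hp3 : p ≠ 3) : Prop :=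
  ∀ (W : WeierstrassCurve ℤ), W.Δ ≠ 0 → W.IsSemistableModel → W.ModRepIsIrreducible p →
    ∀ (hcard₁ : Nat.card (Submodule.torsionBy ℤ
      ((W.map (Int.castRingHom ℚ))⁄(AlgebraicClosure ℚ)).Point p) = p ^ 2)
    (hker : GaloisFactorsThroughFiniteLevel
      (galoisRepModuleEnd (K := AlgebraicClosure ℚ) ℚ (W.map (Int.castRingHom ℚ)) p))
    (M : ℕ) [NeZero M], Squarefree M → p ∣ M → W.IsResiduallyModularOfLevel p M →
    (p : ℤ) ∣ W.Δ → ¬ W.IsResiduallyModularOfLevel p (M / p) →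
    (∀ q : ℕ, q.Prime → q ≠ p → q ∣ M →
      ¬ ((W.map (Int.castRingHom ℚ)).residualGaloisRepOf p hcard₁ hker).IsUnramifiedAt q) →
    ∃ A : ℕ, 1 ≤ A ∧ ∀ (P : Pkg p W hcard₁ hker M A)
      (D : GaloisRep.DeformationRingData P.O P.rhobar (condSO P.O p P.Smin ∅))
      (H : HeckeGaloisRepDatum M (↑P.S0 : Set ℕ) P.O P.theta (Tloc P.O P.theta))
      (hπ : H.π = piT P.O P.theta)
      (φ : D.R →ₐ[P.O] Tloc P.O P.theta) (hφ : Function.Surjective φ)
      (hloc : IsLocalHom (φ : D.R →+* Tloc P.O P.theta))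
      (hρ : (D.ρ.baseChangeAlong (φ : D.R →+* Tloc P.O P.theta) hloc).IsEquiv H.ρ)
      (eL : Mbase P ≃ₗ[P.O] LTP P),
      (∀ (s : I0 W p M) (y : Mbase P),
        eL (actBase P (MvPolynomial.X s) y)
          = piT P.O P.theta (heckeAlgebra.T s.2.1 s.2.2.2.1 (pr0_notMem_S0 P s)) • eL y) →
      NodeStmt P hp3 (condSO P.O p P.Smin) D φ (LTP P) eL

section Bundle

variable {p : ℕ} [hpF : Fact p.Prime] {W : WeierstrassCurve ℤ}
  {hcard₁ : Nat.card (Submodule.torsionBy ℤ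
    ((W.map (Int.castRingHom ℚ))⁄(AlgebraicClosure ℚ)).Point p) = p ^ 2}
  {hker : GaloisFactorsThroughFiniteLevel
    (galoisRepModuleEnd (K := AlgebraicClosure ℚ) ℚ (W.map (Int.castRingHom ℚ)) p)}
  {M A : ℕ} (P : Pkg p W hcard₁ hker M A) [NeZero M]

/-- **`BaseSOa.baseSOa_of_node` with the node binder carrying the context**
`(D, H, hπ, φ, hφ, hloc, hρ)` of `Base.exists_base_of_datum`. -/
theorem baseSOa_of_node_ctx (hpM : p ∣ M) (hsq : Squarefree M) (hSu : P.Su = ∅)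
    (hss : W.IsSemistableModel) (hmult : (p : ℤ) ∣ W.Δ)
    (hno : ¬ W.IsResiduallyModularOfLevel p (M / p)) (hp3 : p ≠ 3)
    (χ : heckeAlgebra M 2 (↑P.S0 : Set ℕ) →+* P.O)
    (hχ : ∀ t : heckeAlgebra M 2 (↑P.S0 : Set ℕ), residue P.O (χ t) = P.theta t)
    (hnode : ∀ (D : GaloisRep.DeformationRingData P.O P.rhobar (condSO P.O p P.Smin ∅))
      (H : HeckeGaloisRepDatum M (↑P.S0 : Set ℕ) P.O P.theta (Tloc P.O P.theta))
      (hπ : H.π = piT P.O P.theta)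
      (φ : D.R →ₐ[P.O] Tloc P.O P.theta) (hφ : Function.Surjective φ)
      (hloc : IsLocalHom (φ : D.R →+* Tloc P.O P.theta))
      (hρ : (D.ρ.baseChangeAlong (φ : D.R →+* Tloc P.O P.theta) hloc).IsEquiv H.ρ)
      (eL : Mbase P ≃ₗ[P.O] LTP P),
      (∀ (s : I0 W p M) (y : Mbase P),
        eL (actBase P (MvPolynomial.X s) y)
          = piT P.O P.theta (heckeAlgebra.T s.2.1 s.2.2.2.1 (pr0_notMem_S0 P s)) • eL y) →
      NodeStmt P hp3 (condSO P.O p P.Smin) D φ (LTP P) eL) :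
    ∃ lam : Nat.Primes → P.O,
      (∀ (ℓ : ℕ) (hℓ : ℓ.Prime) (hℓM : ¬ ℓ ∣ M) (hℓS : ℓ ∉ (↑P.S0 : Set ℕ)),
        χ (heckeAlgebra.T hℓ hℓM hℓS) = lam (⟨ℓ, hℓ⟩ : Nat.Primes)) ∧
      lam (⟨p, Fact.out⟩ : Nat.Primes) ^ 2 = 1 ∧
      EtaStage M P.O lam 2 ∧
      ∀ (D : GaloisRep.DeformationRingData P.O P.rhobar (condSO P.O p P.Smin ∅))
        (H : HeckeGaloisRepDatum M (↑P.S0 : Set ℕ) P.O P.theta (Tloc P.O P.theta))
        (hπ : H.π = piT P.O P.theta)
        (φ : D.R →ₐ[P.O] Tloc P.O P.theta) (hφ : Function.Surjective φ)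
        (hloc : IsLocalHom (φ : D.R →+* Tloc P.O P.theta))
        (hρ : (D.ρ.baseChangeAlong (φ : D.R →+* Tloc P.O P.theta) hloc).IsEquiv H.ρ)
        (πO : Tloc P.O P.theta →ₐ[P.O] P.O)
        (hπO : ∀ t : heckeAlgebra M 2 (↑P.S0 : Set ℕ), πO (piT P.O P.theta t) = χ t),
        ∃ I : BaseInput p D φ πO 2,
          Nat.card (CongMod I.B (Submodule.span P.O (Set.range I.b))) = omegaCard M P.O lam := by
  -- ONE instance `(D, H, φ, πO)` as in `Deside.BaseOdd.exists_base_SO_noSide`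
  obtain ⟨H, hπ, hc, hres⟩ :=
    Fermat.Agent.GE8.Deside.BaseOddFinal.exists_minDatum_SO_pnew_odd P hpM hsq hSu
      (Fermat.Agent.GE8.Deside.BaseOdd.hordbar_of_mult P.hΔ hss hmult) hno
  have h𝒟 : condSO P.O p P.Smin ∅ H.ρ := by
    refine (Fermat.Agent.GE8.MinDatum.condSO_iff P ∅ H.ρ).mpr ?_
    rw [Finset.union_empty]
    exact hc
  obtain ⟨D⟩ := Fermat.Agent.GE6.DefRing.nonempty_defRing_SO p P.rhobar P.hp2 P.habs P.Smin ∅
    P.p_mem_Smin P.hmin (Fermat.Agent.GE8.Deside.BaseOdd.hbar_condSO_noSide P hss hmult hsq ∅)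
  obtain ⟨φ, hsurj, hloc, hρ⟩ := Fermat.Agent.GE8.MinDatum.surjective_to_hecke P D H h𝒟 hres
  obtain ⟨πO, hψ⟩ := H.exists_point χ hχ
  have hπO : ∀ t : heckeAlgebra M 2 (↑P.S0 : Set ℕ), πO (piT P.O P.theta t) = χ t := by
    intro t
    rw [← hπ]
    exact hψ t
  -- a nonzero anemic eigenvector, the full eigensystem
  obtain ⟨-, hfree⟩ := free_of_node_SO P hss hmult hsq hp3 D φ hsurj
    (fun eL heL => hnode D H hπ φ hsurj hloc hρ eL heL)
  obtain ⟨y, hy0, hy⟩ := exists_anemic_of_free P hfree χ πO hπO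
  obtain ⟨lam, hlamχ, hfull, hlamp⟩ := exists_full_lam_SOa_div P hpM hsq hSu hno χ hχ y hy0 hy
  refine ⟨lam, hlamχ, hlamp, ?_, fun D' H' hπ' φ' hφ' hloc' hρ' πO' hπO' => ?_⟩
  · obtain ⟨I, -, hst⟩ := baseInput_of_node_SO P hss hmult hsq hp3 χ lam hlamχ hfull D φ hsurj πO
      hπO (fun eL heL => hnode D H hπ φ hsurj hloc hρ eL heL)
    exact hst
  · obtain ⟨I, hI, -⟩ := baseInput_of_node_SO P hss hmult hsq hp3 χ lam hlamχ hfull D' φ' hφ' πO'
      hπO' (fun eL heL => hnode D' H' hπ' φ' hφ' hloc' hρ' eL heL)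
    exact ⟨I, hI⟩

end Bundle

/-- **the base of the SO(a) engine from E6's node statement, with `lam p ^ 2 = 1`** (helper10's
shape of board 7958). -/
theorem baseSOaSq_of_nodeStmt (p : ℕ) [hpF : Fact p.Prime] (hp3 : p ≠ 3)
    (h : NodeSOaStmt p hp3) :
    ∀ (W : WeierstrassCurve ℤ), W.Δ ≠ 0 → W.IsSemistableModel → W.ModRepIsIrreducible p →
    ∀ (hcard₁ : Nat.card (Submodule.torsionBy ℤ
      ((W.map (Int.castRingHom ℚ))⁄(AlgebraicClosure ℚ)).Point p) = p ^ 2)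
    (hker : GaloisFactorsThroughFiniteLevel
      (galoisRepModuleEnd (K := AlgebraicClosure ℚ) ℚ (W.map (Int.castRingHom ℚ)) p))
    (M : ℕ) [NeZero M], Squarefree M → p ∣ M → W.IsResiduallyModularOfLevel p M →
    (p : ℤ) ∣ W.Δ → ¬ W.IsResiduallyModularOfLevel p (M / p) →
    (∀ q : ℕ, q.Prime → q ≠ p → q ∣ M →
      ¬ ((W.map (Int.castRingHom ℚ)).residualGaloisRepOf p hcard₁ hker).IsUnramifiedAt q) →
    ∃ A : ℕ, 1 ≤ A ∧ ∀ (P : Pkg p W hcard₁ hker M A)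
      (χ : heckeAlgebra M 2 (↑P.S0 : Set ℕ) →+* P.O),
      (∀ t : heckeAlgebra M 2 (↑P.S0 : Set ℕ), residue P.O (χ t) = P.theta t) →
      ∃ lam : Nat.Primes → P.O,
        (∀ (ℓ : ℕ) (hℓ : ℓ.Prime) (hℓM : ¬ ℓ ∣ M) (hℓS : ℓ ∉ (↑P.S0 : Set ℕ)),
          χ (heckeAlgebra.T hℓ hℓM hℓS) = lam (⟨ℓ, hℓ⟩ : Nat.Primes)) ∧
        lam (⟨p, Fact.out⟩ : Nat.Primes) ^ 2 = 1 ∧
        EtaStage M P.O lam 2 ∧
        ∀ (D : GaloisRep.DeformationRingData P.O P.rhobar (condSO P.O p P.Smin ∅))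
          (H : HeckeGaloisRepDatum M (↑P.S0 : Set ℕ) P.O P.theta (Tloc P.O P.theta))
          (hπ : H.π = piT P.O P.theta)
          (φ : D.R →ₐ[P.O] Tloc P.O P.theta) (hφ : Function.Surjective φ)
          (hloc : IsLocalHom (φ : D.R →+* Tloc P.O P.theta))
          (hρ : (D.ρ.baseChangeAlong (φ : D.R →+* Tloc P.O P.theta) hloc).IsEquiv H.ρ)
          (πO : Tloc P.O P.theta →ₐ[P.O] P.O)
          (hπO : ∀ t : heckeAlgebra M 2 (↑P.S0 : Set ℕ), πO (piT P.O P.theta t) = χ t),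
          ∃ I : BaseInput p D φ πO 2,
            Nat.card (Fermat.Agent.GE9.Eta.CongMod I.B (Submodule.span P.O (Set.range I.b))) =
              omegaCard M P.O lam := by
  intro W hΔ hW hirr hcard₁ hker M _ hsq hpM hRM hmult hno hmin
  obtain ⟨A, hA, hN⟩ := h W hΔ hW hirr hcard₁ hker M hsq hpM hRM hmult hno hmin
  refine ⟨A, hA, fun P χ hχ => ?_⟩
  have hSu : P.Su = ∅ := su_eq_empty P hmin
  exact baseSOa_of_node_ctx P hpM hsq hSu hW hmult hno hp3 χ hχ (hN P)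

/-- **the base of the SO(a) engine from E6's node statement**: the body of
`StepPlugSO.BaseSOaStmt p` VERBATIM. -/
theorem baseSOa_of_nodeStmt (p : ℕ) [hpF : Fact p.Prime] (hp3 : p ≠ 3)
    (h : NodeSOaStmt p hp3) :
    ∀ (W : WeierstrassCurve ℤ), W.Δ ≠ 0 → W.IsSemistableModel → W.ModRepIsIrreducible p →
    ∀ (hcard₁ : Nat.card (Submodule.torsionBy ℤ
      ((W.map (Int.castRingHom ℚ))⁄(AlgebraicClosure ℚ)).Point p) = p ^ 2)
    (hker : GaloisFactorsThroughFiniteLevel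
      (galoisRepModuleEnd (K := AlgebraicClosure ℚ) ℚ (W.map (Int.castRingHom ℚ)) p))
    (M : ℕ) [NeZero M], Squarefree M → p ∣ M → W.IsResiduallyModularOfLevel p M →
    (p : ℤ) ∣ W.Δ → ¬ W.IsResiduallyModularOfLevel p (M / p) →
    (∀ q : ℕ, q.Prime → q ≠ p → q ∣ M →
      ¬ ((W.map (Int.castRingHom ℚ)).residualGaloisRepOf p hcard₁ hker).IsUnramifiedAt q) →
    ∃ A : ℕ, 1 ≤ A ∧ ∀ (P : Pkg p W hcard₁ hker M A)
      (χ : heckeAlgebra M 2 (↑P.S0 : Set ℕ) →+* P.O),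
      (∀ t : heckeAlgebra M 2 (↑P.S0 : Set ℕ), residue P.O (χ t) = P.theta t) →
      ∃ lam : Nat.Primes → P.O,
        (∀ (ℓ : ℕ) (hℓ : ℓ.Prime) (hℓM : ¬ ℓ ∣ M) (hℓS : ℓ ∉ (↑P.S0 : Set ℕ)),
          χ (heckeAlgebra.T hℓ hℓM hℓS) = lam (⟨ℓ, hℓ⟩ : Nat.Primes)) ∧
        EtaStage M P.O lam 2 ∧
        ∀ (D : GaloisRep.DeformationRingData P.O P.rhobar (condSO P.O p P.Smin ∅))
          (H : HeckeGaloisRepDatum M (↑P.S0 : Set ℕ) P.O P.theta (Tloc P.O P.theta))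
          (hπ : H.π = piT P.O P.theta)
          (φ : D.R →ₐ[P.O] Tloc P.O P.theta) (hφ : Function.Surjective φ)
          (hloc : IsLocalHom (φ : D.R →+* Tloc P.O P.theta))
          (hρ : (D.ρ.baseChangeAlong (φ : D.R →+* Tloc P.O P.theta) hloc).IsEquiv H.ρ)
          (πO : Tloc P.O P.theta →ₐ[P.O] P.O)
          (hπO : ∀ t : heckeAlgebra M 2 (↑P.S0 : Set ℕ), πO (piT P.O P.theta t) = χ t),
          ∃ I : BaseInput p D φ πO 2,
            Nat.card (Fermat.Agent.GE9.Eta.CongMod I.B (Submodule.span P.O (Set.range I.b))) =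
              omegaCard M P.O lam := by
  intro W hΔ hW hirr hcard₁ hker M _ hsq hpM hRM hmult hno hmin
  obtain ⟨A, hA, hB⟩ :=
    baseSOaSq_of_nodeStmt p hp3 h W hΔ hW hirr hcard₁ hker M hsq hpM hRM hmult hno hmin
  refine ⟨A, hA, fun P χ hχ => ?_⟩
  obtain ⟨lam, hlamχ, -, hst, hin⟩ := hB P χ hχ
  exact ⟨lam, hlamχ, hst, hin⟩

end Fermat.Agent.GE.Engine.SOaPlug
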