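/-
GATE-E / GE-ENGINE-ASM, SO(a) BASE (helper11): **`StepPlugSO.BaseSOaStmt p` and `MinHeckeSOa p` from
E6's node statement for `condSO`** (`p ≠ 3`) — the one-line closure of `SOaPlug.baseSOa_of_nodeStmt`
(stated without `StepPlugSO`) against helper73/helper10's `BaseSOaStmt` (`StepPlugSO`, e8d0c7ed) and
helper10's `NewLocPlug.minHeckeSOa_of_stage`.

* **`baseSOaStmt_of_node`** : `NodeSOaStmt p hp3 → BaseSOaStmt p`;
* **`minHeckeSOa_of_node`** :
  `p ≠ 2 → TransvStmt p → NodeSOaStmt p hp3 → StageNotResStmt p → MinHeckeSOa p`.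
-/
import Mathlib
import Fermat.Agent.GE.Engine.SOaPlug
import Fermat.Agent.GE.Engine.NewLocPlug

set_option autoImplicit false

namespace Fermat.Agent.GE.Engine.SOaPlug

open Fermat.Agent.GE.Engine

/-- **the base of the SO(a) engine from E6's node statement** (`p ≠ 3`). -/
theorem baseSOaStmt_of_node (p : ℕ) [hpF : Fact p.Prime] (hp3 : p ≠ 3)
    (h : NodeSOaStmt p hp3) : BaseSOaStmt p :=
  baseSOa_of_nodeStmt p hp3 h

/-- **`MinHeckeSOa p`** (`p ≠ 3`) from IRR2, E6's node statement for `condSO` and the stage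
non-occurrence (nodes SQ, SQ3, LLQ). -/
theorem minHeckeSOa_of_node (p : ℕ) [hpF : Fact p.Prime] (hp2 : p ≠ 2) (hp3 : p ≠ 3)
    (hTr : TransvStmt p) (h : NodeSOaStmt p hp3) (hst : StageNotResStmt p) : MinHeckeSOa p :=
  minHeckeSOa_of_stage p hp2 hTr (baseSOaStmt_of_node p hp3 h) hst

end Fermat.Agent.GE.Engine.SOaPlug
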