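/-
GATE-E / GE-ENGINE-ASM, R4-H (helper80): **the two modular points of the peu ramifiée branch and the
final assembly `HeckeSObStmt p` from the instance layer in SUPPLY form** (SO(b) twin of helper11's
`GE/Engine/SOaFinal`).

Branch (b): `W` semistable, multiplicative at `p`, minimal level `M` PRIME to `p` (`ρ̄` flat).  The
engine runs at the level `M p` on the `p`-NEW quotient, and its numerics are compared with the FLAT
engine of the level `M` over the SAME coefficient ring (route (O')).  So the bundle must carry TWO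
modular points over ONE coefficient ring `P.O`:

* `χg : 𝕋^{S0}(M p) → P.O`, `p`-NEW (it kills the annihilator of the `p`-new lattice `LamNew`):
  helper32 `GE9/PNew/Point/PkgNew.exists_pkg_point_new` from helper33/helper35
  `GE8/RaiseP/NewSuppPkg.hsupp_pkg`;
* `χf : 𝕋^{S0}(M) → P.O`, a modular point of the level `M` for the bundle
  `atLevel P Df _` (same coefficient data, modularity datum `Df` of the level `M`): helper26
  `GE9/Point/PkgLevel` (`theta_comp_atLevel`).

* `exists_pkg_two_points` : the bundle with the two points;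
* `hmin_mul_prime` : the minimality clause at the level `M p`;
* `HeckeSObSupplyStmt p` : the Hecke side of the branch in SUPPLY form — the target of the instance
  layer (R4-I (e10)): `BaseSupplySOb` + `StepSO.StepSupplySO` for every bundle with the two points;
* **`heckeSObStmt_of_supply`** : `TransvStmt p → HeckeSObSupplyStmt p → HeckeSObStmt p`;
* **`minHeckeSOb_of_supply`** : `TransvStmt p → HeckeSObSupplyStmt p → MinHeckeSOb p`.
-/
import Mathlib
import Fermat.Agent.GE.Engine.SObBase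
import Fermat.Agent.GE.Engine.SOaFinal
import Fermat.Agent.GE9.Point.PkgLevel
import Fermat.Agent.GE9.PNew.Point.PkgNew
import Fermat.Agent.GE8.RaiseP.NewSuppPkg

set_option autoImplicit false
set_option linter.unusedSectionVars false
set_option linter.unusedVariables false
set_option linter.style.haveILetI false

open WeierstrassCurve WeierstrassCurve.Affine.Point IsLocalRing CuspForm Polynomial TensorProduct
open scoped WeierstrassCurve.Affine

namespace Fermat.Agent.GE.Engine

open Fermat.Agent.GB.Setup.RhoBar Fermat.Agent.GB.Setup.SetupPkg Fermat.Agent.GB.Setup.PkgLevel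
  Fermat.Agent.GB.B4.Datum.Carrier Fermat.Agent.GB.B4.Datum.HeckeCarrier
  Fermat.Agent.GE.Graph Fermat.Agent.GE9.Ind Fermat.Agent.GE9.NumCrit Fermat.Agent.GE9.Asm
open Fermat.Agent.GJ.J2.Lat Fermat.Agent.GJ.J2.LatAct Fermat.Agent.GJ.Tate Fermat.Agent.GJ.Tate.Lim
open Fermat.Agent.GB.B10.KumLevelHecke Fermat.Agent.GB.B10.L.ThetaNew

section Bundle

variable {p : ℕ} [Fact p.Prime] {W : WeierstrassCurve ℤ}
  {hcard₁ : Nat.card (Submodule.torsionBy ℤ
    ((W.map (Int.castRingHom ℚ))⁄(AlgebraicClosure ℚ)).Point p) = p ^ 2}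
  {hker : GaloisFactorsThroughFiniteLevel
    (galoisRepModuleEnd (K := AlgebraicClosure ℚ) ℚ (W.map (Int.castRingHom ℚ)) p)}
  {M A : ℕ}

/-- **The bundle of the level `M p` with TWO modular points over ONE coefficient ring**: the
`p`-new point `χg` of the level `M p` and a point `χf` of the level `M` (for the bundle
`atLevel P Df _` with the same coefficient data). -/
theorem exists_pkg_two_points [NeZero M] [NeZero (M * p)] (hpM : ¬ p ∣ M)
    (P₁ : Pkg p W hcard₁ hker M A)
    (hsupp : ∀ (P₀ : Pkg p W hcard₁ hker (M * p) A)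
      (t : heckeAlgebra (M * p) 2 (↑P₀.S0 : Set ℕ)),
      (∀ x ∈ (LamNew hpM : AddSubgroup (Lam (M * p))),
        latAct (M * p) (↑P₀.S0 : Set ℕ) t x = 0) → P₀.theta t = 0) :
    ∃ (P : Pkg p W hcard₁ hker (M * p) A)
      (χg : heckeAlgebra (M * p) 2 (↑P.S0 : Set ℕ) →+* P.O)
      (Df : ModData W p M)
      (χf : heckeAlgebra M 2 (↑(atLevel P Df (NeZero.ne M)).S0 : Set ℕ) →+* P.O),
      (∀ t : heckeAlgebra (M * p) 2 (↑P.S0 : Set ℕ), residue P.O (χg t) = P.theta t) ∧
      (∀ t : heckeAlgebra (M * p) 2 (↑P.S0 : Set ℕ),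
        (∀ x ∈ (LamNew hpM : AddSubgroup (Lam (M * p))),
          latAct (M * p) (↑P.S0 : Set ℕ) t x = 0) → χg t = 0) ∧
      (∀ t : heckeAlgebra M 2 (↑(atLevel P Df (NeZero.ne M)).S0 : Set ℕ),
        residue P.O (χf t) = (atLevel P Df (NeZero.ne M)).theta t) := by
  -- the bundle of the level `M` with a modular point
  obtain ⟨P₁', χ₁, -, hχ₁⟩ := Fermat.Agent.GE9.Point.exists_pkg_point P₁
  -- the same coefficient data at the level `M p` (old forms)
  obtain ⟨D'⟩ := nonempty_modData_of_dvd P₁' (dvd_mul_right M p) (NeZero.ne (M * p))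
  -- the `p`-new point
  obtain ⟨P, ι, χg, -, hloc, -, hχg, hkill, -⟩ :=
    Fermat.Agent.GE9.PNew.Point.exists_pkg_point_new hpM (atLevel P₁' D' (NeZero.ne (M * p)))
      (hsupp _)
  exact ⟨P, χg, P₁'.D, ι.comp χ₁, hχg, hkill, fun t =>
    Fermat.Agent.GE9.Point.PkgLevel.theta_comp_atLevel P₁' P ι (hι := hloc) χ₁ hχ₁ t⟩

end Bundle

/-- the minimality clause passes from `M` to `M p`. -/
theorem hmin_mul_prime {p M : ℕ} (hp : p.Prime) {Pr : ℕ → Prop}
    (hmin : ∀ q : ℕ, q.Prime → q ≠ p → q ∣ M → ¬ Pr q) :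
    ∀ q : ℕ, q.Prime → q ≠ p → q ∣ M * p → ¬ Pr q := by
  intro q hq hqp hqM
  rcases (Nat.Prime.dvd_mul hq).mp hqM with h | h
  · exact hmin q hq hqp h
  · exact absurd ((Nat.prime_dvd_prime_iff_eq hq hp).mp h) hqp

/-- **The Hecke side over the minimal levels, strict-ordinary case, peu ramifiée branch, in SUPPLY
form** — the target of the instance layer.  For every minimal level `M` PRIME to `p` of a
semistable `W` multiplicative at `p`: an `A ≥ 1` such that EVERY bundle `P` at the level `M p` with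
a `p`-NEW modular point `χg` (it kills the annihilator of `LamNew`) and a modular point `χf` of the
level `M` over the SAME coefficient ring (bundle `atLevel P Df _`) carries a depth `d ≠ 0`, the `#Ω`
function `wf`, the base supply `BaseSupplySOb P χg (wf ∅) d` and the step supply
`StepSupplySO P wf (lamOf χg) (sigOf W P.Smin) d`. -/
def HeckeSObSupplyStmt (p : ℕ) [Fact p.Prime] : Prop :=
  ∀ (W : WeierstrassCurve ℤ), W.Δ ≠ 0 → W.IsSemistableModel → W.ModRepIsIrreducible p →
    ∀ (hcard₁ : Nat.card (Submodule.torsionBy ℤ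
      ((W.map (Int.castRingHom ℚ))⁄(AlgebraicClosure ℚ)).Point p) = p ^ 2)
    (hker : GaloisFactorsThroughFiniteLevel
      (galoisRepModuleEnd (K := AlgebraicClosure ℚ) ℚ (W.map (Int.castRingHom ℚ)) p))
    (M : ℕ) [NeZero M] [NeZero (M * p)], Squarefree M → ∀ (hpM : ¬ p ∣ M),
    W.IsResiduallyModularOfLevel p M → (p : ℤ) ∣ W.Δ →
    (∀ q : ℕ, q.Prime → q ≠ p → q ∣ M →
      ¬ ((W.map (Int.castRingHom ℚ)).residualGaloisRepOf p hcard₁ hker).IsUnramifiedAt q) →
    ∃ A : ℕ, 1 ≤ A ∧ ∀ (P : Pkg p W hcard₁ hker (M * p) A)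
      (χg : heckeAlgebra (M * p) 2 (↑P.S0 : Set ℕ) →+* P.O),
      (∀ t : heckeAlgebra (M * p) 2 (↑P.S0 : Set ℕ), residue P.O (χg t) = P.theta t) →
      (∀ t : heckeAlgebra (M * p) 2 (↑P.S0 : Set ℕ),
        (∀ x ∈ (LamNew hpM : AddSubgroup (Lam (M * p))),
          latAct (M * p) (↑P.S0 : Set ℕ) t x = 0) → χg t = 0) →
      ∀ (Df : ModData W p M)
        (χf : heckeAlgebra M 2 (↑(atLevel P Df (NeZero.ne M)).S0 : Set ℕ) →+* P.O),
        (∀ t : heckeAlgebra M 2 (↑(atLevel P Df (NeZero.ne M)).S0 : Set ℕ),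
          residue P.O (χf t) = (atLevel P Df (NeZero.ne M)).theta t) →
        ∃ d : ℕ, d ≠ 0 ∧ ∃ wf : Finset ℕ → ℕ,
          BaseSupplySOb P χg (wf ∅) d ∧
            StepSupplySO P wf (lamOf χg) (sigOf W P.Smin) d

/-- **R4-H, peu ramifiée branch: `HeckeSObStmt p` from IRR2 and the Hecke side in supply form**
(PNEW-POINT, the two points, RawSO at the base and the de-sided step plugged). -/
theorem heckeSObStmt_of_supply (p : ℕ) [Fact p.Prime] (hp2 : p ≠ 2) (hTr : TransvStmt p)
    (hH : HeckeSObSupplyStmt p) : HeckeSObStmt p := by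
  intro W hΔ hW hirr hcard₁ hker M hMsq hpM hRM hmult hmin
  have hp : p.Prime := Fact.out
  haveI : NeZero M := ⟨hMsq.ne_zero⟩
  haveI : NeZero (M * p) := ⟨Nat.mul_ne_zero hMsq.ne_zero hp.ne_zero⟩
  obtain ⟨A, hA, hHS⟩ := hH W hΔ hW hirr hcard₁ hker M hMsq hpM hRM hmult hmin
  -- the bundle of the level `M`, then the bundle of the level `M p` with the two points
  obtain ⟨P₁⟩ := nonempty_pkg hcard₁ hker hMsq.ne_zero hp2 hΔ hirr (hTr W hΔ hW hirr) hRM A hA
  obtain ⟨P, χg, Df, χf, hχg, hkill, hχf⟩ := exists_pkg_two_points hpM P₁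
    (fun P₀ => Fermat.Agent.GE8.RaiseP.NewSuppPkg.hsupp_pkg hpM P₀ hW hmult hRM)
  obtain ⟨d, hd, wf, hbase, hstep⟩ := hHS P χg hχg hkill Df χf hχf
  refine ⟨A, P, d, hd, ?_⟩
  intro _
  have hsqp : Squarefree (M * p) := squarefree_mul_prime hp hMsq hpM
  have hSu : P.Su = ∅ := su_eq_empty P (hmin_mul_prime hp hmin)
  exact heckeSideSOb_of_supply P hW hmult hpM hsqp hSu χg hχg (sigOf W P.Smin) wf hbase
    (heckeStepsSO_of_supply' P hW hmult (dvd_mul_left p M) hsqp hSu (sigOf W P.Smin)
      (fun q => mem_sigOf P.hΔ) wf (lamOf χg) hstep)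

/-- **R4-H, peu ramifiée branch: `MinHeckeSOb p` from IRR2 and the Hecke side in supply form.** -/
theorem minHeckeSOb_of_supply (p : ℕ) [Fact p.Prime] (hp2 : p ≠ 2) (hTr : TransvStmt p)
    (hH : HeckeSObSupplyStmt p) : MinHeckeSOb p :=
  minHeckeSOb_of_stmt p (heckeSObStmt_of_supply p hp2 hTr hH)

end Fermat.Agent.GE.Engine
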