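/-
GATE-E / GE-ENGINE-ASM, RISK-4 TOP (helper80): **`HeckeSObSupplyStmt p` from the flat base, the
`p`-new base and the `p`-new step** — the last assembly of the peu ramifiée branch SO(b).

`SObPoint.minHeckeSOb_of_supply : TransvStmt p → HeckeSObSupplyStmt p → MinHeckeSOb p` leaves ONE
`Prop`.  Here it is cut along the instance layer (R4-I) into

* `StepPlug.BaseFLStmt p` (on main; E6 + ETA-BASE of the FLAT engine at the level `M`): it is run
  HERE on the bundle `atLevel P Df _` (same coefficient ring `P.O`, modularity datum of the level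
  `M`) and gives, through `StepPlug.stepSupplyFL_of_base` + `StepFL.heckeStep_of_supply` +
  `FLStages.exists_flStage`, EVERY flat stage `R^{fl}_{Sg} = T^{fl}_{Sg}` over `P.O` with the
  engine's invariant (`#Ω = wfOf M lamf Sg`) — the input of route (O') (`GE9/PNew/StepNewFinal`);
* **`BaseSObStmt p`** (the `p`-new BASE, R4-I (B)): for EVERY `A ≥ 1` and every bundle `P` of the
  level `M p` with a `p`-new point `χg`: a full eigensystem `lam` extending `χg` with
  `lam p ^ 2 = 1`, the stage invariant `EtaStageNew hpM P.O lam 2` and the base supply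
  `BaseSupplySOb P χg (omegaCardNew hpM P.O lam) 2`;
* **`StepSObStmt p`** (the `p`-new STEP, R4-I (e10) at the bundle): from the data of the two bases
  and all the flat stages, a `#Ω` function `wf` with `wf ∅ = omegaCardNew hpM P.O lam` and the step
  supply `StepSO.StepSupplySO P wf (lamOf χg) (sigOf W P.Smin) 2`.

* **`heckeSObSupplyStmt_of_base`** : `BaseFLStmt p → BaseSObStmt p → StepSObStmt p →
  HeckeSObSupplyStmt p`;
* **`minHeckeSOb_of_base`** : with `TransvStmt p`, `MinHeckeSOb p`.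

The `A`-seam: `BaseFLStmt` chooses its own `A`; the two `p`-new `Prop`s are stated for EVERY
`A ≥ 1` (nothing on the `p`-new side uses the roots of unity of the bundle).
-/
import Mathlib
import Fermat.Agent.GE.Engine.SObPoint
import Fermat.Agent.GE.Engine.FLStages
import Fermat.Agent.GE.Engine.StepPlug
import Fermat.Agent.GE9.PNew.Inst.KNew

set_option autoImplicit false
set_option linter.unusedSectionVars false
set_option linter.unusedVariables false
set_option linter.style.haveILetI false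

open WeierstrassCurve WeierstrassCurve.Affine.Point IsLocalRing CuspForm Polynomial TensorProduct
open scoped WeierstrassCurve.Affine

namespace Fermat.Agent.GE.Engine

open Fermat.Agent.GB.Setup.RhoBar Fermat.Agent.GB.Setup.SetupPkg Fermat.Agent.GB.Setup.PkgLevel
  Fermat.Agent.GB.B4.Datum.Carrier Fermat.Agent.GB.B4.Datum.HeckeCarrier
  Fermat.Agent.GE.Graph Fermat.Agent.GE9.Ind Fermat.Agent.GE9.NumCrit Fermat.Agent.GE9.Asm
open Fermat.Agent.GJ.J2.Lat Fermat.Agent.GJ.J2.LatAct Fermat.Agent.GJ.Tate Fermat.Agent.GJ.Tate.Lim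
open Fermat.Agent.GB.B10.KumLevelHecke Fermat.Agent.GB.B10.L.ThetaNew

/-- **The `p`-new BASE of the peu ramifiée branch** (R4-I (B)).  For every minimal level `M` PRIME
to `p` of a semistable `W` multiplicative at `p`, EVERY `A ≥ 1`, every bundle `P` of the level `M p`
and every `p`-NEW modular point `χg` (it lifts `θ̄` and kills the annihilator of `LamNew`): a full
eigensystem `lam` extending `χg`, with `lam p ^ 2 = 1`, the `p`-new stage invariant
`EtaStageNew hpM P.O lam 2` (a basis of the joint eigen-sublattice inside `KNew`) and the base supply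
`BaseSupplySOb P χg (omegaCardNew hpM P.O lam) 2` (carrier of `K_∅`, `hann`, the base record with
`#Ω = omegaCardNew`). -/
def BaseSObStmt (p : ℕ) [Fact p.Prime] : Prop :=
  ∀ (W : WeierstrassCurve ℤ), W.Δ ≠ 0 → W.IsSemistableModel → W.ModRepIsIrreducible p →
    ∀ (hcard₁ : Nat.card (Submodule.torsionBy ℤ
      ((W.map (Int.castRingHom ℚ))⁄(AlgebraicClosure ℚ)).Point p) = p ^ 2)
    (hker : GaloisFactorsThroughFiniteLevel
      (galoisRepModuleEnd (K := AlgebraicClosure ℚ) ℚ (W.map (Int.castRingHom ℚ)) p))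
    (M : ℕ) [NeZero M] [NeZero (M * p)], Squarefree M → ∀ (hpM : ¬ p ∣ M),
    W.IsResiduallyModularOfLevel p M → (p : ℤ) ∣ W.Δ →
    (∀ q : ℕ, q.Prime → q ≠ p → q ∣ M →
      ¬ ((W.map (Int.castRingHom ℚ)).residualGaloisRepOf p hcard₁ hker).IsUnramifiedAt q) →
    ∀ (A : ℕ), 1 ≤ A → ∀ (P : Pkg p W hcard₁ hker (M * p) A)
      (χg : heckeAlgebra (M * p) 2 (↑P.S0 : Set ℕ) →+* P.O),
      (∀ t : heckeAlgebra (M * p) 2 (↑P.S0 : Set ℕ), residue P.O (χg t) = P.theta t) →
      (∀ t : heckeAlgebra (M * p) 2 (↑P.S0 : Set ℕ),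
        (∀ x ∈ (LamNew hpM : AddSubgroup (Lam (M * p))),
          latAct (M * p) (↑P.S0 : Set ℕ) t x = 0) → χg t = 0) →
      ∃ lam : Nat.Primes → P.O,
        (∀ (ℓ : ℕ) (hℓ : ℓ.Prime) (hℓM : ¬ ℓ ∣ M * p) (hℓS : ℓ ∉ (↑P.S0 : Set ℕ)),
          χg (heckeAlgebra.T hℓ hℓM hℓS) = lam (⟨ℓ, hℓ⟩ : Nat.Primes)) ∧
        lam (⟨p, Fact.out⟩ : Nat.Primes) ^ 2 = 1 ∧
        Fermat.Agent.GE9.PNew.Inst.EtaStageNew hpM P.O lam 2 ∧
        BaseSupplySOb P χg (Fermat.Agent.GE9.PNew.Inst.omegaCardNew hpM P.O lam) 2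

/-- **The `p`-new STEP of the peu ramifiée branch** (R4-I (e10) at the bundle).  Data: the bundle
`P` of the level `M p` with the `p`-new point `χg`, the point `χf` of the level `M` over the same
coefficient ring (bundle `atLevel P Df _`); the output `lam` of `BaseSObStmt`; the output `lamf` of
`BaseFLStmt` at `(atLevel P Df _, χf)` and EVERY flat stage `Y_{Sg}` (`R^{fl}_{Sg} = T^{fl}_{Sg}`,
`Sg ⊆ Σ`) with the level clauses and the engine's invariant (level `levOf M Sg`, Hecke set `↑S0`,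
`#Ω = wfOf M lamf Sg`, eigenvalues `lamOf χf`).  Conclusion: a `#Ω` function `wf` starting at
`omegaCardNew hpM P.O lam` with the step supply of `GE/Engine/StepSO` at depth `2`. -/
def StepSObStmt (p : ℕ) [Fact p.Prime] : Prop :=
  ∀ (W : WeierstrassCurve ℤ), W.Δ ≠ 0 → W.IsSemistableModel → W.ModRepIsIrreducible p →
    ∀ (hcard₁ : Nat.card (Submodule.torsionBy ℤ
      ((W.map (Int.castRingHom ℚ))⁄(AlgebraicClosure ℚ)).Point p) = p ^ 2)
    (hker : GaloisFactorsThroughFiniteLevel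
      (galoisRepModuleEnd (K := AlgebraicClosure ℚ) ℚ (W.map (Int.castRingHom ℚ)) p))
    (M : ℕ) [NeZero M] [NeZero (M * p)], Squarefree M → ∀ (hpM : ¬ p ∣ M),
    W.IsResiduallyModularOfLevel p M → (p : ℤ) ∣ W.Δ →
    (∀ q : ℕ, q.Prime → q ≠ p → q ∣ M →
      ¬ ((W.map (Int.castRingHom ℚ)).residualGaloisRepOf p hcard₁ hker).IsUnramifiedAt q) →
    ∀ (A : ℕ), 1 ≤ A → ∀ (P : Pkg p W hcard₁ hker (M * p) A)
      (χg : heckeAlgebra (M * p) 2 (↑P.S0 : Set ℕ) →+* P.O),
      (∀ t : heckeAlgebra (M * p) 2 (↑P.S0 : Set ℕ), residue P.O (χg t) = P.theta t) →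
      (∀ t : heckeAlgebra (M * p) 2 (↑P.S0 : Set ℕ),
        (∀ x ∈ (LamNew hpM : AddSubgroup (Lam (M * p))),
          latAct (M * p) (↑P.S0 : Set ℕ) t x = 0) → χg t = 0) →
      ∀ (Df : ModData W p M)
        (χf : heckeAlgebra M 2 (↑(atLevel P Df (NeZero.ne M)).S0 : Set ℕ) →+* P.O),
        (∀ t : heckeAlgebra M 2 (↑(atLevel P Df (NeZero.ne M)).S0 : Set ℕ),
          residue P.O (χf t) = (atLevel P Df (NeZero.ne M)).theta t) →
      -- the `p`-new base
      ∀ (lam : Nat.Primes → P.O),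
        (∀ (ℓ : ℕ) (hℓ : ℓ.Prime) (hℓM : ¬ ℓ ∣ M * p) (hℓS : ℓ ∉ (↑P.S0 : Set ℕ)),
          χg (heckeAlgebra.T hℓ hℓM hℓS) = lam (⟨ℓ, hℓ⟩ : Nat.Primes)) →
        lam (⟨p, Fact.out⟩ : Nat.Primes) ^ 2 = 1 →
        Fermat.Agent.GE9.PNew.Inst.EtaStageNew hpM P.O lam 2 →
      -- the flat side over the same coefficient ring
      ∀ (lamf : Nat.Primes → P.O),
        (∀ (ℓ : ℕ) (hℓ : ℓ.Prime) (hℓM : ¬ ℓ ∣ M)
          (hℓS : ℓ ∉ (↑(atLevel P Df (NeZero.ne M)).S0 : Set ℕ)),
          χf (heckeAlgebra.T hℓ hℓM hℓS) = lamf (⟨ℓ, hℓ⟩ : Nat.Primes)) →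
        Fermat.Agent.GE9.Eta.Mod.EtaStage M P.O lamf 2 →
        (∀ Sg : Finset ℕ, Sg ⊆ sigOf W (atLevel P Df (NeZero.ne M)).Smin →
          ∃ Y : RTNum (atLevel P Df (NeZero.ne M)).rhobar
              (condFL P.O p (atLevel P Df (NeZero.ne M)).Smin Sg) 2,
            LevelOK' p (atLevel P Df (NeZero.ne M)).Smin
                (sigOf W (atLevel P Df (NeZero.ne M)).Smin) Sg Y.rt.N Y.rt.S ∧
              EngInv (↑(atLevel P Df (NeZero.ne M)).S0 : Set ℕ) (levOf M) (wfOf M lamf)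
                (lamOf χf) Sg Y.rt.N Y.rt.S (pointChar Y) Y.w) →
        ∃ wf : Finset ℕ → ℕ,
          wf ∅ = Fermat.Agent.GE9.PNew.Inst.omegaCardNew hpM P.O lam ∧
            StepSupplySO P wf (lamOf χg) (sigOf W P.Smin) 2

/-- **RISK-4 TOP: the Hecke side of the peu ramifiée branch in supply form, from the flat base, the
`p`-new base and the `p`-new step.** -/
theorem heckeSObSupplyStmt_of_base (p : ℕ) [Fact p.Prime] (hFL : BaseFLStmt p)
    (hB : BaseSObStmt p) (hS : StepSObStmt p) : HeckeSObSupplyStmt p := by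
  intro W hΔ hW hirr hcard₁ hker M _ _ hsq hpM hRM hmult hmin
  -- the flat engine chooses `A`
  obtain ⟨A, hA, hF⟩ := hFL W hΔ hW hirr hcard₁ hker M hsq hpM hRM hmin
  refine ⟨A, hA, fun P χg hχg hkill Df χf hχf => ?_⟩
  -- the `p`-new base
  obtain ⟨lam, hlamχ, hsq1, hstage, hbase⟩ :=
    hB W hΔ hW hirr hcard₁ hker M hsq hpM hRM hmult hmin A hA P χg hχg hkill
  -- the flat base on the bundle of the level `M` over the same coefficient ring
  obtain ⟨lamf, hlamfχ, hbasef, hclause⟩ := hF (atLevel P Df (NeZero.ne M)) χf hχf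
  have hSuf : (atLevel P Df (NeZero.ne M)).Su = ∅ := su_eq_empty (atLevel P Df (NeZero.ne M)) hmin
  -- every flat stage
  have hflat := exists_flStage (atLevel P Df (NeZero.ne M)) hpM hsq hSuf χf hχf (wfOf M lamf)
    (d := 2) two_ne_zero
    (fun D H hπ φ hφ hloc hρ πO hπO => by
      obtain ⟨I, hI⟩ := hclause D H hπ φ hφ hloc hρ πO hπO
      exact ⟨I, hI.trans (wfOf_empty M lamf).symm⟩)
    (heckeStep_of_supply (atLevel P Df (NeZero.ne M)) hpM hsq hSuf
      (sigOf W (atLevel P Df (NeZero.ne M)).Smin)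
      (fun q => mem_sigOf (atLevel P Df (NeZero.ne M)).hΔ) (wfOf M lamf) (lamOf χf)
      (stepSupplyFL_of_base (atLevel P Df (NeZero.ne M)) hpM hsq hSuf χf hχf
        (sigOf W (atLevel P Df (NeZero.ne M)).Smin)
        (fun q => mem_sigOf (atLevel P Df (NeZero.ne M)).hΔ) lamf hlamfχ hbasef))
  -- the `p`-new step
  obtain ⟨wf, hwf0, hstep⟩ :=
    hS W hΔ hW hirr hcard₁ hker M hsq hpM hRM hmult hmin A hA P χg hχg hkill Df χf hχf
      lam hlamχ hsq1 hstage lamf hlamfχ hbasef hflat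
  refine ⟨2, two_ne_zero, wf, ?_, hstep⟩
  rw [hwf0]
  exact hbase

/-- **RISK-4 TOP: `MinHeckeSOb p`** from IRR2, the flat base, the `p`-new base and the `p`-new
step. -/
theorem minHeckeSOb_of_base (p : ℕ) [Fact p.Prime] (hp2 : p ≠ 2) (hTr : TransvStmt p)
    (hFL : BaseFLStmt p) (hB : BaseSObStmt p) (hS : StepSObStmt p) : MinHeckeSOb p :=
  minHeckeSOb_of_supply p hp2 hTr (heckeSObSupplyStmt_of_base p hFL hB hS)

end Fermat.Agent.GE.Engine
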