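/-
GATE-E / GE-ENGINE-ASM, RISK-4 (helper80): **bundle-level glue for the `p`-new step of the peu
ramifiée branch** (`SObInst.StepSObStmt p`) — everything of `GE/Engine/StepPlugSOb` which does not
depend on the instance layer.

* `wfNew p M lam Sg` : the `#Ω` function of record of the `p`-new engine,
  `omegaCardNew (¬ p ∣ M ∏_{x ∈ Sg} x²) 𝒪 (lamAt lam Sg)` at the level literal
  `(M * ∏ x ∈ Sg, x ^ 2) * p` (`0` when the side conditions fail, which never happens);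
  `wfNew_eq` (ANY spelling `N` of the level), `wfNew_empty`;
* `lamf_sub_lam_mem` : the `p`-new system `lam` (of `χg`, level `M p`) and the flat system `lamf`
  (of `χf`, level `M`) are congruent modulo `𝔪_𝒪` at the primes outside `S0` — the hypothesis of
  `PolyAct.mP_congr`, so that the local parts `locPart (mP 𝒪 Z lam)` and `locPart (mP 𝒪 Z lamf)`
  of route (O') coincide;
* `exists_stage_congr`, `flatStage_P` : the flat stages of `StepSObStmt` (stated on the bundle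
  `atLevel P Df _`) in the spelling of `P` (`P.Smin`, `↑P.S0`);
* `lamOf_chif` : `lamOf χf ℓ = lamf ℓ` at the good primes.
-/
import Mathlib
import Fermat.Agent.GE.Engine.SObInst
import Fermat.Agent.GE9.PNew.Inst.OmegaK

set_option autoImplicit false
set_option linter.unusedSectionVars false
set_option linter.unusedVariables false
set_option linter.style.haveILetI false

open WeierstrassCurve WeierstrassCurve.Affine.Point IsLocalRing CuspForm Polynomial TensorProduct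
open scoped WeierstrassCurve.Affine

namespace Fermat.Agent.GE.Engine

open Fermat.Agent.GB.Setup.RhoBar Fermat.Agent.GB.Setup.SetupPkg Fermat.Agent.GB.Setup.PkgLevel
  Fermat.Agent.GB.B4.Datum.Carrier Fermat.Agent.GB.B4.Datum.HeckeCarrier
  Fermat.Agent.GE.Graph Fermat.Agent.GE9.Ind Fermat.Agent.GE9.NumCrit Fermat.Agent.GE9.Asm
  Fermat.Agent.GE9.Eta.Chain

/-! ### `#Ω` of the `p`-new stage as a function of `Σ` -/

section WfNew

variable {O : Type} [CommRing O]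

open Classical in
/-- `#Ω` of the `p`-new stage `Sg`: `omegaCardNew` at the level `(M ∏_{q ∈ Sg} q²) p` for the
eigensystem `lamAt lam Sg` (`0` if the level is `0` or divisible by `p²`, which never happens). -/
noncomputable def wfNew (p M : ℕ) [hpF : Fact p.Prime] (lam : Nat.Primes → O) (Sg : Finset ℕ) :
    ℕ :=
  if h : M * ∏ x ∈ Sg, x ^ 2 ≠ 0 ∧ ¬ p ∣ M * ∏ x ∈ Sg, x ^ 2 then
    @Fermat.Agent.GE9.PNew.Inst.omegaCardNew (M * ∏ x ∈ Sg, x ^ 2) p hpF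
      ⟨Nat.mul_ne_zero h.1 hpF.out.ne_zero⟩ h.2 O _ (lamAt lam Sg)
  else 0

theorem wfNew_eq (p M : ℕ) [hpF : Fact p.Prime] (lam : Nat.Primes → O) (Sg : Finset ℕ) (N : ℕ)
    [NeZero N] [NeZero (N * p)] (hpN : ¬ p ∣ N) (hN : N = M * ∏ x ∈ Sg, x ^ 2) :
    wfNew p M lam Sg = Fermat.Agent.GE9.PNew.Inst.omegaCardNew hpN O (lamAt lam Sg) := by
  subst hN
  have hc : M * ∏ x ∈ Sg, x ^ 2 ≠ 0 ∧ ¬ p ∣ M * ∏ x ∈ Sg, x ^ 2 :=
    ⟨NeZero.ne (M * ∏ x ∈ Sg, x ^ 2), hpN⟩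
  unfold wfNew
  rw [dif_pos hc]

theorem wfNew_empty (p M : ℕ) [hpF : Fact p.Prime] [NeZero M] [NeZero (M * p)] (hpM : ¬ p ∣ M)
    (lam : Nat.Primes → O) :
    wfNew p M lam ∅ = Fermat.Agent.GE9.PNew.Inst.omegaCardNew hpM O lam := by
  rw [wfNew_eq p M lam ∅ M hpM (by rw [Finset.prod_empty, mul_one]), lamAt_empty]

end WfNew

/-! ### transport of a stage along equalities of the constant sets -/

section Congr

variable {𝒪 : Type} [CommRing 𝒪] [IsDomain 𝒪] [IsDiscreteValuationRing 𝒪]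
  [IsAdicComplete (maximalIdeal 𝒪) 𝒪] [Finite (ResidueField 𝒪)]
  {ρbar : ResidualGaloisRep (ResidueField 𝒪)}

/-- a flat stage with its level clauses and the engine's invariant does not see the spelling of
`Smin`, of the final set and of the constant Hecke set. -/
theorem exists_stage_congr {p d : ℕ} {Smin Smin' Sig₀ Sig₀' : Finset ℕ} {S0 S0' : Set ℕ}
    (hSmin : Smin = Smin') (hSig : Sig₀ = Sig₀') (hS0 : S0 = S0')
    (lev wf : Finset ℕ → ℕ) (lam : ℕ → 𝒪) (Sg : Finset ℕ)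
    (h : ∃ Y : RTNum ρbar (condFL 𝒪 p Smin Sg) d,
      LevelOK' p Smin Sig₀ Sg Y.rt.N Y.rt.S ∧
        EngInv S0 lev wf lam Sg Y.rt.N Y.rt.S (pointChar Y) Y.w) :
    ∃ Y : RTNum ρbar (condFL 𝒪 p Smin' Sg) d,
      LevelOK' p Smin' Sig₀' Sg Y.rt.N Y.rt.S ∧
        EngInv S0' lev wf lam Sg Y.rt.N Y.rt.S (pointChar Y) Y.w := by
  subst hSmin
  subst hSig
  subst hS0
  exact h

end Congr

section Bundle

variable {p : ℕ} [Fact p.Prime] {W : WeierstrassCurve ℤ}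
  {hcard₁ : Nat.card (Submodule.torsionBy ℤ
    ((W.map (Int.castRingHom ℚ))⁄(AlgebraicClosure ℚ)).Point p) = p ^ 2}
  {hker : GaloisFactorsThroughFiniteLevel
    (galoisRepModuleEnd (K := AlgebraicClosure ℚ) ℚ (W.map (Int.castRingHom ℚ)) p)}
  {M A : ℕ} (P : Pkg p W hcard₁ hker (M * p) A) [NeZero M] [NeZero (M * p)]
  (Df : ModData W p M)

/-- **the `p`-new system and the flat system are congruent at the good primes**: both reduce to
`a_ℓ(W)` modulo `𝔪_𝒪` (hypothesis of `PolyAct.mP_congr`). -/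
theorem lamf_sub_lam_mem
    (χg : heckeAlgebra (M * p) 2 (↑P.S0 : Set ℕ) →+* P.O)
    (hχg : ∀ t : heckeAlgebra (M * p) 2 (↑P.S0 : Set ℕ), residue P.O (χg t) = P.theta t)
    (χf : heckeAlgebra M 2 (↑(atLevel P Df (NeZero.ne M)).S0 : Set ℕ) →+* P.O)
    (hχf : ∀ t : heckeAlgebra M 2 (↑(atLevel P Df (NeZero.ne M)).S0 : Set ℕ),
      residue P.O (χf t) = (atLevel P Df (NeZero.ne M)).theta t)
    (lam : Nat.Primes → P.O)
    (hlamχ : ∀ (ℓ : ℕ) (hℓ : ℓ.Prime) (hℓM : ¬ ℓ ∣ M * p) (hℓS : ℓ ∉ (↑P.S0 : Set ℕ)),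
      χg (heckeAlgebra.T hℓ hℓM hℓS) = lam (⟨ℓ, hℓ⟩ : Nat.Primes))
    (lamf : Nat.Primes → P.O)
    (hlamfχ : ∀ (ℓ : ℕ) (hℓ : ℓ.Prime) (hℓM : ¬ ℓ ∣ M)
      (hℓS : ℓ ∉ (↑(atLevel P Df (NeZero.ne M)).S0 : Set ℕ)),
      χf (heckeAlgebra.T hℓ hℓM hℓS) = lamf (⟨ℓ, hℓ⟩ : Nat.Primes)) :
    ∀ l : Nat.Primes, (l : ℕ) ∉ (↑P.S0 : Set ℕ) → lamf l - lam l ∈ maximalIdeal P.O := by
  intro l hlS
  have hS0 : (atLevel P Df (NeZero.ne M)).S0 = P.S0 :=
    Fermat.Agent.GE9.Point.PkgLevel.atLevel_div_S0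
  have hlSf : (l : ℕ) ∉ (↑(atLevel P Df (NeZero.ne M)).S0 : Set ℕ) := by
    rw [hS0]
    exact hlS
  have hlMp : ¬ (l : ℕ) ∣ M * p := (P.good_of_notMem_S0 l.2 hlS).2.1
  have hlM : ¬ (l : ℕ) ∣ M := fun h => hlMp (h.mul_right p)
  have e1 : lam l = χg (heckeAlgebra.T l.2 hlMp hlS) := (hlamχ l l.2 hlMp hlS).symm
  have e2 : lamf l = χf (heckeAlgebra.T l.2 hlM hlSf) := (hlamfχ l l.2 hlM hlSf).symm
  have h1 : residue P.O (lam l) = ((W.apOfModel l : ℤ) : P.k) := by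
    rw [e1, hχg]
    exact P.theta_T l.2 hlMp hlS
  have h2 : residue P.O (lamf l) = ((W.apOfModel l : ℤ) : P.k) := by
    rw [e2, hχf]
    exact (atLevel P Df (NeZero.ne M)).theta_T l.2 hlM hlSf
  rw [← residue_eq_zero_iff, map_sub, h2, h1, sub_self]

/-- `lamOf χf` is `lamf` at the good primes. -/
theorem lamOf_chif
    (χf : heckeAlgebra M 2 (↑(atLevel P Df (NeZero.ne M)).S0 : Set ℕ) →+* P.O)
    (lamf : Nat.Primes → P.O)
    (hlamfχ : ∀ (ℓ : ℕ) (hℓ : ℓ.Prime) (hℓM : ¬ ℓ ∣ M)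
      (hℓS : ℓ ∉ (↑(atLevel P Df (NeZero.ne M)).S0 : Set ℕ)),
      χf (heckeAlgebra.T hℓ hℓM hℓS) = lamf (⟨ℓ, hℓ⟩ : Nat.Primes))
    {ℓ : ℕ} (hℓ : ℓ.Prime) (hℓM : ¬ ℓ ∣ M) (hℓS : ℓ ∉ (↑P.S0 : Set ℕ)) :
    lamOf χf ℓ = lamf (⟨ℓ, hℓ⟩ : Nat.Primes) := by
  have hS0 : (atLevel P Df (NeZero.ne M)).S0 = P.S0 :=
    Fermat.Agent.GE9.Point.PkgLevel.atLevel_div_S0
  have hℓSf : ℓ ∉ (↑(atLevel P Df (NeZero.ne M)).S0 : Set ℕ) := by
    rw [hS0]
    exact hℓS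
  rw [lamOf_eq χf hℓ hℓM hℓSf]
  exact hlamfχ ℓ hℓ hℓM hℓSf

/-- **the flat stages of `StepSObStmt` in the spelling of `P`** (`P.Smin`, `sigOf W P.Smin`,
`↑P.S0`). -/
theorem flatStage_P (lamf : Nat.Primes → P.O) (lamχf : ℕ → P.O)
    (hflat : ∀ Sg : Finset ℕ, Sg ⊆ sigOf W (atLevel P Df (NeZero.ne M)).Smin →
      ∃ Y : RTNum (atLevel P Df (NeZero.ne M)).rhobar
          (condFL P.O p (atLevel P Df (NeZero.ne M)).Smin Sg) 2,
        LevelOK' p (atLevel P Df (NeZero.ne M)).Smin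
            (sigOf W (atLevel P Df (NeZero.ne M)).Smin) Sg Y.rt.N Y.rt.S ∧
          EngInv (↑(atLevel P Df (NeZero.ne M)).S0 : Set ℕ) (levOf M) (wfOf M lamf)
            lamχf Sg Y.rt.N Y.rt.S (pointChar Y) Y.w) :
    ∀ Sg : Finset ℕ, Sg ⊆ sigOf W P.Smin →
      ∃ Y : RTNum P.rhobar (condFL P.O p P.Smin Sg) 2,
        LevelOK' p P.Smin (sigOf W P.Smin) Sg Y.rt.N Y.rt.S ∧
          EngInv (↑P.S0 : Set ℕ) (levOf M) (wfOf M lamf) lamχf Sg Y.rt.N Y.rt.S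
            (pointChar Y) Y.w := by
  have hSmin : (atLevel P Df (NeZero.ne M)).Smin = P.Smin :=
    Fermat.Agent.GE9.Point.PkgLevel.atLevel_div_Smin
  have hS0 : (atLevel P Df (NeZero.ne M)).S0 = P.S0 :=
    Fermat.Agent.GE9.Point.PkgLevel.atLevel_div_S0
  intro Sg hSg
  have hSg' : Sg ⊆ sigOf W (atLevel P Df (NeZero.ne M)).Smin := by
    rw [hSmin]
    exact hSg
  have hS0' : (↑(atLevel P Df (NeZero.ne M)).S0 : Set ℕ) = (↑P.S0 : Set ℕ) := by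
    rw [hS0]
  exact exists_stage_congr (ρbar := P.rhobar) hSmin (congrArg (sigOf W) hSmin) hS0' (levOf M)
    (wfOf M lamf) lamχf Sg (hflat Sg hSg')

end Bundle

end Fermat.Agent.GE.Engine
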