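/-
GATE-E / GE-ENGINE-ASM, RISK-4 (S4) (helper80): **`StepSO.StepSupplySO` at a bundle of the level
`M p`, `p ∤ M` (peu ramifiée branch SO(b)), from the module side** — the thin `Pkg` wrapper over
helper73's `GE9/PNew/Inst/SupplySOb.exists_supplySOb`, SO(b) twin of `GE/Engine/StepPlugSO`.

The `#Ω` function is `SObGlue.wfNew p M lam` (`omegaCardNew` of the `p`-new part at the level
`(M ∏_{x ∈ Sg} x²) p`, eigensystem `lamAt lam Sg`).  Level literals: the current stage `Sg` is read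
at `N₁ := M * ∏ x ∈ Sg, x ^ 2`, the next one at the literal of `StepSupplySO`,
`N₀ := M * p / p * ∏ x ∈ insert q Sg, x ^ 2` (`= M * ∏ x ∈ insert q Sg, x ^ 2` by
`Nat.mul_div_cancel`).

What stays, as three families of hypotheses over the stages (module side only, no bundle inside):
* `hst`   : `EtaStageNew hpN P.O (lamAt lam Sg) 2` at every stage (helper21 `etaStageNew_lev`);
* `hgrow` : `#Ω^{new}_{insert q Sg} = #Ω^{new}_{Sg} · #(𝒪/c_q)²` for every strict-ordinary stage `Y`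
  at `Sg` with the engine's invariant (route (O'): helper37 `StepNew.omegaCardNew_step` over
  helper16 `StepNewFinal` + helper31 `FLStageInst`; uses `Y` and the flat stages);
* `hhold` : a set `Z ⊇ {ℓ ∉ S0}` with `BetaPEquiv hpN₀ Z` and the multiplicity-one clause `hold` of
  `CarrierK.exists_carrier_KNew` (helper63 `HoldNew` / helper73 `HoldKNew`).

* **`stepSupplySOb_of_base`** : `StepSupplySO P (wfNew p M lam) (lamOf χ) Sig₀ 2`.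
-/
import Mathlib
import Fermat.Agent.GE.Engine.SObGlue
import Fermat.Agent.GE9.PNew.Inst.SupplySOb

set_option autoImplicit false
set_option linter.unusedSectionVars false
set_option linter.unusedVariables false
set_option linter.style.haveILetI false

open WeierstrassCurve WeierstrassCurve.Affine.Point IsLocalRing CuspForm Polynomial TensorProduct
open scoped WeierstrassCurve.Affine

namespace Fermat.Agent.GE.Engine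

open Fermat.Agent.GB.Setup.RhoBar Fermat.Agent.GB.Setup.SetupPkg
  Fermat.Agent.GB.B4.Datum.Carrier Fermat.Agent.GB.B4.Datum.HeckeCarrier
  Fermat.Agent.GE.Graph Fermat.Agent.GE9.Ind Fermat.Agent.GE9.NumCrit Fermat.Agent.GE9.Asm
  Fermat.Agent.GE9.TanGrow Fermat.Agent.GE9.Eta.Mod Fermat.Agent.GE9.Eta.Chain
open Fermat.Agent.GK.AL
open Fermat.Agent.GB.B10.KumLevelHecke Fermat.Agent.GB.B10.L.NewInst
open Fermat.Agent.GB.B10.L.ThetaNew Fermat.Agent.GB.B10.L.StrictQNew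
open Fermat.Agent.GJ.J2.Lat Fermat.Agent.GB.B3.Loc Fermat.Agent.GE9.Mult1

section Bundle

variable {p : ℕ} [Fact p.Prime] {W : WeierstrassCurve ℤ}
  {hcard₁ : Nat.card (Submodule.torsionBy ℤ
    ((W.map (Int.castRingHom ℚ))⁄(AlgebraicClosure ℚ)).Point p) = p ^ 2}
  {hker : GaloisFactorsThroughFiniteLevel
    (galoisRepModuleEnd (K := AlgebraicClosure ℚ) ℚ (W.map (Int.castRingHom ℚ)) p)}
  {M A : ℕ} (P : Pkg p W hcard₁ hker (M * p) A) [NeZero M] [NeZero (M * p)]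

/-- **the supply of `StepSO` at a bundle of the level `M p`, `p ∤ M`, from the `p`-new module
side** (`d = 2`), branch (b). -/
theorem stepSupplySOb_of_base (hpM : ¬ p ∣ M) (hSu : P.Su = ∅)
    (χ : heckeAlgebra (M * p) 2 (↑P.S0 : Set ℕ) →+* P.O)
    (Sig₀ : Finset ℕ)
    (hSig₀ : ∀ q : ℕ, q ∈ Sig₀ ↔ q.Prime ∧ (q : ℤ) ∣ W.Δ ∧ q ∉ P.Smin)
    (lam : Nat.Primes → P.O)
    (hlamχ : ∀ (ℓ : ℕ) (hℓ : ℓ.Prime) (hℓM : ¬ ℓ ∣ M * p) (hℓS : ℓ ∉ (↑P.S0 : Set ℕ)),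
      χ (heckeAlgebra.T hℓ hℓM hℓS) = lam (⟨ℓ, hℓ⟩ : Nat.Primes))
    (hst : ∀ Sg : Finset ℕ, Sg ⊆ Sig₀ → ∀ (N : ℕ) [NeZero N] [NeZero (N * p)] (hpN : ¬ p ∣ N),
      N = M * ∏ x ∈ Sg, x ^ 2 →
      Fermat.Agent.GE9.PNew.Inst.EtaStageNew hpN P.O (lamAt lam Sg) 2)
    (hgrow : ∀ Sg : Finset ℕ, Sg ⊆ Sig₀ → ∀ (q : ℕ) (hq : q.Prime), q ∈ Sig₀ → q ∉ Sg →
      ∀ Y : RTNum P.rhobar (condSO P.O p P.Smin Sg) 2,
      Y.rt.N = M * p * ∏ x ∈ Sg, x ^ 2 → Y.rt.S = (↑P.S0 : Set ℕ) →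
      (∀ (ℓ : ℕ) (hℓ : ℓ.Prime) (hℓN : ¬ ℓ ∣ Y.rt.N) (hℓS : ℓ ∉ Y.rt.S),
        pointChar Y (heckeAlgebra.T hℓ hℓN hℓS) = lam (⟨ℓ, hℓ⟩ : Nat.Primes)) →
      ∀ (N₁ N₀ : ℕ) [NeZero N₁] [NeZero (N₁ * p)] [NeZero N₀] [NeZero (N₀ * p)]
        (hpN₁ : ¬ p ∣ N₁) (hpN₀ : ¬ p ∣ N₀), N₁ = M * ∏ x ∈ Sg, x ^ 2 →
        N₀ = M * ∏ x ∈ insert q Sg, x ^ 2 →
        Fermat.Agent.GE9.PNew.Inst.omegaCardNew hpN₀ P.O (lamAt lam (insert q Sg)) =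
          Fermat.Agent.GE9.PNew.Inst.omegaCardNew hpN₁ P.O (lamAt lam Sg) *
            Nat.card (P.O ⧸ Ideal.span {(((q : ℕ) : P.O) - 1) *
              ((1 + ((q : ℕ) : P.O)) ^ 2 - lam (⟨q, hq⟩ : Nat.Primes) ^ 2)}) ^ 2)
    (hhold : ∀ Sg : Finset ℕ, Sg ⊆ Sig₀ → ∀ (q : ℕ) (hq : q.Prime), q ∈ Sig₀ → q ∉ Sg →
      ∀ (N₀ : ℕ) [NeZero N₀] [NeZero (N₀ * p)] (hpN₀ : ¬ p ∣ N₀),
        N₀ = M * ∏ x ∈ insert q Sg, x ^ 2 →
        ∃ Z : Set ℕ, (∀ l : ℕ, l.Prime → l ∉ (↑P.S0 : Set ℕ) → l ∈ Z) ∧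
          Fermat.Agent.GE9.PNew.Inst.BetaPEquiv hpN₀ Z ∧
          ∀ x ∈ Fermat.Agent.GE9.PNew.Inst.KNew hpN₀ P.O,
            x ∈ locPart (Fermat.Agent.GE9.PNew.Inst.mP P.O Z (lamAt lam (insert q Sg)))
              (P.O ⊗[ℤ] Lam (N₀ * p)) →
            (∀ (ℓ : ℕ) (hℓ : ℓ.Prime), ¬ ℓ ∣ N₀ * p → ℓ ∉ (↑P.S0 : Set ℕ) →
              (latT (N₀ * p) (⟨ℓ, hℓ⟩ : Nat.Primes)).baseChange P.O x =
                lamAt lam (insert q Sg) ⟨ℓ, hℓ⟩ • x) →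
            x ∈ eigenTensorO (N₀ * p) P.O (lamAt lam (insert q Sg))) :
    StepSupplySO P (wfNew p M lam) (lamOf χ) Sig₀ 2 := by
  intro Sg hSgS q hq hqS hqSg Y hN hS hw hlamY _ h hpS hNS
  have hp : p.Prime := Fact.out
  -- the arithmetic of `Sg` and `insert q Sg`
  have hinsS : insert q Sg ⊆ Sig₀ := Finset.insert_subset hqS hSgS
  have hSgP : ∀ r ∈ Sg, r.Prime ∧ ¬ r ∣ M * p ∧ r ≠ p := hSg_of_sig P hSu Sig₀ hSig₀ hSgS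
  have hSgP' : ∀ r ∈ insert q Sg, r.Prime ∧ ¬ r ∣ M * p ∧ r ≠ p :=
    hSg_of_sig P hSu Sig₀ hSig₀ hinsS
  have hSgM : ∀ r ∈ Sg, r.Prime ∧ ¬ r ∣ M ∧ r ≠ p := fun r hr =>
    ⟨(hSgP r hr).1, fun hd => (hSgP r hr).2.1 (hd.mul_right p), (hSgP r hr).2.2⟩
  have hSgPr : ∀ r ∈ Sg, r.Prime := fun r hr => (hSgP r hr).1
  have hqMp : ¬ q ∣ M * p := (hSgP' q (Finset.mem_insert_self q Sg)).2.1
  have hqp : q ≠ p := (hSgP' q (Finset.mem_insert_self q Sg)).2.2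
  -- the two level literals
  have hdiv : M * p / p = M := Nat.mul_div_cancel M hp.pos
  have hN₀eq : M * p / p * ∏ x ∈ insert q Sg, x ^ 2 = M * ∏ x ∈ insert q Sg, x ^ 2 := by
    rw [hdiv]
  have hpN₀ : ¬ p ∣ M * p / p * ∏ x ∈ insert q Sg, x ^ 2 := not_dvd_of_exactDvd h
  have hN₀ : (M * p / p * ∏ x ∈ insert q Sg, x ^ 2) * p = M * p * ∏ x ∈ insert q Sg, x ^ 2 :=
    n0_mul_p (dvd_mul_left p M) _
  haveI : NeZero ((M * p / p * ∏ x ∈ insert q Sg, x ^ 2) * p) :=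
    ⟨Nat.mul_ne_zero (NeZero.ne _) hp.ne_zero⟩
  haveI : NeZero (M * ∏ x ∈ Sg, x ^ 2) :=
    ⟨LevArith.lev_ne_zero (NeZero.ne M) hSgPr⟩
  haveI : NeZero ((M * ∏ x ∈ Sg, x ^ 2) * p) :=
    ⟨Nat.mul_ne_zero (NeZero.ne _) hp.ne_zero⟩
  have hpN₁ : ¬ p ∣ M * ∏ x ∈ Sg, x ^ 2 := LevArith.not_p_dvd_lev hp hpM hSgM
  have hN₁ : (M * ∏ x ∈ Sg, x ^ 2) * p = M * p * ∏ x ∈ Sg, x ^ 2 := mul_right_comm _ _ _
  have hNe : Y.rt.N = M * p * ∏ x ∈ Sg, x ^ 2 := hN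
  have hMN : M * p ∣ Y.rt.N := by
    rw [hNe]
    exact dvd_mul_right (M * p) _
  have hMN' : M * p ∣ (M * p / p * ∏ x ∈ insert q Sg, x ^ 2) * p := by
    rw [hN₀]
    exact dvd_mul_right (M * p) _
  -- the invariant of `Y` in the vocabulary of the module side
  have hYw : Y.w = Fermat.Agent.GE9.PNew.Inst.omegaCardNew hpN₁ P.O (lamAt lam Sg) :=
    hw.trans (wfNew_eq p M lam Sg (M * ∏ x ∈ Sg, x ^ 2) hpN₁ rfl)
  have hYχ : ∀ (ℓ : ℕ) (hℓ : ℓ.Prime) (hℓN : ¬ ℓ ∣ Y.rt.N) (hℓS : ℓ ∉ Y.rt.S),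
      pointChar Y (heckeAlgebra.T hℓ hℓN hℓS) = lam (⟨ℓ, hℓ⟩ : Nat.Primes) := by
    intro ℓ hℓ hℓN hℓS
    have h0 : ℓ ∉ (↑P.S0 : Set ℕ) := by
      rw [← hS]
      exact hℓS
    have hℓM : ¬ ℓ ∣ M * p := fun hd => hℓN (dvd_trans hd hMN)
    rw [hlamY ℓ hℓ hℓN hℓS, lamOf_eq χ hℓ hℓM h0]
    exact hlamχ ℓ hℓ hℓM h0
  -- the module side of the step
  obtain ⟨Z, hZS, hr, hold⟩ := hhold Sg hSgS q hq hqS hqSg
    (M * p / p * ∏ x ∈ insert q Sg, x ^ 2) hpN₀ hN₀eq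
  -- helper73's supply of the abstract stage
  obtain ⟨T', iCR, iLoc, iAlg, iFin, iFree, π', πO', f₀, hgen, hann, heig, hf₀, hcf, heta, hM1⟩ :=
    Fermat.Agent.GE9.PNew.Inst.SupplySOb.exists_supplySOb Y p P.hpO (Mp := M * p) lam two_ne_zero
      Sg hSgP hq hqSg hqMp hqp P.S0 hpS hpN₁ hpN₀ hN₁ hN₀ hNS hNe hS hYw hYχ
      (hst Sg hSgS (M * ∏ x ∈ Sg, x ^ 2) hpN₁ rfl)
      (hst (insert q Sg) hinsS (M * p / p * ∏ x ∈ insert q Sg, x ^ 2) hpN₀ hN₀eq)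
      (hgrow Sg hSgS q hq hqS hqSg Y hNe hS hYχ (M * ∏ x ∈ Sg, x ^ 2)
        (M * p / p * ∏ x ∈ insert q Sg, x ^ 2) hpN₁ hpN₀ rfl hN₀eq)
      Z hZS hr hold
  have hwf' : wfNew p M lam (insert q Sg) =
      Fermat.Agent.GE9.PNew.Inst.omegaCardNew hpN₀ P.O (lamAt lam (insert q Sg)) :=
    wfNew_eq p M lam (insert q Sg) (M * p / p * ∏ x ∈ insert q Sg, x ^ 2) hpN₀ hN₀eq
  refine ⟨T', iCR, iLoc, iAlg, iFin, iFree, π', πO', f₀, hgen, hann, ?_, hf₀, hcf, ?_, ?_⟩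
  · -- the eigenvalues of the carrier are those of `χ`
    intro ℓ hℓ hℓN' hℓS'
    have hℓM : ¬ ℓ ∣ M * p := fun hd => hℓN' (dvd_trans hd hMN')
    rw [heig ℓ hℓ hℓN' hℓS', ← hlamχ ℓ hℓ hℓM hℓS']
    exact (lamOf_eq χ hℓ hℓM hℓS').symm
  · -- (ETA)
    rw [hwf', ← hw]
    exact heta
  · -- (M1)
    rw [hwf']
    exact hM1

end Bundle

end Fermat.Agent.GE.Engine
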