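/-
GATE-E / GE-ENGINE-ASM, RISK-4 (helper80): **`SObInst.StepSObStmt p` — the `p`-new step of the peu
ramifiée branch, PROVED** from the instance layer R4-I:

* `StepPlugSOb.stepSupplySOb_of_base` (the `Pkg` wrapper over helper73's `SupplySOb`);
* `hst`   := helper21 `EtaStageNewChain.etaStageNew_lev` (`hne := NonEis.hne_of_pkg`,
  `hc := SupplyFrob.cq_ne_zero_of_etaStage`);
* `hhold` := helper21 `HoldKNew.hhold_family` (`hnoR := StepPlugSO.hnoR_of_pkg`);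
* `hgrow` := helper37 `GrowNew.omegaCardNew_grow` (route (O'); W-data for `hrank`: `hρ := rfl`,
  `hlamW` from `hχf` + `theta_T`), fed with the current strict-ordinary
  stage `Y` and the two flat stages `Y_{Sg}`, `Y_{insert q Sg}` of `StepSObStmt`'s `hflat`
  (`SObGlue.flatStage_P`, `lamOf_chif`, `lamf_sub_lam_mem`).

* **`stepSObStmt`** : `StepSObStmt p`;
* **`heckeSObSupplyStmt_of_bases`** : `BaseFLStmt p → BaseSObStmt p → HeckeSObSupplyStmt p`;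
* **`minHeckeSOb_of_bases`** : with `TransvStmt p`, `MinHeckeSOb p`.
-/
import Mathlib
import Fermat.Agent.GE.Engine.StepPlugSOb
import Fermat.Agent.GE.Engine.StepPlugSO
import Fermat.Agent.GE9.PNew.Inst.EtaStageNewChain
import Fermat.Agent.GE9.PNew.Inst.HoldKNew
import Fermat.Agent.GE9.PNew.Inst.GrowNew

set_option autoImplicit false
set_option linter.unusedSectionVars false
set_option linter.unusedVariables false
set_option linter.style.haveILetI false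

open WeierstrassCurve WeierstrassCurve.Affine.Point IsLocalRing CuspForm Polynomial TensorProduct
open scoped WeierstrassCurve.Affine

namespace Fermat.Agent.GE.Engine

open Fermat.Agent.GB.Setup.RhoBar Fermat.Agent.GB.Setup.SetupPkg Fermat.Agent.GB.Setup.PkgLevel
  Fermat.Agent.GB.B4.Datum.Carrier Fermat.Agent.GB.B4.Datum.HeckeCarrier
  Fermat.Agent.GE.Graph Fermat.Agent.GE9.Ind Fermat.Agent.GE9.NumCrit Fermat.Agent.GE9.Asm
  Fermat.Agent.GE9.TanGrow Fermat.Agent.GE9.Eta.Mod Fermat.Agent.GE9.Eta.Chain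
  Fermat.Agent.GE9.OldQ.Consumer
open Fermat.Agent.GJ.J2.Lat Fermat.Agent.GJ.J2.LatAct
open Fermat.Agent.GB.B10.KumLevelHecke Fermat.Agent.GB.B10.L.ThetaNew

/-- **RISK-4: the `p`-new step of the peu ramifiée branch.** -/
theorem stepSObStmt (p : ℕ) [Fact p.Prime] : StepSObStmt p := by
  intro W hΔ hW hirr hcard₁ hker M _ _ hsq hpM hRM hmult hmin A hA P χg hχg hkill Df χf hχf
    lam hlamχ hu hstage lamf hlamfχ hbasef hflat
  have hp : p.Prime := Fact.out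
  have hpϖ : ∃ c : P.O, (p : P.O) = P.ϖ * c := by
    obtain ⟨c, hc'⟩ := Ideal.mem_span_singleton.mp P.hpϖ
    exact ⟨c, hc'⟩
  have hsqMp : Squarefree (M * p) := squarefree_mul_prime hp hsq hpM
  have hSu : P.Su = ∅ := su_eq_empty P (hmin_mul_prime hp hmin)
  have hSuf : (atLevel P Df (NeZero.ne M)).Su = ∅ :=
    su_eq_empty (atLevel P Df (NeZero.ne M)) hmin
  have hSig₀ : ∀ q : ℕ, q ∈ sigOf W P.Smin ↔ q.Prime ∧ (q : ℤ) ∣ W.Δ ∧ q ∉ P.Smin :=
    fun q => mem_sigOf P.hΔ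
  have hS0 : (atLevel P Df (NeZero.ne M)).S0 = P.S0 :=
    Fermat.Agent.GE9.Point.PkgLevel.atLevel_div_S0
  -- non-Eisenstein, non-occurrence, congruence of the two systems
  have hne := hne_of_pkg P χg hχg lam hlamχ
  have hnef := hne_of_pkg (atLevel P Df (NeZero.ne M)) χf hχf lamf hlamfχ
  have hnoRp : ∀ b : Nat.Primes, (b : ℕ) ∣ M * p → (b : ℕ) ≠ p → NonOccAt P.O P.S0 b lam :=
    hnoR_of_pkg P hSu χg hχg lam hlamχ
  have hnoR : ∀ b : Nat.Primes, (b : ℕ) ∣ M → NonOccAt P.O P.S0 b lam :=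
    fun b hb => hnoRp b (hb.mul_right p) (fun h => hpM (h ▸ hb))
  have hnof : ∀ b : Nat.Primes, (b : ℕ) ∣ M → NonOccAt P.O P.S0 b lamf := by
    have h := hno_of_pkg (atLevel P Df (NeZero.ne M)) hpM hSuf χf hχf lamf hlamfχ
    rw [hS0] at h
    exact h
  have hcong : ∀ l : Nat.Primes, (l : ℕ) ∉ (↑P.S0 : Set ℕ) →
      lamf l - lam l ∈ maximalIdeal P.O :=
    lamf_sub_lam_mem P Df χg hχg χf hχf lam hlamχ lamf hlamfχ
  have hlamW : ∀ l : Nat.Primes, (l : ℕ) ∉ P.S0 → W.IsGoodPrimeFor l → (l : ℕ) ≠ p →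
      lamf l - (((W.apOfModel l : ℤ)) : P.O) ∈ maximalIdeal P.O := by
    intro l hlS _ _
    have hlS' : (l : ℕ) ∉ (↑P.S0 : Set ℕ) := fun h => hlS (Finset.mem_coe.mp h)
    have hlSf : (l : ℕ) ∉ (↑(atLevel P Df (NeZero.ne M)).S0 : Set ℕ) := by
      rw [hS0]
      exact hlS'
    have hlMp : ¬ (l : ℕ) ∣ M * p := (P.good_of_notMem_S0 l.2 hlS').2.1
    have hlM : ¬ (l : ℕ) ∣ M := fun h => hlMp (h.mul_right p)
    have h1 : lamf l = χf (heckeAlgebra.T l.2 hlM hlSf) := (hlamfχ l l.2 hlM hlSf).symm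
    rw [← residue_eq_zero_iff, map_sub, map_intCast, sub_eq_zero, h1, hχf]
    exact (atLevel P Df (NeZero.ne M)).theta_T l.2 hlM hlSf
  -- the arithmetic of `Smin` at the level `M p`
  have hSminM : ∀ r ∈ P.Smin, r = p ∨ r ∣ M := by
    intro r hr
    rcases P.dvd_of_mem_Smin hr with h | h
    · exact Or.inl h
    · rcases (Nat.Prime.dvd_mul (P.prime_of_mem_Smin hr)).mp h with h1 | h1
      · exact Or.inr h1
      · exact Or.inl ((Nat.prime_dvd_prime_iff_eq (P.prime_of_mem_Smin hr) hp).mp h1)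
  have hMSmin : ∀ r : ℕ, r.Prime → r ∣ M → r ∈ P.Smin := fun r hr hrM =>
    Fermat.Agent.GE8.MinDatum.mem_Smin_of_dvd P hSu hr (hrM.mul_right p)
  -- the flat stages in the spelling of `P`
  have hflatP := flatStage_P P Df lamf (lamOf χf) hflat
  refine ⟨wfNew p M lam, wfNew_empty p M hpM lam, ?_⟩
  refine stepSupplySOb_of_base P hpM hSu χg (sigOf W P.Smin) hSig₀ lam hlamχ ?_ ?_ ?_
  · -- `hst` : the stage invariant at every level
    intro Sg hSgS N _ _ hpN hN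
    have hSgP := hSg_of_sig P hSu (sigOf W P.Smin) hSig₀ hSgS
    exact Fermat.Agent.GE9.PNew.Inst.EtaStageNewChain.etaStageNew_lev hpM hp P.hp2 P.hϖ hpϖ lam
      hne le_rfl hstage Sg (fun x hx => ⟨(hSgP x hx).1, (hSgP x hx).2.1⟩)
      (fun q hq hqSg => Fermat.Agent.GE9.Stage.SupplyFrob.cq_ne_zero_of_etaStage lam two_ne_zero
        (Fermat.Agent.GE9.PNew.Inst.EtaStageNew.etaStage hpM P.O hstage) q hq (hSgP q hqSg).2.1)
      hpN hN
  · -- `hgrow` : route (O')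
    intro Sg hSgS q hq hqS hqSg Y hYN hYS hYχ N₁ N₀ _ _ _ _ hpN₁ hpN₀ hN₁ hN₀
    have hinsS : insert q Sg ⊆ sigOf W P.Smin := Finset.insert_subset hqS hSgS
    have hSgP := hSg_of_sig P hSu (sigOf W P.Smin) hSig₀ hSgS
    have hSgP' := hSg_of_sig P hSu (sigOf W P.Smin) hSig₀ hinsS
    have hqMp : ¬ q ∣ M * p := (hSgP' q (Finset.mem_insert_self q Sg)).2.1
    have hqp : q ≠ p := (hSgP' q (Finset.mem_insert_self q Sg)).2.2
    obtain ⟨Y₂, -, hY₂N, hY₂S, hY₂w, hY₂χ⟩ := hflatP Sg hSgS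
    obtain ⟨Y₁, -, hY₁N, hY₁S, hY₁w, hY₁χ⟩ := hflatP (insert q Sg) hinsS
    have hY₂N' : Y₂.rt.N = M * ∏ x ∈ Sg, x ^ 2 := hY₂N
    have hY₁N' : Y₁.rt.N = M * ∏ x ∈ insert q Sg, x ^ 2 := hY₁N
    have hY₂w' : Y₂.w = omegaCard Y₂.rt.N P.O (lamAt lamf Sg) :=
      hY₂w.trans (wfOf_eq M lamf Sg Y₂.rt.N hY₂N')
    have hY₁w' : Y₁.w = omegaCard Y₁.rt.N P.O (lamAt lamf (insert q Sg)) :=
      hY₁w.trans (wfOf_eq M lamf (insert q Sg) Y₁.rt.N hY₁N')
    have hY₂χ' : ∀ (ℓ : ℕ) (hℓ : ℓ.Prime) (hℓN : ¬ ℓ ∣ Y₂.rt.N) (hℓS : ℓ ∉ Y₂.rt.S),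
        pointChar Y₂ (heckeAlgebra.T hℓ hℓN hℓS) = lamf (⟨ℓ, hℓ⟩ : Nat.Primes) := by
      intro ℓ hℓ hℓN hℓS
      have h0 : ℓ ∉ (↑P.S0 : Set ℕ) := by
        rw [← hY₂S]
        exact hℓS
      have hℓM : ¬ ℓ ∣ M := fun hd => hℓN (by
        rw [hY₂N']
        exact hd.mul_right _)
      rw [hY₂χ ℓ hℓ hℓN hℓS]
      exact lamOf_chif P Df χf lamf hlamfχ hℓ hℓM h0
    have hY₁χ' : ∀ (ℓ : ℕ) (hℓ : ℓ.Prime) (hℓN : ¬ ℓ ∣ Y₁.rt.N) (hℓS : ℓ ∉ Y₁.rt.S),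
        pointChar Y₁ (heckeAlgebra.T hℓ hℓN hℓS) = lamf (⟨ℓ, hℓ⟩ : Nat.Primes) := by
      intro ℓ hℓ hℓN hℓS
      have h0 : ℓ ∉ (↑P.S0 : Set ℕ) := by
        rw [← hY₁S]
        exact hℓS
      have hℓM : ¬ ℓ ∣ M := fun hd => hℓN (by
        rw [hY₁N']
        exact hd.mul_right _)
      rw [hY₁χ ℓ hℓ hℓN hℓS]
      exact lamOf_chif P Df χf lamf hlamfχ hℓ hℓM h0
    have key := Fermat.Agent.GE9.PNew.Inst.GrowNew.omegaCardNew_grow (𝒪 := P.O)
      (ρbar := P.rhobar) (Smin := P.Smin) (d := 2) hcard₁ hker P.hΔ P.hirr P.htrans rfl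
      le_rfl P.hp2 P.hpO P.hϖ hpϖ hpM hsqMp lam lamf hne hnef hstage hu hbasef P.S0
      (Fermat.Agent.GE8.MinDatum.hpS0' P) (Fermat.Agent.GE8.MinDatum.hNS0 P) hcong hnoR hnof
      hlamW P.p_mem_Smin P.hmin hSminM hMSmin Sg hSgP hq hqSg hqMp hqp
      (mem_S0_of_sig P (sigOf W P.Smin) hSig₀ hinsS)
      Y hYN hYS hYχ Y₂ hY₂N' hY₂S hY₂w' hY₂χ' Y₁ hY₁N' hY₁S hY₁w' hY₁χ'
      hpN₁ hpN₀ hN₁ hN₀
    exact key
  · -- `hhold` : multiplicity one at the stage levels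
    have hSigP := hSg_of_sig P hSu (sigOf W P.Smin) hSig₀ (Finset.Subset.refl _)
    exact Fermat.Agent.GE9.PNew.Inst.HoldKNew.hhold_family hpM hsqMp P.hpO lam two_ne_zero hstage
      hu (sigOf W P.Smin) P.S0 (fun x hx => ⟨(hSigP x hx).1, (hSigP x hx).2.1⟩)
      (mem_S0_of_sig P (sigOf W P.Smin) hSig₀ (Finset.Subset.refl _))
      (Fermat.Agent.GE8.MinDatum.hNS0 P) hnoRp

/-- **RISK-4: the Hecke side of the peu ramifiée branch in supply form, from the two bases.** -/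
theorem heckeSObSupplyStmt_of_bases (p : ℕ) [Fact p.Prime] (hFL : BaseFLStmt p)
    (hB : BaseSObStmt p) : HeckeSObSupplyStmt p :=
  heckeSObSupplyStmt_of_base p hFL hB (stepSObStmt p)

/-- **RISK-4: `MinHeckeSOb p`** from IRR2, the flat base and the `p`-new base. -/
theorem minHeckeSOb_of_bases (p : ℕ) [Fact p.Prime] (hp2 : p ≠ 2) (hTr : TransvStmt p)
    (hFL : BaseFLStmt p) (hB : BaseSObStmt p) : MinHeckeSOb p :=
  minHeckeSOb_of_base p hp2 hTr hFL hB (stepSObStmt p)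

end Fermat.Agent.GE.Engine
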